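import Mathlib
import Fermat.Agent.S23.QLaurent
import Fermat.Agent.S24.QExpDelta
import Fermat.Agent.S24.JAnalytic
import Fermat.Agent.S24.CuspExp

/-!
# S28, package DeltaExp: `q_N`-expansion and integrality of `z ↦ Δ((a z + b)/e)`

* `IsGoodSeries A n x` : the Laurent series `x` over `ℂ` has coefficients in the subring `A`,
  order `n` and a leading coefficient which is a unit of `A`.  Good series form a group
  (`IsGoodSeries.mul`, `.inv`, `.pow`, `.zpow`, `.prod`).
* `deltaAff a b e z = Δ((a z + b)/e)`; it is weakly holomorphic of period `N = e * m` and its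
  `q_N`-expansion is good of order `a * m` over any subring containing the `e`-th roots of unity.
-/

set_option autoImplicit false

namespace Fermat.Agent.S28

open Complex Filter Topology Function
open UpperHalfPlane hiding I
open ModularForm
open scoped Real Manifold MatrixGroups ModularForm
open Fermat.Agent.S23 Fermat.Agent.S24

local notation "Δ" => ModularForm.discriminant
local notation "𝕢" => Function.Periodic.qParam

/-! ### Good Laurent series over a subring of `ℂ` -/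

/-- `x = u * q ^ n * p(q)` with `u` a unit of `A` and `p ∈ 1 + q A[[q]]`. -/
def IsGoodSeries (A : Subring ℂ) (n : ℤ) (x : LaurentSeries ℂ) : Prop :=
  ∃ (u : ℂ) (p : PowerSeries ℂ), u ∈ A ∧ u⁻¹ ∈ A ∧ u ≠ 0 ∧ (∀ k, PowerSeries.coeff k p ∈ A) ∧
    PowerSeries.constantCoeff p = 1 ∧
    x = HahnSeries.C u * HahnSeries.single n 1 * HahnSeries.ofPowerSeries ℤ ℂ p

namespace IsGoodSeries

variable {A : Subring ℂ} {n m : ℤ} {x y : LaurentSeries ℂ}

theorem one : IsGoodSeries A 0 (1 : LaurentSeries ℂ) := by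
  refine ⟨1, 1, A.one_mem, by simp [A.one_mem], one_ne_zero, fun k => ?_, by simp, ?_⟩
  · rw [PowerSeries.coeff_one]
    split_ifs
    · exact A.one_mem
    · exact A.zero_mem
  · simp

theorem const {u : ℂ} (hu : u ∈ A) (hu' : u⁻¹ ∈ A) (h0 : u ≠ 0) :
    IsGoodSeries A 0 (HahnSeries.C u : LaurentSeries ℂ) := by
  refine ⟨u, 1, hu, hu', h0, fun k => ?_, by simp, ?_⟩
  · rw [PowerSeries.coeff_one]
    split_ifs
    · exact A.one_mem
    · exact A.zero_mem
  · simp

theorem mul (hx : IsGoodSeries A n x) (hy : IsGoodSeries A m y) :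
    IsGoodSeries A (n + m) (x * y) := by
  obtain ⟨u, p, hu, hu', hu0, hp, hp0, rfl⟩ := hx
  obtain ⟨v, q, hv, hv', hv0, hq, hq0, rfl⟩ := hy
  refine ⟨u * v, p * q, A.mul_mem hu hv, ?_, mul_ne_zero hu0 hv0, fun k => ?_, ?_, ?_⟩
  · rw [mul_inv]; exact A.mul_mem hu' hv'
  · rw [PowerSeries.coeff_mul]
    exact A.sum_mem fun i _ => A.mul_mem (hp _) (hq _)
  · rw [map_mul, hp0, hq0, one_mul]
  · rw [map_mul, map_mul]
    have h1 : (HahnSeries.single (n + m) (1 : ℂ) : LaurentSeries ℂ) =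
        HahnSeries.single n 1 * HahnSeries.single m 1 := by
      rw [HahnSeries.single_mul_single, one_mul]
    rw [h1]
    ring

theorem exists_inv_powerSeries {p : PowerSeries ℂ} (hp : ∀ k, PowerSeries.coeff k p ∈ A)
    (hp0 : PowerSeries.constantCoeff p = 1) :
    ∃ q : PowerSeries ℂ, (∀ k, PowerSeries.coeff k q ∈ A) ∧ PowerSeries.constantCoeff q = 1 ∧
      p * q = 1 := by
  set pA : PowerSeries A := PowerSeries.mk fun k => ⟨PowerSeries.coeff k p, hp k⟩ with hpA
  have hmap : PowerSeries.map A.subtype pA = p := by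
    ext k
    simp [hpA]
  have hc : PowerSeries.constantCoeff pA = 1 := by
    apply Subtype.ext
    rw [← PowerSeries.coeff_zero_eq_constantCoeff_apply, hpA, PowerSeries.coeff_mk]
    simpa using hp0
  have hunit : IsUnit pA := by
    rw [PowerSeries.isUnit_iff_constantCoeff, hc]
    exact isUnit_one
  obtain ⟨qA, hq⟩ := hunit.exists_right_inv
  refine ⟨PowerSeries.map A.subtype qA, fun k => ?_, ?_, ?_⟩
  · rw [PowerSeries.coeff_map]
    exact (PowerSeries.coeff k qA).2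
  · have h1 := congrArg (PowerSeries.constantCoeff) hq
    rw [map_mul, hc, one_mul, map_one] at h1
    rw [← PowerSeries.coeff_zero_eq_constantCoeff_apply, PowerSeries.coeff_map,
      PowerSeries.coeff_zero_eq_constantCoeff_apply, h1]
    simp
  · rw [← hmap, ← map_mul, hq, map_one]

theorem inv (hx : IsGoodSeries A n x) : IsGoodSeries A (-n) x⁻¹ := by
  obtain ⟨u, p, hu, hu', hu0, hp, hp0, rfl⟩ := hx
  obtain ⟨q, hq, hq0, hpq⟩ := exists_inv_powerSeries hp hp0
  refine ⟨u⁻¹, q, hu', by rwa [inv_inv], inv_ne_zero hu0, hq, hq0, ?_⟩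
  apply inv_eq_of_mul_eq_one_right
  have h1 : (HahnSeries.single n (1 : ℂ) : LaurentSeries ℂ) * HahnSeries.single (-n) 1 = 1 := by
    rw [HahnSeries.single_mul_single, one_mul, add_neg_cancel]
    rfl
  have h2 : (HahnSeries.C u : LaurentSeries ℂ) * HahnSeries.C u⁻¹ = 1 := by
    rw [← map_mul, mul_inv_cancel₀ hu0, map_one]
  have h3 : HahnSeries.ofPowerSeries ℤ ℂ p * HahnSeries.ofPowerSeries ℤ ℂ q = 1 := by
    rw [← map_mul, hpq, map_one]
  calc HahnSeries.C u * HahnSeries.single n 1 * HahnSeries.ofPowerSeries ℤ ℂ p *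
        (HahnSeries.C u⁻¹ * HahnSeries.single (-n) 1 * HahnSeries.ofPowerSeries ℤ ℂ q)
      = (HahnSeries.C u * HahnSeries.C u⁻¹) *
          (HahnSeries.single n (1 : ℂ) * HahnSeries.single (-n) 1) *
          (HahnSeries.ofPowerSeries ℤ ℂ p * HahnSeries.ofPowerSeries ℤ ℂ q) := by ring
    _ = 1 := by rw [h1, h2, h3]; simp

theorem pow (hx : IsGoodSeries A n x) (k : ℕ) : IsGoodSeries A (k * n) (x ^ k) := by
  induction k with
  | zero => simpa using (one : IsGoodSeries A 0 1)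
  | succ k ih =>
    rw [pow_succ]
    have := ih.mul hx
    convert this using 1
    push_cast; ring

theorem zpow (hx : IsGoodSeries A n x) (k : ℤ) : IsGoodSeries A (k * n) (x ^ k) := by
  obtain ⟨j, rfl | rfl⟩ := k.eq_nat_or_neg
  · rw [zpow_natCast]; exact hx.pow j
  · rw [zpow_neg, zpow_natCast]
    have := (hx.pow j).inv
    convert this using 1
    ring

theorem prod {ι : Type*} (s : Finset ι) (f : ι → LaurentSeries ℂ) (d : ι → ℤ)
    (h : ∀ i ∈ s, IsGoodSeries A (d i) (f i)) :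
    IsGoodSeries A (∑ i ∈ s, d i) (∏ i ∈ s, f i) := by
  classical
  induction s using Finset.induction_on with
  | empty => simpa using (one : IsGoodSeries A 0 1)
  | insert i s hi ih =>
    rw [Finset.prod_insert hi, Finset.sum_insert hi]
    exact (h i (Finset.mem_insert_self i s)).mul
      (ih fun j hj => h j (Finset.mem_insert_of_mem hj))

theorem coeff_eq (u : ℂ) (p : PowerSeries ℂ) (n k : ℤ) :
    (HahnSeries.C u * HahnSeries.single n 1 * HahnSeries.ofPowerSeries ℤ ℂ p :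
      LaurentSeries ℂ).coeff k = u * (HahnSeries.ofPowerSeries ℤ ℂ p).coeff (k - n) := by
  have h1 : (HahnSeries.C u : LaurentSeries ℂ) * HahnSeries.single n 1 = HahnSeries.single n u := by
    rw [HahnSeries.C_apply, HahnSeries.single_mul_single, zero_add, mul_one]
  rw [h1, HahnSeries.coeff_single_mul]

theorem coeff_mem (hx : IsGoodSeries A n x) (k : ℤ) : x.coeff k ∈ A := by
  obtain ⟨u, p, hu, hu', hu0, hp, hp0, rfl⟩ := hx
  rw [coeff_eq, coeff_ofPowerSeries_int]
  split_ifs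
  · exact A.mul_mem hu (hp _)
  · rw [mul_zero]; exact A.zero_mem

theorem coeff_of_lt (hx : IsGoodSeries A n x) {k : ℤ} (hk : k < n) : x.coeff k = 0 := by
  obtain ⟨u, p, hu, hu', hu0, hp, hp0, rfl⟩ := hx
  rw [coeff_eq, coeff_ofPowerSeries_int, if_neg (by omega), mul_zero]

theorem coeff_self_ne_zero (hx : IsGoodSeries A n x) : x.coeff n ≠ 0 := by
  obtain ⟨u, p, hu, hu', hu0, hp, hp0, rfl⟩ := hx
  rw [coeff_eq, coeff_ofPowerSeries_int, sub_self, if_pos le_rfl, Int.toNat_zero,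
    PowerSeries.coeff_zero_eq_constantCoeff_apply, hp0, mul_one]
  exact hu0

theorem inv_coeff_self_mem (hx : IsGoodSeries A n x) : (x.coeff n)⁻¹ ∈ A := by
  obtain ⟨u, p, hu, hu', hu0, hp, hp0, rfl⟩ := hx
  rw [coeff_eq, coeff_ofPowerSeries_int, sub_self, if_pos le_rfl, Int.toNat_zero,
    PowerSeries.coeff_zero_eq_constantCoeff_apply, hp0, mul_one]
  exact hu'

theorem order_eq (hx : IsGoodSeries A n x) : x.order = n :=
  order_eq_of_coeff hx.coeff_self_ne_zero fun _ hk => hx.coeff_of_lt hk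

theorem ne_zero (hx : IsGoodSeries A n x) : x ≠ 0 := by
  rintro rfl
  exact hx.coeff_self_ne_zero (by simp)

theorem mono {B : Subring ℂ} (hAB : A ≤ B) (hx : IsGoodSeries A n x) : IsGoodSeries B n x := by
  obtain ⟨u, p, hu, hu', hu0, hp, hp0, rfl⟩ := hx
  exact ⟨u, p, hAB hu, hAB hu', hu0, fun k => hAB (hp k), hp0, rfl⟩

end IsGoodSeries

/-! ### The function `z ↦ Δ((a z + b)/e)` -/

/-- `z ↦ Δ((a z + b)/e)` (junk unless `a, e > 0`). -/
noncomputable def deltaAff (a b e : ℤ) (z : ℍ) : ℂ := Δ (ofComplex (((a : ℂ) * z + b) / e))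

theorem deltaAff_im {a e : ℤ} (he : 0 < e) (b : ℤ) (w : ℂ) :
    (((a : ℂ) * w + b) / e).im = a * w.im / e := by
  have heC : (e : ℂ) ≠ 0 := by exact_mod_cast he.ne'
  have heR : (e : ℝ) ≠ 0 := by exact_mod_cast he.ne'
  have h2 : ((a : ℂ) * w + b) / e = (((a : ℝ) / e : ℝ) : ℂ) * w + ((b : ℝ) / e : ℝ) := by
    push_cast; field_simp
  rw [h2]
  simp
  ring

theorem deltaAff_im_pos {a e : ℤ} (ha : 0 < a) (he : 0 < e) (b : ℤ) {w : ℂ} (hw : 0 < w.im) :
    0 < (((a : ℂ) * w + b) / e).im := by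
  rw [deltaAff_im he]
  have haR : (0 : ℝ) < a := by exact_mod_cast ha
  have heR : (0 : ℝ) < e := by exact_mod_cast he
  positivity

/-- If `w = (a z + b)/e` in `ℍ` then `Δ w = deltaAff a b e z`. -/
theorem deltaAff_eq {a e : ℤ} (b : ℤ) {z w : ℍ} (hw : (w : ℂ) = ((a : ℂ) * z + b) / e) :
    Δ w = deltaAff a b e z := by
  unfold deltaAff
  rw [← hw, ofComplex_apply]

theorem deltaAff_one_zero_one : deltaAff 1 0 1 = Δ := by
  funext z
  unfold deltaAff
  simp [ofComplex_apply]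

theorem deltaAff_ne_zero (a b e : ℤ) (z : ℍ) : deltaAff a b e z ≠ 0 :=
  discriminant_ne_zero _

theorem deltaAff_eq_comp {a e : ℤ} (b : ℤ) (z : ℍ) :
    deltaAff a b e z = (Δ ∘ ofComplex) (((a : ℂ) * z + b) / e) := rfl

theorem mdiff_deltaAff {a e : ℤ} (ha : 0 < a) (he : 0 < e) (b : ℤ) : MDiff (deltaAff a b e) := by
  have hF : MDiff Δ := discriminant_mdifferentiable
  rw [UpperHalfPlane.mdifferentiable_iff] at hF ⊢
  have haff : DifferentiableOn ℂ (fun w : ℂ => ((a : ℂ) * w + b) / e) {z | 0 < z.im} := by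
    apply Differentiable.differentiableOn
    exact ((differentiable_const _).mul differentiable_id |>.add (differentiable_const _)).div_const _
  have hmaps : Set.MapsTo (fun w : ℂ => ((a : ℂ) * w + b) / e) {z | 0 < z.im} {z | 0 < z.im} :=
    fun w hw => deltaAff_im_pos ha he b hw
  refine (hF.comp haff hmaps).congr fun w hw => ?_
  simp only [Function.comp_apply, deltaAff]
  rw [ofComplex_apply_of_im_pos hw]

theorem discriminant_periodic_one : Periodic (Δ ∘ ofComplex) (1 : ℝ) :=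
  SlashInvariantFormClass.periodic_comp_ofComplex CuspForm.discriminant one_mem_strictPeriods_SL

theorem discriminant_isBoundedAtImInfty : IsBoundedAtImInfty Δ := by
  have : Fact (IsCusp OnePoint.infty 𝒮ℒ) :=
    ⟨(𝒮ℒ).isCusp_of_mem_strictPeriods one_pos one_mem_strictPeriods_SL⟩
  exact ModularFormClass.bdd_at_infty CuspForm.discriminant

theorem deltaAff_vadd {a e m N : ℕ} (he : 0 < e) (hN : N = e * m) (b : ℤ) (z : ℍ) :
    deltaAff a b e ((N : ℝ) +ᵥ z) = deltaAff a b e z := by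
  rw [deltaAff_eq_comp, deltaAff_eq_comp]
  have heC : (e : ℂ) ≠ 0 := by exact_mod_cast he.ne'
  have hper : ∀ x : ℂ, (Δ ∘ ofComplex) (x + ((a * m : ℕ) : ℂ) * ((1 : ℝ) : ℂ)) =
      (Δ ∘ ofComplex) x := fun x => (discriminant_periodic_one.nat_mul (a * m)) x
  conv_rhs => rw [← hper]
  congr 1
  rw [UpperHalfPlane.coe_vadd, hN]
  push_cast
  field_simp
  ring

theorem periodic_deltaAff {a e m N : ℕ} (he : 0 < e) (hN : N = e * m) (b : ℤ) :
    Periodic (deltaAff a b e ∘ ofComplex) (N : ℝ) :=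
  periodic_of_forall_vadd fun z => deltaAff_vadd he hN b z

theorem isBoundedAtImInfty_deltaAff {a e : ℤ} (ha : 0 < a) (he : 0 < e) (b : ℤ) :
    IsBoundedAtImInfty (deltaAff a b e) := by
  have hΔ := discriminant_isBoundedAtImInfty
  rw [UpperHalfPlane.isBoundedAtImInfty_iff] at hΔ ⊢
  obtain ⟨M, B, h⟩ := hΔ
  have haR : (0 : ℝ) < a := by exact_mod_cast ha
  have heR : (0 : ℝ) < e := by exact_mod_cast he
  refine ⟨M, B * e / a, fun z hz => ?_⟩
  unfold deltaAff
  apply h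
  have him := deltaAff_im_pos ha he b z.im_pos
  rw [← UpperHalfPlane.coe_im, ofComplex_apply_of_im_pos him, deltaAff_im he]
  rw [div_le_iff₀ haR] at hz
  rw [le_div_iff₀ heR, UpperHalfPlane.coe_im]
  linarith

theorem isWH_deltaAff {a e m N : ℕ} (ha : 0 < a) (he : 0 < e) (hN : N = e * m) (b : ℤ) :
    IsWH (N : ℝ) (deltaAff a b e) :=
  IsWH.of_bounded (mdiff_deltaAff (by exact_mod_cast ha) (by exact_mod_cast he) b)
    (periodic_deltaAff he hN b)
    (isBoundedAtImInfty_deltaAff (by exact_mod_cast ha) (by exact_mod_cast he) b)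

/-! ### The `q_N`-expansion of `deltaAff` -/

/-- The coefficients of the `q`-expansion of `Δ` (Ramanujan's `τ`, with `τ(0) = 0`). -/
noncomputable def deltaCoeff (k : ℕ) : ℤ :=
  PowerSeries.coeff k (PowerSeries.X * ModularCurve.dedekindEtaUnit : PowerSeries ℤ)

theorem deltaCoeff_zero : deltaCoeff 0 = 0 := by
  simp [deltaCoeff]

theorem deltaCoeff_one : deltaCoeff 1 = 1 := by
  unfold deltaCoeff
  rw [show (1 : ℕ) = 0 + 1 from rfl, PowerSeries.coeff_succ_X_mul,
    PowerSeries.coeff_zero_eq_constantCoeff_apply, ModularCurve.constantCoeff_dedekindEtaUnit]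

/-- The root of unity `exp (2 π i b / e)`. -/
noncomputable def deltaZeta (b e : ℤ) : ℂ := cexp (2 * π * I * b / e)

theorem deltaZeta_ne_zero (b e : ℤ) : deltaZeta b e ≠ 0 := Complex.exp_ne_zero _

theorem deltaZeta_pow (b : ℤ) {e : ℕ} (he : 0 < e) : deltaZeta b (e : ℤ) ^ e = 1 := by
  unfold deltaZeta
  rw [← Complex.exp_nat_mul]
  have heC : (e : ℂ) ≠ 0 := by exact_mod_cast he.ne'
  have h : (e : ℂ) * (2 * π * I * b / ((e : ℤ) : ℂ)) = b * (2 * π * I) := by
    push_cast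
    field_simp
  rw [h]
  exact Complex.exp_int_mul_two_pi_mul_I b

theorem deltaZeta_inv (b : ℤ) {e : ℕ} (he : 0 < e) :
    (deltaZeta b (e : ℤ))⁻¹ = deltaZeta b (e : ℤ) ^ (e - 1) := by
  apply inv_eq_of_mul_eq_one_right
  rw [← pow_succ', Nat.sub_add_cancel he, deltaZeta_pow b he]

theorem qParam_deltaAff {a e m N : ℕ} (he : 0 < e) (hm : 0 < m) (hN : N = e * m) (b : ℤ)
    (z : ℂ) :
    𝕢 (1 : ℝ) ((((a : ℤ) : ℂ) * z + b) / ((e : ℤ) : ℂ)) =
      deltaZeta b (e : ℤ) * 𝕢 (N : ℝ) z ^ (a * m) := by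
  unfold Function.Periodic.qParam deltaZeta
  rw [← Complex.exp_nat_mul, ← Complex.exp_add]
  congr 1
  have heC : (e : ℂ) ≠ 0 := by exact_mod_cast he.ne'
  have hmC : (m : ℂ) ≠ 0 := by exact_mod_cast hm.ne'
  rw [hN]
  push_cast
  field_simp
  ring

/-- The coefficients of the `q_N`-expansion of `deltaAff a b e`, `N = e * m`. -/
noncomputable def deltaAffCoeff (a e m : ℕ) (b : ℤ) (n : ℕ) : ℂ :=
  if a * m ∣ n then (deltaCoeff (n / (a * m)) : ℂ) * deltaZeta b (e : ℤ) ^ (n / (a * m)) else 0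

theorem hasSum_deltaAff {a e m N : ℕ} (ha : 0 < a) (he : 0 < e) (hm : 0 < m) (hN : N = e * m)
    (b : ℤ) (z : ℍ) :
    HasSum (fun n : ℕ => deltaAffCoeff a e m b n • 𝕢 (N : ℝ) z ^ n)
      (deltaAff (a : ℤ) b (e : ℤ) z) := by
  have him := deltaAff_im_pos (a := (a : ℤ)) (e := (e : ℤ)) (by exact_mod_cast ha)
    (by exact_mod_cast he) b z.im_pos
  have h := jqBridge_hasSum_discriminant
    (ofComplex ((((a : ℤ) : ℂ) * z + b) / ((e : ℤ) : ℂ)))
  have hcoe : ((ofComplex ((((a : ℤ) : ℂ) * z + b) / ((e : ℤ) : ℂ)) : ℍ) : ℂ) =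
      (((a : ℤ) : ℂ) * z + b) / ((e : ℤ) : ℂ) := by
    rw [ofComplex_apply_of_im_pos him]
  rw [hcoe, qParam_deltaAff he hm hN] at h
  have ham : 0 < a * m := Nat.mul_pos ha hm
  have hinj : Function.Injective (fun k : ℕ => k * (a * m)) :=
    fun k k' hkk => Nat.eq_of_mul_eq_mul_right ham hkk
  rw [← Function.Injective.hasSum_iff hinj]
  · unfold deltaAff
    convert h using 1
    funext k
    simp only [Function.comp_apply, deltaAffCoeff, if_pos (Dvd.intro_left k rfl),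
      Nat.mul_div_cancel k ham, smul_eq_mul, deltaCoeff]
    rw [mul_pow, ← pow_mul, mul_comm (a * m) k]
    ring
  · intro n hn
    have hnd : ¬ a * m ∣ n := by
      rintro ⟨k, rfl⟩
      exact hn ⟨k, by simp [mul_comm]⟩
    simp [deltaAffCoeff, hnd]

theorem qExpansion_deltaAff {a e m N : ℕ} (ha : 0 < a) (he : 0 < e) (hm : 0 < m)
    (hN : N = e * m) (b : ℤ) :
    qExpansion (N : ℝ) (deltaAff (a : ℤ) b (e : ℤ)) = PowerSeries.mk (deltaAffCoeff a e m b) := by
  have hNpos : (0 : ℝ) < N := by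
    rw [hN]; exact_mod_cast Nat.mul_pos he hm
  ext n
  rw [PowerSeries.coeff_mk]
  exact (qExpansion_coeff_unique' hNpos
    (analyticAt_cusp hNpos (mdiff_deltaAff (by exact_mod_cast ha) (by exact_mod_cast he) b)
      (periodic_deltaAff he hN b)
      (isBoundedAtImInfty_deltaAff (by exact_mod_cast ha) (by exact_mod_cast he) b))
    (fun τ => hasSum_deltaAff ha he hm hN b τ) n).symm

theorem qLaurent_deltaAff {a e m N : ℕ} (ha : 0 < a) (he : 0 < e) (hm : 0 < m)
    (hN : N = e * m) (b : ℤ) :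
    qLaurent (N : ℝ) (deltaAff (a : ℤ) b (e : ℤ)) =
      HahnSeries.ofPowerSeries ℤ ℂ (PowerSeries.mk (deltaAffCoeff a e m b)) := by
  have hNpos : (0 : ℝ) < N := by
    rw [hN]; exact_mod_cast Nat.mul_pos he hm
  rw [qLaurent_of_bounded hNpos (mdiff_deltaAff (by exact_mod_cast ha) (by exact_mod_cast he) b)
      (periodic_deltaAff he hN b)
      (isBoundedAtImInfty_deltaAff (by exact_mod_cast ha) (by exact_mod_cast he) b),
    qExpansion_deltaAff ha he hm hN b]

/-- The unit part of the expansion of `deltaAff`. -/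
noncomputable def deltaAffUnit (a e m : ℕ) (b : ℤ) : PowerSeries ℂ :=
  PowerSeries.mk fun n =>
    if a * m ∣ n then (deltaCoeff (n / (a * m) + 1) : ℂ) * deltaZeta b (e : ℤ) ^ (n / (a * m))
    else 0

theorem mk_deltaAffCoeff {a e m : ℕ} (ha : 0 < a) (hm : 0 < m) (b : ℤ) :
    PowerSeries.mk (deltaAffCoeff a e m b) =
      PowerSeries.C (deltaZeta b (e : ℤ)) * PowerSeries.X ^ (a * m) * deltaAffUnit a e m b := by
  have ham : 0 < a * m := Nat.mul_pos ha hm
  ext n
  rw [PowerSeries.coeff_mk, mul_assoc, PowerSeries.coeff_C_mul, PowerSeries.coeff_X_pow_mul',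
    deltaAffCoeff]
  by_cases hd : a * m ∣ n
  · obtain ⟨k, rfl⟩ := hd
    rw [if_pos (Dvd.intro k rfl), Nat.mul_div_cancel_left k ham]
    rcases k with _ | k
    · simp [deltaCoeff_zero, ham.ne']
    · have hle : a * m ≤ a * m * (k + 1) := Nat.le_mul_of_pos_right _ (Nat.succ_pos k)
      have hsub : a * m * (k + 1) - a * m = a * m * k := by
        rw [Nat.mul_succ, Nat.add_sub_cancel]
      rw [if_pos hle, hsub, deltaAffUnit, PowerSeries.coeff_mk, if_pos (Dvd.intro k rfl),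
        Nat.mul_div_cancel_left k ham, pow_succ]
      ring
  · rw [if_neg hd]
    split_ifs with hle
    · have hd' : ¬ a * m ∣ n - a * m := by
        intro h
        have h2 := Nat.dvd_add h (dvd_refl (a * m))
        rw [Nat.sub_add_cancel hle] at h2
        exact hd h2
      rw [deltaAffUnit, PowerSeries.coeff_mk, if_neg hd', mul_zero]
    · rw [mul_zero]

/-- **Main statement**: the `q_N`-expansion of `z ↦ Δ((a z + b)/e)`, `N = e * m`, is a good series
of order `a * m` over any subring `A ∋ exp (2 π i b / e)`. -/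
theorem isGood_qLaurent_deltaAff (A : Subring ℂ) {a e m N : ℕ} (ha : 0 < a) (he : 0 < e)
    (hm : 0 < m) (hN : N = e * m) (b : ℤ) (hA : deltaZeta b (e : ℤ) ∈ A) :
    IsGoodSeries A ((a * m : ℕ) : ℤ) (qLaurent (N : ℝ) (deltaAff (a : ℤ) b (e : ℤ))) := by
  have ham : 0 < a * m := Nat.mul_pos ha hm
  refine ⟨deltaZeta b (e : ℤ), deltaAffUnit a e m b, hA, ?_, deltaZeta_ne_zero _ _, fun k => ?_,
    ?_, ?_⟩
  · rw [deltaZeta_inv b he]
    exact A.pow_mem hA _
  · rw [deltaAffUnit, PowerSeries.coeff_mk]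
    split_ifs
    · exact A.mul_mem (intCast_mem A _) (A.pow_mem hA _)
    · exact A.zero_mem
  · rw [← PowerSeries.coeff_zero_eq_constantCoeff_apply, deltaAffUnit, PowerSeries.coeff_mk,
      if_pos (dvd_zero _), Nat.zero_div, zero_add, deltaCoeff_one]
    simp
  · rw [qLaurent_deltaAff ha he hm hN b, mk_deltaAffCoeff ha hm b, map_mul, map_mul,
      HahnSeries.ofPowerSeries_C, HahnSeries.ofPowerSeries_X_pow]

/-! ### The inverse of `Δ` and the quotient `e⁻¹² Δ((a z + b)/e) / Δ(z)` -/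

/-- `z ↦ 1 / Δ(z)`. -/
noncomputable def deltaInv (z : ℍ) : ℂ := (Δ z)⁻¹

theorem deltaInv_mul (z : ℍ) : deltaInv z * Δ z = 1 :=
  inv_mul_cancel₀ (discriminant_ne_zero z)

theorem mdiff_deltaInv : MDiff deltaInv := by
  have hF : MDiff Δ := discriminant_mdifferentiable
  rw [UpperHalfPlane.mdifferentiable_iff] at hF ⊢
  exact hF.inv fun w _ => discriminant_ne_zero _

theorem qFun_nat_pow {N : ℕ} (hN : 0 < N) (z : ℍ) : qFun (N : ℝ) z ^ N = 𝕢 (1 : ℝ) z := by
  rw [qFun_apply]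
  unfold Function.Periodic.qParam
  rw [← Complex.exp_nat_mul]
  congr 1
  have hNC : (N : ℂ) ≠ 0 := by exact_mod_cast hN.ne'
  push_cast
  field_simp

theorem isWH_deltaInv {N : ℕ} (hN : 0 < N) : IsWH (N : ℝ) deltaInv := by
  refine ⟨mdiff_deltaInv, periodic_of_forall_vadd fun z => ?_, N, ?_⟩
  · have h := deltaAff_vadd (a := 1) (e := 1) (m := N) (N := N) one_pos (one_mul N).symm 0 z
    have h1 : ∀ w : ℍ, deltaAff ((1 : ℕ) : ℤ) 0 ((1 : ℕ) : ℤ) w = Δ w := fun w => by
      have := congrFun deltaAff_one_zero_one w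
      simpa using this
    rw [h1, h1] at h
    unfold deltaInv
    rw [h]
  · have ht : Tendsto (fun z : ℍ => (∏' n, (1 - eta_q n z) ^ 24)⁻¹) atImInfty (𝓝 (1 : ℂ)⁻¹) :=
      tendsto_atImInfty_tprod_one_sub_eta_q_pow.inv₀ one_ne_zero
    have hb : IsBoundedAtImInfty (fun z : ℍ => (∏' n, (1 - eta_q n z) ^ 24)⁻¹) :=
      JAnalytic.isBoundedAtImInfty_of_tendsto ht
    refine hb.congr_left fun z => ?_
    simp only [Pi.mul_apply, Pi.pow_apply, deltaInv]
    rw [qFun_nat_pow hN, discriminant_eq_q_prod, mul_inv, mul_comm (𝕢 (1 : ℝ) (z : ℂ))⁻¹,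
      mul_assoc, inv_mul_cancel₀ (Function.Periodic.qParam_ne_zero _), mul_one]

theorem qLaurent_eq_inv_of_mul_eq_one {h : ℝ} (hh : 0 < h) {F G : ℍ → ℂ} (hF : IsWH h F)
    (hG : IsWH h G) (hFG : F * G = 1) : qLaurent h G = (qLaurent h F)⁻¹ := by
  have h1 := qLaurent_mul hh hF hG
  rw [hFG, show (1 : ℍ → ℂ) = fun _ => (1 : ℂ) from rfl, qLaurent_const hh 1, map_one] at h1
  exact eq_inv_of_mul_eq_one_right h1.symm

theorem isGood_qLaurent_discriminant (A : Subring ℂ) {N : ℕ} (hN : 0 < N) :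
    IsWH (N : ℝ) Δ ∧ IsGoodSeries A (N : ℤ) (qLaurent (N : ℝ) Δ) := by
  have h1 : deltaAff ((1 : ℕ) : ℤ) 0 ((1 : ℕ) : ℤ) = Δ := by
    rw [← deltaAff_one_zero_one]; simp
  have hz : deltaZeta 0 ((1 : ℕ) : ℤ) ∈ A := by
    simp [deltaZeta, A.one_mem]
  have hw := isWH_deltaAff (a := 1) (e := 1) (m := N) (N := N) one_pos one_pos (one_mul N).symm 0
  have hg := isGood_qLaurent_deltaAff A (a := 1) (e := 1) (m := N) (N := N) one_pos one_pos hN
    (one_mul N).symm 0 hz
  rw [h1] at hw hg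
  rw [one_mul] at hg
  exact ⟨hw, hg⟩

theorem isGood_qLaurent_deltaInv (A : Subring ℂ) {N : ℕ} (hN : 0 < N) :
    IsGoodSeries A (-(N : ℤ)) (qLaurent (N : ℝ) deltaInv) := by
  have hNpos : (0 : ℝ) < N := by exact_mod_cast hN
  obtain ⟨hw, hg⟩ := isGood_qLaurent_discriminant A hN
  have hmul : Δ * deltaInv = 1 := by
    funext z
    simp only [Pi.mul_apply, Pi.one_apply]
    rw [mul_comm]; exact deltaInv_mul z
  rw [qLaurent_eq_inv_of_mul_eq_one hNpos hw (isWH_deltaInv hN) hmul]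
  exact hg.inv

/-- The translate of one factor of the modular unit: `z ↦ e⁻¹² Δ((a z + b)/e) / Δ(z)`. -/
noncomputable def deltaQuot (a b e : ℤ) (z : ℍ) : ℂ :=
  ((e : ℂ)⁻¹) ^ 12 * deltaAff a b e z * deltaInv z

theorem deltaQuot_ne_zero {a e : ℤ} (he : e ≠ 0) (b : ℤ) (z : ℍ) : deltaQuot a b e z ≠ 0 := by
  have heC : (e : ℂ) ≠ 0 := by exact_mod_cast he
  exact mul_ne_zero (mul_ne_zero (pow_ne_zero _ (inv_ne_zero heC)) (deltaAff_ne_zero a b e z))
    (inv_ne_zero (discriminant_ne_zero z))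

theorem deltaQuot_eq_fun (a b e : ℤ) :
    deltaQuot a b e = (fun _ : ℍ => ((e : ℂ)⁻¹) ^ 12) * deltaAff a b e * deltaInv := rfl

theorem isWH_deltaQuot {a e m N : ℕ} (ha : 0 < a) (he : 0 < e) (hm : 0 < m) (hN : N = e * m)
    (b : ℤ) : IsWH (N : ℝ) (deltaQuot (a : ℤ) b (e : ℤ)) := by
  rw [deltaQuot_eq_fun]
  exact ((IsWH.const _ _).mul (isWH_deltaAff ha he hN b)).mul
    (isWH_deltaInv (by rw [hN]; exact Nat.mul_pos he hm))

/-- The `q_N`-expansion of `z ↦ e⁻¹² Δ((a z + b)/e) / Δ(z)`, `N = e * m`, is a good series of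
order `a * m - N` over any subring `A` containing `exp (2 π i b / e)` and `1 / e`. -/
theorem isGood_qLaurent_deltaQuot (A : Subring ℂ) {a e m N : ℕ} (ha : 0 < a) (he : 0 < e)
    (hm : 0 < m) (hN : N = e * m) (b : ℤ) (hA : deltaZeta b (e : ℤ) ∈ A)
    (hA' : ((e : ℂ))⁻¹ ∈ A) :
    IsGoodSeries A (((a * m : ℕ) : ℤ) - (N : ℤ)) (qLaurent (N : ℝ) (deltaQuot (a : ℤ) b (e : ℤ))) := by
  have hN0 : 0 < N := by rw [hN]; exact Nat.mul_pos he hm
  have hNpos : (0 : ℝ) < N := by exact_mod_cast hN0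
  have heC : (e : ℂ) ≠ 0 := by exact_mod_cast he.ne'
  rw [deltaQuot_eq_fun, qLaurent_mul hNpos ((IsWH.const _ _).mul (isWH_deltaAff ha he hN b))
    (isWH_deltaInv hN0), qLaurent_mul hNpos (IsWH.const _ _) (isWH_deltaAff ha he hN b),
    qLaurent_const hNpos]
  have hc : IsGoodSeries A 0 (HahnSeries.C ((((e : ℤ) : ℂ)⁻¹) ^ 12) : LaurentSeries ℂ) := by
    refine IsGoodSeries.const (A.pow_mem (by simpa using hA') 12) ?_
      (pow_ne_zero _ (inv_ne_zero (by simpa using heC)))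
    rw [← inv_pow, inv_inv]
    exact A.pow_mem (intCast_mem A _) 12
  have := (hc.mul (isGood_qLaurent_deltaAff A ha he hm hN b hA)).mul (isGood_qLaurent_deltaInv A hN0)
  convert this using 1
  ring

end Fermat.Agent.S28
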