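/-
S28, block NT: the arithmetic identities behind the `q`-orders of the eta-quotient unit
`U = ∏_{s ∣ rad N} (Δ(q^{N/s}) / Δ(q))^{μ(s) N/s}` at the cusps.
-/
import Mathlib
import Fermat.Agent.S24.CardX0

set_option autoImplicit false

namespace Fermat.Agent.S28

namespace NT

open ArithmeticFunction ModularCurve
open Fermat.Agent.S24.CardX0

/-- `d ↦ gcd(d, c)²` as an arithmetic function. -/
def gcdSq (c : ℕ) : ArithmeticFunction ℤ :=
  ⟨fun d => if d = 0 then 0 else ((Nat.gcd d c : ℕ) : ℤ) ^ 2, by simp⟩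

theorem gcdSq_apply (c d : ℕ) (hd : d ≠ 0) : gcdSq c d = ((Nat.gcd d c : ℕ) : ℤ) ^ 2 := by
  change (if d = 0 then 0 else ((Nat.gcd d c : ℕ) : ℤ) ^ 2) = _
  rw [if_neg hd]

theorem isMultiplicative_gcdSq (c : ℕ) : (gcdSq c).IsMultiplicative := by
  refine ⟨by rw [gcdSq_apply c 1 one_ne_zero]; simp, ?_⟩
  intro m n hmn
  rcases Nat.eq_zero_or_pos m with rfl | hm
  · simp
  rcases Nat.eq_zero_or_pos n with rfl | hn
  · simp
  rw [gcdSq_apply c _ (Nat.mul_ne_zero hm.ne' hn.ne'), gcdSq_apply c _ hm.ne',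
    gcdSq_apply c _ hn.ne', Nat.Coprime.mul_gcd hmn c]
  push_cast
  ring

/-- `N ↦ [N ∣ c] φ(N) ψ(N)` as an arithmetic function. -/
def target (c : ℕ) : ArithmeticFunction ℤ :=
  ⟨fun N => if N = 0 then 0 else if N ∣ c then ((Nat.totient N * dedekindPsi N : ℕ) : ℤ) else 0,
    by simp⟩

theorem target_apply (c N : ℕ) (hN : N ≠ 0) :
    target c N = if N ∣ c then ((Nat.totient N * dedekindPsi N : ℕ) : ℤ) else 0 := by
  change (if N = 0 then 0 else if N ∣ c then ((Nat.totient N * dedekindPsi N : ℕ) : ℤ) else 0) = _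
  rw [if_neg hN]

theorem isMultiplicative_target (c : ℕ) : (target c).IsMultiplicative := by
  refine ⟨by rw [target_apply c 1 one_ne_zero]; simp, ?_⟩
  intro m n hmn
  rcases Nat.eq_zero_or_pos m with rfl | hm
  · simp
  rcases Nat.eq_zero_or_pos n with rfl | hn
  · simp
  rw [target_apply c _ (Nat.mul_ne_zero hm.ne' hn.ne'), target_apply c _ hm.ne',
    target_apply c _ hn.ne']
  by_cases h1 : m ∣ c
  · by_cases h2 : n ∣ c
    · rw [if_pos (hmn.mul_dvd_of_dvd_of_dvd h1 h2), if_pos h1, if_pos h2, Nat.totient_mul hmn,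
        dedekindPsi_mul hmn]
      push_cast
      ring
    · rw [if_neg (fun h => h2 ((dvd_mul_left n m).trans h)), if_neg h2, mul_zero]
  · rw [if_neg (fun h => h1 ((dvd_mul_right m n).trans h)), if_neg h1, zero_mul]

theorem gcd_prime_pow_eq_of_not_dvd {p k c : ℕ} (hp : p.Prime) (hk : 0 < k) (h : ¬ p ^ k ∣ c) :
    Nat.gcd (p ^ k) c = Nat.gcd (p ^ (k - 1)) c := by
  apply Nat.dvd_antisymm
  · obtain ⟨j, hj, hj'⟩ := (Nat.dvd_prime_pow hp).mp (Nat.gcd_dvd_left (p ^ k) c)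
    have hjc : p ^ j ∣ c := hj' ▸ Nat.gcd_dvd_right (p ^ k) c
    have hjk : j ≠ k := fun e => h (e ▸ hjc)
    rw [hj']
    exact Nat.dvd_gcd (pow_dvd_pow p (by omega)) hjc
  · exact Nat.dvd_gcd ((Nat.gcd_dvd_left _ _).trans (pow_dvd_pow p (Nat.sub_le k 1)))
      (Nat.gcd_dvd_right _ _)

theorem moebius_mul_apply_prime_pow (g : ArithmeticFunction ℤ) {p k : ℕ} (hp : p.Prime)
    (hk : 0 < k) :
    ((moebius : ArithmeticFunction ℤ) * g) (p ^ k) = g (p ^ k) - g (p ^ (k - 1)) := by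
  rw [ArithmeticFunction.mul_apply,
    Nat.sum_divisorsAntidiagonal (fun a b => (moebius a : ℤ) * g b),
    Nat.sum_divisors_prime_pow hp]
  have hsub : ({0, 1} : Finset ℕ) ⊆ Finset.range (k + 1) := by
    intro i hi
    simp only [Finset.mem_insert, Finset.mem_singleton] at hi
    rw [Finset.mem_range]
    omega
  rw [← Finset.sum_subset hsub]
  · rw [Finset.sum_pair (by norm_num)]
    simp only [pow_zero, pow_one, Nat.div_one, isMultiplicative_moebius.map_one, one_mul,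
      moebius_apply_prime hp]
    have h1 : p ^ k / p = p ^ (k - 1) := by
      have := Nat.pow_div hk hp.pos
      simpa using this
    rw [h1]
    ring
  · intro i _ hi
    simp only [Finset.mem_insert, Finset.mem_singleton, not_or] at hi
    rw [moebius_apply_prime_pow hp hi.1, if_neg hi.2, zero_mul]

theorem moebius_mul_gcdSq_eq_target (c : ℕ) :
    (moebius : ArithmeticFunction ℤ) * gcdSq c = target c := by
  rw [(isMultiplicative_moebius.mul (isMultiplicative_gcdSq c)).eq_iff_eq_on_prime_powers _ _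
    (isMultiplicative_target c)]
  intro p k hp
  rcases Nat.eq_zero_or_pos k with rfl | hk
  · rw [pow_zero, (isMultiplicative_moebius.mul (isMultiplicative_gcdSq c)).map_one,
      (isMultiplicative_target c).map_one]
  have hpk : p ^ k ≠ 0 := pow_ne_zero k hp.ne_zero
  have hpk1 : p ^ (k - 1) ≠ 0 := pow_ne_zero _ hp.ne_zero
  rw [moebius_mul_apply_prime_pow _ hp hk, gcdSq_apply c _ hpk, gcdSq_apply c _ hpk1,
    target_apply c _ hpk]
  by_cases h : p ^ k ∣ c
  · rw [if_pos h, Nat.gcd_eq_left_iff_dvd.mpr h,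
      Nat.gcd_eq_left_iff_dvd.mpr ((pow_dvd_pow p (Nat.sub_le k 1)).trans h),
      Nat.totient_prime_pow hp hk, dedekindPsi_prime_pow hp hk]
    have h3 : p ^ k = p ^ (k - 1) * p := by
      rw [← pow_succ]
      congr 1
      omega
    have h4 : ((p - 1 : ℕ) : ℤ) = (p : ℤ) - 1 := by
      rw [Nat.cast_sub hp.one_le, Nat.cast_one]
    rw [h3]
    push_cast
    rw [h4]
    ring
  · rw [if_neg h, gcd_prime_pow_eq_of_not_dvd hp hk h, sub_self]

end NT

open ArithmeticFunction ModularCurve in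
/-- The arithmetic identity behind the `q`-orders of the eta-quotient unit at the cusps:
`∑_{s ∣ N} μ(s) gcd(N/s, c)² = φ(N) ψ(N)` if `N ∣ c`, and `0` otherwise. -/
theorem sum_moebius_gcd_sq (N : ℕ) (hN : N ≠ 0) (c : ℕ) :
    ∑ s ∈ N.divisors, (moebius s : ℤ) * ((Nat.gcd (N / s) c : ℕ) : ℤ) ^ 2 =
      if N ∣ c then ((Nat.totient N * dedekindPsi N : ℕ) : ℤ) else 0 := by
  have h : ((moebius : ArithmeticFunction ℤ) * NT.gcdSq c) N = NT.target c N := by
    rw [NT.moebius_mul_gcdSq_eq_target c]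
  rw [NT.target_apply c N hN, ArithmeticFunction.mul_apply,
    Nat.sum_divisorsAntidiagonal (fun a b => (moebius a : ℤ) * NT.gcdSq c b)] at h
  rw [← h]
  refine Finset.sum_congr rfl fun s hs => ?_
  have hs' : N / s ≠ 0 := by
    have hsN : s ∣ N := Nat.dvd_of_mem_divisors hs
    exact (Nat.div_pos (Nat.le_of_dvd (Nat.pos_of_ne_zero hN) hsN)
      (Nat.pos_of_dvd_of_pos hsN (Nat.pos_of_ne_zero hN))).ne'
  rw [NT.gcdSq_apply c _ hs']



open ArithmeticFunction in
/-- Möbius inversion of `∑_{d ∣ N} φ(d) = N`: `∑_{s ∣ N} μ(s) N/s = φ(N)`. -/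
theorem sum_moebius_div (N : ℕ) (hN : N ≠ 0) :
    ∑ s ∈ N.divisors, (moebius s : ℤ) * ((N / s : ℕ) : ℤ) = (Nat.totient N : ℤ) := by
  have h := (sum_eq_iff_sum_mul_moebius_eq (R := ℤ) (f := fun n => (Nat.totient n : ℤ))
    (g := fun n => (n : ℤ))).mp (fun n _ => by
      rw [← Nat.cast_sum, Nat.sum_totient]) N (Nat.pos_of_ne_zero hN)
  simp only [Int.cast_id] at h
  rw [Nat.sum_divisorsAntidiagonal (fun a b => (moebius a : ℤ) * (b : ℤ))] at h
  exact h

open ArithmeticFunction ModularCurve in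
/-- The `q`-order of the translate `U ∘ γ` of the eta-quotient unit, `γ` with lower-left
entry `c`: `∑_{s ∣ N} μ(s) (gcd(N/s, c)² - N/s)` is `φ(N) (ψ(N) - 1)` if `N ∣ c` and `-φ(N)`
otherwise. -/
theorem sum_moebius_gcd_sq_sub (N : ℕ) (hN : N ≠ 0) (c : ℕ) :
    ∑ s ∈ N.divisors, (moebius s : ℤ) * (((Nat.gcd (N / s) c : ℕ) : ℤ) ^ 2 - ((N / s : ℕ) : ℤ)) =
      if N ∣ c then (Nat.totient N : ℤ) * ((dedekindPsi N : ℤ) - 1) else -(Nat.totient N : ℤ) := by
  simp only [mul_sub, Finset.sum_sub_distrib]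
  rw [sum_moebius_gcd_sq N hN c, sum_moebius_div N hN]
  split_ifs
  · push_cast
    ring
  · ring

open ArithmeticFunction ModularCurve in
/-- Integer version of `sum_moebius_gcd_sq_sub` (lower-left entry `c : ℤ`). -/
theorem sum_moebius_gcd_sq_sub_int (N : ℕ) (hN : N ≠ 0) (c : ℤ) :
    ∑ s ∈ N.divisors, (moebius s : ℤ) *
        (((Int.gcd ((N / s : ℕ) : ℤ) c : ℕ) : ℤ) ^ 2 - ((N / s : ℕ) : ℤ)) =
      if (N : ℤ) ∣ c then (Nat.totient N : ℤ) * ((dedekindPsi N : ℤ) - 1)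
      else -(Nat.totient N : ℤ) := by
  have h := sum_moebius_gcd_sq_sub N hN c.natAbs
  have h1 : ((N : ℤ) ∣ c) ↔ (N ∣ c.natAbs) := by
    rw [Int.natCast_dvd]
  simp only [h1]
  rw [← h]
  refine Finset.sum_congr rfl fun s _ => ?_
  rw [Int.gcd_def, Int.natAbs_natCast]

/-- Sums of `μ(s) f(s)` over all divisors and over the squarefree divisors agree. -/
theorem sum_moebius_mul_eq_sum_squarefree (N : ℕ) (f : ℕ → ℤ) :
    ∑ s ∈ N.divisors, (ArithmeticFunction.moebius s : ℤ) * f s =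
      ∑ s ∈ N.divisors with Squarefree s, (ArithmeticFunction.moebius s : ℤ) * f s := by
  rw [Finset.sum_filter]
  refine Finset.sum_congr rfl fun s _ => ?_
  split_ifs with h
  · rfl
  · rw [ArithmeticFunction.moebius_eq_zero_of_not_squarefree h, zero_mul]

end Fermat.Agent.S28
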