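import Mathlib
import Fermat.Agent.S24.Translates
import Fermat.Agent.S24.JAnalytic

/-!
# S28: Hermite form with the bottom-row identity, translates of `Δ(d·)/Δ`

* `exists_hermite_row`: for `d > 0`, `γ ∈ SL(2, ℤ)` with bottom row `(c, δ)` there are
  `γ' ∈ SL(2, ℤ)` and integers `a, b, e` with `a, e > 0`, `a e = d`, `a = gcd(d, c)`,
  `(c, δ) = (c' a, c' b + δ' e)` and `d · γ z = γ' · ((a z + b) / e)`.
* `exists_discriminant_translate`: `Δ(d γ z) / Δ(γ z) = e⁻¹² Δ((a z + b) / e) / Δ(z)`.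
* `discriminant_vadd_int`, `discriminant_ratio_Gamma0`: `Γ₀(N)`-invariance of `Δ(d z) / Δ(z)`,
  `d ∣ N`.
-/

set_option autoImplicit false

namespace Fermat.Agent.S28

open UpperHalfPlane Filter Asymptotics Matrix Matrix.SpecialLinearGroup Complex
open scoped MatrixGroups ModularForm Real Manifold Topology

open Fermat.Agent.S24

local notation "Δ" => ModularForm.discriminant

/-- **Hermite form with the bottom-row identity**: `d·γz = γ'·((az + b)/e)` with integers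
`a, e > 0`, `a e = d`, `a = gcd(d, c)`, and `(c, δ) = (c' a, c' b + δ' e)`. -/
theorem exists_hermite_row {d : ℕ} (hd : 0 < d) (γ : SL(2, ℤ)) :
    ∃ (γ' : SL(2, ℤ)) (a b e : ℤ), 0 < a ∧ 0 < e ∧ a * e = d ∧
      a = (Int.gcd (d : ℤ) (γ 1 0) : ℤ) ∧ γ 1 0 = γ' 1 0 * a ∧
      γ 1 1 = γ' 1 0 * b + γ' 1 1 * e ∧
      ∀ z : ℍ, ∃ w : ℍ, (w : ℂ) = ((a : ℂ) * z + b) / e ∧ natDil d (γ • z) = γ' • w := by
  have hdet := Translates.SL2Z_det γ
  set α := γ 0 0 with hα
  set β := γ 0 1 with hβ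
  set c := γ 1 0 with hc
  set δ := γ 1 1 with hδ
  have hne : (d : ℤ) * α ≠ 0 ∨ c ≠ 0 := by
    by_contra hcon
    rw [not_or, not_not, not_not] at hcon
    obtain ⟨h1, h2⟩ := hcon
    have hd' : (d : ℤ) ≠ 0 := by exact_mod_cast hd.ne'
    have h3 : α = 0 := by
      rcases mul_eq_zero.mp h1 with h | h
      · exact absurd h hd'
      · exact h
    rw [h3, h2] at hdet
    simp at hdet
  set g : ℤ := (Int.gcd ((d : ℤ) * α) c : ℤ) with hg
  have hgpos : 0 < g := by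
    rw [hg]
    have : 0 < Int.gcd ((d : ℤ) * α) c := Int.gcd_pos_iff.mpr hne
    exact_mod_cast this
  have hgd : g = (Int.gcd (d : ℤ) c : ℤ) := by
    rw [hg]
    congr 1
    have hcop : IsCoprime c α := ⟨-β, δ, by linear_combination hdet⟩
    rw [Int.gcd_comm, Int.gcd_comm (d : ℤ) c, mul_comm]
    exact Int.gcd_mul_right_right_of_gcd_eq_one (Int.isCoprime_iff_gcd_eq_one.mp hcop)
  obtain ⟨p, hp⟩ : g ∣ (d : ℤ) * α := Int.gcd_dvd_left _ _
  obtain ⟨r, hr⟩ : g ∣ c := Int.gcd_dvd_right _ _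
  have hcop : IsCoprime p r := by
    have h1 : IsCoprime (((d : ℤ) * α) / g) (c / g) := by
      rw [Int.isCoprime_iff_gcd_eq_one]
      exact Int.gcd_div_gcd_div_gcd (Int.gcd_pos_iff.mpr hne)
    have h2 : ((d : ℤ) * α) / g = p := by
      rw [hp]; exact Int.mul_ediv_cancel_left _ hgpos.ne'
    have h3 : c / g = r := by
      rw [hr]; exact Int.mul_ediv_cancel_left _ hgpos.ne'
    rwa [h2, h3] at h1
  obtain ⟨γ', hγ0, hγ1⟩ := hcop.exists_SL2_col 0
  have hdet' := Translates.SL2Z_det γ'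
  set q := γ' 0 1 with hq
  set s := γ' 1 1 with hs
  rw [hγ0, hγ1] at hdet'
  set b : ℤ := s * (d * β) - q * δ with hb
  set e : ℤ := -r * (d * β) + p * δ with he
  have hge : g * e = d := by
    rw [he]
    have h1 : g * (-r * (d * β) + p * δ) = -(g * r) * (d * β) + (g * p) * δ := by ring
    rw [h1, ← hp, ← hr]
    have h2 : -c * (d * β) + d * α * δ = d * (α * δ - β * c) := by ring
    rw [h2, hdet, mul_one]
  have hepos : 0 < e := by
    have hdpos : (0 : ℤ) < d := by exact_mod_cast hd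
    rw [← hge] at hdpos
    exact (pos_iff_pos_of_mul_pos hdpos).mp hgpos
  refine ⟨γ', g, b, e, hgpos, hepos, hge, hgd, ?_, ?_, fun z => ?_⟩
  · rw [hγ1, hr, mul_comm]
  · rw [hγ1, hb, he]
    linear_combination (-δ) * hdet'
  · have hgR : (0 : ℝ) < g := by exact_mod_cast hgpos
    have heR : (0 : ℝ) < e := by exact_mod_cast hepos
    have heC : (e : ℂ) ≠ 0 := by exact_mod_cast hepos.ne'
    have him : 0 < (((g : ℂ) * z + b) / e).im := by
      have h1 : (((g : ℂ) * z + b) / e).im = g * z.im / e := by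
        have h2 : ((g : ℂ) * z + b) / e = (((g : ℝ) / e : ℝ) : ℂ) * z + ((b : ℝ) / e : ℝ) := by
          push_cast; field_simp
        rw [h2]
        simp
        ring
      rw [h1]
      exact div_pos (mul_pos hgR z.im_pos) heR
    refine ⟨⟨((g : ℂ) * z + b) / e, him⟩, rfl, ?_⟩
    apply UpperHalfPlane.ext
    rw [coe_natDil hd, Translates.coe_SL2Z_smul, Translates.coe_SL2Z_smul]
    show (d : ℂ) * (((α : ℂ) * z + β) / ((c : ℂ) * z + δ)) =
      ((γ' 0 0 : ℂ) * (((g : ℂ) * z + b) / e) + (q : ℂ)) /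
        ((γ' 1 0 : ℂ) * (((g : ℂ) * z + b) / e) + (s : ℂ))
    rw [hγ0, hγ1]
    have hden : ((c : ℂ) * z + δ) ≠ 0 := Translates.SL2Z_denom_ne_zero γ z
    have e1 : (p : ℂ) * (((g : ℂ) * z + b) / e) + (q : ℂ) = ((d : ℂ) * ((α : ℂ) * z + β)) / e := by
      field_simp
      have hpC : ((g : ℂ)) * p = d * α := by exact_mod_cast hp.symm
      have hbC : (b : ℂ) = s * (d * β) - q * δ := by rw [hb]; push_cast; ring
      have heC' : (e : ℂ) = -r * (d * β) + p * δ := by rw [he]; push_cast; ring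
      have hdetC : (p : ℂ) * s - q * r = 1 := by exact_mod_cast hdet'
      rw [hbC, heC']
      linear_combination (z : ℂ) * hpC + (d : ℂ) * β * hdetC
    have e2 : (r : ℂ) * (((g : ℂ) * z + b) / e) + (s : ℂ) = ((c : ℂ) * z + δ) / e := by
      field_simp
      have hrC : ((g : ℂ)) * r = c := by exact_mod_cast hr.symm
      have hbC : (b : ℂ) = s * (d * β) - q * δ := by rw [hb]; push_cast; ring
      have heC' : (e : ℂ) = -r * (d * β) + p * δ := by rw [he]; push_cast; ring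
      have hdetC : (p : ℂ) * s - q * r = 1 := by exact_mod_cast hdet'
      rw [hbC, heC']
      linear_combination (z : ℂ) * hrC + (δ : ℂ) * hdetC
    rw [e1, e2]
    field_simp

/-- The translate of `Δ(d·)/Δ` by `γ`: `Δ(d γz)/Δ(γz) = e⁻¹² Δ((az+b)/e)/Δ(z)`. -/
theorem exists_discriminant_translate {d : ℕ} (hd : 0 < d) (γ : SL(2, ℤ)) :
    ∃ (a b e : ℤ), 0 < a ∧ 0 < e ∧ a * e = d ∧ a = (Int.gcd (d : ℤ) (γ 1 0) : ℤ) ∧
      ∀ z : ℍ, ∃ w : ℍ, (w : ℂ) = ((a : ℂ) * z + b) / e ∧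
        Δ (natDil d (γ • z)) / Δ (γ • z) = ((e : ℂ) ^ 12)⁻¹ * (Δ w / Δ z) := by
  obtain ⟨γ', a, b, e, ha, he, hae, hag, h10, h11, hw⟩ := exists_hermite_row hd γ
  refine ⟨a, b, e, ha, he, hae, hag, fun z => ?_⟩
  obtain ⟨w, hw1, hw2⟩ := hw z
  refine ⟨w, hw1, ?_⟩
  have heC : (e : ℂ) ≠ 0 := by exact_mod_cast he.ne'
  have hden : denom γ' w = denom γ z / e := by
    have h1 : denom γ' w = (γ' 1 0 : ℂ) * w + (γ' 1 1 : ℂ) := by
      simp [UpperHalfPlane.denom]
    have h2 : denom γ z = (γ 1 0 : ℂ) * z + (γ 1 1 : ℂ) := by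
      simp [UpperHalfPlane.denom]
    rw [h1, h2, hw1, h10, h11]
    push_cast
    field_simp
    ring
  have hz : denom γ z ≠ 0 := denom_ne_zero γ z
  have hΔ := ModularForm.discriminant_ne_zero z
  rw [hw2, discriminant_smul, discriminant_smul, hden]
  simp only [zpow_ofNat]
  field_simp

/-- `Δ` is invariant under integer translations. -/
theorem discriminant_vadd_int (n : ℤ) (z : ℍ) : Δ ((n : ℝ) +ᵥ z) = Δ z := by
  rw [← modular_T_zpow_smul, discriminant_smul]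
  have h : denom ((ModularGroup.T ^ n : SL(2, ℤ)) : GL (Fin 2) ℝ) z = 1 := by
    have h10 : (ModularGroup.T ^ n : SL(2, ℤ)) 1 0 = 0 := by
      rw [ModularGroup.coe_T_zpow]; rfl
    have h11 : (ModularGroup.T ^ n : SL(2, ℤ)) 1 1 = 1 := by
      rw [ModularGroup.coe_T_zpow]; rfl
    have key : ∀ g : SL(2, ℤ), denom (g : GL (Fin 2) ℝ) z =
        ((g 1 0 : ℤ) : ℂ) * z + ((g 1 1 : ℤ) : ℂ) := fun g => by
      simp [UpperHalfPlane.denom]
    rw [key, h10, h11]
    simp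
  rw [h]
  simp

/-- `Γ₀(N)`-invariance of `z ↦ Δ(d z) / Δ(z)` for `d ∣ N`. -/
theorem discriminant_ratio_Gamma0 {N d : ℕ} (hd : 0 < d) (hdN : d ∣ N) {δ : SL(2, ℤ)}
    (hδ : δ ∈ CongruenceSubgroup.Gamma0 N) (z : ℍ) :
    Δ (natDil d (δ • z)) / Δ (δ • z) = Δ (natDil d z) / Δ z := by
  obtain ⟨a, b, e, ha, he, hae, hag, hw⟩ := exists_discriminant_translate hd δ
  have h1 : (N : ℤ) ∣ δ 1 0 := by
    rw [CongruenceSubgroup.Gamma0_mem] at hδ
    exact (ZMod.intCast_zmod_eq_zero_iff_dvd _ _).mp hδ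
  have h2 : (d : ℤ) ∣ δ 1 0 := (Int.natCast_dvd_natCast.mpr hdN).trans h1
  have ha' : a = d := by
    rw [hag, Int.gcd_eq_left (by positivity) h2]
  have hdpos : (0 : ℤ) < d := by exact_mod_cast hd
  have he' : e = 1 := by
    rw [ha'] at hae
    have : (d : ℤ) * e = d * 1 := by rw [hae, mul_one]
    exact mul_left_cancel₀ hdpos.ne' this
  obtain ⟨w, hw1, hw2⟩ := hw z
  rw [hw2, he']
  have hw3 : w = (b : ℝ) +ᵥ natDil d z := by
    apply UpperHalfPlane.ext
    rw [hw1, UpperHalfPlane.coe_vadd, coe_natDil hd, ha', he']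
    push_cast
    ring
  rw [hw3, discriminant_vadd_int]
  simp

end Fermat.Agent.S28
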