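import Mathlib
import Fermat.Agent.S28.Hermite

/-!
# S28, block (A) Unit: the eta-quotient unit on the upper half plane

For `N ≥ 1` put `U(z) = ∏_{s ∣ N} (Δ(N z / s) / Δ(z)) ^ (μ(s) · N / s)`.

* `deltaRatio d z = Δ(d z) / Δ(z)`: holomorphic, nowhere zero, `Γ₀(N)`-invariant for `d ∣ N`,
  with the translate formula `deltaRatio d (γ z) = e⁻¹² Δ((a z + b) / e) / Δ(z)`
  (`a = gcd(d, c)`, `a e = d`).
* `Ufun N`: holomorphic (`Ufun_mdiff`), nowhere zero (`Ufun_ne_zero`), `Γ₀(N)`-invariant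
  (`Ufun_Gamma0_smul`), with the translate formula `Ufun_smul`.
-/

set_option autoImplicit false

namespace Fermat.Agent.S28

open UpperHalfPlane Complex
open scoped MatrixGroups ModularForm Real Manifold Topology

open Fermat.Agent.S24

local notation "Δ" => ModularForm.discriminant

/-- The function `z ↦ Δ(d z) / Δ(z)` on the upper half plane (junk for `d = 0`). -/
noncomputable def deltaRatio (d : ℕ) (z : ℍ) : ℂ := Δ (natDil d z) / Δ z

theorem deltaRatio_ne_zero (d : ℕ) (z : ℍ) : deltaRatio d z ≠ 0 :=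
  div_ne_zero (ModularForm.discriminant_ne_zero _) (ModularForm.discriminant_ne_zero _)

theorem deltaRatio_mdiff {d : ℕ} (hd : 0 < d) : MDiff (deltaRatio d) := by
  have h1 : MDiff (fun z : ℍ => Δ (natDil d ((1 : SL(2, ℤ)) • z))) :=
    mdiff_comp_natDil_smul hd 1 discriminant_mdifferentiable
  have h2 : MDiff (fun z : ℍ => Δ (natDil d z)) := by
    have e : (fun z : ℍ => Δ (natDil d ((1 : SL(2, ℤ)) • z))) = fun z : ℍ => Δ (natDil d z) := by
      funext z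
      rw [one_smul]
    rwa [e] at h1
  rw [UpperHalfPlane.mdifferentiable_iff]
  intro z hz
  have hn : DifferentiableAt ℂ ((fun z : ℍ => Δ (natDil d z)) ∘ ofComplex) z := by
    have := UpperHalfPlane.mdifferentiableAt_iff.mp (h2 ⟨z, hz⟩)
    simpa using this
  have hΔ : DifferentiableAt ℂ (Δ ∘ ofComplex) z := by
    have := UpperHalfPlane.mdifferentiableAt_iff.mp (discriminant_mdifferentiable ⟨z, hz⟩)
    simpa using this
  have : DifferentiableAt ℂ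
      (fun w => ((fun z : ℍ => Δ (natDil d z)) ∘ ofComplex) w / (Δ ∘ ofComplex) w) z :=
    hn.div hΔ (ModularForm.discriminant_ne_zero _)
  exact this.differentiableWithinAt

/-- `Γ₀(N)`-invariance of `deltaRatio d`, `d ∣ N`. -/
theorem deltaRatio_Gamma0_smul {N d : ℕ} (hd : 0 < d) (hdN : d ∣ N) {δ : SL(2, ℤ)}
    (hδ : δ ∈ CongruenceSubgroup.Gamma0 N) (z : ℍ) :
    deltaRatio d (δ • z) = deltaRatio d z :=
  discriminant_ratio_Gamma0 hd hdN hδ z

/-- The translate formula for `deltaRatio d`. -/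
theorem deltaRatio_smul {d : ℕ} (hd : 0 < d) (γ : SL(2, ℤ)) :
    ∃ (a b e : ℤ), 0 < a ∧ 0 < e ∧ a * e = d ∧ a = (Int.gcd (d : ℤ) (γ 1 0) : ℤ) ∧
      ∀ z : ℍ, deltaRatio d (γ • z) =
        ((e : ℂ) ^ 12)⁻¹ * (Δ (ofComplex (((a : ℂ) * z + b) / e)) / Δ z) := by
  obtain ⟨a, b, e, ha, he, hae, hag, hw⟩ := exists_discriminant_translate hd γ
  refine ⟨a, b, e, ha, he, hae, hag, fun z => ?_⟩
  obtain ⟨w, hw1, hw2⟩ := hw z
  have hw3 : ofComplex (((a : ℂ) * z + b) / e) = w := by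
    rw [← hw1]
    exact ofComplex_apply w
  rw [hw3]
  exact hw2

/-- The exponent of the factor `s` of the unit `U`. -/
def Uexp (N s : ℕ) : ℤ := (ArithmeticFunction.moebius s : ℤ) * ((N / s : ℕ) : ℤ)

/-- The eta-quotient unit `U(z) = ∏_{s ∣ N} (Δ(N z / s) / Δ(z)) ^ (μ(s) N / s)`. -/
noncomputable def Ufun (N : ℕ) (z : ℍ) : ℂ :=
  ∏ s ∈ N.divisors, deltaRatio (N / s) z ^ Uexp N s

theorem Ufun_apply (N : ℕ) (z : ℍ) :
    Ufun N z = ∏ s ∈ N.divisors, (Δ (natDil (N / s) z) / Δ z) ^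
      ((ArithmeticFunction.moebius s : ℤ) * ((N / s : ℕ) : ℤ)) := rfl

theorem Ufun_ne_zero (N : ℕ) (z : ℍ) : Ufun N z ≠ 0 := by
  rw [Ufun]
  exact Finset.prod_ne_zero_iff.mpr fun s _ => zpow_ne_zero _ (deltaRatio_ne_zero _ z)

theorem Unit.div_pos_of_mem_divisors {N s : ℕ} (hs : s ∈ N.divisors) : 0 < N / s := by
  have hN : N ≠ 0 := (Nat.mem_divisors.mp hs).2
  have hsN : s ∣ N := (Nat.mem_divisors.mp hs).1
  exact Nat.div_pos (Nat.le_of_dvd (Nat.pos_of_ne_zero hN) hsN)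
    (Nat.pos_of_dvd_of_pos hsN (Nat.pos_of_ne_zero hN))

theorem Unit.div_dvd_of_mem_divisors {N s : ℕ} (hs : s ∈ N.divisors) : N / s ∣ N :=
  Nat.div_dvd_of_dvd (Nat.mem_divisors.mp hs).1

theorem Ufun_mdiff (N : ℕ) : MDiff (Ufun N) := by
  rw [UpperHalfPlane.mdifferentiable_iff]
  intro z hz
  have key : ∀ s ∈ N.divisors, DifferentiableAt ℂ
      (fun w : ℂ => (deltaRatio (N / s) ∘ ofComplex) w ^ Uexp N s) z := by
    intro s hs
    have h1 : DifferentiableAt ℂ (deltaRatio (N / s) ∘ ofComplex) z := by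
      have := UpperHalfPlane.mdifferentiableAt_iff.mp
        (deltaRatio_mdiff (Unit.div_pos_of_mem_divisors hs) ⟨z, hz⟩)
      simpa using this
    exact h1.zpow (Or.inl (deltaRatio_ne_zero _ _))
  have h2 : DifferentiableAt ℂ
      (fun w : ℂ => ∏ s ∈ N.divisors, (deltaRatio (N / s) ∘ ofComplex) w ^ Uexp N s) z :=
    DifferentiableAt.fun_finsetProd key
  have e : (Ufun N ∘ ofComplex) =
      fun w : ℂ => ∏ s ∈ N.divisors, (deltaRatio (N / s) ∘ ofComplex) w ^ Uexp N s := by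
    funext w
    rfl
  rw [e]
  exact h2.differentiableWithinAt

/-- `Γ₀(N)`-invariance of the unit. -/
theorem Ufun_Gamma0_smul (N : ℕ) {δ : SL(2, ℤ)} (hδ : δ ∈ CongruenceSubgroup.Gamma0 N)
    (z : ℍ) : Ufun N (δ • z) = Ufun N z := by
  rw [Ufun, Ufun]
  refine Finset.prod_congr rfl fun s hs => ?_
  rw [deltaRatio_Gamma0_smul (Unit.div_pos_of_mem_divisors hs) (Unit.div_dvd_of_mem_divisors hs) hδ]

/-- The translate formula for the unit: for `γ ∈ SL(2, ℤ)` with lower-left entry `c` there are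
integers `a s, b s, e s` (`s ∣ N`) with `a s = gcd(N / s, c)`, `a s * e s = N / s`, such that
`U(γ z) = ∏_s (e_s⁻¹² Δ((a_s z + b_s) / e_s) / Δ(z)) ^ (μ(s) N / s)`. -/
theorem Ufun_smul (N : ℕ) (γ : SL(2, ℤ)) :
    ∃ (a b e : ℕ → ℤ), (∀ s ∈ N.divisors, 0 < a s ∧ 0 < e s ∧ a s * e s = ((N / s : ℕ) : ℤ) ∧
        a s = (Int.gcd ((N / s : ℕ) : ℤ) (γ 1 0) : ℤ)) ∧
      ∀ z : ℍ, Ufun N (γ • z) = ∏ s ∈ N.divisors,
        (((e s : ℂ) ^ 12)⁻¹ * (Δ (ofComplex (((a s : ℂ) * z + b s) / e s)) / Δ z)) ^ Uexp N s := by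
  classical
  have h : ∀ s : ℕ, ∃ (a b e : ℤ), s ∈ N.divisors → (0 < a ∧ 0 < e ∧ a * e = ((N / s : ℕ) : ℤ) ∧
      a = (Int.gcd ((N / s : ℕ) : ℤ) (γ 1 0) : ℤ) ∧
      ∀ z : ℍ, deltaRatio (N / s) (γ • z) =
        ((e : ℂ) ^ 12)⁻¹ * (Δ (ofComplex (((a : ℂ) * z + b) / e)) / Δ z)) := by
    intro s
    by_cases hs : s ∈ N.divisors
    · obtain ⟨a, b, e, h1, h2, h3, h4, h5⟩ := deltaRatio_smul (Unit.div_pos_of_mem_divisors hs) γ
      exact ⟨a, b, e, fun _ => ⟨h1, h2, h3, h4, h5⟩⟩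
    · exact ⟨0, 0, 0, fun h => absurd h hs⟩
  choose a b e hab using h
  refine ⟨a, b, e, fun s hs => ⟨(hab s hs).1, (hab s hs).2.1, (hab s hs).2.2.1,
    (hab s hs).2.2.2.1⟩, fun z => ?_⟩
  rw [Ufun]
  refine Finset.prod_congr rfl fun s hs => ?_
  rw [(hab s hs).2.2.2.2 z]

end Fermat.Agent.S28
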