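import Mathlib
import Fermat.Prelude.Def_ModularCurve_LaurentCoeff
import Fermat.Agent.S24.Bridge
import Fermat.Agent.S28.Unit
import Fermat.Agent.S28.DeltaExp
import Fermat.Agent.S28.NT

/-!
# S28, block (A) FormalU: the `q`-expansion at infinity of the eta-quotient unit

`Ufun N z = ∏_{s ∣ N} (Δ(N z / s) / Δ(z)) ^ (μ(s) N / s)` is weakly holomorphic of period `1`, and
its Laurent `q`-expansion is the image of an integer Laurent series `uZ N` whose coefficients
vanish below `φ(N) (ψ(N) - 1)` and whose coefficient at `φ(N) (ψ(N) - 1)` is a unit.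

Main exports (namespace `Fermat.Agent.S28.FormalU`): `exists_uZ`, `uZ`, `isWH_Ufun`,
`qLaurent_Ufun`, `uZ_coeff_of_lt`, `isUnit_uZ_coeff`, `uZ_ne_zero`, `qLaurent_Ufun_rat`.
-/

set_option autoImplicit false

namespace Fermat.Agent.S28

namespace FormalU

open UpperHalfPlane Complex
open scoped MatrixGroups ModularForm Real Manifold Topology
open Fermat.Agent.S23 Fermat.Agent.S24 ModularCurve

local notation "Δ" => ModularForm.discriminant

/-- The subring `ℤ ⊆ ℂ`. -/
def intRing : Subring ℂ := (Int.castRingHom ℂ).range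

theorem one_mem_intRing : (1 : ℂ) ∈ intRing := intRing.one_mem

/-! ### Generalities on `IsWH 1` and `qLaurent 1` -/

theorem qLaurent_pow {F : ℍ → ℂ} (hF : IsWH 1 F) (n : ℕ) :
    qLaurent 1 (F ^ n) = qLaurent 1 F ^ n := by
  induction n with
  | zero =>
    rw [pow_zero, pow_zero, show (1 : ℍ → ℂ) = fun _ => (1 : ℂ) from rfl,
      qLaurent_const one_pos 1, map_one]
  | succ n ih => rw [pow_succ, pow_succ, qLaurent_mul one_pos (hF.pow n) hF, ih]

/-- Integer powers of a weakly holomorphic function with a weakly holomorphic inverse. -/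
theorem isWH_zpow {F G : ℍ → ℂ} (hF : IsWH 1 F) (hG : IsWH 1 G) (hFG : ∀ z, F z * G z = 1)
    (k : ℤ) :
    IsWH 1 (fun z => F z ^ k) ∧ qLaurent 1 (fun z => F z ^ k) = qLaurent 1 F ^ k := by
  obtain ⟨n, rfl | rfl⟩ := k.eq_nat_or_neg
  · have e : (fun z => F z ^ (n : ℤ)) = F ^ n := by
      funext z
      rw [zpow_natCast, Pi.pow_apply]
    rw [e, zpow_natCast]
    exact ⟨hF.pow n, qLaurent_pow hF n⟩
  · have e : (fun z => F z ^ (-(n : ℤ))) = G ^ n := by
      funext z
      rw [zpow_neg, zpow_natCast, Pi.pow_apply, ← inv_pow, inv_eq_of_mul_eq_one_right (hFG z)]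
    have hmul : F * G = 1 := funext hFG
    rw [e, zpow_neg, zpow_natCast, qLaurent_pow hG n,
      qLaurent_eq_inv_of_mul_eq_one one_pos hF hG hmul, inv_pow]
    exact ⟨hG.pow n, rfl⟩

/-- Finite products of weakly holomorphic functions. -/
theorem isWH_prod {ι : Type*} (s : Finset ι) (f : ι → ℍ → ℂ) (hf : ∀ i ∈ s, IsWH 1 (f i)) :
    IsWH 1 (fun z => ∏ i ∈ s, f i z) ∧
      qLaurent 1 (fun z => ∏ i ∈ s, f i z) = ∏ i ∈ s, qLaurent 1 (f i) := by
  classical
  induction s using Finset.induction_on with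
  | empty =>
    simp only [Finset.prod_empty]
    exact ⟨IsWH.const 1 1, by rw [qLaurent_const one_pos 1, map_one]⟩
  | insert a s ha ih =>
    have hs := ih fun i hi => hf i (Finset.mem_insert_of_mem hi)
    have hfa := hf a (Finset.mem_insert_self a s)
    have e : (fun z => ∏ i ∈ insert a s, f i z) = f a * fun z => ∏ i ∈ s, f i z := by
      funext z
      rw [Finset.prod_insert ha, Pi.mul_apply]
    rw [e, Finset.prod_insert ha]
    exact ⟨hfa.mul hs.1, by rw [qLaurent_mul one_pos hfa hs.1, hs.2]⟩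

/-! ### One factor `Δ(d z) / Δ(z)` -/

theorem deltaRatio_eq_deltaQuot (d : ℕ) : deltaRatio d = deltaQuot (d : ℤ) 0 1 := by
  funext z
  simp [deltaRatio, deltaQuot, deltaAff, deltaInv, natDil, div_eq_mul_inv]

theorem isWH_deltaRatio {d : ℕ} (hd : 0 < d) : IsWH 1 (deltaRatio d) := by
  have h := isWH_deltaQuot (a := d) (e := 1) (m := 1) (N := 1) hd one_pos one_pos rfl 0
  simp only [Nat.cast_one] at h
  rw [deltaRatio_eq_deltaQuot]
  exact h

theorem isGood_deltaRatio {d : ℕ} (hd : 0 < d) :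
    IsGoodSeries intRing ((d : ℤ) - 1) (qLaurent 1 (deltaRatio d)) := by
  have hz : deltaZeta 0 ((1 : ℕ) : ℤ) ∈ intRing := by
    have : deltaZeta 0 ((1 : ℕ) : ℤ) = 1 := by simp [deltaZeta]
    rw [this]
    exact one_mem_intRing
  have hi : (((1 : ℕ) : ℂ))⁻¹ ∈ intRing := by
    rw [Nat.cast_one, inv_one]
    exact one_mem_intRing
  have h := isGood_qLaurent_deltaQuot intRing (a := d) (e := 1) (m := 1) (N := 1) hd one_pos
    one_pos rfl 0 hz hi
  simp only [Nat.cast_one, mul_one] at h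
  rw [deltaRatio_eq_deltaQuot]
  exact h

/-- The inverse `Δ(z) / Δ(d z)` of `deltaRatio d`. -/
noncomputable def deltaRatioInv (d : ℕ) (z : ℍ) : ℂ := Δ z * deltaInv (dmul d z)

theorem deltaRatio_mul_inv (d : ℕ) (z : ℍ) : deltaRatio d z * deltaRatioInv d z = 1 := by
  have h1 : Δ (natDil d z) ≠ 0 := ModularForm.discriminant_ne_zero _
  have h2 : Δ z ≠ 0 := ModularForm.discriminant_ne_zero _
  rw [deltaRatio, deltaRatioInv, deltaInv]
  have e : natDil d z = dmul d z := rfl
  rw [e] at h1 ⊢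
  field_simp

theorem isWH_deltaRatioInv {d : ℕ} (hd : 0 < d) : IsWH 1 (deltaRatioInv d) := by
  have h1 : IsWH 1 Δ := by
    have h := (isGood_qLaurent_discriminant intRing (N := 1) one_pos).1
    simp only [Nat.cast_one] at h
    exact h
  have h2 : IsWH 1 deltaInv := by
    have h := isWH_deltaInv (N := 1) one_pos
    simp only [Nat.cast_one] at h
    exact h
  exact h1.mul (Bridge.isWH_comp_dmul hd h2)

/-! ### The unit -/

theorem Ufun_eq (N : ℕ) :
    Ufun N = fun z => ∏ s ∈ N.divisors, (fun w => deltaRatio (N / s) w ^ Uexp N s) z := rfl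

theorem isWH_factor {N s : ℕ} (hs : s ∈ N.divisors) :
    IsWH 1 (fun w => deltaRatio (N / s) w ^ Uexp N s) ∧
      qLaurent 1 (fun w => deltaRatio (N / s) w ^ Uexp N s) =
        qLaurent 1 (deltaRatio (N / s)) ^ Uexp N s :=
  isWH_zpow (isWH_deltaRatio (Unit.div_pos_of_mem_divisors hs))
    (isWH_deltaRatioInv (Unit.div_pos_of_mem_divisors hs)) (deltaRatio_mul_inv _) _

/-- The unit is weakly holomorphic of period `1`. -/
theorem isWH_Ufun (N : ℕ) : IsWH 1 (Ufun N) := by
  rw [Ufun_eq]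
  exact (isWH_prod N.divisors _ fun s hs => (isWH_factor hs).1).1

theorem qLaurent_Ufun_eq_prod (N : ℕ) :
    qLaurent 1 (Ufun N) = ∏ s ∈ N.divisors, qLaurent 1 (deltaRatio (N / s)) ^ Uexp N s := by
  rw [Ufun_eq, (isWH_prod N.divisors _ fun s hs => (isWH_factor hs).1).2]
  exact Finset.prod_congr rfl fun s hs => (isWH_factor hs).2

theorem sum_Uexp (N : ℕ) (hN : N ≠ 0) :
    ∑ s ∈ N.divisors, Uexp N s * (((N / s : ℕ) : ℤ) - 1) =
      (N.totient : ℤ) * ((dedekindPsi N : ℤ) - 1) := by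
  have h := sum_moebius_gcd_sq_sub N hN 0
  rw [if_pos (dvd_zero N)] at h
  rw [← h]
  refine Finset.sum_congr rfl fun s _ => ?_
  rw [Nat.gcd_zero_right, Uexp]
  ring

/-- The `q`-expansion of the unit is a good series over `ℤ` of order `φ(N) (ψ(N) - 1)`. -/
theorem isGood_qLaurent_Ufun (N : ℕ) (hN : N ≠ 0) :
    IsGoodSeries intRing ((N.totient : ℤ) * ((dedekindPsi N : ℤ) - 1)) (qLaurent 1 (Ufun N)) := by
  rw [qLaurent_Ufun_eq_prod, ← sum_Uexp N hN]
  exact IsGoodSeries.prod N.divisors _ _ fun s hs =>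
    (isGood_deltaRatio (Unit.div_pos_of_mem_divisors hs)).zpow (Uexp N s)

/-! ### Descent of the coefficients to `ℤ` -/

theorem exists_int_lift {x : LaurentSeries ℂ} {n : ℤ} (hmem : ∀ k, x.coeff k ∈ intRing)
    (hlt : ∀ k, k < n → x.coeff k = 0) :
    ∃ u : LaurentSeries ℤ, x = coeffMap (Int.castRingHom ℂ) u ∧ ∀ k, k < n → u.coeff k = 0 := by
  choose c hc using hmem
  have hc0 : ∀ k, k < n → c k = 0 := by
    intro k hk
    have h1 : (Int.castRingHom ℂ) (c k) = 0 := by rw [hc k, hlt k hk]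
    exact (Int.cast_eq_zero (α := ℂ)).mp h1
  have hbdd : BddBelow (Function.support c) := by
    refine ⟨n, fun k hk => ?_⟩
    by_contra hlt'
    exact hk (hc0 k (not_le.mp hlt'))
  refine ⟨HahnSeries.ofSuppBddBelow c hbdd, ?_, fun k hk => ?_⟩
  · ext k
    rw [coeffMap_coeff, HahnSeries.coeff_ofSuppBddBelow, hc k]
  · rw [HahnSeries.coeff_ofSuppBddBelow]
    exact hc0 k hk

theorem coeffMap_intCast_injective :
    Function.Injective (coeffMap (Int.castRingHom ℂ)) := by
  intro u v huv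
  ext k
  have h := congrArg (fun x : LaurentSeries ℂ => x.coeff k) huv
  simp only [coeffMap_coeff] at h
  exact Int.cast_injective h

/-- **Main statement (FormalU).** The unit is weakly holomorphic of period `1` and its
`q`-expansion is an integer Laurent series with vanishing coefficients below
`φ(N) (ψ(N) - 1)`. -/
theorem exists_uZ (N : ℕ) [NeZero N] :
    IsWH 1 (Ufun N) ∧ ∃ u : LaurentSeries ℤ,
      qLaurent 1 (Ufun N) = coeffMap (Int.castRingHom ℂ) u ∧
      ∀ n : ℤ, n < (N.totient : ℤ) * ((dedekindPsi N : ℤ) - 1) → u.coeff n = 0 := by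
  have hg := isGood_qLaurent_Ufun N (NeZero.ne N)
  exact ⟨isWH_Ufun N, exists_int_lift (fun k => hg.coeff_mem k) fun k hk => hg.coeff_of_lt hk⟩

open Classical in
/-- The integer `q`-expansion of the unit `Ufun N` (junk `0` for `N = 0`). -/
noncomputable def uZ (N : ℕ) : LaurentSeries ℤ :=
  if h : ∃ u : LaurentSeries ℤ, qLaurent 1 (Ufun N) = coeffMap (Int.castRingHom ℂ) u then h.choose
  else 0

/-- The `q`-expansion of the unit is the image of `uZ N`. -/
theorem qLaurent_Ufun (N : ℕ) [NeZero N] :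
    qLaurent 1 (Ufun N) = coeffMap (Int.castRingHom ℂ) (uZ N) := by
  classical
  have h : ∃ u : LaurentSeries ℤ, qLaurent 1 (Ufun N) = coeffMap (Int.castRingHom ℂ) u := by
    obtain ⟨u, hu, -⟩ := (exists_uZ N).2
    exact ⟨u, hu⟩
  rw [uZ, dif_pos h]
  exact h.choose_spec

theorem coeff_qLaurent_Ufun (N : ℕ) [NeZero N] (n : ℤ) :
    (qLaurent 1 (Ufun N)).coeff n = (((uZ N).coeff n : ℤ) : ℂ) := by
  rw [qLaurent_Ufun, coeffMap_coeff]
  rfl

/-- The coefficients of `uZ N` vanish below `φ(N) (ψ(N) - 1)`. -/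
theorem uZ_coeff_of_lt (N : ℕ) [NeZero N] {n : ℤ}
    (hn : n < (N.totient : ℤ) * ((dedekindPsi N : ℤ) - 1)) : (uZ N).coeff n = 0 := by
  have hg := isGood_qLaurent_Ufun N (NeZero.ne N)
  have h := hg.coeff_of_lt hn
  rw [coeff_qLaurent_Ufun] at h
  exact_mod_cast h

/-- The coefficient of `uZ N` at `φ(N) (ψ(N) - 1)` is a unit of `ℤ`. -/
theorem isUnit_uZ_coeff (N : ℕ) [NeZero N] :
    IsUnit ((uZ N).coeff ((N.totient : ℤ) * ((dedekindPsi N : ℤ) - 1))) := by
  have hg := isGood_qLaurent_Ufun N (NeZero.ne N)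
  have h0 := hg.coeff_self_ne_zero
  obtain ⟨v, hv⟩ := hg.inv_coeff_self_mem
  rw [coeff_qLaurent_Ufun] at h0 hv
  refine IsUnit.of_mul_eq_one v ?_
  have h1 : (((uZ N).coeff ((N.totient : ℤ) * ((dedekindPsi N : ℤ) - 1)) * v : ℤ) : ℂ) = 1 := by
    push_cast
    have hv' : (v : ℂ) =
        (((uZ N).coeff ((N.totient : ℤ) * ((dedekindPsi N : ℤ) - 1)) : ℤ) : ℂ)⁻¹ := hv
    rw [hv', mul_inv_cancel₀ h0]
  exact_mod_cast h1

theorem uZ_ne_zero (N : ℕ) [NeZero N] : uZ N ≠ 0 := by
  intro h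
  have h1 := isUnit_uZ_coeff N
  rw [h] at h1
  simp at h1

/-- The rational form: the `q`-expansion of the unit is the image of the rational series
`coeffMap (Int.castRingHom ℚ) (uZ N)`. -/
theorem qLaurent_Ufun_rat (N : ℕ) [NeZero N] :
    qLaurent 1 (Ufun N) =
      coeffMap (algebraMap ℚ ℂ) (coeffMap (Int.castRingHom ℚ) (uZ N)) := by
  rw [qLaurent_Ufun, coeffMap_coeffMap]
  exact coeffMap_congr (RingHom.ext_int _ _) _

end FormalU

end Fermat.Agent.S28
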