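import Mathlib
import Fermat.Agent.S05.RatVal

/-!
# S28 (B1): a Newton polygon irreducibility criterion

Let `L` be a field with a (rational valued) valuation `v`, `k` a subfield of valuation-`0`
constants, `j ∈ L` with `v j = -1` (so `j` is transcendental over `k` and `v (p(j)) = -deg p`).
Let `P = X^ψ + ∑_{i<ψ} p_i(j) X^i` with `deg p_{ψ-m} ≤ m φ` (`φ ≥ 1`) and `p_0` a nonzero
constant, and let `u ∈ L` be a root of `P` with `v u ≥ φ (ψ - 1)`.  Then `P` is the minimal
polynomial of `u` over `k[j]`: no nonzero polynomial of degree `< ψ` over `k[j]` kills `u`.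

Proof: the minimal polynomial `P₁` over `k[T]` divides `P` (Gauss); scaling the roots by
`j^{-φ}` and Gauss's lemma over the valuation ring of `v` show `deg (coeff P₁ i) ≤ (d - i) φ`;
the constant term of `P₁` is a unit; so in `P₁(u) = 0` every term except the constant one has
valuation `≥ φ (i ψ - d) > 0` if `d < ψ`.
-/

set_option autoImplicit false

open Polynomial

namespace Fermat.Agent.S28

namespace Newton

open Fermat.Agent.S05

section Generic

variable {k L : Type*} [Field k] [Field L] [Algebra k L] (v : RatVal L)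

theorem ge_sum {ι : Type*} (s : Finset ι) (f : ι → L) (m : ℚ) (h : ∀ i ∈ s, v.Ge (f i) m) :
    v.Ge (∑ i ∈ s, f i) m := by
  classical
  induction s using Finset.induction_on with
  | empty => rw [Finset.sum_empty]; exact RatVal.ge_zero m
  | insert a s ha ih =>
    rw [Finset.sum_insert ha]
    exact (h a (Finset.mem_insert_self a s)).add
      (ih fun i hi => h i (Finset.mem_insert_of_mem hi))

theorem ge_pow {x : L} {m : ℚ} (hx : v.Ge x m) (n : ℕ) : v.Ge (x ^ n) (n * m) := by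
  induction n with
  | zero =>
    rw [pow_zero]
    exact Or.inr (by rw [v.map_one]; simp)
  | succ n ih =>
    rw [pow_succ]
    have := ih.mul hx
    refine this.mono ?_
    push_cast
    linarith

/-- The valuation subring of a `RatVal`. -/
def valSub : ValuationSubring L where
  carrier := {x | v.Ge x 0}
  mul_mem' := fun ha hb => by
    have := ha.mul hb
    rwa [add_zero] at this
  one_mem' := Or.inr (by rw [v.map_one])
  add_mem' := fun ha hb => ha.add hb
  zero_mem' := Or.inl rfl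
  neg_mem' := fun ha => ha.neg
  mem_or_inv_mem' := fun x => by
    rcases eq_or_ne x 0 with rfl | hx
    · exact Or.inl (Or.inl rfl)
    · rcases le_total 0 (v.w x) with h | h
      · exact Or.inl (Or.inr h)
      · exact Or.inr (Or.inr (by rw [v.map_inv hx]; linarith))

theorem mem_valSub_iff {x : L} : x ∈ valSub v ↔ v.Ge x 0 := Iff.rfl

variable {v}
variable (hvk : ∀ c : k, c ≠ 0 → v.w (algebraMap k L c) = 0) {j : L} (hj : v.Is j (-1))

include hvk hj

theorem ge_aeval (p : k[X]) (n : ℕ) (hn : p.natDegree ≤ n) :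
    v.Ge (aeval j p) (-(n : ℚ)) := by
  rw [aeval_eq_sum_range]
  apply ge_sum
  intro i hi
  rw [Finset.mem_range] at hi
  rcases eq_or_ne (p.coeff i) 0 with h0 | h0
  · rw [h0, zero_smul]
    exact RatVal.ge_zero _
  · rw [Algebra.smul_def]
    have h1 : v.Is (algebraMap k L (p.coeff i)) 0 := ⟨(_root_.map_ne_zero _).mpr h0, hvk _ h0⟩
    have h2 := h1.mul (hj.pow i)
    refine h2.ge_of_le ?_
    have : (i : ℚ) ≤ n := by exact_mod_cast (by omega : i ≤ n)
    linarith

theorem is_aeval {p : k[X]} (hp : p ≠ 0) : v.Is (aeval j p) (-(p.natDegree : ℚ)) := by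
  have hlc : p.leadingCoeff ≠ 0 := leadingCoeff_ne_zero.mpr hp
  have hlead : v.Is (aeval j (C p.leadingCoeff * X ^ p.natDegree)) (-(p.natDegree : ℚ)) := by
    rw [map_mul, aeval_C, map_pow, aeval_X]
    have h1 : v.Is (algebraMap k L p.leadingCoeff) 0 := ⟨(_root_.map_ne_zero _).mpr hlc, hvk _ hlc⟩
    exact (h1.mul (hj.pow _)).congr (by ring)
  have hsplit : aeval j p = aeval j p.eraseLead + aeval j (C p.leadingCoeff * X ^ p.natDegree) := by
    rw [← map_add, eraseLead_add_C_mul_X_pow]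
  rw [hsplit]
  refine RatVal.Is.add_of_lt' (n := -(p.natDegree : ℚ) + 1) ?_ hlead (by linarith)
  rcases eq_or_ne p.eraseLead 0 with he | he
  · rw [he, map_zero]
    exact RatVal.ge_zero _
  · have hlt : p.eraseLead.natDegree < p.natDegree :=
      (eraseLead_natDegree_lt_or_eraseLead_eq_zero p).resolve_right he
    have h := ge_aeval hvk hj p.eraseLead (p.natDegree - 1) (by omega)
    refine h.mono ?_
    have h1 : ((p.natDegree - 1 : ℕ) : ℚ) = (p.natDegree : ℚ) - 1 := by
      rw [Nat.cast_sub (by omega)]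
      simp
    rw [h1]
    linarith

theorem aeval_injective : Function.Injective (aeval j : k[X] →ₐ[k] L) := by
  rw [injective_iff_map_eq_zero]
  intro p hp
  by_contra h
  exact (is_aeval hvk hj h).1 hp

theorem natDegree_le_of_ge {p : k[X]} {n : ℕ} (h : v.Ge (aeval j p) (-(n : ℚ))) :
    p.natDegree ≤ n := by
  rcases eq_or_ne p 0 with rfl | hp
  · simp
  · have h1 := h.le_of_is (is_aeval hvk hj hp)
    have h2 : (p.natDegree : ℚ) ≤ n := by linarith
    exact_mod_cast h2

section Main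

variable {u : L} {φ ψ : ℕ} {P : (k[X])[X]}

/-- **Newton polygon criterion**, core statement: under the hypotheses in the file header, the
minimal polynomial of `u` over `k[T]` (acting through `T ↦ j`) is `P`, and every nonzero
polynomial over `k[T]` vanishing at `u` has degree at least `ψ`. -/
theorem irreducible_and_dvd (hφ : 0 < φ) (hP : P.Monic) (hdeg : P.natDegree = ψ)
    (hbound : ∀ i ≤ ψ, (P.coeff i).natDegree ≤ (ψ - i) * φ)
    (hc : ∃ c : k, c ≠ 0 ∧ P.coeff 0 = C c)
    (hu : v.Ge u ((φ : ℚ) * ((ψ : ℚ) - 1)))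
    (hroot : P.eval₂ ((aeval j : k[X] →ₐ[k] L) : k[X] →+* L) u = 0) :
    Irreducible P ∧ ∀ Q : (k[X])[X],
      Q.eval₂ ((aeval j : k[X] →ₐ[k] L) : k[X] →+* L) u = 0 → P ∣ Q := by
  classical
  let alg : Algebra k[X] L := ((aeval j : k[X] →ₐ[k] L) : k[X] →+* L).toAlgebra
  have halg : ∀ p : k[X], algebraMap k[X] L p = aeval j p := fun p => rfl
  have : Module.IsTorsionFree k[X] L :=
    Module.isTorsionFree_iff_algebraMap_injective.mpr (aeval_injective hvk hj)
  have hs : IsIntegral k[X] u := ⟨P, hP, hroot⟩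
  have hrootP : aeval u P = 0 := hroot
  have hmon₁ : (minpoly k[X] u).Monic := minpoly.monic hs
  obtain ⟨P₂, hP₂⟩ := minpoly.isIntegrallyClosed_dvd hs hrootP
  have key : (minpoly k[X] u).natDegree = ψ := by
    by_contra hne
    have hd : (minpoly k[X] u).natDegree < ψ := by
      have h1 : (minpoly k[X] u).natDegree ≤ P.natDegree :=
        natDegree_le_of_dvd ⟨P₂, hP₂⟩ hP.ne_zero
      omega
    generalize hP₁ : minpoly k[X] u = P₁ at hmon₁ hP₂ hd
    have hsum : aeval u P₁ = 0 := by rw [← hP₁]; exact minpoly.aeval _ _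
    set d := P₁.natDegree with hd_def
    -- the constant term of `P₁` is a nonzero constant
    obtain ⟨c, hc0, hcP⟩ := hc
    have hconst : P₁.coeff 0 * P₂.coeff 0 = C c := by rw [← hcP, hP₂, mul_coeff_zero]
    have hunit : IsUnit (P₁.coeff 0) :=
      isUnit_of_mul_isUnit_left (hconst ▸ (isUnit_C.mpr (IsUnit.mk0 c hc0)))
    obtain ⟨c₁, hc₁, hc₁'⟩ := Polynomial.isUnit_iff.mp hunit
    have ha₀ : v.Is (aeval j (P₁.coeff 0)) 0 := by
      rw [← hc₁', aeval_C]
      exact ⟨(_root_.map_ne_zero _).mpr hc₁.ne_zero, hvk c₁ hc₁.ne_zero⟩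
    -- scaling the roots by `j ^ (-φ)`
    set s : L := (j ^ φ)⁻¹ with hs_def
    have hsIs : v.Is s φ := ((hj.pow φ).inv).congr (by ring)
    have hmapP : (P.map (algebraMap k[X] L)) =
        P₁.map (algebraMap k[X] L) * P₂.map (algebraMap k[X] L) := by
      rw [← Polynomial.map_mul, ← hP₂]
    have hscale : (P.map (algebraMap k[X] L)).scaleRoots s =
        (P₁.map (algebraMap k[X] L)).scaleRoots s * (P₂.map (algebraMap k[X] L)).scaleRoots s := by
      rw [hmapP, mul_scaleRoots_of_noZeroDivisors]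
    have hcoeffW : ∀ i, ((P.map (algebraMap k[X] L)).scaleRoots s).coeff i ∈ valSub v := by
      intro i
      rw [mem_valSub_iff, coeff_scaleRoots, coeff_map, hP.natDegree_map, hdeg, halg]
      by_cases hi : i ≤ ψ
      · have h1 := ge_aeval hvk hj (P.coeff i) ((ψ - i) * φ) (hbound i hi)
        have h2 := h1.mul ((hsIs.pow (ψ - i)).ge)
        refine h2.mono ?_
        push_cast
        linarith
      · rw [coeff_eq_zero_of_natDegree_lt (by omega), map_zero, zero_mul]
        exact RatVal.ge_zero _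
    have hlifts : (P.map (algebraMap k[X] L)).scaleRoots s ∈
        Polynomial.lifts (algebraMap (valSub v) L) :=
      (lifts_iff_coeff_lifts _).mpr fun i => ⟨⟨_, hcoeffW i⟩, rfl⟩
    obtain ⟨f, hf, -, hfmon⟩ := lifts_and_natDegree_eq_and_monic hlifts
      ((monic_scaleRoots_iff _).mpr (hP.map _))
    have hmon₁s : ((P₁.map (algebraMap k[X] L)).scaleRoots s).Monic :=
      (monic_scaleRoots_iff _).mpr (hmon₁.map _)
    obtain ⟨g', hg'⟩ := IsIntegrallyClosed.eq_map_mul_C_of_dvd L hfmon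
      (g := (P₁.map (algebraMap k[X] L)).scaleRoots s) (by rw [hf, hscale]; exact dvd_mul_right _ _)
    rw [hmon₁s.leadingCoeff, C_1, mul_one] at hg'
    have hcoeff₁ : ∀ i, v.Ge (((P₁.map (algebraMap k[X] L)).scaleRoots s).coeff i) 0 := by
      intro i
      rw [← hg', coeff_map]
      exact (g'.coeff i).2
    -- degree bounds for the coefficients of `P₁`
    have hb₁ : ∀ i ≤ d, v.Ge (aeval j (P₁.coeff i)) (-(((d - i : ℕ) : ℚ) * φ)) := by
      intro i hi
      have h := hcoeff₁ i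
      rw [coeff_scaleRoots, coeff_map, hmon₁.natDegree_map, halg] at h
      rcases eq_or_ne (aeval j (P₁.coeff i)) 0 with h0 | h0
      · rw [h0]
        exact RatVal.ge_zero _
      · have h3 : v.Is (aeval j (P₁.coeff i) * s ^ (d - i))
            (v.w (aeval j (P₁.coeff i)) + ((d - i : ℕ) : ℚ) * φ) :=
          (RatVal.is_self h0).mul (hsIs.pow _)
        have h4 := h.le_of_is h3
        exact Or.inr (by linarith)
    -- the final contradiction: all terms of `P₁(u)` but the constant one have valuation `≥ 1`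
    rw [aeval_eq_sum_range, Finset.sum_range_succ'] at hsum
    have hφQ : (1 : ℚ) ≤ φ := by exact_mod_cast hφ
    have hdψ : (d : ℚ) + 1 ≤ ψ := by exact_mod_cast hd
    have hrest : v.Ge (∑ i ∈ Finset.range d, P₁.coeff (i + 1) • u ^ (i + 1)) 1 := by
      apply ge_sum
      intro i hi
      rw [Finset.mem_range] at hi
      rw [Algebra.smul_def, halg]
      have h1 := hb₁ (i + 1) (by omega)
      have h2 := ge_pow v hu (i + 1)
      have h3 := h1.mul h2
      refine h3.mono ?_
      have e0 : ((d - (i + 1) : ℕ) : ℚ) = (d : ℚ) - ((i : ℚ) + 1) := by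
        rw [Nat.cast_sub (by omega)]
        push_cast
        ring
      rw [e0]
      have hi0 : (0 : ℚ) ≤ i := by positivity
      have hψ0 : (0 : ℚ) ≤ ψ := by positivity
      have e1 : 0 ≤ (φ : ℚ) * ((i : ℚ) * ψ) := by positivity
      have e2 : (φ : ℚ) ≤ φ * ((ψ : ℚ) - d) := by nlinarith
      push_cast
      nlinarith
    have hzero : v.Is (P₁.coeff 0 • u ^ 0) 0 := by
      rw [pow_zero, Algebra.smul_def, mul_one, halg]
      exact ha₀
    exact (RatVal.Is.add_of_lt' hrest hzero (by norm_num)).1 hsum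
  have hPeq : P = minpoly k[X] u :=
    eq_of_monic_of_dvd_of_natDegree_le hmon₁ hP ⟨P₂, hP₂⟩ (by rw [key, hdeg])
  refine ⟨hPeq ▸ minpoly.irreducible hs, fun Q hQu => ?_⟩
  rw [hPeq]
  exact minpoly.isIntegrallyClosed_dvd hs hQu

/-- Degree form: a nonzero polynomial over `k[T]` killing `u` has degree at least `ψ`. -/
theorem natDegree_le_of_eval₂_eq_zero (hφ : 0 < φ) (hP : P.Monic) (hdeg : P.natDegree = ψ)
    (hbound : ∀ i ≤ ψ, (P.coeff i).natDegree ≤ (ψ - i) * φ)
    (hc : ∃ c : k, c ≠ 0 ∧ P.coeff 0 = C c)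
    (hu : v.Ge u ((φ : ℚ) * ((ψ : ℚ) - 1)))
    (hroot : P.eval₂ ((aeval j : k[X] →ₐ[k] L) : k[X] →+* L) u = 0)
    {Q : (k[X])[X]} (hQ : Q ≠ 0)
    (hQu : Q.eval₂ ((aeval j : k[X] →ₐ[k] L) : k[X] →+* L) u = 0) : ψ ≤ Q.natDegree := by
  have h := (irreducible_and_dvd hvk hj hφ hP hdeg hbound hc hu hroot).2 Q hQu
  rw [← hdeg]
  exact natDegree_le_of_dvd h hQ

end Main

end Generic

section Laurent

variable (k : Type*) [Field k]

/-- The `q`-adic valuation of `k((q))` as a `RatVal`. -/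
noncomputable def laurentVal : RatVal (LaurentSeries k) where
  w := fun x => (x.order : ℚ)
  map_mul := fun hx hy => by
    rw [HahnSeries.order_mul hx hy]
    push_cast
    rfl
  map_add := fun _ _ hxy => by
    have := HahnSeries.min_order_le_order_add hxy
    exact_mod_cast this

theorem laurentVal_w (x : LaurentSeries k) : (laurentVal k).w x = (x.order : ℚ) := rfl

theorem laurentVal_algebraMap (c : k) (_hc : c ≠ 0) :
    (laurentVal k).w (algebraMap k (LaurentSeries k) c) = 0 := by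
  rw [laurentVal_w, LaurentSeries.algebraMap_apply, HahnSeries.order_C]
  simp

variable {k}

theorem laurentVal_ge_of_coeff {x : LaurentSeries k} {n : ℤ} (h : ∀ m : ℤ, m < n → x.coeff m = 0) :
    (laurentVal k).Ge x n := by
  rcases eq_or_ne x 0 with rfl | hx
  · exact Or.inl rfl
  · refine Or.inr ?_
    rw [laurentVal_w]
    have h1 : n ≤ x.order := by
      by_contra hlt
      exact hx (HahnSeries.coeff_order_eq_zero.mp (h _ (not_le.mp hlt)))
    exact_mod_cast h1

variable {φ ψ : ℕ} {P : (k[X])[X]} {jb ub : LaurentSeries k}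

/-- **Newton criterion over `k((q))`**: `P ∈ k[T][X]` monic of degree `ψ` with
`deg (coeff P i) ≤ (ψ - i) φ` and nonzero constant constant term, `jb ∈ k((q))` of order `-1`,
`ub ∈ k((q))` of order `≥ φ (ψ - 1)` with `P(jb, ub) = 0`.  Then `P` is irreducible and generates
the kernel of `k[T][X] → k((q))`, `T ↦ jb`, `X ↦ ub`. -/
theorem irreducible_and_dvd_of_order (hφ : 0 < φ) (hP : P.Monic) (hdeg : P.natDegree = ψ)
    (hbound : ∀ i ≤ ψ, (P.coeff i).natDegree ≤ (ψ - i) * φ)
    (hc : ∃ c : k, c ≠ 0 ∧ P.coeff 0 = C c)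
    (hj0 : jb ≠ 0) (hj : jb.order = -1)
    (hu : ∀ n : ℤ, n < (φ : ℤ) * ((ψ : ℤ) - 1) → ub.coeff n = 0)
    (hroot : P.eval₂ ((aeval jb : k[X] →ₐ[k] LaurentSeries k) : k[X] →+* LaurentSeries k) ub
      = 0) :
    Irreducible P ∧ ∀ Q : (k[X])[X],
      Q.eval₂ ((aeval jb : k[X] →ₐ[k] LaurentSeries k) : k[X] →+* LaurentSeries k) ub = 0 →
        P ∣ Q := by
  have hjIs : (laurentVal k).Is jb (-1) := ⟨hj0, by rw [laurentVal_w, hj]; norm_num⟩
  have huGe : (laurentVal k).Ge ub ((φ : ℚ) * ((ψ : ℚ) - 1)) := by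
    have := laurentVal_ge_of_coeff hu
    push_cast at this
    exact this
  exact irreducible_and_dvd (laurentVal_algebraMap k) hjIs hφ hP hdeg hbound hc huGe hroot

theorem irreducible_of_order (hφ : 0 < φ) (hP : P.Monic) (hdeg : P.natDegree = ψ)
    (hbound : ∀ i ≤ ψ, (P.coeff i).natDegree ≤ (ψ - i) * φ)
    (hc : ∃ c : k, c ≠ 0 ∧ P.coeff 0 = C c)
    (hj0 : jb ≠ 0) (hj : jb.order = -1)
    (hu : ∀ n : ℤ, n < (φ : ℤ) * ((ψ : ℤ) - 1) → ub.coeff n = 0)
    (hroot : P.eval₂ ((aeval jb : k[X] →ₐ[k] LaurentSeries k) : k[X] →+* LaurentSeries k) ub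
      = 0) : Irreducible P :=
  (irreducible_and_dvd_of_order hφ hP hdeg hbound hc hj0 hj hu hroot).1

/-- Irreducibility over the fraction field `k(T)`. -/
theorem irreducible_map_of_order (hφ : 0 < φ) (hP : P.Monic) (hdeg : P.natDegree = ψ)
    (hbound : ∀ i ≤ ψ, (P.coeff i).natDegree ≤ (ψ - i) * φ)
    (hc : ∃ c : k, c ≠ 0 ∧ P.coeff 0 = C c)
    (hj0 : jb ≠ 0) (hj : jb.order = -1)
    (hu : ∀ n : ℤ, n < (φ : ℤ) * ((ψ : ℤ) - 1) → ub.coeff n = 0)
    (hroot : P.eval₂ ((aeval jb : k[X] →ₐ[k] LaurentSeries k) : k[X] →+* LaurentSeries k) ub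
      = 0) : Irreducible (P.map (algebraMap k[X] (RatFunc k))) :=
  (hP.irreducible_iff_irreducible_map_fraction_map (K := RatFunc k)).mp
    (irreducible_of_order hφ hP hdeg hbound hc hj0 hj hu hroot)

/-- The kernel of `k[T][X] → k((q))`, `T ↦ jb`, `X ↦ ub` is generated by `P`. -/
theorem dvd_of_eval₂_eq_zero (hφ : 0 < φ) (hP : P.Monic) (hdeg : P.natDegree = ψ)
    (hbound : ∀ i ≤ ψ, (P.coeff i).natDegree ≤ (ψ - i) * φ)
    (hc : ∃ c : k, c ≠ 0 ∧ P.coeff 0 = C c)
    (hj0 : jb ≠ 0) (hj : jb.order = -1)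
    (hu : ∀ n : ℤ, n < (φ : ℤ) * ((ψ : ℤ) - 1) → ub.coeff n = 0)
    (hroot : P.eval₂ ((aeval jb : k[X] →ₐ[k] LaurentSeries k) : k[X] →+* LaurentSeries k) ub
      = 0) {Q : (k[X])[X]}
    (hQ : Q.eval₂ ((aeval jb : k[X] →ₐ[k] LaurentSeries k) : k[X] →+* LaurentSeries k) ub = 0) :
    P ∣ Q :=
  (irreducible_and_dvd_of_order hφ hP hdeg hbound hc hj0 hj hu hroot).2 Q hQ

/-- Degree form: `1, ub, …, ub^(ψ-1)` are linearly independent over `k[jb]`. -/
theorem natDegree_le_of_order (hφ : 0 < φ) (hP : P.Monic) (hdeg : P.natDegree = ψ)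
    (hbound : ∀ i ≤ ψ, (P.coeff i).natDegree ≤ (ψ - i) * φ)
    (hc : ∃ c : k, c ≠ 0 ∧ P.coeff 0 = C c)
    (hj0 : jb ≠ 0) (hj : jb.order = -1)
    (hu : ∀ n : ℤ, n < (φ : ℤ) * ((ψ : ℤ) - 1) → ub.coeff n = 0)
    (hroot : P.eval₂ ((aeval jb : k[X] →ₐ[k] LaurentSeries k) : k[X] →+* LaurentSeries k) ub
      = 0) {Q : (k[X])[X]} (hQ0 : Q ≠ 0)
    (hQ : Q.eval₂ ((aeval jb : k[X] →ₐ[k] LaurentSeries k) : k[X] →+* LaurentSeries k) ub = 0) :
    ψ ≤ Q.natDegree := by
  rw [← hdeg]
  exact natDegree_le_of_dvd (dvd_of_eval₂_eq_zero hφ hP hdeg hbound hc hj0 hj hu hroot hQ) hQ0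

/-- `jb` is transcendental over `k`. -/
theorem aeval_injective_of_order (hj0 : jb ≠ 0) (hj : jb.order = -1) :
    Function.Injective (aeval jb : k[X] →ₐ[k] LaurentSeries k) :=
  aeval_injective (laurentVal_algebraMap k) ⟨hj0, by rw [laurentVal_w, hj]; norm_num⟩

/-- `ord_q (p(jb)) = - deg p`. -/
theorem order_aeval_of_order (hj0 : jb ≠ 0) (hj : jb.order = -1) {p : k[X]} (hp : p ≠ 0) :
    (aeval jb p : LaurentSeries k) ≠ 0 ∧ (aeval jb p : LaurentSeries k).order = -(p.natDegree : ℤ) := by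
  have h := is_aeval (laurentVal_algebraMap k) (j := jb) ⟨hj0, by rw [laurentVal_w, hj]; norm_num⟩ hp
  refine ⟨h.1, ?_⟩
  have h2 := h.2
  rw [laurentVal_w] at h2
  exact_mod_cast h2

end Laurent

end Newton

end Fermat.Agent.S28
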