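import Mathlib
import Fermat.Prelude.Def_ModularCurve_LaurentCoeff

/-!
# S28: descent of algebraic relations between Laurent series along a field extension

Let `K / k` be a field extension and write `x ↦ x_K` for the coefficientwise embedding
`k((q)) → K((q))` (`ModularCurve.coeffMap (algebraMap k K)`).  A `k`-linear functional
`π : K → k` induces, coefficientwise, a `k((q))`-linear map `proj π : K((q)) → k((q))`:
`proj π (Z * y_K) = proj π Z * y`.  Consequences:

* `mem_adjoin_of_coeffMap_mem` : `k((q)) ∩ K(S_K) = k(S)` for every set `S ⊆ k((q))`;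
* `exists_map_eq_of_dvd` : if `j, u ∈ k((q))` and `P ∈ K[T][X]` is monic and generates the
  ideal of relations of `(j_K, u_K)`, then `P` has coefficients in `k` and the descended
  polynomial kills `(j, u)`.
-/

set_option autoImplicit false

open Polynomial

namespace Fermat.Agent.S28

namespace Descent

open ModularCurve

variable {k K : Type*} [Field k] [Field K] [Algebra k K]

/-- Coefficientwise application of a `k`-linear functional to a Laurent series. -/
noncomputable def proj (π : K →ₗ[k] k) (Z : LaurentSeries K) : LaurentSeries k := Z.map π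

@[simp] theorem proj_coeff (π : K →ₗ[k] k) (Z : LaurentSeries K) (n : ℤ) :
    (proj π Z).coeff n = π (Z.coeff n) := rfl

theorem proj_zero (π : K →ₗ[k] k) : proj π (0 : LaurentSeries K) = 0 := by
  ext n; simp

theorem proj_add (π : K →ₗ[k] k) (Z W : LaurentSeries K) :
    proj π (Z + W) = proj π Z + proj π W := by
  ext n; simp

theorem proj_sum {ι : Type*} (π : K →ₗ[k] k) (s : Finset ι) (f : ι → LaurentSeries K) :
    proj π (∑ i ∈ s, f i) = ∑ i ∈ s, proj π (f i) := by
  classical
  induction s using Finset.induction_on with
  | empty => simp [proj_zero]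
  | insert a s ha ih => rw [Finset.sum_insert ha, Finset.sum_insert ha, proj_add, ih]

theorem support_proj_subset (π : K →ₗ[k] k) (Z : LaurentSeries K) :
    (proj π Z).support ⊆ Z.support := by
  intro n hn
  rw [HahnSeries.mem_support] at hn ⊢
  intro h
  apply hn
  rw [proj_coeff, h, map_zero]

theorem support_coeffMap_subset (y : LaurentSeries k) :
    (coeffMap (algebraMap k K) y).support ⊆ y.support := by
  intro n hn
  rw [HahnSeries.mem_support] at hn ⊢
  intro h
  apply hn
  rw [coeffMap_coeff, h, map_zero]

/-- `proj π` is `k((q))`-linear. -/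
theorem proj_mul_coeffMap (π : K →ₗ[k] k) (Z : LaurentSeries K) (y : LaurentSeries k) :
    proj π (Z * coeffMap (algebraMap k K) y) = proj π Z * y := by
  ext n
  rw [proj_coeff,
    HahnSeries.coeff_mul_right' (x := Z) y.isPWO_support (support_coeffMap_subset y),
    HahnSeries.coeff_mul_left' (y := y) Z.isPWO_support (support_proj_subset π Z), map_sum]
  refine Finset.sum_congr rfl fun ij _ => ?_
  rw [proj_coeff, coeffMap_coeff, mul_comm (Z.coeff ij.1), ← Algebra.smul_def, map_smul,
    smul_eq_mul, mul_comm]

theorem coeffMap_injective : Function.Injective (coeffMap (algebraMap k K)) := by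
  intro x y h
  ext n
  have := congrArg (fun z : LaurentSeries K => z.coeff n) h
  simp only [coeffMap_coeff] at this
  exact (algebraMap k K).injective this

theorem proj_one (π : K →ₗ[k] k) :
    proj π (1 : LaurentSeries K) = algebraMap k (LaurentSeries k) (π 1) := by
  rw [algebraMap_laurentSeries_eq_single]
  ext n
  rw [proj_coeff, HahnSeries.coeff_one, HahnSeries.coeff_single]
  split_ifs with h
  · rfl
  · exact map_zero π

theorem proj_coeffMap (π : K →ₗ[k] k) (y : LaurentSeries k) :
    proj π (coeffMap (algebraMap k K) y) = algebraMap k (LaurentSeries k) (π 1) * y := by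
  have h := proj_mul_coeffMap π 1 y
  rwa [one_mul, proj_one] at h

/-- precomposition of a functional with multiplication by a scalar. -/
noncomputable def smulRight (π : K →ₗ[k] k) (c : K) : K →ₗ[k] k :=
  π ∘ₗ (LinearMap.mulLeft k c)

@[simp] theorem smulRight_apply (π : K →ₗ[k] k) (c x : K) : smulRight π c x = π (c * x) := rfl

theorem proj_algebraMap_mul (π : K →ₗ[k] k) (c : K) (Z : LaurentSeries K) :
    proj π (algebraMap K (LaurentSeries K) c * Z) = proj (smulRight π c) Z := by
  ext n
  rw [algebraMap_laurentSeries_eq_single, proj_coeff, proj_coeff, HahnSeries.coeff_single_zero_mul,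
    smulRight_apply]

/-- a functional which does not vanish at a given nonzero element. -/
theorem exists_functional_ne_zero {β : K} (hβ : β ≠ 0) : ∃ π : K →ₗ[k] k, π β = 1 := by
  have hinj : LinearMap.ker (LinearMap.toSpanSingleton k K β) = ⊥ := by
    rw [LinearMap.ker_eq_bot]
    intro a b hab
    simp only [LinearMap.toSpanSingleton_apply] at hab
    exact smul_left_injective k hβ hab
  obtain ⟨g, hg⟩ := LinearMap.exists_leftInverse_of_injective _ hinj
  refine ⟨g, ?_⟩
  have := congrArg (fun f : k →ₗ[k] k => f 1) hg
  simpa using this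

/-- Elements of the `K`-algebra generated by `S_K` project into the `k`-algebra generated
by `S`. -/
theorem proj_mem_adjoin (S : Set (LaurentSeries k)) {r : LaurentSeries K}
    (hr : r ∈ Algebra.adjoin K (coeffMap (algebraMap k K) '' S)) (π : K →ₗ[k] k) :
    proj π r ∈ Algebra.adjoin k S := by
  have hr' := hr
  rw [← Subalgebra.mem_toSubmodule, Algebra.adjoin_eq_span] at hr'
  clear hr
  induction hr' using Submodule.span_induction generalizing π with
  | mem x hx =>
    have hx' : x ∈ (Submonoid.closure S).map
        ((coeffMap (algebraMap k K) : LaurentSeries k →+* LaurentSeries K) :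
          LaurentSeries k →* LaurentSeries K) := by
      rw [MonoidHom.map_mclosure]; exact hx
    obtain ⟨m, hm, rfl⟩ := hx'
    have hm' : m ∈ Algebra.adjoin k S := by
      have : Submonoid.closure S ≤ (Algebra.adjoin k S).toSubmonoid :=
        Submonoid.closure_le.mpr Algebra.subset_adjoin
      exact this hm
    show proj π (coeffMap (algebraMap k K) m) ∈ Algebra.adjoin k S
    rw [proj_coeffMap]
    exact mul_mem (Subalgebra.algebraMap_mem _ _) hm'
  | zero => rw [proj_zero]; exact zero_mem _
  | add x y _ _ hx hy => rw [proj_add]; exact add_mem (hx π) (hy π)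
  | smul c x _ hx => rw [Algebra.smul_def, proj_algebraMap_mul]; exact hx _

/-- **Descent of field membership**: `k((q)) ∩ K(S_K) = k(S)`. -/
theorem mem_adjoin_of_coeffMap_mem (S : Set (LaurentSeries k)) (x : LaurentSeries k)
    (hx : coeffMap (algebraMap k K) x ∈
      IntermediateField.adjoin K (coeffMap (algebraMap k K) '' S)) :
    x ∈ IntermediateField.adjoin k S := by
  obtain ⟨r, hr, s, hs, hxrs⟩ := IntermediateField.mem_adjoin_iff_div.mp hx
  by_cases hs0 : s = 0
  · rw [hs0, div_zero] at hxrs
    have : x = 0 := coeffMap_injective (K := K) (by rw [hxrs, map_zero])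
    rw [this]; exact zero_mem _
  · have hmul : s * coeffMap (algebraMap k K) x = r := by
      rw [hxrs]; field_simp
    obtain ⟨n, hn⟩ : ∃ n, s.coeff n ≠ 0 := by
      by_contra hcon
      push Not at hcon
      exact hs0 (HahnSeries.ext (funext hcon))
    obtain ⟨π, hπ⟩ := exists_functional_ne_zero (k := k) hn
    have hps : proj π s ≠ 0 := by
      intro h0
      have := congrArg (fun z : LaurentSeries k => z.coeff n) h0
      simp only [proj_coeff, hπ, HahnSeries.coeff_zero] at this
      exact one_ne_zero this
    have hkey : proj π s * x = proj π r := by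
      rw [← proj_mul_coeffMap, hmul]
    have hx' : x = proj π r / proj π s := by
      rw [eq_div_iff hps, mul_comm]; exact hkey
    rw [hx']
    exact div_mem (IntermediateField.algebra_adjoin_le_adjoin k S (proj_mem_adjoin S hr π))
      (IntermediateField.algebra_adjoin_le_adjoin k S (proj_mem_adjoin S hs π))

/-! ### Descent of the minimal relation -/

/-- coefficientwise functional on polynomials. -/
noncomputable def polyProj (π : K →ₗ[k] k) : K[X] →+ k[X] where
  toFun p := p.sum fun m c => monomial m (π c)
  map_zero' := Polynomial.sum_zero_index _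
  map_add' p q := Polynomial.sum_add_index p q _ (fun m => by simp) (fun m a b => by simp)

theorem polyProj_monomial (π : K →ₗ[k] k) (m : ℕ) (c : K) :
    polyProj π (monomial m c) = monomial m (π c) := by
  show (monomial m c).sum (fun m c => monomial m (π c)) = _
  rw [Polynomial.sum_monomial_index]
  simp

theorem polyProj_coeff (π : K →ₗ[k] k) (p : K[X]) (m : ℕ) :
    (polyProj π p).coeff m = π (p.coeff m) := by
  induction p using Polynomial.induction_on' with
  | add p q hp hq => rw [map_add, coeff_add, coeff_add, map_add, hp, hq]
  | monomial n c =>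
    rw [polyProj_monomial, coeff_monomial, coeff_monomial]
    split_ifs
    · rfl
    · exact (map_zero π).symm

/-- coefficientwise functional on bivariate polynomials. -/
noncomputable def biProj (π : K →ₗ[k] k) : K[X][X] →+ k[X][X] where
  toFun P := P.sum fun i p => monomial i (polyProj π p)
  map_zero' := Polynomial.sum_zero_index _
  map_add' P Q := Polynomial.sum_add_index P Q _ (fun m => by simp) (fun m a b => by simp)

theorem biProj_monomial (π : K →ₗ[k] k) (i : ℕ) (p : K[X]) :
    biProj π (monomial i p) = monomial i (polyProj π p) := by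
  show (monomial i p).sum (fun i p => monomial i (polyProj π p)) = _
  rw [Polynomial.sum_monomial_index]
  simp

theorem biProj_coeff (π : K →ₗ[k] k) (P : K[X][X]) (i : ℕ) :
    (biProj π P).coeff i = polyProj π (P.coeff i) := by
  induction P using Polynomial.induction_on' with
  | add p q hp hq => rw [map_add, coeff_add, coeff_add, map_add, hp, hq]
  | monomial n c =>
    rw [biProj_monomial, coeff_monomial, coeff_monomial]
    split_ifs
    · rfl
    · exact (map_zero _).symm

theorem biProj_coeff_coeff (π : K →ₗ[k] k) (P : K[X][X]) (i m : ℕ) :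
    ((biProj π P).coeff i).coeff m = π ((P.coeff i).coeff m) := by
  rw [biProj_coeff, polyProj_coeff]

variable (j u : LaurentSeries k)

/-- evaluation `k[T][X] → k((q))`, `T ↦ j`, `X ↦ u` (the shape used in `S28.Newton`). -/
noncomputable abbrev evalAt (j u : LaurentSeries k) (P : k[X][X]) : LaurentSeries k :=
  P.eval₂ ((aeval j : k[X] →ₐ[k] LaurentSeries k) : k[X] →+* LaurentSeries k) u

theorem proj_aeval_mul (π : K →ₗ[k] k) (p : K[X]) (y : LaurentSeries k) :
    proj π (aeval (coeffMap (algebraMap k K) j) p * coeffMap (algebraMap k K) y) =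
      aeval j (polyProj π p) * y := by
  induction p using Polynomial.induction_on' with
  | add p q hp hq => rw [map_add, add_mul, proj_add, hp, hq, map_add, map_add, add_mul]
  | monomial n c =>
    rw [polyProj_monomial, aeval_monomial, aeval_monomial, ← map_pow, mul_assoc, ← map_mul,
      proj_algebraMap_mul, proj_coeffMap, smulRight_apply, mul_one, mul_assoc]

theorem proj_evalAt (π : K →ₗ[k] k) (P : K[X][X]) :
    proj π (evalAt (coeffMap (algebraMap k K) j) (coeffMap (algebraMap k K) u) P) =
      evalAt j u (biProj π P) := by
  induction P using Polynomial.induction_on' with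
  | add p q hp hq =>
    simp only [evalAt] at hp hq ⊢
    rw [eval₂_add, proj_add, hp, hq, map_add, eval₂_add]
  | monomial n p =>
    simp only [evalAt]
    rw [biProj_monomial, eval₂_monomial, eval₂_monomial, ← map_pow]
    exact proj_aeval_mul j π p (u ^ n)

theorem coeffMap_aeval (p : k[X]) :
    coeffMap (algebraMap k K) (aeval j p) =
      aeval (coeffMap (algebraMap k K) j) (p.map (algebraMap k K)) := by
  induction p using Polynomial.induction_on' with
  | add p q hp hq => rw [map_add, map_add, hp, hq, Polynomial.map_add, map_add]
  | monomial n c =>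
    rw [aeval_monomial, map_monomial, aeval_monomial, map_mul, map_pow]
    congr 1
    rw [algebraMap_laurentSeries_eq_single, algebraMap_laurentSeries_eq_single, coeffMap_single]

theorem coeffMap_evalAt (P : k[X][X]) :
    coeffMap (algebraMap k K) (evalAt j u P) =
      evalAt (coeffMap (algebraMap k K) j) (coeffMap (algebraMap k K) u)
        (P.map (mapRingHom (algebraMap k K))) := by
  induction P using Polynomial.induction_on' with
  | add p q hp hq =>
    simp only [evalAt] at hp hq ⊢
    rw [eval₂_add, map_add, hp, hq, Polynomial.map_add, eval₂_add]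
  | monomial n p =>
    simp only [evalAt]
    rw [eval₂_monomial, map_monomial, eval₂_monomial, map_mul, map_pow]
    congr 1
    exact coeffMap_aeval j p

/-- **Descent of the minimal relation.**  If `P ∈ K[T][X]` is monic, kills `(j_K, u_K)` and
divides every relation of `(j_K, u_K)`, then `P` is defined over `k` and the descended
polynomial kills `(j, u)`. -/
theorem exists_map_eq_of_dvd (P : K[X][X]) (hP : P.Monic)
    (hroot : evalAt (coeffMap (algebraMap k K) j) (coeffMap (algebraMap k K) u) P = 0)
    (huniq : ∀ Q : K[X][X],
      evalAt (coeffMap (algebraMap k K) j) (coeffMap (algebraMap k K) u) Q = 0 → P ∣ Q) :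
    ∃ P₀ : k[X][X], P₀.map (mapRingHom (algebraMap k K)) = P ∧ P₀.Monic ∧
      P₀.natDegree = P.natDegree ∧ evalAt j u P₀ = 0 := by
  obtain ⟨π, hπ⟩ := exists_functional_ne_zero (k := k) (K := K) (β := 1) one_ne_zero
  set P₀ : k[X][X] := biProj π P with hP₀
  have hev : evalAt j u P₀ = 0 := by
    rw [hP₀, ← proj_evalAt, hroot, proj_zero]
  -- degree and leading coefficient
  have hcoeff : ∀ i, P₀.coeff i = polyProj π (P.coeff i) := fun i => biProj_coeff π P i
  have hlead : P₀.coeff P.natDegree = 1 := by
    rw [hcoeff, hP.coeff_natDegree]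
    ext m
    rw [polyProj_coeff, coeff_one, coeff_one]
    split_ifs
    · exact hπ
    · exact map_zero π
  have hdegle : P₀.natDegree ≤ P.natDegree := by
    refine natDegree_le_iff_coeff_eq_zero.mpr fun i hi => ?_
    rw [hcoeff, coeff_eq_zero_of_natDegree_lt hi, map_zero]
  have hdeg : P₀.natDegree = P.natDegree := by
    refine le_antisymm hdegle (le_natDegree_of_ne_zero ?_)
    rw [hlead]; exact one_ne_zero
  have hmonic : P₀.Monic := by
    rw [Monic, leadingCoeff, hdeg, hlead]
  -- the image of `P₀` over `K` is a monic relation of the same degree, hence equals `P`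
  set Q : K[X][X] := P₀.map (mapRingHom (algebraMap k K)) with hQ
  have hQmonic : Q.Monic := hmonic.map _
  have hQdeg : Q.natDegree = P.natDegree := by rw [hQ, hmonic.natDegree_map, hdeg]
  have hQroot : evalAt (coeffMap (algebraMap k K) j) (coeffMap (algebraMap k K) u) Q = 0 := by
    rw [hQ, ← coeffMap_evalAt, hev, map_zero]
  have hdvd : P ∣ Q := huniq Q hQroot
  have hPQ : Q = P :=
    eq_of_monic_of_dvd_of_natDegree_le hP hQmonic hdvd hQdeg.le
  exact ⟨P₀, hPQ, hmonic, hdeg, hev⟩

end Descent

end Fermat.Agent.S28
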