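import Mathlib
import Fermat.Agent.S28.Newton
import Fermat.Agent.S28.Descent
import Fermat.Agent.S24.Bridge

/-!
# S28 (AFinal, core): from the analytic norm relation to the relation over `ℚ`

Let `F` be a weakly holomorphic function of period `1` on the upper half plane whose
`q`-expansion is (the image of) an integer Laurent series `u`, vanishing below `φ (ψ - 1)`.
Let `p ∈ ℂ[T][X]` be monic of degree `ψ` with `deg (coeff p i) ≤ (ψ - i) φ`, nonzero constant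
constant term, and `p(j, F) = 0` as functions on the upper half plane.  Then `p` is defined
over `ℚ`: there is `P ∈ ℚ[T][X]` with the same shape, `P.map = p`, and `P(jq, u) = 0` in
`ℚ((q))`.

* `transfer`: a relation over `ℂ[j]` between functions passes to `q`-expansions.
* `exists_rat_relation`: the descent statement above (Newton uniqueness over `ℂ` + descent).
-/

set_option autoImplicit false

open Polynomial

namespace Fermat.Agent.S28

namespace AFinal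

open UpperHalfPlane ModularCurve
open Fermat.Agent.S23 Fermat.Agent.S24

/-- A relation with coefficients in `ℂ[j]` satisfied by a weakly holomorphic function of
period `1` passes to the `q`-expansions. -/
theorem transfer {F : ℍ → ℂ} (hF : IsWH 1 F) (p : ℂ[X][X])
    (h : p.eval₂ (aeval jFun : ℂ[X] →ₐ[ℂ] (ℍ → ℂ)).toRingHom F = 0) :
    p.eval₂ ((aeval (jqModC ℂ) : ℂ[X] →ₐ[ℂ] LaurentSeries ℂ) : ℂ[X] →+* LaurentSeries ℂ)
      (qLaurent 1 F) = 0 := by
  set A := WH 1 one_pos with hA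
  set jA : A := ⟨jFun, Bridge.isWH_jFun⟩ with hjA
  set FA : A := ⟨F, hF⟩ with hFA
  have h1 : p.eval₂ (aeval jA : ℂ[X] →ₐ[ℂ] A).toRingHom FA = 0 := by
    apply Subtype.val_injective
    have e1 := Polynomial.hom_eval₂ p (aeval jA : ℂ[X] →ₐ[ℂ] A).toRingHom A.val.toRingHom FA
    have e2 : A.val.toRingHom.comp (aeval jA : ℂ[X] →ₐ[ℂ] A).toRingHom =
        (aeval jFun : ℂ[X] →ₐ[ℂ] (ℍ → ℂ)).toRingHom := by
      have e3 : (aeval jFun : ℂ[X] →ₐ[ℂ] (ℍ → ℂ)) = A.val.comp (aeval jA) := by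
        rw [← Polynomial.aeval_algHom]
        rfl
      rw [e3]
      rfl
    rw [e2] at e1
    exact e1.trans h
  have e1 := Polynomial.hom_eval₂ p (aeval jA : ℂ[X] →ₐ[ℂ] A).toRingHom
    (qL 1 one_pos).toRingHom FA
  rw [h1, map_zero] at e1
  have e2 : (qL 1 one_pos).toRingHom.comp (aeval jA : ℂ[X] →ₐ[ℂ] A).toRingHom =
      ((aeval (jqModC ℂ) : ℂ[X] →ₐ[ℂ] LaurentSeries ℂ) : ℂ[X] →+* LaurentSeries ℂ) := by
    have e3 : (aeval (jqModC ℂ) : ℂ[X] →ₐ[ℂ] LaurentSeries ℂ) =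
        (qL 1 one_pos).comp (aeval jA) := by
      rw [← Polynomial.aeval_algHom]
      congr 1
      rw [qL_apply]
      exact Bridge.qLaurent_jFun.symm
    rw [e3]
    rfl
  rw [e2] at e1
  exact e1.symm

theorem coeffMap_jq : coeffMap (algebraMap ℚ ℂ) jq = jqModC ℂ := by
  rw [← jqModC_rat]
  exact map_jqModC (algebraMap ℚ ℂ)

theorem order_eq_of_coeff {R : Type*} [Zero R] {x : LaurentSeries R} {n : ℤ}
    (hn : x.coeff n ≠ 0) (hlt : ∀ m : ℤ, m < n → x.coeff m = 0) : x ≠ 0 ∧ x.order = n := by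
  have hx : x ≠ 0 := by
    rintro rfl
    exact hn rfl
  refine ⟨hx, le_antisymm (HahnSeries.order_le_of_coeff_ne_zero hn) ?_⟩
  by_contra hlt'
  exact hx (HahnSeries.coeff_order_eq_zero.mp (hlt _ (not_le.mp hlt')))

theorem jqModC_ne_zero_and_order : jqModC ℂ ≠ 0 ∧ (jqModC ℂ).order = -1 := by
  rw [← coeffMap_jq]
  refine order_eq_of_coeff ?_ fun m hm => ?_
  · rw [coeffMap_coeff, coeff_jq_neg_one, map_one]
    exact one_ne_zero
  · rw [coeffMap_coeff, coeff_jq_of_lt hm, map_zero]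

/-- **Descent of the analytic norm relation to `ℚ`.** -/
theorem exists_rat_relation {F : ℍ → ℂ} (hF : IsWH 1 F) (u : LaurentSeries ℤ)
    (hu : qLaurent 1 F = coeffMap (Int.castRingHom ℂ) u) {φ ψ : ℕ} (hφ : 0 < φ)
    (hord : ∀ n : ℤ, n < (φ : ℤ) * ((ψ : ℤ) - 1) → u.coeff n = 0)
    (p : ℂ[X][X]) (hp : p.Monic) (hdeg : p.natDegree = ψ)
    (hbound : ∀ i ≤ ψ, (p.coeff i).natDegree ≤ (ψ - i) * φ)
    (hc : ∃ c : ℂ, c ≠ 0 ∧ p.coeff 0 = C c)
    (hroot : p.eval₂ (aeval jFun : ℂ[X] →ₐ[ℂ] (ℍ → ℂ)).toRingHom F = 0) :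
    ∃ P : ℚ[X][X], P.map (mapRingHom (algebraMap ℚ ℂ)) = p ∧ P.Monic ∧ P.natDegree = ψ ∧
      (∀ i ≤ ψ, (P.coeff i).natDegree ≤ (ψ - i) * φ) ∧
      (∃ c : ℚ, c ≠ 0 ∧ P.coeff 0 = C c ∧ p.coeff 0 = C (algebraMap ℚ ℂ c)) ∧
      (∀ i k, algebraMap ℚ ℂ ((P.coeff i).coeff k) = (p.coeff i).coeff k) ∧
      P.eval₂ ((aeval jq : ℚ[X] →ₐ[ℚ] LaurentSeries ℚ) : ℚ[X] →+* LaurentSeries ℚ)
        (coeffMap (Int.castRingHom ℚ) u) = 0 := by
  set u₀ : LaurentSeries ℚ := coeffMap (Int.castRingHom ℚ) u with hu₀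
  have huK : coeffMap (algebraMap ℚ ℂ) u₀ = coeffMap (Int.castRingHom ℂ) u := by
    rw [hu₀, coeffMap_coeffMap]
    exact coeffMap_congr (RingHom.ext_int _ _) u
  have hrootK : Descent.evalAt (coeffMap (algebraMap ℚ ℂ) jq) (coeffMap (algebraMap ℚ ℂ) u₀) p
      = 0 := by
    rw [huK, coeffMap_jq, ← hu]
    exact transfer hF p hroot
  have hordK : ∀ n : ℤ, n < (φ : ℤ) * ((ψ : ℤ) - 1) →
      (coeffMap (algebraMap ℚ ℂ) u₀).coeff n = 0 := by
    intro n hn
    rw [huK, coeffMap_coeff, hord n hn, map_zero]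
  have hj0 : coeffMap (algebraMap ℚ ℂ) jq ≠ 0 := by
    rw [coeffMap_jq]
    exact jqModC_ne_zero_and_order.1
  have hj1 : (coeffMap (algebraMap ℚ ℂ) jq).order = -1 := by
    rw [coeffMap_jq]
    exact jqModC_ne_zero_and_order.2
  obtain ⟨P, hPmap, hPmonic, hPdeg, hPev⟩ := Descent.exists_map_eq_of_dvd jq u₀ p hp hrootK
    (fun Q hQ => Newton.dvd_of_eval₂_eq_zero hφ hp hdeg hbound hc hj0 hj1 hordK hrootK hQ)
  have hcoeff : ∀ i, (P.coeff i).map (algebraMap ℚ ℂ) = p.coeff i := by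
    intro i
    rw [← hPmap, coeff_map, coe_mapRingHom]
  have hcc : ∀ i k, algebraMap ℚ ℂ ((P.coeff i).coeff k) = (p.coeff i).coeff k := by
    intro i k
    rw [← hcoeff i, coeff_map]
  have hnat : ∀ i, (P.coeff i).natDegree = (p.coeff i).natDegree := by
    intro i
    rw [← hcoeff i, natDegree_map_eq_of_injective (algebraMap ℚ ℂ).injective]
  refine ⟨P, hPmap, hPmonic, hPdeg.trans hdeg, fun i hi => ?_, ?_, hcc, hPev⟩
  · rw [hnat i]
    exact hbound i hi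
  · obtain ⟨c, hc0, hcp⟩ := hc
    have h0 : (P.coeff 0).natDegree = 0 := by
      rw [hnat 0, hcp, natDegree_C]
    have h1 : P.coeff 0 = C ((P.coeff 0).coeff 0) := eq_C_of_natDegree_eq_zero h0
    have h2 : algebraMap ℚ ℂ ((P.coeff 0).coeff 0) = c := by
      rw [hcc 0 0, hcp, coeff_C_zero]
    refine ⟨(P.coeff 0).coeff 0, ?_, h1, ?_⟩
    · intro h
      rw [h, map_zero] at h2
      exact hc0 h2.symm
    · rw [h2, hcp]

end AFinal

end Fermat.Agent.S28
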