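import Mathlib
import Fermat.Agent.S24.NormPoly

/-!
# S28, package NormGen: the generic norm polynomial over `ℂ[j]`

For holomorphic `Γ₀(N)`-invariant functions on the upper half plane all of whose
`SL(2, ℤ)`-translates have at most exponential growth at `i∞`:

* `exists_monic_poly_of_invariant`: every polynomial expression in such functions is a root of a
  monic polynomial of degree `[SL(2, ℤ) : Γ₀(N)]` with coefficients in `ℂ[j]`;
* `exists_monic_poly_of_bounds`: for a single nonvanishing function whose translates are all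
  `O(exp (2π a y))` and which itself is `O(exp (-2π b y))` with `a (ψ - 1) ≤ b`, the coefficient of
  `X ^ i` of the norm polynomial has degree at most `(ψ - i) a` in `j`, and the constant
  coefficient is a nonzero constant.

The norm polynomial is `∏ (X - F ∘ g)` over coset representatives; its coefficients are
holomorphic `SL(2, ℤ)`-invariant functions of exponential growth, hence polynomials in `j`.
-/

set_option autoImplicit false

open UpperHalfPlane ModularForm EisensteinSeries ModularCurve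
open scoped MatrixGroups Real Manifold

namespace Fermat.Agent.S28.NormGen

open Fermat.Agent.S24 Fermat.Agent.S24.NormPoly Fermat.Agent.S23.Coset

/-! ### Translates -/

/-- The translate `z ↦ F (g z)` of a function on the upper half plane. -/
noncomputable def tr (F : ℍ → ℂ) (g : SL(2, ℤ)) : ℍ → ℂ := fun z => F (g • z)

theorem tr_apply (F : ℍ → ℂ) (g : SL(2, ℤ)) (z : ℍ) : tr F g z = F (g • z) := rfl

theorem tr_one (F : ℍ → ℂ) : tr F 1 = F := by
  funext z
  rw [tr_apply, one_smul]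

theorem tr_mul (F : ℍ → ℂ) (g γ : SL(2, ℤ)) (z : ℍ) : tr F (g * γ) z = tr F g (γ • z) := by
  rw [tr_apply, tr_apply, mul_smul]

theorem mdiff_tr {F : ℍ → ℂ} (hF : MDiff F) (g : SL(2, ℤ)) : MDiff (tr F g) :=
  hF.comp (mdifferentiable_smul (g := (g : GL (Fin 2) ℝ)) (by simp))

section Invariant

variable {N : ℕ} {F : ℍ → ℂ}

theorem tr_Gamma0_mul
    (hinv : ∀ δ ∈ CongruenceSubgroup.Gamma0 N, ∀ z : ℍ, F (δ • z) = F z)
    {δ : SL(2, ℤ)} (hδ : δ ∈ CongruenceSubgroup.Gamma0 N) (g : SL(2, ℤ)) :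
    tr F (δ * g) = tr F g := by
  funext z
  rw [tr_apply, tr_apply, mul_smul, hinv δ hδ]

theorem tr_out_inv
    (hinv : ∀ δ ∈ CongruenceSubgroup.Gamma0 N, ∀ z : ℍ, F (δ • z) = F z) (g : SL(2, ℤ)) :
    tr F ((QuotientGroup.mk g : X0 N).out)⁻¹ = tr F g⁻¹ := by
  obtain ⟨h, hh⟩ := QuotientGroup.mk_out_eq_mul (CongruenceSubgroup.Gamma0 N) g
  rw [hh, mul_inv_rev]
  exact tr_Gamma0_mul hinv (inv_mem h.2) g⁻¹

/-- The translate attached to a coset moves with the coset. -/
theorem tr_out_inv_smul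
    (hinv : ∀ δ ∈ CongruenceSubgroup.Gamma0 N, ∀ z : ℍ, F (δ • z) = F z)
    (q : X0 N) (γ : SL(2, ℤ)) (z : ℍ) :
    tr F (q.out)⁻¹ (γ • z) = tr F ((γ⁻¹ • q).out)⁻¹ z := by
  rw [← tr_mul]
  have h1 : (γ⁻¹ • q) = (QuotientGroup.mk (γ⁻¹ * q.out) : X0 N) := by
    conv_lhs => rw [← QuotientGroup.out_eq' q]
    rfl
  have h2 := tr_out_inv hinv (γ⁻¹ * q.out)
  rw [← h1, mul_inv_rev, inv_inv] at h2
  rw [h2]

theorem tr_out_inv_one
    (hinv : ∀ δ ∈ CongruenceSubgroup.Gamma0 N, ∀ z : ℍ, F (δ • z) = F z) :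
    tr F ((QuotientGroup.mk 1 : X0 N).out)⁻¹ = F := by
  rw [tr_out_inv hinv, inv_one, tr_one]

end Invariant

/-! ### Growth classes -/

/-- `f` is `O(exp (2π m y))` on `1 ≤ y = im z`. -/
def GrowLe (m : ℕ) (f : ℍ → ℂ) : Prop :=
  ∃ C : ℝ, ∀ z : ℍ, 1 ≤ z.im → ‖f z‖ ≤ C * Real.exp (2 * π * m * z.im)

theorem GrowLe.zero (m : ℕ) : GrowLe m (0 : ℍ → ℂ) :=
  ⟨0, fun z _ => by simp⟩

theorem GrowLe.one : GrowLe 0 (1 : ℍ → ℂ) :=
  ⟨1, fun z _ => by simp⟩

theorem GrowLe.neg {m : ℕ} {f : ℍ → ℂ} (hf : GrowLe m f) : GrowLe m (-f) := by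
  obtain ⟨C, hC⟩ := hf
  exact ⟨C, fun z hz => by rw [Pi.neg_apply, norm_neg]; exact hC z hz⟩

theorem GrowLe.add {m : ℕ} {f g : ℍ → ℂ} (hf : GrowLe m f) (hg : GrowLe m g) :
    GrowLe m (f + g) := by
  obtain ⟨C1, h1⟩ := hf
  obtain ⟨C2, h2⟩ := hg
  refine ⟨C1 + C2, fun z hz => ?_⟩
  rw [Pi.add_apply]
  calc ‖f z + g z‖ ≤ ‖f z‖ + ‖g z‖ := norm_add_le _ _
    _ ≤ C1 * Real.exp (2 * π * m * z.im) + C2 * Real.exp (2 * π * m * z.im) :=
        add_le_add (h1 z hz) (h2 z hz)
    _ = (C1 + C2) * Real.exp (2 * π * m * z.im) := by ring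

theorem GrowLe.sub {m : ℕ} {f g : ℍ → ℂ} (hf : GrowLe m f) (hg : GrowLe m g) :
    GrowLe m (f - g) := by
  rw [sub_eq_add_neg]
  exact hf.add hg.neg

theorem GrowLe.mul {m n : ℕ} {f g : ℍ → ℂ} (hf : GrowLe m f) (hg : GrowLe n g) :
    GrowLe (m + n) (f * g) := by
  obtain ⟨C1, h1⟩ := hf
  obtain ⟨C2, h2⟩ := hg
  refine ⟨|C1| * |C2|, fun z hz => ?_⟩
  have e : Real.exp (2 * π * ((m + n : ℕ) : ℝ) * z.im) =
      Real.exp (2 * π * m * z.im) * Real.exp (2 * π * n * z.im) := by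
    rw [← Real.exp_add]
    congr 1
    push_cast
    ring
  have h1' : ‖f z‖ ≤ |C1| * Real.exp (2 * π * m * z.im) :=
    (h1 z hz).trans (mul_le_mul_of_nonneg_right (le_abs_self C1) (Real.exp_pos _).le)
  have h2' : ‖g z‖ ≤ |C2| * Real.exp (2 * π * n * z.im) :=
    (h2 z hz).trans (mul_le_mul_of_nonneg_right (le_abs_self C2) (Real.exp_pos _).le)
  rw [Pi.mul_apply, norm_mul, e]
  calc ‖f z‖ * ‖g z‖
      ≤ (|C1| * Real.exp (2 * π * m * z.im)) * (|C2| * Real.exp (2 * π * n * z.im)) :=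
        mul_le_mul h1' h2' (norm_nonneg _) (mul_nonneg (abs_nonneg _) (Real.exp_pos _).le)
    _ = |C1| * |C2| * (Real.exp (2 * π * m * z.im) * Real.exp (2 * π * n * z.im)) := by ring

theorem GrowLe.isGrow {m : ℕ} {f : ℍ → ℂ} (hf : GrowLe m f) (hmd : MDiff f) : IsGrow f := by
  obtain ⟨C, hC⟩ := hf
  exact ⟨hmd, m, |C|, abs_nonneg C, fun z hz =>
    (hC z hz).trans (mul_le_mul_of_nonneg_right (le_abs_self C) (Real.exp_pos _).le)⟩

/-- Growth of the coefficients of `∏ (X - c q)` when every `c q` is `O(exp (2π a y))`. -/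
theorem growLe_coeff_prod {κ : Type*} [DecidableEq κ] (c : κ → ℍ → ℂ) (a : ℕ)
    (hc : ∀ q, GrowLe a (c q)) (s : Finset κ) :
    ∀ k ≤ s.card, GrowLe ((s.card - k) * a)
      ((∏ q ∈ s, (Polynomial.X - Polynomial.C (c q))).coeff k) := by
  induction s using Finset.induction_on with
  | empty =>
    intro k hk
    have hk0 : k = 0 := by simpa using hk
    subst hk0
    simpa using GrowLe.one
  | insert q0 s hq0 ih =>
    intro k hk
    rw [Finset.card_insert_of_notMem hq0] at hk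
    rw [Finset.prod_insert hq0, Finset.card_insert_of_notMem hq0,
      mul_comm (Polynomial.X - Polynomial.C (c q0))]
    set Q : Polynomial (ℍ → ℂ) := ∏ q ∈ s, (Polynomial.X - Polynomial.C (c q)) with hQ
    have hQdeg : Q.natDegree ≤ s.card := by
      rw [hQ]
      refine (Polynomial.natDegree_prod_le _ _).trans ?_
      refine (Finset.sum_le_card_nsmul _ _ 1 fun q _ => ?_).trans (by simp)
      exact Polynomial.natDegree_X_sub_C_le _
    cases k with
    | zero =>
      rw [Polynomial.mul_coeff_zero]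
      have h1 : (Polynomial.X - Polynomial.C (c q0)).coeff 0 = -c q0 := by simp
      rw [h1, Nat.sub_zero]
      have h2 := (ih 0 (Nat.zero_le _)).mul (hc q0).neg
      rw [Nat.sub_zero] at h2
      have e : s.card * a + a = (s.card + 1) * a := by ring
      rwa [e] at h2
    | succ k =>
      rw [Polynomial.coeff_mul_X_sub_C]
      have hk' : k ≤ s.card := by omega
      have e1 : s.card + 1 - (k + 1) = s.card - k := by omega
      rw [e1]
      refine (ih k hk').sub ?_
      by_cases hk1 : k + 1 ≤ s.card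
      · have h2 := (ih (k + 1) hk1).mul (hc q0)
        have e : (s.card - (k + 1)) * a + a = (s.card - k) * a := by
          have : s.card - k = (s.card - (k + 1)) + 1 := by omega
          rw [this]
          ring
        rwa [e] at h2
      · have h0 : Q.coeff (k + 1) = 0 :=
          Polynomial.coeff_eq_zero_of_natDegree_lt (by omega)
        rw [h0, zero_mul]
        exact GrowLe.zero _

/-! ### Abstract conjugate families -/

section Abstract

variable (N : ℕ) [NeZero N]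

attribute [local instance] fintypeX0

/-- A family of functions indexed by the cosets of `Γ₀(N)` which is permuted by `SL(2, ℤ)` and
consists of holomorphic functions of exponential growth. -/
structure IsConjFamily (c : X0 N → ℍ → ℂ) : Prop where
  grow : ∀ q, IsGrow (c q)
  smul : ∀ (q : X0 N) (γ : SL(2, ℤ)) (z : ℍ), c q (γ • z) = c (γ⁻¹ • q) z

variable {N} {c : X0 N → ℍ → ℂ}

theorem IsConjFamily.coeff_mem (hc : IsConjFamily N c) (k : ℕ) : (NP c).coeff k ∈ growAlg := by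
  classical
  set c' : X0 N → growAlg := fun q => ⟨c q, hc.grow q⟩ with hc'
  have h : NP c = (NP c').map growAlg.val.toRingHom := by
    rw [NP_map]
    rfl
  rw [h, Polynomial.coeff_map]
  exact ((NP c').coeff k).2

theorem coeff_NP_apply (c : X0 N → ℍ → ℂ) (k : ℕ) (z : ℍ) :
    (NP c).coeff k z = (NP (fun q : X0 N => c q z)).coeff k := by
  classical
  have h := NP_map (Pi.evalRingHom (fun _ : ℍ => ℂ) z) c
  have h2 := congrArg (fun p => p.coeff k) h
  simp only [Polynomial.coeff_map] at h2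
  exact h2

theorem IsConjFamily.coeff_smul (hc : IsConjFamily N c) (k : ℕ) (γ : SL(2, ℤ)) (z : ℍ) :
    (NP c).coeff k (γ • z) = (NP c).coeff k z := by
  classical
  rw [coeff_NP_apply, coeff_NP_apply]
  have h1 : (fun q : X0 N => c q (γ • z)) = fun q : X0 N => c (MulAction.toPerm γ⁻¹ q) z :=
    funext fun q => hc.smul q γ z
  rw [h1, NP_comp_equiv (MulAction.toPerm γ⁻¹) (fun q : X0 N => c q z)]

/-- A coefficient of the norm polynomial which is `O(exp (2π M y))` is a polynomial of degree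
at most `M` in `j`. -/
theorem IsConjFamily.exists_poly_coeff_of_growLe (hc : IsConjFamily N c) (k : ℕ) {M : ℕ}
    (hM : GrowLe M ((NP c).coeff k)) :
    ∃ p : Polynomial ℂ, p.natDegree ≤ M ∧ (NP c).coeff k = Polynomial.aeval jFun p := by
  obtain ⟨hmd, -⟩ := hc.coeff_mem k
  obtain ⟨C, hC⟩ := hM
  obtain ⟨p, hpdeg, hp⟩ := Fermat.Agent.S23.exists_polynomial_of_invariant _ hmd
    (hc.coeff_smul k) M C hC
  refine ⟨p, hpdeg, funext fun z => ?_⟩
  rw [hp z]
  have h := Polynomial.aeval_algHom_apply (Pi.evalAlgHom ℂ (fun _ : ℍ => ℂ) z) jFun p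
  exact h

/-- Each coefficient of the norm polynomial is a polynomial in `j`. -/
theorem IsConjFamily.exists_poly_coeff (hc : IsConjFamily N c) (k : ℕ) :
    ∃ p : Polynomial ℂ, (NP c).coeff k = Polynomial.aeval jFun p := by
  obtain ⟨-, M, C, -, hgrow⟩ := hc.coeff_mem k
  obtain ⟨p, -, hp⟩ := hc.exists_poly_coeff_of_growLe k (M := M) ⟨C, hgrow⟩
  exact ⟨p, hp⟩

/-- Assembling the norm polynomial over `ℂ[j]` from its coefficients. -/
theorem exists_poly_of_coeffs (c : X0 N → ℍ → ℂ) (pk : ℕ → Polynomial ℂ)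
    (hpk : ∀ k < Nat.card (X0 N), (NP c).coeff k = Polynomial.aeval jFun (pk k)) :
    ∃ p : Polynomial (Polynomial ℂ), p.Monic ∧ p.natDegree = Nat.card (X0 N) ∧
      (∀ k < Nat.card (X0 N), p.coeff k = pk k) ∧
      p.map (Polynomial.aeval jFun : Polynomial ℂ →ₐ[ℂ] (ℍ → ℂ)).toRingHom = NP c := by
  classical
  set n : ℕ := Nat.card (X0 N) with hn
  set r : Polynomial (Polynomial ℂ) :=
    ∑ k ∈ Finset.range n, Polynomial.C (pk k) * Polynomial.X ^ k with hr
  have hdeg : r.degree < (n : WithBot ℕ) := by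
    refine lt_of_le_of_lt (Polynomial.degree_sum_le _ _) ?_
    refine (Finset.sup_lt_iff (WithBot.bot_lt_coe n)).mpr fun k hk => ?_
    exact lt_of_le_of_lt (Polynomial.degree_C_mul_X_pow_le k _)
      (WithBot.coe_lt_coe.mpr (Finset.mem_range.mp hk))
  have hNPdeg : (NP c).natDegree = n := by
    rw [NP_natDegree, hn, Nat.card_eq_fintype_card]
  refine ⟨Polynomial.X ^ n + r, Polynomial.monic_X_pow_add hdeg, ?_, ?_, ?_⟩
  · refine Polynomial.natDegree_eq_of_degree_eq_some ?_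
    rw [Polynomial.degree_add_eq_left_of_degree_lt (by rwa [Polynomial.degree_X_pow]),
      Polynomial.degree_X_pow]
  · intro k hk
    rw [Polynomial.coeff_add, Polynomial.coeff_X_pow, if_neg (Nat.ne_of_lt hk), zero_add, hr,
      Polynomial.finsetSum_coeff]
    rw [Finset.sum_eq_single k]
    · rw [Polynomial.coeff_C_mul, Polynomial.coeff_X_pow, if_pos rfl, mul_one]
    · intro b _ hb
      rw [Polynomial.coeff_C_mul, Polynomial.coeff_X_pow, if_neg (Ne.symm hb), mul_zero]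
    · intro hk'
      exact absurd (Finset.mem_range.mpr hk) hk'
  · have h1 := (NP_monic c).as_sum
    rw [hNPdeg] at h1
    rw [h1, hr, Polynomial.map_add, Polynomial.map_pow, Polynomial.map_X, Polynomial.map_sum]
    congr 1
    refine Finset.sum_congr rfl fun k hk => ?_
    rw [Polynomial.map_mul, Polynomial.map_pow, Polynomial.map_X, Polynomial.map_C,
      hpk k (Finset.mem_range.mp hk)]
    rfl

/-- The norm polynomial of a conjugate family has coefficients in `ℂ[j]`. -/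
theorem IsConjFamily.exists_poly (hc : IsConjFamily N c) :
    ∃ p : Polynomial (Polynomial ℂ), p.Monic ∧ p.natDegree = Nat.card (X0 N) ∧
      p.map (Polynomial.aeval jFun : Polynomial ℂ →ₐ[ℂ] (ℍ → ℂ)).toRingHom = NP c := by
  choose pk hpk using hc.exists_poly_coeff
  obtain ⟨p, h1, h2, -, h3⟩ := exists_poly_of_coeffs c pk (fun k _ => hpk k)
  exact ⟨p, h1, h2, h3⟩

/-- A polynomial over `ℂ[j]` mapping to the norm polynomial kills every member of the family. -/
theorem eval₂_eq_zero_of_map_eq (c : X0 N → ℍ → ℂ) (p : Polynomial (Polynomial ℂ))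
    (hp : p.map (Polynomial.aeval jFun : Polynomial ℂ →ₐ[ℂ] (ℍ → ℂ)).toRingHom = NP c)
    (q : X0 N) :
    Polynomial.eval₂ (Polynomial.aeval jFun : Polynomial ℂ →ₐ[ℂ] (ℍ → ℂ)).toRingHom (c q) p
      = 0 := by
  classical
  rw [← Polynomial.eval_map, hp]
  exact eval_NP_self c q

end Abstract

/-! ### Polynomial expressions in a family of invariant functions -/

section Family

variable (N : ℕ) {ι : Type*} (F : ι → ℍ → ℂ)

/-- The hypotheses on a family of `Γ₀(N)`-invariant functions. -/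
structure IsInvFamily : Prop where
  mdiff : ∀ i, MDiff (F i)
  inv : ∀ i, ∀ δ ∈ CongruenceSubgroup.Gamma0 N, ∀ z : ℍ, F i (δ • z) = F i z
  grow : ∀ (i : ι) (g : SL(2, ℤ)), ∃ (M : ℕ) (C : ℝ), ∀ z : ℍ, 1 ≤ z.im →
    ‖F i (g • z)‖ ≤ C * Real.exp (2 * π * M * z.im)

variable {N F}

theorem IsInvFamily.isGrow_tr (hF : IsInvFamily N F) (i : ι) (g : SL(2, ℤ)) :
    IsGrow (tr (F i) g) := by
  obtain ⟨M, C, hC⟩ := hF.grow i g
  exact GrowLe.isGrow (m := M) ⟨C, hC⟩ (mdiff_tr (hF.mdiff i) g)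

/-- The translates of the family by `g`, as elements of the growth algebra. -/
noncomputable def IsInvFamily.gen (hF : IsInvFamily N F) (g : SL(2, ℤ)) (i : ι) : growAlg :=
  ⟨tr (F i) g, hF.isGrow_tr i g⟩

/-- The conjugate of the polynomial expression `P(F)` attached to the coset `q`. -/
noncomputable def IsInvFamily.conj (hF : IsInvFamily N F) (P : MvPolynomial ι ℂ) (q : X0 N) :
    growAlg :=
  MvPolynomial.aeval (hF.gen (q.out)⁻¹) P

theorem IsInvFamily.conj_apply (hF : IsInvFamily N F) (P : MvPolynomial ι ℂ) (q : X0 N)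
    (z : ℍ) :
    (hF.conj P q : ℍ → ℂ) z = MvPolynomial.eval (fun i => tr (F i) (q.out)⁻¹ z) P := by
  show ((Pi.evalAlgHom ℂ (fun _ : ℍ => ℂ) z).comp growAlg.val)
    (MvPolynomial.aeval (hF.gen (q.out)⁻¹) P) = _
  rw [MvPolynomial.comp_aeval_apply]
  have h1 : ∀ f : ι → ℂ, MvPolynomial.aeval f P = MvPolynomial.eval f P := fun f => rfl
  rw [h1]
  have h2 : (fun i => ((Pi.evalAlgHom ℂ (fun _ : ℍ => ℂ) z).comp growAlg.val)
      (hF.gen (q.out)⁻¹ i)) = fun i : ι => tr (F i) (q.out)⁻¹ z :=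
    funext fun i => rfl
  rw [h2]

theorem IsInvFamily.conj_smul (hF : IsInvFamily N F) (P : MvPolynomial ι ℂ) (q : X0 N)
    (γ : SL(2, ℤ)) (z : ℍ) :
    (hF.conj P q : ℍ → ℂ) (γ • z) = (hF.conj P (γ⁻¹ • q) : ℍ → ℂ) z := by
  rw [hF.conj_apply, hF.conj_apply]
  have key : (fun i : ι => tr (F i) (q.out)⁻¹ (γ • z)) =
      fun i : ι => tr (F i) ((γ⁻¹ • q).out)⁻¹ z :=
    funext fun i => tr_out_inv_smul (hF.inv i) q γ z
  rw [key]

theorem IsInvFamily.conj_one (hF : IsInvFamily N F) (P : MvPolynomial ι ℂ) :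
    (hF.conj P (QuotientGroup.mk 1 : X0 N) : ℍ → ℂ) = MvPolynomial.aeval F P := by
  show growAlg.val (MvPolynomial.aeval (hF.gen ((QuotientGroup.mk 1 : X0 N).out)⁻¹) P) = _
  rw [MvPolynomial.comp_aeval_apply]
  have h2 : (fun i => growAlg.val (hF.gen ((QuotientGroup.mk 1 : X0 N).out)⁻¹ i)) = F :=
    funext fun i => tr_out_inv_one (hF.inv i)
  rw [h2]

theorem IsInvFamily.isConjFamily (hF : IsInvFamily N F) (P : MvPolynomial ι ℂ) :
    IsConjFamily N (fun q : X0 N => (hF.conj P q : ℍ → ℂ)) where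
  grow q := (hF.conj P q).2
  smul q γ z := hF.conj_smul P q γ z

end Family

/-- **Generic norm polynomial.** Every polynomial expression in holomorphic `Γ₀(N)`-invariant
functions all of whose translates have exponential growth is a root of a monic polynomial of
degree `[SL(2, ℤ) : Γ₀(N)]` with coefficients in `ℂ[j]`. -/
theorem exists_monic_poly_of_invariant (N : ℕ) [NeZero N] {ι : Type*} (F : ι → ℍ → ℂ)
    (hmd : ∀ i, MDiff (F i))
    (hinv : ∀ i, ∀ δ ∈ CongruenceSubgroup.Gamma0 N, ∀ z : ℍ, F i (δ • z) = F i z)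
    (hgrow : ∀ (i : ι) (g : SL(2, ℤ)), ∃ (M : ℕ) (C : ℝ), ∀ z : ℍ, 1 ≤ z.im →
      ‖F i (g • z)‖ ≤ C * Real.exp (2 * π * M * z.im))
    (P : MvPolynomial ι ℂ) :
    ∃ p : Polynomial (Polynomial ℂ), p.Monic ∧ p.natDegree = Nat.card (X0 N) ∧
      Polynomial.eval₂ (Polynomial.aeval jFun : Polynomial ℂ →ₐ[ℂ] (ℍ → ℂ)).toRingHom
        (MvPolynomial.aeval F P) p = 0 := by
  have hF : IsInvFamily N F := ⟨hmd, hinv, hgrow⟩
  obtain ⟨p, hp1, hp2, hp3⟩ := (hF.isConjFamily P).exists_poly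
  refine ⟨p, hp1, hp2, ?_⟩
  have h := eval₂_eq_zero_of_map_eq _ p hp3 (QuotientGroup.mk 1 : X0 N)
  rwa [hF.conj_one] at h

/-! ### A single function with growth bounds -/

section Single

variable (N : ℕ) [NeZero N]

attribute [local instance] fintypeX0

/-- The norm polynomial `∏ (X - F ∘ g⁻¹)` of a function, over the coset representatives `g`. -/
noncomputable def normPolyOf (F : ℍ → ℂ) : Polynomial (ℍ → ℂ) :=
  NP (fun q : X0 N => tr F (q.out)⁻¹)

variable {N} {F : ℍ → ℂ}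

omit [NeZero N] in
theorem isConjFamily_tr (hmd : MDiff F)
    (hinv : ∀ δ ∈ CongruenceSubgroup.Gamma0 N, ∀ z : ℍ, F (δ • z) = F z) {a : ℕ}
    (hgrow : ∀ g : SL(2, ℤ), ∃ C : ℝ, ∀ z : ℍ, 1 ≤ z.im →
      ‖F (g • z)‖ ≤ C * Real.exp (2 * π * a * z.im)) :
    IsConjFamily N (fun q : X0 N => tr F (q.out)⁻¹) where
  grow _ := GrowLe.isGrow (m := a) (hgrow _) (mdiff_tr hmd _)
  smul q γ z := tr_out_inv_smul hinv q γ z

theorem card_X0_pos : 0 < Nat.card (X0 N) := Nat.card_pos

/-- Growth of the coefficients of the norm polynomial. -/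
theorem growLe_coeff_normPolyOf {a : ℕ}
    (hgrow : ∀ g : SL(2, ℤ), ∃ C : ℝ, ∀ z : ℍ, 1 ≤ z.im →
      ‖F (g • z)‖ ≤ C * Real.exp (2 * π * a * z.im)) (k : ℕ) (hk : k ≤ Nat.card (X0 N)) :
    GrowLe ((Nat.card (X0 N) - k) * a) ((normPolyOf N F).coeff k) := by
  classical
  have h := growLe_coeff_prod (fun q : X0 N => tr F (q.out)⁻¹) a (fun q => hgrow _)
    Finset.univ k (by rw [Finset.card_univ, ← Nat.card_eq_fintype_card]; exact hk)
  rw [Finset.card_univ, ← Nat.card_eq_fintype_card] at h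
  exact h

/-- The constant coefficient of the norm polynomial is bounded when `F` decays fast enough. -/
theorem growLe_coeff_zero_normPolyOf
    (hinv : ∀ δ ∈ CongruenceSubgroup.Gamma0 N, ∀ z : ℍ, F (δ • z) = F z) {a b : ℕ}
    (hab : a * (Nat.card (X0 N) - 1) ≤ b)
    (hgrow : ∀ g : SL(2, ℤ), ∃ C : ℝ, ∀ z : ℍ, 1 ≤ z.im →
      ‖F (g • z)‖ ≤ C * Real.exp (2 * π * a * z.im))
    (hdecay : ∃ C : ℝ, ∀ z : ℍ, 1 ≤ z.im → ‖F z‖ ≤ C * Real.exp (-(2 * π * b * z.im))) :
    GrowLe 0 ((normPolyOf N F).coeff 0) := by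
  classical
  set q0 : X0 N := QuotientGroup.mk 1 with hq0
  set c : X0 N → ℍ → ℂ := fun q => tr F (q.out)⁻¹ with hc
  set Q : Polynomial (ℍ → ℂ) :=
    ∏ q ∈ Finset.univ.erase q0, (Polynomial.X - Polynomial.C (c q)) with hQ
  have hsplit : normPolyOf N F = Q * (Polynomial.X - Polynomial.C (c q0)) := by
    rw [normPolyOf, NP, hQ]
    exact (Finset.prod_erase_mul Finset.univ _ (Finset.mem_univ q0)).symm
  have hcard : (Finset.univ.erase q0).card = Nat.card (X0 N) - 1 := by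
    rw [Finset.card_erase_of_mem (Finset.mem_univ q0), Finset.card_univ,
      Nat.card_eq_fintype_card]
  have hQ0 := growLe_coeff_prod c a (fun q => hgrow _) (Finset.univ.erase q0) 0 (Nat.zero_le _)
  rw [hcard, Nat.sub_zero] at hQ0
  have hc0 : c q0 = F := tr_out_inv_one hinv
  rw [hsplit, Polynomial.mul_coeff_zero]
  have h1 : (Polynomial.X - Polynomial.C (c q0)).coeff 0 = -F := by simp [hc0]
  rw [h1]
  obtain ⟨C1, hC1⟩ := hQ0
  obtain ⟨C2, hC2⟩ := hdecay
  refine ⟨|C1| * |C2|, fun z hz => ?_⟩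
  have h1' : ‖Q.coeff 0 z‖ ≤
      |C1| * Real.exp (2 * π * ((Nat.card (X0 N) - 1) * a : ℕ) * z.im) :=
    (hC1 z hz).trans (mul_le_mul_of_nonneg_right (le_abs_self C1) (Real.exp_pos _).le)
  have h2' : ‖F z‖ ≤ |C2| * Real.exp (-(2 * π * b * z.im)) :=
    (hC2 z hz).trans (mul_le_mul_of_nonneg_right (le_abs_self C2) (Real.exp_pos _).le)
  have hexp : Real.exp (2 * π * ((Nat.card (X0 N) - 1) * a : ℕ) * z.im) *
      Real.exp (-(2 * π * b * z.im)) ≤ 1 := by
    rw [← Real.exp_add, Real.exp_le_one_iff]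
    have hab' : (((Nat.card (X0 N) - 1) * a : ℕ) : ℝ) ≤ (b : ℝ) := by
      have : (Nat.card (X0 N) - 1) * a ≤ b := by rwa [mul_comm]
      exact_mod_cast this
    have hpi : 0 < 2 * π := by positivity
    have hz0 : 0 ≤ z.im := by linarith
    have h3 : 2 * π * (((Nat.card (X0 N) - 1) * a : ℕ) : ℝ) * z.im ≤ 2 * π * (b : ℝ) * z.im :=
      mul_le_mul_of_nonneg_right (mul_le_mul_of_nonneg_left hab' hpi.le) hz0
    linarith
  rw [Pi.mul_apply, Pi.neg_apply, norm_mul, norm_neg]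
  calc ‖Q.coeff 0 z‖ * ‖F z‖
      ≤ (|C1| * Real.exp (2 * π * ((Nat.card (X0 N) - 1) * a : ℕ) * z.im)) *
          (|C2| * Real.exp (-(2 * π * b * z.im))) :=
        mul_le_mul h1' h2' (norm_nonneg _) (mul_nonneg (abs_nonneg _) (Real.exp_pos _).le)
    _ = |C1| * |C2| * (Real.exp (2 * π * ((Nat.card (X0 N) - 1) * a : ℕ) * z.im) *
          Real.exp (-(2 * π * b * z.im))) := by ring
    _ ≤ |C1| * |C2| * 1 :=
        mul_le_mul_of_nonneg_left hexp (mul_nonneg (abs_nonneg _) (abs_nonneg _))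
    _ = |C1| * |C2| * Real.exp (2 * π * ((0 : ℕ) : ℝ) * z.im) := by simp

theorem coeff_zero_normPolyOf_ne_zero (hne : ∀ z : ℍ, F z ≠ 0) (z : ℍ) :
    (normPolyOf N F).coeff 0 z ≠ 0 := by
  classical
  rw [normPolyOf, coeff_NP_apply, Polynomial.coeff_zero_eq_eval_zero, NP, Polynomial.eval_prod]
  refine Finset.prod_ne_zero_iff.mpr fun q _ => ?_
  simp only [Polynomial.eval_sub, Polynomial.eval_X, Polynomial.eval_C, zero_sub, ne_eq,
    neg_eq_zero]
  exact hne _

variable (N) in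
theorem normPolyOf_def (F : ℍ → ℂ) :
    normPolyOf N F = NP (fun q : X0 N => tr F (q.out)⁻¹) := rfl

/-- The coefficients of the norm polynomial lie in every subring of functions containing all
translates of `F`. -/
theorem coeff_normPolyOf_mem (S : Subring (ℍ → ℂ)) (hS : ∀ g : SL(2, ℤ), tr F g ∈ S) (k : ℕ) :
    (normPolyOf N F).coeff k ∈ S := by
  classical
  set c' : X0 N → S := fun q => ⟨tr F (q.out)⁻¹, hS _⟩ with hc'
  have h : normPolyOf N F = (NP c').map S.subtype := by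
    rw [NP_map]
    rfl
  rw [h, Polynomial.coeff_map]
  exact ((NP c').coeff k).2

/-- The value of the constant coefficient of the norm polynomial: up to sign the product of the
translates. -/
theorem coeff_zero_normPolyOf_apply (F : ℍ → ℂ) (z : ℍ) :
    (normPolyOf N F).coeff 0 z = ∏ q : X0 N, -(tr F (q.out)⁻¹ z) := by
  classical
  rw [normPolyOf, coeff_NP_apply, Polynomial.coeff_zero_eq_eval_zero, NP, Polynomial.eval_prod]
  refine Finset.prod_congr rfl fun q _ => ?_
  simp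

/-- The constant coefficient of the norm polynomial of `1 / F` is the inverse of that of `F`. -/
theorem coeff_zero_normPolyOf_inv (F : ℍ → ℂ) (z : ℍ) :
    (normPolyOf N (fun w => (F w)⁻¹)).coeff 0 z = ((normPolyOf N F).coeff 0 z)⁻¹ := by
  classical
  rw [coeff_zero_normPolyOf_apply, coeff_zero_normPolyOf_apply, ← Finset.prod_inv_distrib]
  refine Finset.prod_congr rfl fun q _ => ?_
  rw [tr_apply, tr_apply, neg_inv]

variable (N)

/-- **Norm polynomial with degree bounds.** Let `F` be holomorphic, `Γ₀(N)`-invariant and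
nowhere vanishing on the upper half plane, with all translates `O(exp (2π a y))` and `F` itself
`O(exp (-2π b y))` on `1 ≤ y`, where `a (ψ - 1) ≤ b` and `ψ = [SL(2, ℤ) : Γ₀(N)]`.  Then `F` is a
root of a monic polynomial `p` of degree `ψ` over `ℂ[j]` whose coefficient of `X ^ i` has degree
at most `(ψ - i) a` in `j` and whose constant coefficient is a nonzero constant.  Moreover `p`
maps to the norm polynomial `normPolyOf N F`. -/
theorem exists_monic_poly_of_bounds (F : ℍ → ℂ) (hmd : MDiff F)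
    (hinv : ∀ δ ∈ CongruenceSubgroup.Gamma0 N, ∀ z : ℍ, F (δ • z) = F z) (a b : ℕ)
    (hab : a * (Nat.card (X0 N) - 1) ≤ b)
    (hgrow : ∀ g : SL(2, ℤ), ∃ C : ℝ, ∀ z : ℍ, 1 ≤ z.im →
      ‖F (g • z)‖ ≤ C * Real.exp (2 * π * a * z.im))
    (hdecay : ∃ C : ℝ, ∀ z : ℍ, 1 ≤ z.im → ‖F z‖ ≤ C * Real.exp (-(2 * π * b * z.im)))
    (hne : ∀ z : ℍ, F z ≠ 0) :
    ∃ p : Polynomial (Polynomial ℂ), p.Monic ∧ p.natDegree = Nat.card (X0 N) ∧
      (∀ i, (p.coeff i).natDegree ≤ (Nat.card (X0 N) - i) * a) ∧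
      (∃ c : ℂ, c ≠ 0 ∧ p.coeff 0 = Polynomial.C c) ∧
      p.map (Polynomial.aeval jFun : Polynomial ℂ →ₐ[ℂ] (ℍ → ℂ)).toRingHom = normPolyOf N F ∧
      Polynomial.eval₂ (Polynomial.aeval jFun : Polynomial ℂ →ₐ[ℂ] (ℍ → ℂ)).toRingHom F p
        = 0 := by
  classical
  set n : ℕ := Nat.card (X0 N) with hn
  have hn0 : 0 < n := card_X0_pos
  have hfam : IsConjFamily N (fun q : X0 N => tr F (q.out)⁻¹) := isConjFamily_tr hmd hinv hgrow
  -- the coefficient polynomials
  have hex : ∀ k : ℕ, ∃ pk : Polynomial ℂ, (normPolyOf N F).coeff k = Polynomial.aeval jFun pk ∧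
      (k ≤ n → pk.natDegree ≤ (n - k) * a) ∧ (k = 0 → pk.natDegree ≤ 0) := by
    intro k
    rcases Nat.eq_zero_or_pos k with hk0 | hkpos
    · subst hk0
      obtain ⟨pk, hdeg, hpk⟩ := hfam.exists_poly_coeff_of_growLe 0
        (growLe_coeff_zero_normPolyOf hinv hab hgrow hdecay)
      exact ⟨pk, hpk, fun _ => hdeg.trans (Nat.zero_le _), fun _ => hdeg⟩
    · by_cases hkn : k ≤ n
      · obtain ⟨pk, hdeg, hpk⟩ := hfam.exists_poly_coeff_of_growLe k
          (growLe_coeff_normPolyOf hgrow k hkn)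
        exact ⟨pk, hpk, fun _ => hdeg, fun h0 => absurd h0 (Nat.pos_iff_ne_zero.mp hkpos)⟩
      · obtain ⟨pk, hpk⟩ := hfam.exists_poly_coeff k
        exact ⟨pk, hpk, fun h => absurd h hkn, fun h0 => absurd h0 (Nat.pos_iff_ne_zero.mp hkpos)⟩
  choose pk hpk1 hpk2 hpk3 using hex
  obtain ⟨p, hmonic, hdeg, hcoeff, hmap⟩ :=
    exists_poly_of_coeffs (fun q : X0 N => tr F (q.out)⁻¹) pk (fun k _ => hpk1 k)
  refine ⟨p, hmonic, hdeg, ?_, ?_, hmap, ?_⟩
  · intro i
    rcases lt_trichotomy i n with hi | hi | hi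
    · rw [hcoeff i hi]
      exact hpk2 i hi.le
    · have h1 : p.coeff i = 1 := by
        have h2 : i = p.natDegree := hi.trans hdeg.symm
        rw [h2]
        exact hmonic.coeff_natDegree
      rw [h1]
      simp
    · have h1 : p.coeff i = 0 :=
        Polynomial.coeff_eq_zero_of_natDegree_lt (lt_of_eq_of_lt hdeg hi)
      rw [h1]
      simp
  · refine ⟨(pk 0).coeff 0, ?_, ?_⟩
    · intro h0
      have h1 : pk 0 = 0 := by
        rw [Polynomial.eq_C_of_natDegree_le_zero (hpk3 0 rfl), h0, map_zero]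
      have h2 := hpk1 0
      rw [h1, map_zero] at h2
      exact coeff_zero_normPolyOf_ne_zero hne UpperHalfPlane.I (by rw [h2]; rfl)
    · rw [hcoeff 0 hn0]
      exact Polynomial.eq_C_of_natDegree_le_zero (hpk3 0 rfl)
  · have h := eval₂_eq_zero_of_map_eq _ p hmap (QuotientGroup.mk 1 : X0 N)
    rwa [tr_out_inv_one hinv] at h

end Single

end Fermat.Agent.S28.NormGen
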