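import Mathlib
import Fermat.Agent.S28.Hermite

/-!
# S28: two-sided exponential bounds for `Δ` and for the translates of `Δ(d·)/Δ`

* `TwoSided κ f`: `C₁ exp(-2π κ Im z) ≤ ‖f z‖ ≤ C₂ exp(-2π κ Im z)` on `1 ≤ Im z`, with
  `C₁, C₂ > 0`; closed under products, inverses, integer powers, finite products.
* `exists_discriminant_bounds`: `‖Δ z‖ ≍ exp(-2π Im z)` on every half plane `ε ≤ Im z`.
* `twoSided_ratio_translate`: for `d > 0`, `γ ∈ SL(2, ℤ)` with lower left entry `c`,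
  `z ↦ Δ(d γ z) / Δ(γ z)` is two-sided of exponent `gcd(d, c)² / d - 1`.
* `twoSided_prod_translate`: the same for finite products of integer powers of such quotients.
-/

set_option autoImplicit false

namespace Fermat.Agent.S28

open UpperHalfPlane Filter Complex Function
open scoped MatrixGroups ModularForm Real Manifold Topology

open Fermat.Agent.S24

local notation "Δ" => ModularForm.discriminant

/-! ### Two-sided exponential bounds -/

/-- `C₁ exp(-2π κ Im z) ≤ ‖f z‖ ≤ C₂ exp(-2π κ Im z)` for `1 ≤ Im z`, with `C₁, C₂ > 0`. -/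
def TwoSided (κ : ℝ) (f : ℍ → ℂ) : Prop :=
  ∃ C₁ C₂ : ℝ, 0 < C₁ ∧ 0 < C₂ ∧ ∀ z : ℍ, 1 ≤ z.im →
    C₁ * Real.exp (-(2 * π * κ * z.im)) ≤ ‖f z‖ ∧ ‖f z‖ ≤ C₂ * Real.exp (-(2 * π * κ * z.im))

namespace TwoSided

variable {κ κ' : ℝ} {f g : ℍ → ℂ}

theorem congr_exponent (hf : TwoSided κ f) (h : κ = κ') : TwoSided κ' f := h ▸ hf

theorem congr_fun (hf : TwoSided κ f) (h : ∀ z : ℍ, f z = g z) : TwoSided κ g := by
  have : f = g := funext h
  rwa [← this]

theorem ne_zero (hf : TwoSided κ f) {z : ℍ} (hz : 1 ≤ z.im) : f z ≠ 0 := by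
  obtain ⟨C₁, C₂, h1, h2, h⟩ := hf
  have := (h z hz).1
  have hpos : 0 < C₁ * Real.exp (-(2 * π * κ * z.im)) := mul_pos h1 (Real.exp_pos _)
  intro h0
  rw [h0, norm_zero] at this
  linarith

theorem const {c : ℂ} (hc : c ≠ 0) : TwoSided 0 (fun _ : ℍ => c) := by
  refine ⟨‖c‖, ‖c‖, norm_pos_iff.mpr hc, norm_pos_iff.mpr hc, fun z _ => ?_⟩
  simp

theorem one : TwoSided 0 (1 : ℍ → ℂ) := const one_ne_zero

theorem mul (hf : TwoSided κ f) (hg : TwoSided κ' g) : TwoSided (κ + κ') (f * g) := by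
  obtain ⟨C₁, C₂, h1, h2, h⟩ := hf
  obtain ⟨D₁, D₂, k1, k2, k⟩ := hg
  refine ⟨C₁ * D₁, C₂ * D₂, mul_pos h1 k1, mul_pos h2 k2, fun z hz => ?_⟩
  obtain ⟨ha, hb⟩ := h z hz
  obtain ⟨hc, hd⟩ := k z hz
  have he : Real.exp (-(2 * π * (κ + κ') * z.im)) =
      Real.exp (-(2 * π * κ * z.im)) * Real.exp (-(2 * π * κ' * z.im)) := by
    rw [← Real.exp_add]; congr 1; ring
  have hE1 := Real.exp_pos (-(2 * π * κ * z.im))
  have hE2 := Real.exp_pos (-(2 * π * κ' * z.im))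
  rw [Pi.mul_apply, norm_mul, he]
  constructor
  · calc C₁ * D₁ * (Real.exp (-(2 * π * κ * z.im)) * Real.exp (-(2 * π * κ' * z.im)))
        = (C₁ * Real.exp (-(2 * π * κ * z.im))) * (D₁ * Real.exp (-(2 * π * κ' * z.im))) := by
          ring
      _ ≤ ‖f z‖ * ‖g z‖ := mul_le_mul ha hc (by positivity) (norm_nonneg _)
  · calc ‖f z‖ * ‖g z‖
        ≤ (C₂ * Real.exp (-(2 * π * κ * z.im))) * (D₂ * Real.exp (-(2 * π * κ' * z.im))) :=
          mul_le_mul hb hd (norm_nonneg _) (by positivity)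
      _ = C₂ * D₂ * (Real.exp (-(2 * π * κ * z.im)) * Real.exp (-(2 * π * κ' * z.im))) := by
          ring

theorem inv (hf : TwoSided κ f) : TwoSided (-κ) f⁻¹ := by
  obtain ⟨C₁, C₂, h1, h2, h⟩ := hf
  refine ⟨C₂⁻¹, C₁⁻¹, inv_pos.mpr h2, inv_pos.mpr h1, fun z hz => ?_⟩
  obtain ⟨ha, hb⟩ := h z hz
  have hE := Real.exp_pos (-(2 * π * κ * z.im))
  have he : Real.exp (-(2 * π * -κ * z.im)) = (Real.exp (-(2 * π * κ * z.im)))⁻¹ := by
    rw [← Real.exp_neg]; congr 1; ring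
  have hpos : 0 < ‖f z‖ := lt_of_lt_of_le (mul_pos h1 hE) ha
  rw [Pi.inv_apply, norm_inv, he, ← mul_inv, ← mul_inv]
  constructor
  · exact inv_anti₀ hpos hb
  · exact inv_anti₀ (mul_pos h1 hE) ha

theorem div (hf : TwoSided κ f) (hg : TwoSided κ' g) : TwoSided (κ - κ') (f / g) := by
  rw [div_eq_mul_inv, sub_eq_add_neg]
  exact hf.mul hg.inv

theorem pow (hf : TwoSided κ f) (n : ℕ) : TwoSided (n * κ) (f ^ n) := by
  induction n with
  | zero => simpa using one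
  | succ n ih =>
    rw [pow_succ]
    exact (ih.mul hf).congr_exponent (by push_cast; ring)

theorem zpow (hf : TwoSided κ f) (n : ℤ) : TwoSided (n * κ) (f ^ n) := by
  obtain ⟨m, rfl | rfl⟩ := n.eq_nat_or_neg
  · rw [zpow_natCast]
    exact (hf.pow m).congr_exponent (by push_cast; ring)
  · rw [zpow_neg, zpow_natCast]
    exact (hf.pow m).inv.congr_exponent (by push_cast; ring)

theorem prod {ι : Type*} (s : Finset ι) {κ : ι → ℝ} {f : ι → ℍ → ℂ}
    (h : ∀ i ∈ s, TwoSided (κ i) (f i)) : TwoSided (∑ i ∈ s, κ i) (∏ i ∈ s, f i) := by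
  classical
  induction s using Finset.induction_on with
  | empty => simpa using one
  | insert a s ha ih =>
    rw [Finset.sum_insert ha, Finset.prod_insert ha]
    exact (h a (Finset.mem_insert_self a s)).mul
      (ih fun i hi => h i (Finset.mem_insert_of_mem hi))

/-- Upper bound extracted from a two-sided bound. -/
theorem norm_le (hf : TwoSided κ f) :
    ∃ C : ℝ, 0 < C ∧ ∀ z : ℍ, 1 ≤ z.im → ‖f z‖ ≤ C * Real.exp (-(2 * π * κ * z.im)) := by
  obtain ⟨C₁, C₂, h1, h2, h⟩ := hf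
  exact ⟨C₂, h2, fun z hz => (h z hz).2⟩

/-- Upper bound with a weaker exponent. -/
theorem norm_le_of_le (hf : TwoSided κ f) (hκ : κ' ≤ κ) :
    ∃ C : ℝ, 0 < C ∧ ∀ z : ℍ, 1 ≤ z.im → ‖f z‖ ≤ C * Real.exp (-(2 * π * κ' * z.im)) := by
  obtain ⟨C, hC, h⟩ := hf.norm_le
  refine ⟨C, hC, fun z hz => (h z hz).trans ?_⟩
  refine mul_le_mul_of_nonneg_left (Real.exp_le_exp.mpr ?_) hC.le
  have hz0 : 0 < z.im := z.im_pos
  have : 2 * π * κ' * z.im ≤ 2 * π * κ * z.im := by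
    have h2π : 0 < 2 * π := by positivity
    nlinarith [mul_le_mul_of_nonneg_left hκ h2π.le]
  linarith

end TwoSided

/-! ### Holomorphy of inverses and integer powers -/

theorem mdiff_inv {f : ℍ → ℂ} (hf : MDiff f) (h0 : ∀ z, f z ≠ 0) : MDiff f⁻¹ := by
  rw [UpperHalfPlane.mdifferentiable_iff] at hf ⊢
  have h : (f⁻¹ ∘ ofComplex) = fun z => ((f ∘ ofComplex) z)⁻¹ := rfl
  rw [h]
  exact hf.inv fun z _ => h0 _

theorem mdiff_zpow {f : ℍ → ℂ} (hf : MDiff f) (h0 : ∀ z, f z ≠ 0) (n : ℤ) : MDiff (f ^ n) := by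
  obtain ⟨m, rfl | rfl⟩ := n.eq_nat_or_neg
  · rw [zpow_natCast]
    exact hf.pow m
  · rw [zpow_neg, zpow_natCast]
    exact mdiff_inv (hf.pow m) fun z => pow_ne_zero m (h0 z)

theorem mdiff_cexp_mul (c : ℂ) : MDiff (fun z : ℍ => cexp (c * z)) := by
  rw [UpperHalfPlane.mdifferentiable_iff]
  have h2 : DifferentiableOn ℂ (fun w : ℂ => cexp (c * w)) {z | 0 < z.im} :=
    ((differentiable_const c).mul differentiable_id).cexp.differentiableOn
  refine h2.congr fun w hw => ?_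
  simp [Function.comp_apply, ofComplex_apply_of_im_pos hw]

/-! ### Bounded `1`-periodic holomorphic functions are bounded on half planes -/

theorem exists_norm_le_of_bdd {F : ℍ → ℂ} (hol : MDiff F)
    (per : Periodic (F ∘ ofComplex) (1 : ℝ)) (bdd : IsBoundedAtImInfty F) {ε : ℝ}
    (hε : 0 < ε) : ∃ C : ℝ, 0 < C ∧ ∀ z : ℍ, ε ≤ z.im → ‖F z‖ ≤ C := by
  set G := cuspFunction 1 F with hG
  have hGdiff : DifferentiableOn ℂ G (Metric.ball 0 1) :=
    differentiableOn_cuspFunction_ball one_pos per hol bdd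
  set r := Real.exp (-2 * π * ε / 1) with hr
  have hr1 : r < 1 := by
    rw [hr, Real.exp_lt_one_iff]
    have : 0 < 2 * π * ε := by positivity
    have h2 : -2 * π * ε / 1 = -(2 * π * ε) := by ring
    rw [h2]; linarith
  have hcont : ContinuousOn G (Metric.closedBall 0 r) :=
    hGdiff.continuousOn.mono (Metric.closedBall_subset_ball hr1)
  obtain ⟨C, hC⟩ := (isCompact_closedBall (0 : ℂ) r).exists_bound_of_continuousOn hcont
  refine ⟨max C 1, lt_of_lt_of_le one_pos (le_max_right _ _), fun z hz => ?_⟩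
  have hq : ‖Function.Periodic.qParam 1 z‖ ≤ r := by
    rw [Function.Periodic.norm_qParam, hr, Real.exp_le_exp]
    have : 2 * π * ε ≤ 2 * π * z.im := by gcongr
    have e1 : -2 * π * ε / 1 = -(2 * π * ε) := by ring
    have e2 : -2 * π * (z : ℂ).im / 1 = -(2 * π * z.im) := by
      have : (z : ℂ).im = z.im := rfl
      rw [this]; ring
    rw [e1, e2]; linarith
  have hval : G (Function.Periodic.qParam 1 z) = F z := eq_cuspFunction z one_ne_zero per
  rw [← hval]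
  exact (hC _ (by simpa [Metric.mem_closedBall, dist_zero_right] using hq)).trans
    (le_max_left _ _)

/-! ### Two-sided bounds for `Δ` -/

theorem norm_cexp_two_pi_I_mul (z : ℍ) :
    ‖cexp (2 * π * Complex.I * z)‖ = Real.exp (-(2 * π * z.im)) := by
  rw [Complex.norm_exp]
  congr 1
  simp

theorem cexp_neg_two_pi_I_mul_vadd_one (z : ℍ) :
    cexp (-(2 * π * Complex.I) * (((1 : ℝ) +ᵥ z : ℍ) : ℂ)) = cexp (-(2 * π * Complex.I) * z) := by
  rw [UpperHalfPlane.coe_vadd]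
  have h : -(2 * π * Complex.I) * (((1 : ℝ) : ℂ) + (z : ℂ)) =
      -(2 * π * Complex.I) * z - 2 * π * Complex.I := by push_cast; ring
  rw [h, Complex.exp_sub, Complex.exp_two_pi_mul_I, div_one]

theorem discriminant_mul_cexp_eq (z : ℍ) :
    Δ z * cexp (-(2 * π * Complex.I) * z) = ∏' n, (1 - ModularForm.eta_q n z) ^ 24 := by
  rw [ModularForm.discriminant_eq_q_prod]
  have h : Function.Periodic.qParam 1 (z : ℂ) * cexp (-(2 * π * Complex.I) * z) = 1 := by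
    rw [Function.Periodic.qParam, ← Complex.exp_add]
    have : 2 * π * Complex.I * (z : ℂ) / ((1 : ℝ) : ℂ) + -(2 * π * Complex.I) * z = 0 := by
      push_cast; ring
    rw [this, Complex.exp_zero]
  rw [mul_right_comm, h, one_mul]

/-- `‖Δ z‖ ≍ exp(-2π Im z)` on every half plane `ε ≤ Im z`. -/
theorem exists_discriminant_bounds {ε : ℝ} (hε : 0 < ε) :
    ∃ C₁ C₂ : ℝ, 0 < C₁ ∧ 0 < C₂ ∧ ∀ z : ℍ, ε ≤ z.im →
      C₁ * Real.exp (-(2 * π * z.im)) ≤ ‖Δ z‖ ∧ ‖Δ z‖ ≤ C₂ * Real.exp (-(2 * π * z.im)) := by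
  set H : ℍ → ℂ := fun z => Δ z * cexp (-(2 * π * Complex.I) * z) with hH
  have hΔ : MDiff Δ := discriminant_mdifferentiable
  have hH0 : ∀ z, H z ≠ 0 := fun z =>
    mul_ne_zero (ModularForm.discriminant_ne_zero z) (Complex.exp_ne_zero _)
  have hHmd : MDiff H := hΔ.mul (mdiff_cexp_mul _)
  have hHvadd : ∀ z : ℍ, H ((1 : ℝ) +ᵥ z) = H z := by
    intro z
    have h1 := discriminant_vadd_int 1 z
    simp only [Int.cast_one] at h1
    simp only [hH]
    rw [h1, cexp_neg_two_pi_I_mul_vadd_one]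
  have hHper : Periodic (H ∘ ofComplex) (1 : ℝ) :=
    Translates.periodic_comp_ofComplex_of_vadd hHvadd
  have hHlim : Tendsto H atImInfty (𝓝 1) :=
    ModularForm.tendsto_atImInfty_tprod_one_sub_eta_q_pow.congr fun z =>
      (discriminant_mul_cexp_eq z).symm
  have hHbdd : IsBoundedAtImInfty H := hHlim.isBigO_one ℝ
  have hImd : MDiff H⁻¹ := mdiff_inv hHmd hH0
  have hIper : Periodic (H⁻¹ ∘ ofComplex) (1 : ℝ) :=
    Translates.periodic_comp_ofComplex_of_vadd fun z => by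
      simp only [Pi.inv_apply, hHvadd]
  have hIlim : Tendsto H⁻¹ atImInfty (𝓝 1) := by
    have := hHlim.inv₀ one_ne_zero
    rw [inv_one] at this
    exact this
  have hIbdd : IsBoundedAtImInfty H⁻¹ := hIlim.isBigO_one ℝ
  obtain ⟨C, hC, hCb⟩ := exists_norm_le_of_bdd hHmd hHper hHbdd hε
  obtain ⟨D, hD, hDb⟩ := exists_norm_le_of_bdd hImd hIper hIbdd hε
  refine ⟨D⁻¹, C, inv_pos.mpr hD, hC, fun z hz => ?_⟩
  have hE := Real.exp_pos (-(2 * π * z.im))
  have hΔH : Δ z = H z * cexp (2 * π * Complex.I * z) := by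
    simp only [hH]
    rw [mul_assoc, ← Complex.exp_add]
    have : -(2 * π * Complex.I) * (z : ℂ) + 2 * π * Complex.I * z = 0 := by ring
    rw [this, Complex.exp_zero, mul_one]
  have hn : ‖Δ z‖ = ‖H z‖ * Real.exp (-(2 * π * z.im)) := by
    rw [hΔH, norm_mul, norm_cexp_two_pi_I_mul]
  rw [hn]
  constructor
  · have h1 : ‖H⁻¹ z‖ ≤ D := hDb z hz
    rw [Pi.inv_apply, norm_inv] at h1
    have hpos : 0 < ‖H z‖ := norm_pos_iff.mpr (hH0 z)
    have h2 : D⁻¹ ≤ ‖H z‖ := by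
      rw [inv_le_comm₀ hD hpos]
      exact h1
    exact mul_le_mul_of_nonneg_right h2 hE.le
  · exact mul_le_mul_of_nonneg_right (hCb z hz) hE.le

/-- Two-sided bound for `Δ((a z + b) / e)` on `1 ≤ Im z`. -/
theorem exists_discriminant_affine_bounds {a e : ℤ} (ha : 0 < a) (he : 0 < e) (b : ℤ) :
    ∃ C₁ C₂ : ℝ, 0 < C₁ ∧ 0 < C₂ ∧ ∀ z w : ℍ, 1 ≤ z.im → (w : ℂ) = ((a : ℂ) * z + b) / e →
      C₁ * Real.exp (-(2 * π * ((a : ℝ) / e) * z.im)) ≤ ‖Δ w‖ ∧
        ‖Δ w‖ ≤ C₂ * Real.exp (-(2 * π * ((a : ℝ) / e) * z.im)) := by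
  have haR : (0 : ℝ) < a := by exact_mod_cast ha
  have heR : (0 : ℝ) < e := by exact_mod_cast he
  obtain ⟨C₁, C₂, h1, h2, h⟩ := exists_discriminant_bounds (ε := (a : ℝ) / e) (by positivity)
  refine ⟨C₁, C₂, h1, h2, fun z w hz hw => ?_⟩
  have him : w.im = a * z.im / e := Translates.im_of_coe_eq he hw
  have hle : (a : ℝ) / e ≤ w.im := by
    rw [him]
    have : (a : ℝ) * 1 ≤ a * z.im := mul_le_mul_of_nonneg_left hz haR.le
    rw [mul_one] at this
    exact div_le_div_of_nonneg_right this heR.le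
  have hexp : 2 * π * w.im = 2 * π * ((a : ℝ) / e) * z.im := by
    rw [him]; ring
  have := h w hle
  rwa [hexp] at this

/-- `z ↦ Δ(d γ z) / Δ(γ z)` is two-sided of exponent `gcd(d, c)² / d - 1`, `c = γ₁₀`. -/
theorem twoSided_ratio_translate {d : ℕ} (hd : 0 < d) (γ : SL(2, ℤ)) :
    TwoSided (((Int.gcd (d : ℤ) (γ 1 0) : ℕ) : ℝ) ^ 2 / d - 1)
      (fun z => Δ (natDil d (γ • z)) / Δ (γ • z)) := by
  obtain ⟨a, b, e, ha, he, hae, hag, hw⟩ := exists_discriminant_translate hd γ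
  have haR : (0 : ℝ) < a := by exact_mod_cast ha
  have heR : (0 : ℝ) < e := by exact_mod_cast he
  have hdR : (0 : ℝ) < d := by exact_mod_cast hd
  have haeR : (a : ℝ) * e = d := by exact_mod_cast hae
  have hagR : (a : ℝ) = ((Int.gcd (d : ℤ) (γ 1 0) : ℕ) : ℝ) := by
    rw [hag]; push_cast; rfl
  have hκ : ((Int.gcd (d : ℤ) (γ 1 0) : ℕ) : ℝ) ^ 2 / d - 1 = (a : ℝ) / e - 1 := by
    rw [← hagR, ← haeR]
    field_simp
  obtain ⟨C₁, C₂, h1, h2, h⟩ := exists_discriminant_affine_bounds ha he b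
  obtain ⟨D₁, D₂, k1, k2, k⟩ := exists_discriminant_bounds (ε := 1) one_pos
  have he12 : (0 : ℝ) < (e : ℝ) ^ 12 := by positivity
  refine ⟨((e : ℝ) ^ 12)⁻¹ * (C₁ / D₂), ((e : ℝ) ^ 12)⁻¹ * (C₂ / D₁), by positivity, by positivity,
    fun z hz => ?_⟩
  obtain ⟨w, hw1, hw2⟩ := hw z
  obtain ⟨ha1, ha2⟩ := h z w hz hw1
  obtain ⟨hb1, hb2⟩ := k z hz
  have hn : ‖Δ (natDil d (γ • z)) / Δ (γ • z)‖ = ((e : ℝ) ^ 12)⁻¹ * (‖Δ w‖ / ‖Δ z‖) := by
    rw [hw2, norm_mul, norm_inv, norm_pow, norm_div]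
    congr 2
    simp [abs_of_pos heR]
  have hE1 := Real.exp_pos (-(2 * π * ((a : ℝ) / e) * z.im))
  have hE2 := Real.exp_pos (-(2 * π * z.im))
  have hexp : Real.exp (-(2 * π * (((Int.gcd (d : ℤ) (γ 1 0) : ℕ) : ℝ) ^ 2 / d - 1) * z.im)) =
      Real.exp (-(2 * π * ((a : ℝ) / e) * z.im)) / Real.exp (-(2 * π * z.im)) := by
    rw [hκ, ← Real.exp_sub]; congr 1; ring
  have hΔpos : 0 < ‖Δ z‖ := norm_pos_iff.mpr (ModularForm.discriminant_ne_zero z)
  rw [hn, hexp]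
  constructor
  · rw [mul_assoc]
    refine mul_le_mul_of_nonneg_left ?_ (inv_pos.mpr he12).le
    rw [div_mul_div_comm]
    exact div_le_div₀ (norm_nonneg _) ha1 hΔpos hb2
  · rw [mul_assoc]
    refine mul_le_mul_of_nonneg_left ?_ (inv_pos.mpr he12).le
    rw [div_mul_div_comm]
    exact div_le_div₀ (by positivity) ha2 (by positivity) hb1

/-- Finite products of integer powers of the quotients `Δ(d γ z) / Δ(γ z)`. -/
theorem twoSided_prod_translate (s : Finset ℕ) (hs : ∀ d ∈ s, 0 < d) (r : ℕ → ℤ)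
    (γ : SL(2, ℤ)) :
    TwoSided (∑ d ∈ s, (r d : ℝ) * (((Int.gcd (d : ℤ) (γ 1 0) : ℕ) : ℝ) ^ 2 / d - 1))
      (fun z => ∏ d ∈ s, (Δ (natDil d (γ • z)) / Δ (γ • z)) ^ (r d)) := by
  have h := TwoSided.prod s (κ := fun d => (r d : ℝ) * (((Int.gcd (d : ℤ) (γ 1 0) : ℕ) : ℝ) ^ 2 / d - 1))
    (f := fun d => (fun z => Δ (natDil d (γ • z)) / Δ (γ • z)) ^ (r d))
    (fun d hd => (twoSided_ratio_translate (hs d hd) γ).zpow (r d))
  refine h.congr_fun fun z => ?_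
  simp [Finset.prod_apply]

end Fermat.Agent.S28
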