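import Mathlib
import Fermat.Agent.S28.Unit
import Fermat.Agent.S28.Bounds
import Fermat.Agent.S28.NT

/-!
# S28, block (A): growth of the translates of the eta-quotient unit

For `γ ∈ SL(2, ℤ)` with lower left entry `c`, the translate `z ↦ U(γ z)` of the unit
`U = Ufun N` satisfies a two-sided bound `‖U(γ z)‖ ≍ exp(-2π κ Im z)` on `1 ≤ Im z`, with
`κ = φ(N) (ψ(N) - 1)` if `N ∣ c` and `κ = -φ(N)` otherwise.  Consequently every translate is
`O(exp(2π φ(N) Im z))` and `U` itself is `O(exp(-2π φ(N) (ψ(N) - 1) Im z))`.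
-/

set_option autoImplicit false

namespace Fermat.Agent.S28

namespace UnitGrowth

open UpperHalfPlane Complex
open scoped MatrixGroups ModularForm Real Manifold Topology

open Fermat.Agent.S24 ModularCurve

local notation "Δ" => ModularForm.discriminant

theorem one_le_dedekindPsi (N : ℕ) [NeZero N] : 1 ≤ dedekindPsi N := by
  have hN : 0 < N := NeZero.pos N
  have h1 : (1 : ℕ) ∈ N.divisors.filter (fun d => Squarefree d) := by
    simp [hN.ne']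
  have h2 : N / 1 ≤ dedekindPsi N :=
    Finset.single_le_sum (f := fun d => N / d) (fun _ _ => Nat.zero_le _) h1
  rw [Nat.div_one] at h2
  exact le_trans hN h2

/-- The exponent of the translate of `U` by `γ`. -/
noncomputable def kappa (N : ℕ) (γ : SL(2, ℤ)) : ℝ :=
  if (N : ℤ) ∣ γ 1 0 then (Nat.totient N : ℝ) * ((dedekindPsi N : ℝ) - 1)
  else -(Nat.totient N : ℝ)

theorem kappa_eq_sum (N : ℕ) [NeZero N] (γ : SL(2, ℤ)) :
    ∑ s ∈ N.divisors, (Uexp N s : ℝ) *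
      (((Int.gcd ((N / s : ℕ) : ℤ) (γ 1 0) : ℕ) : ℝ) ^ 2 / ((N / s : ℕ) : ℝ) - 1) = kappa N γ := by
  have h := sum_moebius_gcd_sq_sub_int N (NeZero.ne N) (γ 1 0)
  have h' := congrArg (fun x : ℤ => (x : ℝ)) h
  simp only [Int.cast_sum, Int.cast_mul, Int.cast_sub, Int.cast_pow, Int.cast_natCast] at h'
  have hk : kappa N γ = ((if (N : ℤ) ∣ γ 1 0 then (Nat.totient N : ℤ) * ((dedekindPsi N : ℤ) - 1)
      else -(Nat.totient N : ℤ) : ℤ) : ℝ) := by
    rw [kappa]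
    split_ifs <;> push_cast <;> ring
  rw [hk, ← h']
  refine Finset.sum_congr rfl fun s hs => ?_
  have hpos : (0 : ℝ) < ((N / s : ℕ) : ℝ) := by
    exact_mod_cast Unit.div_pos_of_mem_divisors hs
  rw [Uexp, Int.cast_mul, Int.cast_natCast]
  field_simp

/-- Two-sided bound for the translates of the unit. -/
theorem twoSided_Ufun_smul (N : ℕ) [NeZero N] (γ : SL(2, ℤ)) :
    TwoSided (kappa N γ) (fun z => Ufun N (γ • z)) := by
  have h := TwoSided.prod N.divisors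
    (κ := fun s => (Uexp N s : ℝ) *
      (((Int.gcd ((N / s : ℕ) : ℤ) (γ 1 0) : ℕ) : ℝ) ^ 2 / ((N / s : ℕ) : ℝ) - 1))
    (f := fun s => (fun z => Δ (natDil (N / s) (γ • z)) / Δ (γ • z)) ^ (Uexp N s))
    (fun s hs => (twoSided_ratio_translate (Unit.div_pos_of_mem_divisors hs) γ).zpow (Uexp N s))
  rw [kappa_eq_sum] at h
  refine h.congr_fun fun z => ?_
  simp only [Finset.prod_apply, Pi.pow_apply]
  rfl

theorem neg_totient_le_kappa (N : ℕ) [NeZero N] (γ : SL(2, ℤ)) :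
    -(Nat.totient N : ℝ) ≤ kappa N γ := by
  rw [kappa]
  split_ifs
  · have h1 : (1 : ℝ) ≤ dedekindPsi N := by exact_mod_cast one_le_dedekindPsi N
    have h2 : (0 : ℝ) ≤ Nat.totient N := Nat.cast_nonneg _
    nlinarith
  · exact le_rfl

theorem kappa_one (N : ℕ) :
    kappa N 1 = (Nat.totient N : ℝ) * ((dedekindPsi N : ℝ) - 1) := by
  rw [kappa, if_pos]
  simp

theorem kappa_of_dvd {N : ℕ} {γ : SL(2, ℤ)} (h : (N : ℤ) ∣ γ 1 0) :
    kappa N γ = (Nat.totient N : ℝ) * ((dedekindPsi N : ℝ) - 1) := by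
  rw [kappa, if_pos h]

theorem kappa_of_not_dvd {N : ℕ} {γ : SL(2, ℤ)} (h : ¬ (N : ℤ) ∣ γ 1 0) :
    kappa N γ = -(Nat.totient N : ℝ) := by
  rw [kappa, if_neg h]

/-- Every translate of the unit is `O(exp(2π φ(N) Im z))` on `1 ≤ Im z`. -/
theorem Ufun_growth (N : ℕ) [NeZero N] (g : SL(2, ℤ)) :
    ∃ C : ℝ, 0 < C ∧ ∀ z : ℍ, 1 ≤ z.im →
      ‖Ufun N (g • z)‖ ≤ C * Real.exp (2 * π * (Nat.totient N : ℝ) * z.im) := by
  obtain ⟨C, hC, h⟩ := (twoSided_Ufun_smul N g).norm_le_of_le (neg_totient_le_kappa N g)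
  refine ⟨C, hC, fun z hz => ?_⟩
  have := h z hz
  have e : -(2 * π * -(Nat.totient N : ℝ) * z.im) = 2 * π * (Nat.totient N : ℝ) * z.im := by ring
  rwa [e] at this

/-- The unit itself is `O(exp(-2π φ(N) (ψ(N) - 1) Im z))` on `1 ≤ Im z`. -/
theorem Ufun_decay (N : ℕ) [NeZero N] :
    ∃ C : ℝ, 0 < C ∧ ∀ z : ℍ, 1 ≤ z.im →
      ‖Ufun N z‖ ≤ C *
        Real.exp (-(2 * π * ((Nat.totient N : ℝ) * ((dedekindPsi N : ℝ) - 1)) * z.im)) := by
  obtain ⟨C, hC, h⟩ := (twoSided_Ufun_smul N 1).norm_le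
  refine ⟨C, hC, fun z hz => ?_⟩
  have := h z hz
  rw [kappa_one] at this
  simpa only [one_smul] using this

/-- Lower bound for the unit itself: `‖U z‖ ≥ C exp(-2π φ(N) (ψ(N) - 1) Im z)`, `C > 0`. -/
theorem Ufun_lower (N : ℕ) [NeZero N] :
    ∃ C : ℝ, 0 < C ∧ ∀ z : ℍ, 1 ≤ z.im →
      C * Real.exp (-(2 * π * ((Nat.totient N : ℝ) * ((dedekindPsi N : ℝ) - 1)) * z.im)) ≤
        ‖Ufun N z‖ := by
  obtain ⟨C₁, C₂, h1, h2, h⟩ := twoSided_Ufun_smul N 1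
  refine ⟨C₁, h1, fun z hz => ?_⟩
  have := (h z hz).1
  rw [kappa_one] at this
  simpa only [one_smul] using this

/-- Two-sided bound for the inverses of the translates of the unit. -/
theorem twoSided_Ufun_smul_inv (N : ℕ) [NeZero N] (γ : SL(2, ℤ)) :
    TwoSided (-kappa N γ) (fun z => (Ufun N (γ • z))⁻¹) :=
  (twoSided_Ufun_smul N γ).inv

theorem neg_le_neg_kappa (N : ℕ) [NeZero N] (γ : SL(2, ℤ)) :
    -((Nat.totient N : ℝ) * ((dedekindPsi N : ℝ) - 1)) ≤ -kappa N γ := by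
  rw [kappa]
  have h1 : (1 : ℝ) ≤ dedekindPsi N := by exact_mod_cast one_le_dedekindPsi N
  have h2 : (0 : ℝ) ≤ Nat.totient N := Nat.cast_nonneg _
  split_ifs
  · exact le_rfl
  · nlinarith

/-- Every inverse translate of the unit is `O(exp(2π φ(N) (ψ(N) - 1) Im z))` on `1 ≤ Im z`. -/
theorem Ufun_inv_growth (N : ℕ) [NeZero N] (g : SL(2, ℤ)) :
    ∃ C : ℝ, 0 < C ∧ ∀ z : ℍ, 1 ≤ z.im →
      ‖(Ufun N (g • z))⁻¹‖ ≤ C *
        Real.exp (2 * π * ((Nat.totient N : ℝ) * ((dedekindPsi N : ℝ) - 1)) * z.im) := by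
  obtain ⟨C, hC, h⟩ := (twoSided_Ufun_smul_inv N g).norm_le_of_le (neg_le_neg_kappa N g)
  refine ⟨C, hC, fun z hz => ?_⟩
  have := h z hz
  have e : -(2 * π * -((Nat.totient N : ℝ) * ((dedekindPsi N : ℝ) - 1)) * z.im) =
      2 * π * ((Nat.totient N : ℝ) * ((dedekindPsi N : ℝ) - 1)) * z.im := by ring
  rwa [e] at this

theorem cast_totient_mul_psi_sub_one (N : ℕ) [NeZero N] :
    ((Nat.totient N * (dedekindPsi N - 1) : ℕ) : ℝ) =
      (Nat.totient N : ℝ) * ((dedekindPsi N : ℝ) - 1) := by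
  rw [Nat.cast_mul, Nat.cast_sub (one_le_dedekindPsi N), Nat.cast_one]

/-- `hgrow` of `NormGen.exists_monic_poly_of_bounds` for `F = Ufun N`, `a = φ(N)`. -/
theorem Ufun_hgrow (N : ℕ) [NeZero N] (g : SL(2, ℤ)) :
    ∃ C : ℝ, ∀ z : ℍ, 1 ≤ z.im →
      ‖Ufun N (g • z)‖ ≤ C * Real.exp (2 * π * (Nat.totient N : ℝ) * z.im) := by
  obtain ⟨C, -, h⟩ := Ufun_growth N g
  exact ⟨C, h⟩

/-- `hdecay` of `NormGen.exists_monic_poly_of_bounds` for `F = Ufun N`,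
`b = φ(N) (ψ(N) - 1)` (a natural number). -/
theorem Ufun_hdecay (N : ℕ) [NeZero N] :
    ∃ C : ℝ, ∀ z : ℍ, 1 ≤ z.im →
      ‖Ufun N z‖ ≤ C *
        Real.exp (-(2 * π * ((Nat.totient N * (dedekindPsi N - 1) : ℕ) : ℝ) * z.im)) := by
  obtain ⟨C, -, h⟩ := Ufun_decay N
  refine ⟨C, fun z hz => ?_⟩
  rw [cast_totient_mul_psi_sub_one]
  exact h z hz

/-- Growth of the inverse translates with a natural number exponent. -/
theorem Ufun_inv_hgrow (N : ℕ) [NeZero N] (g : SL(2, ℤ)) :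
    ∃ C : ℝ, ∀ z : ℍ, 1 ≤ z.im →
      ‖(Ufun N (g • z))⁻¹‖ ≤ C *
        Real.exp (2 * π * ((Nat.totient N * (dedekindPsi N - 1) : ℕ) : ℝ) * z.im) := by
  obtain ⟨C, -, h⟩ := Ufun_inv_growth N g
  refine ⟨C, fun z hz => ?_⟩
  rw [cast_totient_mul_psi_sub_one]
  exact h z hz

end UnitGrowth

end Fermat.Agent.S28
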