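import Mathlib
import Fermat.Prelude.Def_GaloisRep_Flat
import Fermat.Agent.S28.AFinalCore
import Fermat.Agent.S28.NormGen
import Fermat.Agent.S28.UnitGrowth
import Fermat.Agent.S28.FormalU

/-!
# S28 (AFinal, second half): the ring of integrality and the relation modulo integrality

* `awayRing N`: the complex numbers which become integral over `ℤ` after multiplication by a
  power of `N`.  It contains the `N`-th roots of unity and `1 / N`, and its rational elements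
  are `ℓ`-integral for every prime `ℓ ∤ N` (`awayRing_rat`).
* `exists_relation_of_integral`: the norm relation of the unit `Ufun N` over `ℚ`, with the
  `ℓ`-integrality conjuncts reduced to statements about the complex norm polynomial.
-/

set_option autoImplicit false

open Polynomial

namespace Fermat.Agent.S28

namespace AFinal

open UpperHalfPlane ModularCurve
open Fermat.Agent.S23 Fermat.Agent.S24
open scoped MatrixGroups

/-! ### Integrality away from `N` -/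

/-- Complex numbers which become integral over `ℤ` after multiplication by a power of `N`. -/
def awayRing (N : ℕ) : Subring ℂ where
  carrier := {z | ∃ k : ℕ, IsIntegral ℤ ((N : ℂ) ^ k * z)}
  mul_mem' := by
    rintro a b ⟨k, hk⟩ ⟨l, hl⟩
    refine ⟨k + l, ?_⟩
    have e : (N : ℂ) ^ (k + l) * (a * b) = ((N : ℂ) ^ k * a) * ((N : ℂ) ^ l * b) := by ring
    rw [e]
    exact hk.mul hl
  one_mem' := ⟨0, by simpa using isIntegral_one⟩
  add_mem' := by
    rintro a b ⟨k, hk⟩ ⟨l, hl⟩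
    refine ⟨k + l, ?_⟩
    have e : (N : ℂ) ^ (k + l) * (a + b) =
        (N : ℂ) ^ l * ((N : ℂ) ^ k * a) + (N : ℂ) ^ k * ((N : ℂ) ^ l * b) := by ring
    have hN : IsIntegral ℤ (N : ℂ) := isIntegral_algebraMap (R := ℤ) (A := ℂ) (x := (N : ℤ))
    rw [e]
    exact ((hN.pow l).mul hk).add ((hN.pow k).mul hl)
  zero_mem' := ⟨0, by simpa using isIntegral_zero⟩
  neg_mem' := by
    rintro a ⟨k, hk⟩
    exact ⟨k, by rw [mul_neg]; exact hk.neg⟩

theorem mem_awayRing {N : ℕ} {z : ℂ} :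
    z ∈ awayRing N ↔ ∃ k : ℕ, IsIntegral ℤ ((N : ℂ) ^ k * z) := Iff.rfl

/-- The `N`-th roots of unity lie in `awayRing N`. -/
theorem rootOfUnity_mem_awayRing {N : ℕ} (hN : 0 < N) {ζ : ℂ} (hζ : ζ ^ N = 1) :
    ζ ∈ awayRing N := by
  refine ⟨0, ?_⟩
  rw [pow_zero, one_mul]
  refine IsIntegral.of_pow hN ?_
  rw [hζ]
  exact isIntegral_one

/-- `1 / N` lies in `awayRing N`. -/
theorem inv_natCast_mem_awayRing {N : ℕ} (hN : N ≠ 0) : ((N : ℂ))⁻¹ ∈ awayRing N := by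
  refine ⟨1, ?_⟩
  rw [pow_one, mul_inv_cancel₀ (Nat.cast_ne_zero.mpr hN)]
  exact isIntegral_one

/-- A rational number in `awayRing N` is `ℓ`-integral for every prime `ℓ ∤ N`. -/
theorem awayRing_rat {N : ℕ} {r : ℚ} (hr : (r : ℂ) ∈ awayRing N) {ℓ : ℕ} (hℓ : ℓ.Prime)
    (hℓN : ¬ ℓ ∣ N) : r ∈ GaloisRep.ratLocalizedAt ℓ := by
  obtain ⟨k, hk⟩ := hr
  have h1 : IsIntegral ℤ (algebraMap ℚ ℂ ((N : ℚ) ^ k * r)) := by
    have e : algebraMap ℚ ℂ ((N : ℚ) ^ k * r) = (N : ℂ) ^ k * (r : ℂ) := by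
      simp
    rw [e]
    exact hk
  have h2 : IsIntegral ℤ ((N : ℚ) ^ k * r) :=
    (isIntegral_algebraMap_iff (algebraMap ℚ ℂ).injective).mp h1
  obtain ⟨n, hn⟩ := IsIntegrallyClosed.isIntegral_iff.mp h2
  have hNk : ((N : ℚ) ^ k) ≠ 0 := pow_ne_zero _ (fun h => hℓN (by
    have : N = 0 := by exact_mod_cast h
    rw [this]; exact dvd_zero _))
  have hr' : r = (n : ℚ) / ((N ^ k : ℕ) : ℚ) := by
    rw [eq_div_iff (by exact_mod_cast hNk)]
    have : algebraMap ℤ ℚ n = (n : ℚ) := rfl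
    rw [← this, hn]
    push_cast
    ring
  have hden : r.den ∣ N ^ k := by
    rw [hr']
    have := Rat.den_dvd n ((N ^ k : ℕ) : ℤ)
    rw [Rat.divInt_eq_div] at this
    exact_mod_cast this
  show r.den.Coprime ℓ
  refine Nat.Coprime.coprime_dvd_left hden ?_
  exact Nat.Coprime.pow_left k (Nat.coprime_comm.mp ((Nat.Prime.coprime_iff_not_dvd hℓ).mpr hℓN))

/-! ### The relation, modulo integrality of the complex norm polynomial -/

/-- The norm relation of the unit over `ℚ`; the `ℓ`-integrality conjuncts are reduced to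
statements about the complex polynomial mapping to the norm polynomial of `Ufun N`. -/
theorem exists_relation_of_integral (N : ℕ) [NeZero N]
    (hint : ∀ p : ℂ[X][X],
      p.map (aeval jFun : ℂ[X] →ₐ[ℂ] (ℍ → ℂ)).toRingHom = NormGen.normPolyOf N (Ufun N) →
      ∀ ℓ : ℕ, ℓ.Prime → ¬ ℓ ∣ N → ∀ (i k : ℕ) (r : ℚ),
        algebraMap ℚ ℂ r = (p.coeff i).coeff k → r ∈ GaloisRep.ratLocalizedAt ℓ)
    (hinv : ∀ p : ℂ[X][X],
      p.map (aeval jFun : ℂ[X] →ₐ[ℂ] (ℍ → ℂ)).toRingHom = NormGen.normPolyOf N (Ufun N) →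
      ∀ c : ℂ, p.coeff 0 = C c → ∀ ℓ : ℕ, ℓ.Prime → ¬ ℓ ∣ N → ∀ r : ℚ,
        algebraMap ℚ ℂ r = c⁻¹ → r ∈ GaloisRep.ratLocalizedAt ℓ) :
    ∃ P : ℚ[X][X], P.Monic ∧ P.natDegree = dedekindPsi N ∧
      (∀ i ≤ dedekindPsi N, (P.coeff i).natDegree ≤ (dedekindPsi N - i) * N.totient) ∧
      (∃ c : ℚ, c ≠ 0 ∧ P.coeff 0 = C c ∧
        ∀ ℓ : ℕ, ℓ.Prime → ¬ ℓ ∣ N → c⁻¹ ∈ GaloisRep.ratLocalizedAt ℓ) ∧
      (∀ i k, ∀ ℓ : ℕ, ℓ.Prime → ¬ ℓ ∣ N → (P.coeff i).coeff k ∈ GaloisRep.ratLocalizedAt ℓ) ∧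
      P.eval₂ ((aeval jq : ℚ[X] →ₐ[ℚ] LaurentSeries ℚ) : ℚ[X] →+* LaurentSeries ℚ)
        (coeffMap (Int.castRingHom ℚ) (FormalU.uZ N)) = 0 := by
  obtain ⟨p, hp, hdeg, hbound, hc, hmap, hroot⟩ :=
    NormGen.exists_monic_poly_of_bounds N (Ufun N) (Ufun_mdiff N)
      (fun δ hδ z => Ufun_Gamma0_smul N hδ z) (Nat.totient N)
      (Nat.totient N * (dedekindPsi N - 1)) (by rw [card_X0])
      (UnitGrowth.Ufun_hgrow N) (UnitGrowth.Ufun_hdecay N) (Ufun_ne_zero N)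
  rw [card_X0] at hdeg
  have hbound' : ∀ i ≤ dedekindPsi N,
      (p.coeff i).natDegree ≤ (dedekindPsi N - i) * N.totient := by
    intro i _
    have := hbound i
    rwa [card_X0] at this
  have hφ : 0 < N.totient := Nat.totient_pos.mpr (NeZero.pos N)
  obtain ⟨P, -, hPmonic, hPdeg, hPbound, ⟨c, hc0, hPc, hpc⟩, hcc, hPev⟩ :=
    exists_rat_relation (FormalU.isWH_Ufun N) (FormalU.uZ N) (FormalU.qLaurent_Ufun N) hφ
      (fun n hn => FormalU.uZ_coeff_of_lt N hn) p hp hdeg hbound' hc hroot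
  refine ⟨P, hPmonic, hPdeg, hPbound, ⟨c, hc0, hPc, fun ℓ hℓ hℓN => ?_⟩,
    fun i k ℓ hℓ hℓN => ?_, hPev⟩
  · exact hinv p hmap _ hpc ℓ hℓ hℓN c⁻¹ (map_inv₀ _ _)
  · exact hint p hmap ℓ hℓ hℓN i k _ (hcc i k)

end AFinal

end Fermat.Agent.S28
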