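import Mathlib
import Fermat.Prelude.Def_ModularCurve_X0ModL
import Fermat.Agent.S24.Bridge
import Fermat.Agent.S24.CuspExp
import Fermat.Agent.S28.NormGen

/-!
# S28, package Integral: integrality of the coefficients of the norm polynomial

* `coeffSubring A`: Laurent series with all coefficients in a subring `A`;
* `coeff_mem_of_aeval_mem` (triangular lemma): if `jb = q ^ (-n) + …` has coefficients in `A`
  and `p(jb)` has coefficients in `A`, then `p` has coefficients in `A`;
* `qLaurent_natCast`: the expansion in `exp (2 π i τ / N)` of a `1`-periodic function is the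
  `N`-fold dilation of its `q`-expansion;
* `coeff_coeff_mem`, `const_inv_mem`: the coefficients of the norm polynomial of `F` over
  `ℂ[j]` lie in `A` as soon as the expansions of all translates of `F` have coefficients in `A`,
  and the inverse of its constant term lies in `A` if the same holds for the inverse translates.
-/

set_option autoImplicit false

open UpperHalfPlane ModularCurve Polynomial
open scoped MatrixGroups Real Manifold

namespace Fermat.Agent.S28.Integral

open Fermat.Agent.S23 Fermat.Agent.S24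

/-! ### Series with coefficients in a subring -/

section Series

variable {R : Type*} [CommRing R]

/-- Laurent series all of whose coefficients lie in the subring `A`. -/
def coeffSubring (A : Subring R) : Subring (HahnSeries ℤ R) where
  carrier := {x | ∀ k, x.coeff k ∈ A}
  mul_mem' := by
    intro x y hx hy k
    rw [HahnSeries.coeff_mul]
    exact Subring.sum_mem _ fun ij _ => A.mul_mem (hx _) (hy _)
  one_mem' := by
    intro k
    rw [HahnSeries.coeff_one]
    split_ifs
    · exact A.one_mem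
    · exact A.zero_mem
  add_mem' := by
    intro x y hx hy k
    rw [HahnSeries.coeff_add]
    exact A.add_mem (hx k) (hy k)
  zero_mem' := by
    intro k
    rw [HahnSeries.coeff_zero]
    exact A.zero_mem
  neg_mem' := by
    intro x hx k
    rw [HahnSeries.coeff_neg]
    exact A.neg_mem (hx k)

theorem mem_coeffSubring {A : Subring R} {x : HahnSeries ℤ R} :
    x ∈ coeffSubring A ↔ ∀ k, x.coeff k ∈ A := Iff.rfl

theorem algebraMap_eq_C (c : R) : algebraMap R (HahnSeries ℤ R) c = HahnSeries.C c := by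
  rw [HahnSeries.algebraMap_apply']
  simp

theorem coeff_C_mul (c : R) (x : HahnSeries ℤ R) (k : ℤ) :
    (HahnSeries.C c * x).coeff k = c * x.coeff k := by
  rw [HahnSeries.C_mul_eq_smul, HahnSeries.coeff_smul, smul_eq_mul]

theorem C_mul_mem_coeffSubring {A : Subring R} {c : R} (hc : c ∈ A) {x : HahnSeries ℤ R}
    (hx : x ∈ coeffSubring A) : HahnSeries.C c * x ∈ coeffSubring A := by
  intro k
  rw [coeff_C_mul]
  exact A.mul_mem hc (hx k)

/-- Coefficients of a product below and at the sum of lower bounds of the supports. -/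
theorem coeff_mul_of_lower {x y : HahnSeries ℤ R} {a b : ℤ} (hx : ∀ k < a, x.coeff k = 0)
    (hy : ∀ k < b, y.coeff k = 0) :
    (∀ k < a + b, (x * y).coeff k = 0) ∧ (x * y).coeff (a + b) = x.coeff a * y.coeff b := by
  have hsx : ∀ i ∈ x.support, a ≤ i := by
    intro i hi
    by_contra h
    exact hi (hx i (not_le.mp h))
  have hsy : ∀ i ∈ y.support, b ≤ i := by
    intro i hi
    by_contra h
    exact hi (hy i (not_le.mp h))
  constructor
  · intro k hk
    rw [HahnSeries.coeff_mul]
    apply Finset.sum_eq_zero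
    intro ij hij
    rw [Finset.mem_antidiagonal] at hij
    have h1 := hsx _ hij.1
    have h2 := hsy _ hij.2.1
    omega
  · rw [HahnSeries.coeff_mul]
    by_cases hab : x.coeff a = 0 ∨ y.coeff b = 0
    · have hz : x.coeff a * y.coeff b = 0 := by
        rcases hab with h | h
        · rw [h, zero_mul]
        · rw [h, mul_zero]
      rw [hz]
      apply Finset.sum_eq_zero
      intro ij hij
      rw [Finset.mem_antidiagonal] at hij
      have h1 := hsx _ hij.1
      have h2 := hsy _ hij.2.1
      have e1 : ij.1 = a := by omega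
      have e2 : ij.2 = b := by omega
      rw [e1, e2, hz]
    · have hab1 : x.coeff a ≠ 0 := fun h => hab (Or.inl h)
      have hab2 : y.coeff b ≠ 0 := fun h => hab (Or.inr h)
      rw [Finset.sum_eq_single (a, b)]
      · intro ij hij hne
        rw [Finset.mem_antidiagonal] at hij
        have h1 := hsx _ hij.1
        have h2 := hsy _ hij.2.1
        exfalso
        apply hne
        ext
        · show ij.1 = a
          omega
        · show ij.2 = b
          omega
      · intro h
        exfalso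
        apply h
        rw [Finset.mem_antidiagonal]
        exact ⟨hab1, hab2, rfl⟩

/-- Powers of a series with lowest term `q ^ (-n)`. -/
theorem coeff_pow_of_lower {jb : HahnSeries ℤ R} {n : ℕ}
    (hlow : ∀ k : ℤ, k < -(n : ℤ) → jb.coeff k = 0) (hlead : jb.coeff (-(n : ℤ)) = 1) (i : ℕ) :
    (∀ k : ℤ, k < -((n : ℤ) * i) → (jb ^ i).coeff k = 0) ∧
      (jb ^ i).coeff (-((n : ℤ) * i)) = 1 := by
  induction i with
  | zero =>
    constructor
    · intro k hk
      rw [pow_zero, HahnSeries.coeff_one, if_neg]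
      push_cast at hk
      omega
    · rw [pow_zero, HahnSeries.coeff_one, if_pos]
      push_cast
      ring
  | succ i ih =>
    have h := coeff_mul_of_lower ih.1 hlow
    have e : -((n : ℤ) * i) + -(n : ℤ) = -((n : ℤ) * ((i + 1 : ℕ) : ℤ)) := by
      push_cast
      ring
    rw [e] at h
    rw [pow_succ]
    refine ⟨h.1, ?_⟩
    rw [h.2, ih.2, hlead, mul_one]

theorem coeff_aeval_eq_sum (jb : HahnSeries ℤ R) (p : R[X]) (k : ℤ) :
    (aeval jb p).coeff k = ∑ i ∈ Finset.range (p.natDegree + 1), p.coeff i * (jb ^ i).coeff k := by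
  rw [aeval_def, eval₂_eq_sum_range, HahnSeries.coeff_sum]
  refine Finset.sum_congr rfl fun i _ => ?_
  rw [algebraMap_eq_C, coeff_C_mul]

/-- The coefficient of `q ^ (-n d)` in `p(jb)`, `d ≥ natDegree p`, is the `d`-th coefficient of
`p`, and there are no lower terms. -/
theorem coeff_aeval_of_lower {jb : HahnSeries ℤ R} {n : ℕ} (hn : 0 < n)
    (hlow : ∀ k : ℤ, k < -(n : ℤ) → jb.coeff k = 0) (hlead : jb.coeff (-(n : ℤ)) = 1)
    (p : R[X]) {d : ℕ} (hd : p.natDegree ≤ d) :
    (∀ k : ℤ, k < -((n : ℤ) * d) → (aeval jb p).coeff k = 0) ∧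
      (aeval jb p).coeff (-((n : ℤ) * d)) = p.coeff d := by
  have hn' : (0 : ℤ) < n := by exact_mod_cast hn
  constructor
  · intro k hk
    rw [coeff_aeval_eq_sum]
    apply Finset.sum_eq_zero
    intro i hi
    rw [Finset.mem_range] at hi
    have hid : (i : ℤ) ≤ d := by exact_mod_cast (Nat.lt_succ_iff.mp hi).trans hd
    rw [(coeff_pow_of_lower hlow hlead i).1 k (by nlinarith), mul_zero]
  · rw [coeff_aeval_eq_sum]
    by_cases hdd : d = p.natDegree
    · subst hdd
      rw [Finset.sum_eq_single p.natDegree]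
      · rw [(coeff_pow_of_lower hlow hlead _).2, mul_one]
      · intro i hi hne
        rw [Finset.mem_range] at hi
        have hid : (i : ℤ) < p.natDegree := by
          have : i < p.natDegree := lt_of_le_of_ne (Nat.lt_succ_iff.mp hi) hne
          exact_mod_cast this
        rw [(coeff_pow_of_lower hlow hlead i).1 _ (by nlinarith), mul_zero]
      · intro h
        exact absurd (Finset.mem_range.mpr (Nat.lt_succ_self _)) h
    · have hlt : p.natDegree < d := lt_of_le_of_ne hd (Ne.symm hdd)
      rw [coeff_eq_zero_of_natDegree_lt hlt]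
      apply Finset.sum_eq_zero
      intro i hi
      rw [Finset.mem_range] at hi
      have hid : (i : ℤ) < d := by
        have : i < d := lt_of_le_of_lt (Nat.lt_succ_iff.mp hi) hlt
        exact_mod_cast this
      rw [(coeff_pow_of_lower hlow hlead i).1 _ (by nlinarith), mul_zero]

/-- **Degree bound.** If `p(jb)` has no terms below `q ^ (-n d)` then `natDegree p ≤ d`. -/
theorem natDegree_le_of_aeval_lower {jb : HahnSeries ℤ R} {n : ℕ} (hn : 0 < n)
    (hlow : ∀ k : ℤ, k < -(n : ℤ) → jb.coeff k = 0) (hlead : jb.coeff (-(n : ℤ)) = 1)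
    (p : R[X]) {d : ℕ} (hp : ∀ k : ℤ, k < -((n : ℤ) * d) → (aeval jb p).coeff k = 0) :
    p.natDegree ≤ d := by
  by_contra hlt
  have hlt' : d < p.natDegree := not_le.mp hlt
  have hn' : (0 : ℤ) < n := by exact_mod_cast hn
  have h := (coeff_aeval_of_lower hn hlow hlead p (le_refl p.natDegree)).2
  have hd' : (d : ℤ) < p.natDegree := by exact_mod_cast hlt'
  rw [hp _ (by nlinarith)] at h
  have hp0 : p ≠ 0 := by
    rintro rfl
    simp at hlt'
  exact (leadingCoeff_ne_zero.mpr hp0) h.symm

/-- **Triangular lemma.** `jb = q ^ (-n) + …` with coefficients in the subring `A`.  If all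
coefficients of `p(jb)` lie in `A`, so do all coefficients of `p`. -/
theorem coeff_mem_of_aeval_mem (A : Subring R) {jb : HahnSeries ℤ R} {n : ℕ} (hn : 0 < n)
    (hlow : ∀ k : ℤ, k < -(n : ℤ) → jb.coeff k = 0) (hlead : jb.coeff (-(n : ℤ)) = 1)
    (hjA : ∀ k, jb.coeff k ∈ A) (p : R[X]) (hp : ∀ k, (aeval jb p).coeff k ∈ A) :
    ∀ i, p.coeff i ∈ A := by
  have hjb : jb ∈ coeffSubring A := hjA
  suffices H : ∀ m : ℕ, ∀ p : R[X], p.natDegree ≤ m → (∀ k, (aeval jb p).coeff k ∈ A) →
      ∀ i, p.coeff i ∈ A from H p.natDegree p le_rfl hp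
  intro m
  induction m with
  | zero =>
    intro p hdeg hp i
    have hc := (coeff_aeval_of_lower hn hlow hlead p hdeg).2
    by_cases hi : i = 0
    · subst hi
      rw [← hc]
      exact hp _
    · rw [coeff_eq_zero_of_natDegree_lt (by omega)]
      exact A.zero_mem
  | succ m ih =>
    intro p hdeg hp i
    by_cases hle : p.natDegree ≤ m
    · exact ih p hle hp i
    · have hd : p.natDegree = m + 1 := by omega
      have hc := (coeff_aeval_of_lower hn hlow hlead p (le_refl p.natDegree)).2
      have hlc : p.leadingCoeff ∈ A := by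
        rw [leadingCoeff, ← hc]
        exact hp _
      have hq : p.eraseLead.natDegree ≤ m := by
        have := eraseLead_natDegree_le p
        omega
      have hsplit : aeval jb p.eraseLead =
          aeval jb p - HahnSeries.C p.leadingCoeff * jb ^ p.natDegree := by
        have h := congrArg (aeval jb) (eraseLead_add_C_mul_X_pow p)
        rw [map_add, map_mul, aeval_C, map_pow, aeval_X, algebraMap_eq_C] at h
        rw [← h]
        ring
      have hmem : aeval jb p.eraseLead ∈ coeffSubring A := by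
        rw [hsplit]
        exact (coeffSubring A).sub_mem hp
          (C_mul_mem_coeffSubring hlc ((coeffSubring A).pow_mem hjb _))
      have hih := ih p.eraseLead hq hmem
      by_cases hi : i = p.natDegree
      · rw [hi]
        exact hlc
      · rw [← eraseLead_coeff_of_ne i hi]
        exact hih i

end Series

/-! ### Expansion in `exp (2 π i τ / N)` of a `1`-periodic function -/

section Expand

open Function Filter Complex

theorem qFun_one_eq_pow (N : ℕ) [NeZero N] (z : ℍ) : qFun 1 z = qFun (N : ℝ) z ^ N := by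
  rw [qFun_pow_self]
  simp [qFun, Function.Periodic.qParam]

theorem periodic_natCast {G : ℍ → ℂ} (per : Periodic (G ∘ ofComplex) (1 : ℝ)) (N : ℕ) :
    Periodic (G ∘ ofComplex) (N : ℝ) := by
  have := per.nat_mul N
  simpa using this

theorem qExpansion_natCast (N : ℕ) [NeZero N] {G : ℍ → ℂ} (hol : MDiff G)
    (per : Periodic (G ∘ ofComplex) (1 : ℝ)) (bdd : IsBoundedAtImInfty G) :
    qExpansion (N : ℝ) G = Bridge.expandPS N (qExpansion 1 G) := by
  have hN : 0 < N := Nat.pos_of_ne_zero (NeZero.ne N)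
  have hh := natCast_pos_real N
  have han := analyticAt_cusp hh hol (periodic_natCast per N) bdd
  ext k
  rw [Bridge.expandPS, PowerSeries.coeff_mk]
  refine (qExpansion_coeff_unique' (h := (N : ℝ)) (f := G)
    (c := fun k => if N ∣ k then (qExpansion 1 G).coeff (k / N) else 0) hh han
    (fun τ => ?_) k).symm
  have h1 := hasSum_qExpansion one_pos per hol bdd τ
  have hinj : Function.Injective (fun m : ℕ => N * m) := fun a b hab =>
    Nat.eq_of_mul_eq_mul_left hN hab
  rw [← hinj.hasSum_iff]
  · have e : ((fun k : ℕ => (if N ∣ k then (qExpansion 1 G).coeff (k / N) else 0) •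
          Function.Periodic.qParam (N : ℝ) (τ : ℂ) ^ k) ∘ fun m : ℕ => N * m) =
        fun m : ℕ => (qExpansion 1 G).coeff m • Function.Periodic.qParam 1 (τ : ℂ) ^ m := by
      funext m
      simp only [Function.comp_apply]
      rw [if_pos (Dvd.intro m rfl), Nat.mul_div_cancel_left m hN, pow_mul]
      have := qFun_one_eq_pow N τ
      simp only [qFun] at this
      rw [this]
    rw [e]
    exact h1
  · intro k hk
    have : ¬ N ∣ k := fun ⟨m, hm⟩ => hk ⟨m, hm.symm⟩
    simp [this]

theorem mul_qFun_pow_natCast (N : ℕ) [NeZero N] (F : ℍ → ℂ) (m : ℕ) :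
    F * qFun (N : ℝ) ^ (N * m) = F * qFun 1 ^ m := by
  funext z
  simp only [Pi.mul_apply, Pi.pow_apply]
  rw [pow_mul, ← qFun_one_eq_pow]

/-- A weakly holomorphic `1`-periodic function is weakly holomorphic `N`-periodic. -/
theorem isWH_natCast (N : ℕ) [NeZero N] {F : ℍ → ℂ} (hF : IsWH 1 F) : IsWH (N : ℝ) F := by
  obtain ⟨m, hm⟩ := hF.bdd
  refine ⟨hF.holo, periodic_natCast hF.per N, N * m, ?_⟩
  rw [mul_qFun_pow_natCast]
  exact hm

/-- The expansion in `exp (2 π i τ / N)` of a `1`-periodic function is the dilation of its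
`q`-expansion. -/
theorem qLaurent_natCast (N : ℕ) [NeZero N] {F : ℍ → ℂ} (hF : IsWH 1 F) :
    qLaurent (N : ℝ) F = qExpand ℂ N (qLaurent 1 F) := by
  have hh := natCast_pos_real N
  obtain ⟨m, hm⟩ := hF.bdd
  have hb : IsBoundedAtImInfty (F * qFun (N : ℝ) ^ (N * m)) := by
    rw [mul_qFun_pow_natCast]
    exact hm
  rw [qLaurent_eq hh (isWH_natCast N hF) hb, qLaurent_eq one_pos hF hm]
  unfold qLaurentAt
  rw [map_mul, qExpand_single, Bridge.qExpand_ofPowerSeries, mul_qFun_pow_natCast,
    qExpansion_natCast N (mdiff_mul_qpow hF.holo m) (periodic_mul_qpow one_ne_zero hF.per m) hm]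
  have e2 : (-((N * m : ℕ) : ℤ)) = (N : ℤ) * -(m : ℤ) := by push_cast; ring
  rw [e2]

theorem qLaurent_jFun_natCast (N : ℕ) [NeZero N] :
    qLaurent (N : ℝ) jFun = qExpand ℂ N (jqModC ℂ) := by
  rw [qLaurent_natCast N Bridge.isWH_jFun, Bridge.qLaurent_jFun]

theorem coeff_qLaurent_jFun_of_lt (N : ℕ) [NeZero N] {k : ℤ} (hk : k < -(N : ℤ)) :
    (qLaurent (N : ℝ) jFun).coeff k = 0 := by
  have hN : (0 : ℤ) < N := by exact_mod_cast Nat.pos_of_ne_zero (NeZero.ne N)
  rw [qLaurent_jFun_natCast]
  by_cases hd : (N : ℤ) ∣ k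
  · obtain ⟨m, rfl⟩ := hd
    rw [qExpand_coeff_mul]
    apply coeff_jqModC_of_lt
    by_contra h
    have : (-1 : ℤ) ≤ m := not_lt.mp h
    nlinarith
  · exact qExpand_coeff_of_not_dvd N _ hd

theorem coeff_qLaurent_jFun_neg (N : ℕ) [NeZero N] :
    (qLaurent (N : ℝ) jFun).coeff (-(N : ℤ)) = 1 := by
  rw [qLaurent_jFun_natCast]
  have e : (-(N : ℤ)) = (N : ℤ) * (-1) := by ring
  rw [e, qExpand_coeff_mul]
  exact coeff_jqModC_neg_one ℂ

theorem coeff_qLaurent_jFun_mem (N : ℕ) [NeZero N] (A : Subring ℂ) (k : ℤ) :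
    (qLaurent (N : ℝ) jFun).coeff k ∈ A := by
  rw [qLaurent_jFun_natCast]
  by_cases hd : (N : ℤ) ∣ k
  · obtain ⟨m, rfl⟩ := hd
    rw [qExpand_coeff_mul, coeff_jqModC_eq_intCast]
    exact intCast_mem A _
  · rw [qExpand_coeff_of_not_dvd N _ hd]
    exact A.zero_mem

end Expand

/-! ### Functions whose expansion has coefficients in `A` -/

section Good

variable (N : ℕ) [NeZero N] (A : Subring ℂ)

/-- Weakly holomorphic `N`-periodic functions whose expansion has all coefficients in `A`. -/
noncomputable def goodFun : Subring (ℍ → ℂ) :=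
  ((coeffSubring A).comap
    ((qL (N : ℝ) (natCast_pos_real N) : WH (N : ℝ) (natCast_pos_real N) →ₐ[ℂ] LaurentSeries ℂ) :
      WH (N : ℝ) (natCast_pos_real N) →+* LaurentSeries ℂ)).map
    (WH (N : ℝ) (natCast_pos_real N)).val.toRingHom

variable {N A}

theorem mem_goodFun {f : ℍ → ℂ} :
    f ∈ goodFun N A ↔ IsWH (N : ℝ) f ∧ ∀ k, (qLaurent (N : ℝ) f).coeff k ∈ A := by
  constructor
  · rintro ⟨w, hw, rfl⟩
    exact ⟨w.2, hw⟩
  · rintro ⟨h1, h2⟩
    exact ⟨⟨f, h1⟩, h2, rfl⟩

/-- `qLaurent` of a polynomial in `j`. -/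
theorem qLaurent_aeval_jFun (q : ℂ[X]) :
    IsWH (N : ℝ) (aeval jFun q) ∧
      qLaurent (N : ℝ) (aeval jFun q) = aeval (qLaurent (N : ℝ) jFun) q := by
  set W := WH (N : ℝ) (natCast_pos_real N) with hW
  let jW : W := ⟨jFun, isWH_jFun N⟩
  have h1 : aeval jFun q = ((aeval jW q : W) : ℍ → ℂ) :=
    Polynomial.aeval_algHom_apply W.val jW q
  have h2 : qL (N : ℝ) (natCast_pos_real N) (aeval jW q) = aeval (qLaurent (N : ℝ) jFun) q := by
    rw [← Polynomial.aeval_algHom_apply]
    rfl
  constructor
  · rw [h1]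
    exact (aeval jW q).2
  · rw [← h2, qL_apply, h1]

end Good

/-! ### Integrality of the norm polynomial -/

section Main

variable (N : ℕ) [NeZero N] (A : Subring ℂ) (F : ℍ → ℂ)

/-- **(G3)** If the expansions (in `exp (2 π i τ / N)`) of all translates of `F` have coefficients
in `A`, the coefficients of the norm polynomial of `F` over `ℂ[j]` lie in `A`. -/
theorem coeff_coeff_mem
    (hWH : ∀ g : SL(2, ℤ), IsWH (N : ℝ) (fun z => F (g • z)))
    (hA : ∀ (g : SL(2, ℤ)) (k : ℤ), (qLaurent (N : ℝ) (fun z => F (g • z))).coeff k ∈ A)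
    (p : ℂ[X][X])
    (hmap : p.map (aeval jFun : ℂ[X] →ₐ[ℂ] (ℍ → ℂ)).toRingHom = NormGen.normPolyOf N F) :
    ∀ i k, (p.coeff i).coeff k ∈ A := by
  intro i
  have hS : ∀ g : SL(2, ℤ), NormGen.tr F g ∈ goodFun N A := fun g =>
    (mem_goodFun (N := N) (A := A)).mpr ⟨hWH g, hA g⟩
  have h1 := NormGen.coeff_normPolyOf_mem (N := N) (goodFun N A) hS i
  rw [← hmap, Polynomial.coeff_map] at h1
  have h2 : (aeval jFun : ℂ[X] →ₐ[ℂ] (ℍ → ℂ)).toRingHom (p.coeff i) = aeval jFun (p.coeff i) := rfl
  rw [h2, mem_goodFun, (qLaurent_aeval_jFun (N := N) (p.coeff i)).2] at h1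
  exact coeff_mem_of_aeval_mem A (Nat.pos_of_ne_zero (NeZero.ne N))
    (fun k hk => coeff_qLaurent_jFun_of_lt N hk) (coeff_qLaurent_jFun_neg N)
    (coeff_qLaurent_jFun_mem N A) (p.coeff i) h1.2

/-- **(G3')** If the expansions of all inverse translates of `F` have coefficients in `A`, the
inverse of the (constant) constant term of the norm polynomial lies in `A`. -/
theorem const_inv_mem
    (hWH' : ∀ g : SL(2, ℤ), IsWH (N : ℝ) (fun z => (F (g • z))⁻¹))
    (hA' : ∀ (g : SL(2, ℤ)) (k : ℤ), (qLaurent (N : ℝ) (fun z => (F (g • z))⁻¹)).coeff k ∈ A)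
    (p : ℂ[X][X])
    (hmap : p.map (aeval jFun : ℂ[X] →ₐ[ℂ] (ℍ → ℂ)).toRingHom = NormGen.normPolyOf N F)
    {c : ℂ} (hc : p.coeff 0 = C c) : c⁻¹ ∈ A := by
  have hS : ∀ g : SL(2, ℤ), NormGen.tr (fun w => (F w)⁻¹) g ∈ goodFun N A := fun g =>
    (mem_goodFun (N := N) (A := A)).mpr ⟨hWH' g, hA' g⟩
  have h1 := NormGen.coeff_normPolyOf_mem (N := N) (goodFun N A) hS 0
  have h0 : ∀ z, (NormGen.normPolyOf N F).coeff 0 z = c := by
    intro z
    rw [← hmap, Polynomial.coeff_map, hc]
    show (aeval jFun (C c : ℂ[X])) z = c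
    rw [aeval_C]
    rfl
  have h2 : (NormGen.normPolyOf N (fun w => (F w)⁻¹)).coeff 0 = fun _ => c⁻¹ := by
    funext z
    rw [NormGen.coeff_zero_normPolyOf_inv, h0]
  rw [h2, mem_goodFun, qLaurent_const (natCast_pos_real N)] at h1
  have h3 := h1.2 0
  have h4 : (HahnSeries.C c⁻¹ : HahnSeries ℤ ℂ).coeff 0 = c⁻¹ := by
    rw [HahnSeries.C_apply, HahnSeries.coeff_single_same]
  rwa [h4] at h3

end Main

end Fermat.Agent.S28.Integral
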