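import Mathlib
import Fermat.Agent.S28.DeltaExp
import Fermat.Agent.S28.Unit
import Fermat.Agent.S28.NT

/-!
# S28, package UGood: the `q_N`-expansions of the translates of the unit are good series

For `g ∈ SL(2, ℤ)` with lower-left entry `c`, the translate `z ↦ U(g z)` of the eta-quotient unit
`U = Ufun N` is weakly holomorphic of period `N`, and its `q_N`-expansion is a good series
(`IsGoodSeries A`) of order `N * kappa N g`, where `kappa N g = φ(N) (ψ(N) - 1)` if `N ∣ c` and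
`-φ(N)` otherwise, over every subring `A ⊆ ℂ` containing the `N`-th roots of unity and `1 / N`.
The same holds for the inverse translate `z ↦ U(g z)⁻¹` (order `-N * kappa N g`).
-/

set_option autoImplicit false

namespace Fermat.Agent.S28.UGood

open Fermat.Agent.S28
open Complex Filter Topology Function
open UpperHalfPlane hiding I
open ModularForm
open scoped Real Manifold MatrixGroups ModularForm
open Fermat.Agent.S23 Fermat.Agent.S24

local notation "Δ" => ModularForm.discriminant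
local notation "𝕢" => Function.Periodic.qParam

/-! ### Generic lemmas on weakly holomorphic functions -/

theorem isWH_finset_prod {h : ℝ} {ι : Type*} (s : Finset ι) (F : ι → ℍ → ℂ)
    (hF : ∀ i ∈ s, IsWH h (F i)) : IsWH h (fun z => ∏ i ∈ s, F i z) := by
  classical
  induction s using Finset.induction_on with
  | empty => simpa using IsWH.const h 1
  | insert i s hi ih =>
    have e : (fun z => ∏ j ∈ insert i s, F j z) = F i * fun z => ∏ j ∈ s, F j z := by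
      funext z
      rw [Finset.prod_insert hi]
      rfl
    rw [e]
    exact (hF i (Finset.mem_insert_self i s)).mul
      (ih fun j hj => hF j (Finset.mem_insert_of_mem hj))

theorem qLaurent_finset_prod {h : ℝ} (hh : 0 < h) {ι : Type*} (s : Finset ι) (F : ι → ℍ → ℂ)
    (hF : ∀ i ∈ s, IsWH h (F i)) :
    qLaurent h (fun z => ∏ i ∈ s, F i z) = ∏ i ∈ s, qLaurent h (F i) := by
  classical
  induction s using Finset.induction_on with
  | empty =>
    simp only [Finset.prod_empty]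
    rw [qLaurent_const hh 1, map_one]
  | insert i s hi ih =>
    have e : (fun z => ∏ j ∈ insert i s, F j z) = F i * fun z => ∏ j ∈ s, F j z := by
      funext z
      rw [Finset.prod_insert hi]
      rfl
    rw [e, qLaurent_mul hh (hF i (Finset.mem_insert_self i s))
      (isWH_finset_prod s F fun j hj => hF j (Finset.mem_insert_of_mem hj)),
      ih fun j hj => hF j (Finset.mem_insert_of_mem hj), Finset.prod_insert hi]

theorem isWH_fun_pow {h : ℝ} {F : ℍ → ℂ} (hF : IsWH h F) (n : ℕ) : IsWH h (fun z => F z ^ n) :=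
  hF.pow n

theorem qLaurent_fun_pow {h : ℝ} (hh : 0 < h) {F : ℍ → ℂ} (hF : IsWH h F) (n : ℕ) :
    qLaurent h (fun z => F z ^ n) = qLaurent h F ^ n := by
  induction n with
  | zero =>
    simp only [pow_zero]
    rw [qLaurent_const hh 1, map_one]
  | succ n ih =>
    have e : (fun z => F z ^ (n + 1)) = (fun z => F z ^ n) * F := by
      funext z
      rw [pow_succ]
      rfl
    rw [e, qLaurent_mul hh (isWH_fun_pow hF n) hF, ih, pow_succ]

theorem isWH_fun_zpow {h : ℝ} {F : ℍ → ℂ} (hF : IsWH h F) (hF' : IsWH h (fun z => (F z)⁻¹))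
    (k : ℤ) : IsWH h (fun z => F z ^ k) := by
  obtain ⟨j, rfl | rfl⟩ := k.eq_nat_or_neg
  · simp only [zpow_natCast]
    exact isWH_fun_pow hF j
  · have e : (fun z => F z ^ (-(j : ℤ))) = fun z => (F z)⁻¹ ^ j := by
      funext z
      rw [zpow_neg, zpow_natCast, inv_pow]
    rw [e]
    exact isWH_fun_pow hF' j

theorem qLaurent_fun_inv {h : ℝ} (hh : 0 < h) {F : ℍ → ℂ} (hF : IsWH h F)
    (hF' : IsWH h (fun z => (F z)⁻¹)) (hne : ∀ z, F z ≠ 0) :
    qLaurent h (fun z => (F z)⁻¹) = (qLaurent h F)⁻¹ := by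
  refine qLaurent_eq_inv_of_mul_eq_one hh hF hF' ?_
  funext z
  simp only [Pi.mul_apply, Pi.one_apply]
  exact mul_inv_cancel₀ (hne z)

theorem qLaurent_fun_zpow {h : ℝ} (hh : 0 < h) {F : ℍ → ℂ} (hF : IsWH h F)
    (hF' : IsWH h (fun z => (F z)⁻¹)) (hne : ∀ z, F z ≠ 0) (k : ℤ) :
    qLaurent h (fun z => F z ^ k) = qLaurent h F ^ k := by
  obtain ⟨j, rfl | rfl⟩ := k.eq_nat_or_neg
  · simp only [zpow_natCast]
    exact qLaurent_fun_pow hh hF j
  · have e : (fun z => F z ^ (-(j : ℤ))) = fun z => (F z)⁻¹ ^ j := by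
      funext z
      rw [zpow_neg, zpow_natCast, inv_pow]
    rw [e, qLaurent_fun_pow hh hF' j, qLaurent_fun_inv hh hF hF' hne, zpow_neg, zpow_natCast,
      inv_pow]

/-! ### The inverse of `deltaAff` and of `deltaQuot` -/

theorem isWH_inv_deltaAff {a e m N : ℕ} (ha : 0 < a) (he : 0 < e) (hm : 0 < m) (hN : N = e * m)
    (b : ℤ) : IsWH (N : ℝ) (fun z => (deltaAff (a : ℤ) b (e : ℤ) z)⁻¹) := by
  have haZ : (0 : ℤ) < (a : ℤ) := by exact_mod_cast ha
  have heZ : (0 : ℤ) < (e : ℤ) := by exact_mod_cast he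
  refine ⟨?_, periodic_of_forall_vadd fun z => by rw [deltaAff_vadd he hN], a * m, ?_⟩
  · have hF := mdiff_deltaAff haZ heZ b
    rw [UpperHalfPlane.mdifferentiable_iff] at hF ⊢
    exact hF.inv fun w _ => deltaAff_ne_zero _ _ _ _
  · have ht : Tendsto (fun z : ℍ => (∏' n, (1 - eta_q n z) ^ 24)⁻¹) atImInfty (𝓝 (1 : ℂ)⁻¹) :=
      tendsto_atImInfty_tprod_one_sub_eta_q_pow.inv₀ one_ne_zero
    have hb : IsBoundedAtImInfty (fun z : ℍ => (∏' n, (1 - eta_q n z) ^ 24)⁻¹) :=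
      JAnalytic.isBoundedAtImInfty_of_tendsto ht
    rw [UpperHalfPlane.isBoundedAtImInfty_iff] at hb ⊢
    obtain ⟨M, B, hMB⟩ := hb
    have haR : (0 : ℝ) < a := by exact_mod_cast ha
    have heR : (0 : ℝ) < e := by exact_mod_cast he
    refine ⟨‖(deltaZeta b (e : ℤ))⁻¹‖ * M, B * e / a, fun z hz => ?_⟩
    have him := deltaAff_im_pos haZ heZ b z.im_pos
    set w : ℍ := ofComplex ((((a : ℤ) : ℂ) * z + b) / ((e : ℤ) : ℂ)) with hw
    have hcoe : (w : ℂ) = (((a : ℤ) : ℂ) * z + b) / ((e : ℤ) : ℂ) := by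
      rw [hw, ofComplex_apply_of_im_pos him]
    have hwim : B ≤ w.im := by
      rw [← UpperHalfPlane.coe_im, hcoe, deltaAff_im heZ]
      rw [div_le_iff₀ haR] at hz
      rw [le_div_iff₀ (by exact_mod_cast heR), UpperHalfPlane.coe_im]
      push_cast
      linarith
    have hq : 𝕢 (1 : ℝ) (w : ℂ) = deltaZeta b (e : ℤ) * qFun (N : ℝ) z ^ (a * m) := by
      rw [hcoe, qParam_deltaAff he hm hN, qFun_apply]
    have hval : (deltaAff (a : ℤ) b (e : ℤ) z)⁻¹ * qFun (N : ℝ) z ^ (a * m) =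
        (deltaZeta b (e : ℤ))⁻¹ * (∏' n, (1 - eta_q n w) ^ 24)⁻¹ := by
      have h1 : deltaAff (a : ℤ) b (e : ℤ) z = Δ w := rfl
      rw [h1, discriminant_eq_q_prod, hq]
      have hz0 := deltaZeta_ne_zero b (e : ℤ)
      have hq0 : qFun (N : ℝ) z ^ (a * m) ≠ 0 := pow_ne_zero _ (qFun_ne_zero _ _)
      have hp0 : (∏' n, (1 - eta_q n w) ^ 24) ≠ 0 := by
        have := discriminant_ne_zero w
        rw [discriminant_eq_q_prod] at this
        exact right_ne_zero_of_mul this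
      field_simp
    simp only [Pi.mul_apply, Pi.pow_apply]
    rw [hval, norm_mul]
    exact mul_le_mul_of_nonneg_left (hMB w hwim) (norm_nonneg _)

theorem isWH_inv_deltaQuot {a e m N : ℕ} (ha : 0 < a) (he : 0 < e) (hm : 0 < m)
    (hN : N = e * m) (b : ℤ) : IsWH (N : ℝ) (fun z => (deltaQuot (a : ℤ) b (e : ℤ) z)⁻¹) := by
  have hN0 : 0 < N := by rw [hN]; exact Nat.mul_pos he hm
  have e1 : (fun z => (deltaQuot (a : ℤ) b (e : ℤ) z)⁻¹) =
      ((fun _ : ℍ => (((e : ℤ) : ℂ)) ^ 12) * fun z => (deltaAff (a : ℤ) b (e : ℤ) z)⁻¹) * Δ := by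
    funext z
    simp only [deltaQuot, deltaInv, Pi.mul_apply, mul_inv, inv_inv, inv_pow]
  rw [e1]
  exact ((IsWH.const _ _).mul (isWH_inv_deltaAff ha he hm hN b)).mul
    (isGood_qLaurent_discriminant ⊤ hN0).1

/-! ### The translates of the unit -/

/-- The `q`-order of the translate `U ∘ g` of the unit: `φ(N)(ψ(N) - 1)` at the identity coset,
`-φ(N)` elsewhere. -/
noncomputable def kappa (N : ℕ) (g : SL(2, ℤ)) : ℤ :=
  if (N : ℤ) ∣ g 1 0 then (Nat.totient N : ℤ) * ((ModularCurve.dedekindPsi N : ℤ) - 1)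
  else -(Nat.totient N : ℤ)

theorem deltaQuot_eq (a b e : ℤ) (z : ℍ) :
    ((e : ℂ) ^ 12)⁻¹ * (Δ (ofComplex (((a : ℂ) * z + b) / e)) / Δ z) = deltaQuot a b e z := by
  simp only [deltaQuot, deltaAff, deltaInv, div_eq_mul_inv, inv_pow, mul_assoc]

/-- Data for one factor: the `s`-th factor of `U ∘ g` is weakly holomorphic, with weakly
holomorphic inverse, and its expansion is good of the right order. -/
theorem factor_good (A : Subring ℂ) {N : ℕ} (hN0 : 0 < N)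
    (hζ : ∀ ζ : ℂ, ζ ^ N = 1 → ζ ∈ A) (hNinv : ((N : ℂ))⁻¹ ∈ A) {d : ℕ} (hdN : d ∣ N)
    {a e : ℤ} (ha : 0 < a) (he : 0 < e) (hae : a * e = (d : ℤ)) (b : ℤ) :
    IsWH (N : ℝ) (deltaQuot a b e) ∧ IsWH (N : ℝ) (fun z => (deltaQuot a b e z)⁻¹) ∧
      ∃ n : ℤ, (d : ℤ) * n = (N : ℤ) * (a ^ 2 - d) ∧
        IsGoodSeries A n (qLaurent (N : ℝ) (deltaQuot a b e)) := by
  obtain ⟨a', rfl⟩ := Int.eq_ofNat_of_zero_le ha.le
  obtain ⟨e', rfl⟩ := Int.eq_ofNat_of_zero_le he.le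
  have ha' : 0 < a' := by exact_mod_cast ha
  have he' : 0 < e' := by exact_mod_cast he
  have hae' : a' * e' = d := by exact_mod_cast hae
  have heN : e' ∣ N := (Dvd.intro_left a' hae').trans hdN
  obtain ⟨m, hm⟩ := heN
  have hm0 : 0 < m := by
    rcases Nat.eq_zero_or_pos m with h | h
    · rw [h, mul_zero] at hm; omega
    · exact h
  have hz : deltaZeta b (e' : ℤ) ∈ A := by
    apply hζ
    rw [hm, pow_mul, deltaZeta_pow b he', one_pow]
  have hinv : ((e' : ℂ))⁻¹ ∈ A := by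
    have h1 : ((e' : ℂ))⁻¹ = (m : ℂ) * ((N : ℂ))⁻¹ := by
      have he0 : (e' : ℂ) ≠ 0 := by exact_mod_cast he'.ne'
      have hm0' : (m : ℂ) ≠ 0 := by exact_mod_cast hm0.ne'
      rw [hm]
      push_cast
      field_simp
    rw [h1]
    exact A.mul_mem (natCast_mem A m) hNinv
  refine ⟨isWH_deltaQuot ha' he' hm0 hm b, isWH_inv_deltaQuot ha' he' hm0 hm b,
    ((a' * m : ℕ) : ℤ) - (N : ℤ), ?_, isGood_qLaurent_deltaQuot A ha' he' hm0 hm b hz hinv⟩
  rw [← hae', hm]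
  push_cast
  ring

/-- **Translates of the unit**: `z ↦ U(g z)` and its inverse are weakly holomorphic of period `N`,
and the `q_N`-expansion of `z ↦ U(g z)` is a good series of order `N * kappa N g`. -/
theorem Ufun_smul_good (N : ℕ) [NeZero N] (A : Subring ℂ) (hζ : ∀ ζ : ℂ, ζ ^ N = 1 → ζ ∈ A)
    (hNinv : ((N : ℂ))⁻¹ ∈ A) (g : SL(2, ℤ)) :
    IsWH (N : ℝ) (fun z => Ufun N (g • z)) ∧ IsWH (N : ℝ) (fun z => (Ufun N (g • z))⁻¹) ∧
      IsGoodSeries A ((N : ℤ) * kappa N g) (qLaurent (N : ℝ) (fun z => Ufun N (g • z))) := by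
  classical
  have hN0 : 0 < N := Nat.pos_of_ne_zero (NeZero.ne N)
  have hNpos : (0 : ℝ) < N := by exact_mod_cast hN0
  obtain ⟨a, b, e, hab, hU⟩ := Ufun_smul N g
  have hfac : ∀ s ∈ N.divisors,
      IsWH (N : ℝ) (deltaQuot (a s) (b s) (e s)) ∧
      IsWH (N : ℝ) (fun z => (deltaQuot (a s) (b s) (e s) z)⁻¹) ∧
      ∃ n : ℤ, ((N / s : ℕ) : ℤ) * n = (N : ℤ) * ((a s) ^ 2 - ((N / s : ℕ) : ℤ)) ∧
        IsGoodSeries A n (qLaurent (N : ℝ) (deltaQuot (a s) (b s) (e s))) := fun s hs =>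
    factor_good A hN0 hζ hNinv (Unit.div_dvd_of_mem_divisors hs) (hab s hs).1 (hab s hs).2.1
      (hab s hs).2.2.1 (b s)
  have hfun : (fun z => Ufun N (g • z)) =
      fun z => ∏ s ∈ N.divisors, deltaQuot (a s) (b s) (e s) z ^ Uexp N s := by
    funext z
    rw [hU z]
    refine Finset.prod_congr rfl fun s _ => ?_
    rw [deltaQuot_eq]
  have hWHs : ∀ s ∈ N.divisors,
      IsWH (N : ℝ) (fun z => deltaQuot (a s) (b s) (e s) z ^ Uexp N s) := fun s hs =>
    isWH_fun_zpow (hfac s hs).1 (hfac s hs).2.1 _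
  have hWH : IsWH (N : ℝ) (fun z => Ufun N (g • z)) := by
    rw [hfun]
    exact isWH_finset_prod N.divisors _ hWHs
  have hWH' : IsWH (N : ℝ) (fun z => (Ufun N (g • z))⁻¹) := by
    have e1 : (fun z => (Ufun N (g • z))⁻¹) =
        fun z => ∏ s ∈ N.divisors, deltaQuot (a s) (b s) (e s) z ^ (-Uexp N s) := by
      funext z
      rw [congrFun hfun z, ← Finset.prod_inv_distrib]
      refine Finset.prod_congr rfl fun s _ => ?_
      rw [zpow_neg]
    rw [e1]
    exact isWH_finset_prod N.divisors _ fun s hs =>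
      isWH_fun_zpow (hfac s hs).1 (hfac s hs).2.1 _
  refine ⟨hWH, hWH', ?_⟩
  -- the expansion
  have hne : ∀ s ∈ N.divisors, ∀ z, deltaQuot (a s) (b s) (e s) z ≠ 0 := fun s hs z =>
    deltaQuot_ne_zero (hab s hs).2.1.ne' _ _
  have hq : qLaurent (N : ℝ) (fun z => Ufun N (g • z)) =
      ∏ s ∈ N.divisors, qLaurent (N : ℝ) (deltaQuot (a s) (b s) (e s)) ^ Uexp N s := by
    rw [hfun, qLaurent_finset_prod hNpos N.divisors _ hWHs]
    refine Finset.prod_congr rfl fun s hs => ?_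
    exact qLaurent_fun_zpow hNpos (hfac s hs).1 (hfac s hs).2.1 (hne s hs) _
  rw [hq]
  -- choose the orders
  have hex : ∀ s : ℕ, ∃ n : ℤ, s ∈ N.divisors →
      (((N / s : ℕ) : ℤ) * n = (N : ℤ) * ((a s) ^ 2 - ((N / s : ℕ) : ℤ)) ∧
        IsGoodSeries A n (qLaurent (N : ℝ) (deltaQuot (a s) (b s) (e s)))) := by
    intro s
    by_cases hs : s ∈ N.divisors
    · obtain ⟨n, h1, h2⟩ := (hfac s hs).2.2
      exact ⟨n, fun _ => ⟨h1, h2⟩⟩
    · exact ⟨0, fun h => absurd h hs⟩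
  choose n hn using hex
  have hgood := IsGoodSeries.prod (A := A) N.divisors
    (fun s => qLaurent (N : ℝ) (deltaQuot (a s) (b s) (e s)) ^ Uexp N s)
    (fun s => Uexp N s * n s) (fun s hs => (hn s hs).2.zpow (Uexp N s))
  have hsum : ∑ s ∈ N.divisors, Uexp N s * n s = (N : ℤ) * kappa N g := by
    have h1 : ∀ s ∈ N.divisors, Uexp N s * n s =
        (N : ℤ) * ((ArithmeticFunction.moebius s : ℤ) *
          (((Int.gcd ((N / s : ℕ) : ℤ) (g 1 0) : ℕ) : ℤ) ^ 2 - ((N / s : ℕ) : ℤ))) := by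
      intro s hs
      rw [Uexp, mul_assoc, (hn s hs).1, (hab s hs).2.2.2]
      ring
    rw [Finset.sum_congr rfl h1, ← Finset.mul_sum, sum_moebius_gcd_sq_sub_int N (NeZero.ne N),
      kappa]
  rw [hsum] at hgood
  exact hgood

theorem isWH_Ufun_smul (N : ℕ) [NeZero N] (g : SL(2, ℤ)) :
    IsWH (N : ℝ) (fun z => Ufun N (g • z)) :=
  (Ufun_smul_good N ⊤ (fun _ _ => Subring.mem_top _) (Subring.mem_top _) g).1

theorem isWH_inv_Ufun_smul (N : ℕ) [NeZero N] (g : SL(2, ℤ)) :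
    IsWH (N : ℝ) (fun z => (Ufun N (g • z))⁻¹) :=
  (Ufun_smul_good N ⊤ (fun _ _ => Subring.mem_top _) (Subring.mem_top _) g).2.1

theorem isGood_qLaurent_Ufun_smul (N : ℕ) [NeZero N] (A : Subring ℂ)
    (hζ : ∀ ζ : ℂ, ζ ^ N = 1 → ζ ∈ A) (hNinv : ((N : ℂ))⁻¹ ∈ A) (g : SL(2, ℤ)) :
    IsGoodSeries A ((N : ℤ) * kappa N g) (qLaurent (N : ℝ) (fun z => Ufun N (g • z))) :=
  (Ufun_smul_good N A hζ hNinv g).2.2

theorem isGood_qLaurent_inv_Ufun_smul (N : ℕ) [NeZero N] (A : Subring ℂ)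
    (hζ : ∀ ζ : ℂ, ζ ^ N = 1 → ζ ∈ A) (hNinv : ((N : ℂ))⁻¹ ∈ A) (g : SL(2, ℤ)) :
    IsGoodSeries A (-((N : ℤ) * kappa N g))
      (qLaurent (N : ℝ) (fun z => (Ufun N (g • z))⁻¹)) := by
  have hN0 : 0 < N := Nat.pos_of_ne_zero (NeZero.ne N)
  have hNpos : (0 : ℝ) < N := by exact_mod_cast hN0
  obtain ⟨h1, h2, h3⟩ := Ufun_smul_good N A hζ hNinv g
  rw [qLaurent_fun_inv hNpos h1 h2 fun z => Ufun_ne_zero N _]
  exact h3.inv

/-- All coefficients of the `q_N`-expansion of a translate of the unit lie in `A`. -/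
theorem coeff_qLaurent_Ufun_smul_mem (N : ℕ) [NeZero N] (A : Subring ℂ)
    (hζ : ∀ ζ : ℂ, ζ ^ N = 1 → ζ ∈ A) (hNinv : ((N : ℂ))⁻¹ ∈ A) (g : SL(2, ℤ)) (k : ℤ) :
    (qLaurent (N : ℝ) (fun z => Ufun N (g • z))).coeff k ∈ A :=
  (isGood_qLaurent_Ufun_smul N A hζ hNinv g).coeff_mem k

/-- All coefficients of the `q_N`-expansion of an inverse translate of the unit lie in `A`. -/
theorem coeff_qLaurent_inv_Ufun_smul_mem (N : ℕ) [NeZero N] (A : Subring ℂ)
    (hζ : ∀ ζ : ℂ, ζ ^ N = 1 → ζ ∈ A) (hNinv : ((N : ℂ))⁻¹ ∈ A) (g : SL(2, ℤ)) (k : ℤ) :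
    (qLaurent (N : ℝ) (fun z => (Ufun N (g • z))⁻¹)).coeff k ∈ A :=
  (isGood_qLaurent_inv_Ufun_smul N A hζ hNinv g).coeff_mem k

end Fermat.Agent.S28.UGood
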