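import Mathlib
import Fermat.Agent.S28.AFinalPre
import Fermat.Agent.S28.UGood
import Fermat.Agent.S28.Integral

/-!
# S28 (AFinal): the norm relation of the unit over `ℚ` with `ℓ`-integrality

`exists_relation N`: there is a monic `P ∈ ℚ[T][X]` of degree `ψ(N)` with
`deg (coeff P i) ≤ (ψ - i) φ(N)`, constant term a nonzero constant `c`, all coefficients
and `c⁻¹` integral at every prime `ℓ ∤ N`, and `P(jq, u) = 0` in `ℚ((q))`, where `u` is the
`q`-expansion `FormalU.uZ N` of the eta-quotient unit `Ufun N`.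

These are the hypotheses of the Newton criterion `S28.Newton` (over `ℚ` and, after reduction,
over `𝔽_ℓ`).
-/

set_option autoImplicit false

open Polynomial

namespace Fermat.Agent.S28

namespace AFinal

open UpperHalfPlane ModularCurve
open Fermat.Agent.S23 Fermat.Agent.S24
open scoped MatrixGroups

/-- **The norm relation of the unit over `ℚ`, with `ℓ`-integrality for all `ℓ ∤ N`.** -/
theorem exists_relation (N : ℕ) [NeZero N] :
    ∃ P : ℚ[X][X], P.Monic ∧ P.natDegree = dedekindPsi N ∧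
      (∀ i ≤ dedekindPsi N, (P.coeff i).natDegree ≤ (dedekindPsi N - i) * N.totient) ∧
      (∃ c : ℚ, c ≠ 0 ∧ P.coeff 0 = C c ∧
        ∀ ℓ : ℕ, ℓ.Prime → ¬ ℓ ∣ N → c⁻¹ ∈ GaloisRep.ratLocalizedAt ℓ) ∧
      (∀ i k, ∀ ℓ : ℕ, ℓ.Prime → ¬ ℓ ∣ N → (P.coeff i).coeff k ∈ GaloisRep.ratLocalizedAt ℓ) ∧
      P.eval₂ ((aeval jq : ℚ[X] →ₐ[ℚ] LaurentSeries ℚ) : ℚ[X] →+* LaurentSeries ℚ)
        (coeffMap (Int.castRingHom ℚ) (FormalU.uZ N)) = 0 := by
  have hζ : ∀ ζ : ℂ, ζ ^ N = 1 → ζ ∈ awayRing N :=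
    fun ζ h => rootOfUnity_mem_awayRing (NeZero.pos N) h
  have hNinv : ((N : ℂ))⁻¹ ∈ awayRing N := inv_natCast_mem_awayRing (NeZero.ne N)
  refine exists_relation_of_integral N (fun p hmap ℓ hℓ hℓN i k r hr => ?_)
    (fun p hmap c hc ℓ hℓ hℓN r hr => ?_)
  · refine awayRing_rat ?_ hℓ hℓN
    have h := Integral.coeff_coeff_mem N (awayRing N) (Ufun N) (UGood.isWH_Ufun_smul N)
      (fun g k => UGood.coeff_qLaurent_Ufun_smul_mem N (awayRing N) hζ hNinv g k) p hmap i k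
    rw [← hr] at h
    exact h
  · refine awayRing_rat ?_ hℓ hℓN
    have h := Integral.const_inv_mem N (awayRing N) (Ufun N) (UGood.isWH_inv_Ufun_smul N)
      (fun g k => UGood.coeff_qLaurent_inv_Ufun_smul_mem N (awayRing N) hζ hNinv g k) p hmap hc
    rw [← hr] at h
    exact h

end AFinal

end Fermat.Agent.S28
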