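import Mathlib

/-!
# S28, block (B2) CHART: shared definitions (Mathlib only)

Abstract setting.  `A` is a UFD with a prime `π` and a "residue" ring hom `res : A →+* k`
(kernel `(π)`), `E` and `Ω` are fields receiving `A` resp. `k` (ring homs `ιA`, `ιk`),
`j U : E` and `jb ub : Ω` are the generic resp. special values of the two coordinates, and
`P : A[X][X]` is a monic relation `P(j, U) = 0`.

In the application `A = ℤ_(ℓ)`, `π = ℓ`, `k = ZMod ℓ`, `E = ℚ((q))`, `Ω = (ZMod ℓ)((q))`,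
`j = jq`, `U` the eta quotient, `jb ub` their reductions mod `ℓ`.
-/

namespace Fermat.Agent.S28.Chart

open Polynomial

variable {R S : Type*} [CommRing R] [CommRing S]

/-- evaluation `R[X] → S`, `X ↦ j`. -/
noncomputable def ev1 (ι : R →+* S) (j : S) : R[X] →+* S := eval₂RingHom ι j

/-- evaluation `R[X][Y] → S`, `X ↦ j`, `Y ↦ u`. -/
noncomputable def ev2 (ι : R →+* S) (j u : S) : R[X][X] →+* S := eval₂RingHom (ev1 ι j) u

theorem ev1_apply (ι : R →+* S) (j : S) (g : R[X]) : ev1 ι j g = eval₂ ι j g := rfl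

theorem ev2_apply (ι : R →+* S) (j u : S) (G : R[X][X]) :
    ev2 ι j u G = eval₂ (ev1 ι j) u G := rfl

@[simp] theorem ev1_C (ι : R →+* S) (j : S) (a : R) : ev1 ι j (C a) = ι a := by simp [ev1]

@[simp] theorem ev1_X (ι : R →+* S) (j : S) : ev1 ι j X = j := by simp [ev1]

@[simp] theorem ev2_C (ι : R →+* S) (j u : S) (g : R[X]) : ev2 ι j u (C g) = ev1 ι j g := by
  simp [ev2]

@[simp] theorem ev2_X (ι : R →+* S) (j u : S) : ev2 ι j u X = u := by simp [ev2]

variable {A k E Ω : Type*} [CommRing A] [Field k] [Field E] [Field Ω]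

/-- The standing hypotheses of the chart block. -/
structure ChartHyp (π : A) (res : A →+* k) (ιA : A →+* E) (ιk : k →+* Ω) (j U : E) (jb ub : Ω)
    (P : A[X][X]) : Prop where
  /-- `π` is a prime element. -/
  prime : Prime π
  /-- the kernel of `res` is `(π)`. -/
  res_zero : ∀ a : A, res a = 0 ↔ π ∣ a
  /-- `j` is transcendental over `A`. -/
  transc : ∀ g : A[X], ev1 ιA j g = 0 → g = 0
  /-- `jb` is transcendental over `k`. -/
  transcb : ∀ g : k[X], ev1 ιk jb g = 0 → g = 0
  /-- `P` is monic in the outer variable. -/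
  monic : P.Monic
  /-- `P(j, U) = 0`. -/
  root : ev2 ιA j U P = 0
  /-- (N1) every integral relation between `j` and `U` reduces to a relation between `jb`, `ub`. -/
  hred : ∀ G : A[X][X], ev2 ιA j U G = 0 → ev2 ιk jb ub (G.map (mapRingHom res)) = 0
  /-- (N2) `ub` has degree `≥ deg P` over `k(jb)` (from irreducibility of `P̄`). -/
  hmin : ∀ G : k[X][X], G.natDegree < P.natDegree → ev2 ιk jb ub G = 0 → G = 0

/-- `(B, red)` is "the localisation of `A[j, U]` at `(π)` together with its reduction map":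
`B ⊆ E` is the set of `r(j,U)/g(j)` with `g ∉ (π)`, and `red (r(j,U)/g(j)) = r̄(jb,ub)/ḡ(jb)`. -/
structure IsChartRed (π : A) (res : A →+* k) (ιA : A →+* E) (ιk : k →+* Ω) (j U : E) (jb ub : Ω)
    (B : Subring E) (red : B →+* Ω) : Prop where
  mem_red : ∀ (x : E) (g : A[X]) (r : A[X][X]), ¬ C π ∣ g → ev1 ιA j g * x = ev2 ιA j U r →
    ∃ hx : x ∈ B, ev1 ιk jb (g.map res) * red ⟨x, hx⟩ = ev2 ιk jb ub (r.map (mapRingHom res))
  exists_rep : ∀ x ∈ B, ∃ (g : A[X]) (r : A[X][X]), ¬ C π ∣ g ∧ ev1 ιA j g * x = ev2 ιA j U r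

end Fermat.Agent.S28.Chart
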