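import Mathlib
import Fermat.Prelude.Def_ModularCurve_JqCoeff
import Fermat.Prelude.Def_ModularCurve_LaurentCoeff
import Fermat.Prelude.Def_GaloisRep_Flat
import Fermat.Agent.S28.Newton
import Fermat.Agent.S28.ChartDefs

/-!
# S28: from the norm relation over `ℚ` to the chart hypotheses `ChartHyp` modulo `ℓ`

Inputs (as hypotheses, in the shapes announced for `FormalU` and `AFinal`):

* `u : LaurentSeries ℤ`, vanishing below `φ (ψ - 1)` (the `q`-expansion of the unit);
* `P : ℚ[X][X]` monic of degree `ψ` with `deg (coeff P i) ≤ (ψ - i) φ`, constant term a constant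
  `c` with `c, c⁻¹` `ℓ`-integral, all coefficients `ℓ`-integral, and `P(jq, u) = 0`.

Output: a lift `Pℓ` of `P` to `ℤ_(ℓ)[X][X]` and the structure `Chart.ChartHyp` for
`(jq, u)` over `ℚ((q))` and their reductions `(jqModC k, u mod ℓ)` over `k((q))`
(`hred` by coefficientwise reduction, `hmin`/`transcb` by the Newton criterion over `k`).
The generic core works for any ring `A` with an injection `f : A → ℚ` and a ring hom
`res : A → k` to a field.
-/

set_option autoImplicit false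

namespace Fermat.Agent.S28.RedHyp

open Polynomial ModularCurve Fermat.Agent.S28.Chart

section Generic

variable {R S : Type*} [CommRing R] [CommRing S]

theorem coeffMap_C (f : R →+* S) (a : R) :
    coeffMap f (HahnSeries.C a) = HahnSeries.C (f a) :=
  coeffMap_single f 0 a

theorem coeffMap_injective (f : R →+* S) (hf : Function.Injective f) :
    Function.Injective (coeffMap f) := by
  intro x y h
  ext n
  apply hf
  have := congrArg (fun z : LaurentSeries S => z.coeff n) h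
  simpa using this

theorem coeffMap_comp_ev1 (f : R →+* S) (j : LaurentSeries R) :
    (coeffMap f).comp (ev1 HahnSeries.C j) =
      (ev1 HahnSeries.C (coeffMap f j)).comp (mapRingHom f) := by
  refine Polynomial.ringHom_ext (fun a => ?_) ?_
  · simp [ev1]
  · simp [ev1]

theorem coeffMap_ev1 (f : R →+* S) (j : LaurentSeries R) (g : R[X]) :
    coeffMap f (ev1 HahnSeries.C j g) = ev1 HahnSeries.C (coeffMap f j) (g.map f) :=
  congrArg (fun φ : R[X] →+* LaurentSeries S => φ g) (coeffMap_comp_ev1 f j)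

/-- Coefficientwise maps commute with the two-variable evaluation. -/
theorem coeffMap_ev2 (f : R →+* S) (j u : LaurentSeries R) (G : R[X][X]) :
    coeffMap f (ev2 HahnSeries.C j u G) =
      ev2 HahnSeries.C (coeffMap f j) (coeffMap f u) (G.map (mapRingHom f)) := by
  rw [ev2_apply, ev2_apply, Polynomial.hom_eval₂, Polynomial.eval₂_map, coeffMap_comp_ev1]

theorem ev1_comp (f : R →+* S) (j : LaurentSeries S) (g : R[X]) :
    ev1 (HahnSeries.C.comp f) j g = ev1 HahnSeries.C j (g.map f) := by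
  rw [ev1_apply, ev1_apply, Polynomial.eval₂_map]

theorem ev1_comp_eq (f : R →+* S) (j : LaurentSeries S) :
    ev1 (HahnSeries.C.comp f) j = (ev1 HahnSeries.C j).comp (mapRingHom f) :=
  RingHom.ext fun g => ev1_comp f j g

theorem ev2_comp (f : R →+* S) (j u : LaurentSeries S) (G : R[X][X]) :
    ev2 (HahnSeries.C.comp f) j u G = ev2 HahnSeries.C j u (G.map (mapRingHom f)) := by
  rw [ev2_apply, ev2_apply, Polynomial.eval₂_map, ev1_comp_eq]

end Generic

section Field

variable (k : Type*) [Field k]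

theorem algebraMap_eq_C : algebraMap k (LaurentSeries k) = HahnSeries.C := by
  ext c : 1
  rw [algebraMap_laurentSeries_eq_single]
  rfl

variable {k}

theorem aeval_eq_ev1 (j : LaurentSeries k) (g : k[X]) :
    aeval j g = ev1 HahnSeries.C j g := by
  rw [ev1_apply, aeval_def, algebraMap_eq_C]

theorem coe_aeval_eq_ev1 (j : LaurentSeries k) :
    ((aeval j : k[X] →ₐ[k] LaurentSeries k) : k[X] →+* LaurentSeries k) = ev1 HahnSeries.C j :=
  RingHom.ext fun g => aeval_eq_ev1 j g

/-- The Newton/Descent shape of the two-variable evaluation is `ev2 C`. -/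
theorem eval₂_aeval_eq_ev2 (j u : LaurentSeries k) (G : k[X][X]) :
    G.eval₂ ((aeval j : k[X] →ₐ[k] LaurentSeries k) : k[X] →+* LaurentSeries k) u =
      ev2 HahnSeries.C j u G := by
  rw [coe_aeval_eq_ev1, ev2_apply]

end Field

section Jq

variable (K : Type*) [CommRing K]

theorem coeff_jqModC (n : ℤ) : (jqModC K).coeff n = (((jqModC ℤ).coeff n : ℤ) : K) := by
  rw [jqModC_eq_map_intCast K]
  rfl

theorem coeff_jqModC_int_neg_one : (jqModC ℤ).coeff (-1) = 1 := by
  have h := coeff_jq_neg_one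
  rw [← jqModC_rat, coeff_jqModC ℚ] at h
  exact_mod_cast h

theorem coeff_jqModC_int_of_lt {n : ℤ} (hn : n < -1) : (jqModC ℤ).coeff n = 0 := by
  have h := coeff_jq_of_lt hn
  rw [← jqModC_rat, coeff_jqModC ℚ] at h
  exact_mod_cast h

theorem coeff_jqModC_neg_one : (jqModC K).coeff (-1) = 1 := by
  rw [coeff_jqModC, coeff_jqModC_int_neg_one, Int.cast_one]

theorem coeff_jqModC_of_lt {n : ℤ} (hn : n < -1) : (jqModC K).coeff n = 0 := by
  rw [coeff_jqModC, coeff_jqModC_int_of_lt hn, Int.cast_zero]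

theorem jqModC_ne_zero [Nontrivial K] : jqModC K ≠ 0 := by
  intro h
  have := coeff_jqModC_neg_one K
  rw [h] at this
  simp at this

theorem order_jqModC [Nontrivial K] : (jqModC K).order = -1 := by
  have h1 : (jqModC K).coeff (-1) ≠ 0 := by
    rw [coeff_jqModC_neg_one]; exact one_ne_zero
  refine le_antisymm (HahnSeries.order_le_of_coeff_ne_zero h1) ?_
  by_contra hlt
  rw [not_le] at hlt
  exact jqModC_ne_zero K (HahnSeries.coeff_order_eq_zero.mp (coeff_jqModC_of_lt K hlt))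

variable {K}

theorem coeffMap_jqModC {K' : Type*} [CommRing K'] (f : K →+* K') :
    coeffMap f (jqModC K) = jqModC K' :=
  map_jqModC f

theorem coeffMap_intCast_comp {K' : Type*} [CommRing K'] (f : K →+* K') (u : LaurentSeries ℤ) :
    coeffMap f (coeffMap (Int.castRingHom K) u) = coeffMap (Int.castRingHom K') u := by
  rw [coeffMap_coeffMap]
  exact coeffMap_congr (RingHom.ext_int _ _) u

end Jq

/-- **Generic core.** `A` a ring with an injection `f : A → ℚ` and a ring hom `res : A → k`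
to a field; `Pℓ : A[X][X]` a lift of the norm relation `P` with unit constant term. Then the
chart hypotheses hold for `(jq, u)` and the reductions `(jqModC k, u mod)`. -/
theorem chartHyp_core {A k : Type*} [CommRing A] [Field k] (π : A) (res : A →+* k)
    (hprime : Prime π) (hres : ∀ a : A, res a = 0 ↔ π ∣ a)
    (f : A →+* ℚ) (hf : Function.Injective f)
    (ιA : A →+* LaurentSeries ℚ) (hιA : ∀ a : A, ιA a = HahnSeries.C (f a))
    (ιk : k →+* LaurentSeries k) (hιk : ∀ c : k, ιk c = HahnSeries.C c)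
    {φ ψ : ℕ} (hφ : 0 < φ) (u : LaurentSeries ℤ)
    (hu : ∀ n : ℤ, n < (φ : ℤ) * ((ψ : ℤ) - 1) → u.coeff n = 0)
    (P : ℚ[X][X]) (hP : P.Monic) (hdeg : P.natDegree = ψ)
    (hbound : ∀ i ≤ ψ, (P.coeff i).natDegree ≤ (ψ - i) * φ)
    (hroot : P.eval₂ ((aeval jq : ℚ[X] →ₐ[ℚ] LaurentSeries ℚ) : ℚ[X] →+* LaurentSeries ℚ)
      (coeffMap (Int.castRingHom ℚ) u) = 0)
    (Pℓ : A[X][X]) (hmap : Pℓ.map (mapRingHom f) = P)
    (c₀ : A) (hc₀ : IsUnit c₀) (hconst : Pℓ.coeff 0 = C c₀) :
    ChartHyp π res ιA ιk jq (coeffMap (Int.castRingHom ℚ) u) (jqModC k)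
      (coeffMap (Int.castRingHom k) u) Pℓ := by
  obtain rfl : ιA = HahnSeries.C.comp f := RingHom.ext hιA
  obtain rfl : ιk = HahnSeries.C := RingHom.ext hιk
  have hfX : Function.Injective (mapRingHom f) := Polynomial.map_injective f hf
  -- the integral models of `jq` and `u`
  set j₀ : LaurentSeries A := jqModC A with hj₀
  set u₀ : LaurentSeries A := coeffMap (Int.castRingHom A) u with hu₀
  have ej : coeffMap f j₀ = jq := by rw [hj₀, coeffMap_jqModC, jqModC_rat]
  have eu : coeffMap f u₀ = coeffMap (Int.castRingHom ℚ) u := coeffMap_intCast_comp f u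
  have ejb : coeffMap res j₀ = jqModC k := coeffMap_jqModC res
  have eub : coeffMap res u₀ = coeffMap (Int.castRingHom k) u := coeffMap_intCast_comp res u
  have keyA : ∀ G : A[X][X], ev2 (HahnSeries.C.comp f) jq (coeffMap (Int.castRingHom ℚ) u) G =
      coeffMap f (ev2 HahnSeries.C j₀ u₀ G) := fun G => by
    rw [ev2_comp, coeffMap_ev2, ej, eu]
  have keyk : ∀ G : A[X][X], ev2 HahnSeries.C (jqModC k) (coeffMap (Int.castRingHom k) u)
      (G.map (mapRingHom res)) = coeffMap res (ev2 HahnSeries.C j₀ u₀ G) := fun G => by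
    rw [coeffMap_ev2, ejb, eub]
  have hred : ∀ G : A[X][X],
      ev2 (HahnSeries.C.comp f) jq (coeffMap (Int.castRingHom ℚ) u) G = 0 →
      ev2 HahnSeries.C (jqModC k) (coeffMap (Int.castRingHom k) u) (G.map (mapRingHom res)) = 0 := by
    intro G hG
    rw [keyA] at hG
    have h0 : ev2 HahnSeries.C j₀ u₀ G = 0 :=
      coeffMap_injective f hf (by rw [hG, map_zero])
    rw [keyk, h0, map_zero]
  have hrootA : ev2 (HahnSeries.C.comp f) jq (coeffMap (Int.castRingHom ℚ) u) Pℓ = 0 := by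
    rw [ev2_comp, hmap, ← eval₂_aeval_eq_ev2]
    exact hroot
  have hmonic : Pℓ.Monic := Polynomial.monic_of_injective hfX (by rw [hmap]; exact hP)
  have hdegℓ : Pℓ.natDegree = ψ := by
    rw [← hdeg, ← hmap, Polynomial.natDegree_map_eq_of_injective hfX]
  -- `jq` and its reduction
  have hjq0 : jq ≠ 0 := jq_ne_zero
  have hjq : jq.order = -1 := by
    have := order_jqModC ℚ
    rwa [jqModC_rat] at this
  have hjb0 : jqModC k ≠ 0 := jqModC_ne_zero k
  have hjb : (jqModC k).order = -1 := order_jqModC k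
  -- the reduced polynomial
  set Pb : k[X][X] := Pℓ.map (mapRingHom res) with hPb
  have hPbmonic : Pb.Monic := hmonic.map _
  have hPbdeg : Pb.natDegree = ψ := by
    rw [hPb, hmonic.natDegree_map, hdegℓ]
  have hPbbound : ∀ i ≤ ψ, (Pb.coeff i).natDegree ≤ (ψ - i) * φ := by
    intro i hi
    have h1 : Pb.coeff i = (Pℓ.coeff i).map res := by
      rw [hPb, Polynomial.coeff_map]; rfl
    have h2 : (P.coeff i) = (Pℓ.coeff i).map f := by
      rw [← hmap, Polynomial.coeff_map]; rfl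
    rw [h1]
    refine (Polynomial.natDegree_map_le).trans ?_
    have h3 : (Pℓ.coeff i).natDegree = (P.coeff i).natDegree := by
      rw [h2, Polynomial.natDegree_map_eq_of_injective hf]
    rw [h3]
    exact hbound i hi
  have hPbc : ∃ c : k, c ≠ 0 ∧ Pb.coeff 0 = C c := by
    refine ⟨res c₀, (hc₀.map res).ne_zero, ?_⟩
    rw [hPb, Polynomial.coeff_map, hconst]
    simp
  have hub : ∀ n : ℤ, n < (φ : ℤ) * ((ψ : ℤ) - 1) →
      (coeffMap (Int.castRingHom k) u).coeff n = 0 := by
    intro n hn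
    rw [coeffMap_coeff, hu n hn, map_zero]
  have hPbroot : Pb.eval₂ ((aeval (jqModC k) : k[X] →ₐ[k] LaurentSeries k) :
      k[X] →+* LaurentSeries k) (coeffMap (Int.castRingHom k) u) = 0 := by
    rw [eval₂_aeval_eq_ev2]
    exact hred Pℓ hrootA
  refine
    { prime := hprime
      res_zero := hres
      transc := ?_
      transcb := ?_
      monic := hmonic
      root := hrootA
      hred := hred
      hmin := ?_ }
  · intro g hg
    rw [ev1_comp, ← aeval_eq_ev1] at hg
    have h0 : g.map f = 0 := by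
      apply Newton.aeval_injective_of_order hjq0 hjq
      rw [hg, map_zero]
    exact Polynomial.map_injective f hf (by rw [h0, Polynomial.map_zero])
  · intro g hg
    rw [← aeval_eq_ev1] at hg
    apply Newton.aeval_injective_of_order hjb0 hjb
    rw [hg, map_zero]
  · intro G hGdeg hG
    by_contra hG0
    rw [← eval₂_aeval_eq_ev2] at hG
    have := Newton.natDegree_le_of_order hφ hPbmonic hPbdeg hPbbound hPbc hjb0 hjb hub hPbroot
      hG0 hG
    rw [hdegℓ] at hGdeg
    omega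

section Localized

variable (ℓ : ℕ)

/-- A polynomial in two variables over `ℚ` with `ℓ`-integral coefficients lifts to `ℤ_(ℓ)`. -/
theorem exists_lift (P : ℚ[X][X])
    (hcoef : ∀ i m : ℕ, (P.coeff i).coeff m ∈ GaloisRep.ratLocalizedAt ℓ) :
    ∃ Pℓ : (↥(GaloisRep.ratLocalizedAt ℓ))[X][X], Pℓ.map (mapRingHom (algebraMap ↥(GaloisRep.ratLocalizedAt ℓ) ℚ)) = P := by
  have h1 : ∀ i, P.coeff i ∈ Set.range (mapRingHom (algebraMap ↥(GaloisRep.ratLocalizedAt ℓ) ℚ)) := by
    intro i
    have h2 : P.coeff i ∈ Polynomial.lifts (algebraMap ↥(GaloisRep.ratLocalizedAt ℓ) ℚ) := by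
      rw [Polynomial.lifts_iff_coeff_lifts]
      intro m
      exact ⟨⟨(P.coeff i).coeff m, hcoef i m⟩, rfl⟩
    obtain ⟨q, hq⟩ := (Polynomial.mem_lifts _).mp h2
    exact ⟨q, hq⟩
  have h3 : P ∈ Polynomial.lifts (mapRingHom (algebraMap ↥(GaloisRep.ratLocalizedAt ℓ) ℚ)) :=
    (Polynomial.lifts_iff_coeff_lifts P).mpr h1
  exact (Polynomial.mem_lifts _).mp h3

/-- **The chart hypotheses from the norm relation over `ℚ`.** -/
theorem exists_chartHyp {k : Type*} [Field k] (π : ↥(GaloisRep.ratLocalizedAt ℓ)) (res : ↥(GaloisRep.ratLocalizedAt ℓ) →+* k)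
    (hprime : Prime π) (hres : ∀ a : ↥(GaloisRep.ratLocalizedAt ℓ), res a = 0 ↔ π ∣ a)
    (ιA : ↥(GaloisRep.ratLocalizedAt ℓ) →+* LaurentSeries ℚ)
    (hιA : ∀ a : ↥(GaloisRep.ratLocalizedAt ℓ), ιA a = HahnSeries.C (a : ℚ))
    (ιk : k →+* LaurentSeries k) (hιk : ∀ c : k, ιk c = HahnSeries.C c)
    {φ ψ : ℕ} (hφ : 0 < φ) (u : LaurentSeries ℤ)
    (hu : ∀ n : ℤ, n < (φ : ℤ) * ((ψ : ℤ) - 1) → u.coeff n = 0)
    (P : ℚ[X][X]) (hP : P.Monic) (hdeg : P.natDegree = ψ)
    (hbound : ∀ i ≤ ψ, (P.coeff i).natDegree ≤ (ψ - i) * φ)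
    (hc : ∃ c : ℚ, c ≠ 0 ∧ P.coeff 0 = C c ∧ c⁻¹ ∈ GaloisRep.ratLocalizedAt ℓ)
    (hcoef : ∀ i m : ℕ, (P.coeff i).coeff m ∈ GaloisRep.ratLocalizedAt ℓ)
    (hroot : P.eval₂ ((aeval jq : ℚ[X] →ₐ[ℚ] LaurentSeries ℚ) : ℚ[X] →+* LaurentSeries ℚ)
      (coeffMap (Int.castRingHom ℚ) u) = 0) :
    ∃ Pℓ : (↥(GaloisRep.ratLocalizedAt ℓ))[X][X], Pℓ.map (mapRingHom (algebraMap ↥(GaloisRep.ratLocalizedAt ℓ) ℚ)) = P ∧ Pℓ.natDegree = ψ ∧
      ChartHyp π res ιA ιk jq (coeffMap (Int.castRingHom ℚ) u) (jqModC k)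
        (coeffMap (Int.castRingHom k) u) Pℓ := by
  obtain ⟨Pℓ, hmap⟩ := exists_lift ℓ P hcoef
  obtain ⟨c, hc0, hcC, hcinv⟩ := hc
  have hf : Function.Injective (algebraMap ↥(GaloisRep.ratLocalizedAt ℓ) ℚ) := Subtype.val_injective
  have hfX : Function.Injective (mapRingHom (algebraMap ↥(GaloisRep.ratLocalizedAt ℓ) ℚ)) :=
    Polynomial.map_injective _ hf
  have hcmem : c ∈ GaloisRep.ratLocalizedAt ℓ := by
    have := hcoef 0 0
    rwa [hcC, coeff_C_zero] at this
  let c₀ : ↥(GaloisRep.ratLocalizedAt ℓ) := ⟨c, hcmem⟩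
  have hunit : IsUnit c₀ := by
    refine IsUnit.of_mul_eq_one ⟨c⁻¹, hcinv⟩ (Subtype.ext ?_)
    show c * c⁻¹ = 1
    exact mul_inv_cancel₀ hc0
  have hconst : Pℓ.coeff 0 = C c₀ := by
    apply Polynomial.map_injective _ hf
    have h1 : (Pℓ.coeff 0).map (algebraMap ↥(GaloisRep.ratLocalizedAt ℓ) ℚ) = P.coeff 0 := by
      rw [← hmap, Polynomial.coeff_map]; rfl
    rw [h1, hcC, Polynomial.map_C]
    rfl
  have hdegℓ : Pℓ.natDegree = ψ := by
    rw [← hdeg, ← hmap, Polynomial.natDegree_map_eq_of_injective hfX]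
  exact ⟨Pℓ, hmap, hdegℓ, chartHyp_core π res hprime hres (algebraMap ↥(GaloisRep.ratLocalizedAt ℓ) ℚ) hf ιA hιA ιk hιk hφ u hu
    P hP hdeg hbound hroot Pℓ hmap c₀ hunit hconst⟩

end Localized

end Fermat.Agent.S28.RedHyp
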