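import Fermat.Agent.S28.Descent
import Fermat.Agent.S28.Newton

/-!
# S28: consumer-shaped corollaries of `Descent` (with the Newton criterion)

* `exists_descent_of_order` : a polynomial `P ∈ K[T][X]` satisfying the hypotheses of the Newton
  criterion at `(j_K, u_K)` with `j, u ∈ k((q))` is defined over `k`, and the descended
  polynomial satisfies the same hypotheses at `(j, u)`.
* `exists_rep_descent` : a representation `g(j_K) x_K = Q(j_K, u_K)` over `K` descends to a
  representation `g₀(j) x = Q₀(j, u)` over `k`.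
-/

set_option autoImplicit false

open Polynomial

namespace Fermat.Agent.S28

namespace DescentCor

open ModularCurve Descent

variable {k K : Type*} [Field k] [Field K] [Algebra k K]

theorem coeffMap_ne_zero {y : LaurentSeries k} (hy : y ≠ 0) :
    coeffMap (algebraMap k K) y ≠ 0 := fun h =>
  hy (coeffMap_injective (k := k) (K := K) (by rw [h, map_zero]))

theorem support_coeffMap (y : LaurentSeries k) :
    (coeffMap (algebraMap k K) y).support = y.support := by
  ext n
  simp only [HahnSeries.mem_support, coeffMap_coeff, ne_eq]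
  rw [map_eq_zero_iff _ (algebraMap k K).injective]

theorem order_coeffMap (y : LaurentSeries k) :
    (coeffMap (algebraMap k K) y).order = y.order := by
  by_cases hy : y = 0
  · rw [hy, map_zero, HahnSeries.order_zero, HahnSeries.order_zero]
  · have hy' : coeffMap (algebraMap k K) y ≠ 0 := coeffMap_ne_zero hy
    rw [HahnSeries.order_of_ne hy', HahnSeries.order_of_ne hy]
    congr 1
    exact support_coeffMap y

theorem coeff_coeff_of_map_eq {P₀ : k[X][X]} {P : K[X][X]}
    (h : P₀.map (mapRingHom (algebraMap k K)) = P) (i m : ℕ) :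
    algebraMap k K ((P₀.coeff i).coeff m) = (P.coeff i).coeff m := by
  rw [← h, coeff_map, coe_mapRingHom, coeff_map]

theorem coeff_of_map_eq {P₀ : k[X][X]} {P : K[X][X]}
    (h : P₀.map (mapRingHom (algebraMap k K)) = P) (i : ℕ) :
    (P₀.coeff i).map (algebraMap k K) = P.coeff i := by
  rw [← h, coeff_map, coe_mapRingHom]

/-- **(D1')** Descent of the Newton relation: if `P ∈ K[T][X]` satisfies the hypotheses of the
Newton criterion at `(j_K, u_K)`, where `j, u ∈ k((q))`, then `P` comes from a unique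
`P₀ ∈ k[T][X]`, which satisfies the same hypotheses at `(j, u)`. -/
theorem exists_descent_of_order {φ ψ : ℕ} (hφ : 0 < φ) (j u : LaurentSeries k)
    {P : K[X][X]} (hP : P.Monic) (hdeg : P.natDegree = ψ)
    (hbound : ∀ i ≤ ψ, (P.coeff i).natDegree ≤ (ψ - i) * φ)
    (hc : ∃ c : K, c ≠ 0 ∧ P.coeff 0 = C c)
    (hj0 : j ≠ 0) (hj : j.order = -1)
    (hu : ∀ n : ℤ, n < (φ : ℤ) * ((ψ : ℤ) - 1) → u.coeff n = 0)
    (hroot : P.eval₂ ((aeval (coeffMap (algebraMap k K) j) : K[X] →ₐ[K] LaurentSeries K) :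
      K[X] →+* LaurentSeries K) (coeffMap (algebraMap k K) u) = 0) :
    ∃ P₀ : k[X][X], P₀.map (mapRingHom (algebraMap k K)) = P ∧ P₀.Monic ∧ P₀.natDegree = ψ ∧
      (∀ i ≤ ψ, (P₀.coeff i).natDegree ≤ (ψ - i) * φ) ∧
      (∃ c₀ : k, c₀ ≠ 0 ∧ P₀.coeff 0 = C c₀) ∧
      (∀ i m : ℕ, algebraMap k K ((P₀.coeff i).coeff m) = (P.coeff i).coeff m) ∧
      P₀.eval₂ ((aeval j : k[X] →ₐ[k] LaurentSeries k) : k[X] →+* LaurentSeries k) u = 0 := by
  have hjK0 : coeffMap (algebraMap k K) j ≠ 0 := coeffMap_ne_zero hj0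
  have hjK : (coeffMap (algebraMap k K) j).order = -1 := by rw [order_coeffMap, hj]
  have huK : ∀ n : ℤ, n < (φ : ℤ) * ((ψ : ℤ) - 1) →
      (coeffMap (algebraMap k K) u).coeff n = 0 := by
    intro n hn
    rw [coeffMap_coeff, hu n hn, map_zero]
  obtain ⟨P₀, hmap, hmonic, hdeg₀, hev⟩ := exists_map_eq_of_dvd j u P hP hroot
    (fun Q hQ => Newton.dvd_of_eval₂_eq_zero hφ hP hdeg hbound hc hjK0 hjK huK hroot hQ)
  have hcoeff : ∀ i, (P₀.coeff i).map (algebraMap k K) = P.coeff i := coeff_of_map_eq hmap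
  refine ⟨P₀, hmap, hmonic, hdeg₀.trans hdeg, ?_, ?_, coeff_coeff_of_map_eq hmap, hev⟩
  · intro i hi
    rw [← natDegree_map_eq_of_injective (algebraMap k K).injective (P₀.coeff i), hcoeff]
    exact hbound i hi
  · obtain ⟨c, hc0, hcC⟩ := hc
    refine ⟨(P₀.coeff 0).coeff 0, ?_, ?_⟩
    · intro h0
      apply hc0
      have := coeff_coeff_of_map_eq hmap 0 0
      rw [h0, map_zero, hcC, coeff_C_zero] at this
      exact this.symm
    · apply map_injective _ (algebraMap k K).injective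
      rw [hcoeff, hcC, map_C]
      congr 1
      rw [coeff_coeff_of_map_eq hmap 0 0, hcC, coeff_C_zero]

/-- **(D2')** Descent of a representation: if `x, j, u ∈ k((q))` and
`g(j_K) x_K = Q(j_K, u_K)` with `0 ≠ g ∈ K[T]`, `Q ∈ K[T][X]`, then
`g₀(j) x = Q₀(j, u)` with `0 ≠ g₀ ∈ k[T]`, `Q₀ ∈ k[T][X]` and `deg_X Q₀ ≤ deg_X Q`. -/
theorem exists_rep_descent (j u x : LaurentSeries k) {g : K[X]} {Q : K[X][X]} (hg : g ≠ 0)
    (h : aeval (coeffMap (algebraMap k K) j) g * coeffMap (algebraMap k K) x =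
      Q.eval₂ ((aeval (coeffMap (algebraMap k K) j) : K[X] →ₐ[K] LaurentSeries K) :
        K[X] →+* LaurentSeries K) (coeffMap (algebraMap k K) u)) :
    ∃ (g₀ : k[X]) (Q₀ : k[X][X]), g₀ ≠ 0 ∧ Q₀.natDegree ≤ Q.natDegree ∧
      aeval j g₀ * x =
        Q₀.eval₂ ((aeval j : k[X] →ₐ[k] LaurentSeries k) : k[X] →+* LaurentSeries k) u := by
  obtain ⟨m, hm⟩ : ∃ m, g.coeff m ≠ 0 := by
    by_contra hall
    exact hg (Polynomial.ext fun n => by
      rw [coeff_zero]
      by_contra hn
      exact hall ⟨n, hn⟩)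
  obtain ⟨π, hπ⟩ := exists_functional_ne_zero (k := k) (K := K) hm
  refine ⟨polyProj π g, biProj π Q, ?_, ?_, ?_⟩
  · intro h0
    have h1 : (polyProj π g).coeff m = 1 := by rw [polyProj_coeff, hπ]
    rw [h0, coeff_zero] at h1
    exact zero_ne_one h1
  · refine natDegree_le_iff_coeff_eq_zero.mpr fun i hi => ?_
    rw [biProj_coeff, coeff_eq_zero_of_natDegree_lt hi, map_zero]
  · have h1 := proj_aeval_mul j π g x
    have h2 := proj_evalAt j u π Q
    rw [← h1, h]
    exact h2

/-- Variant of `exists_rep_descent` keeping the degree bound `deg_X Q₀ < n`. -/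
theorem exists_rep_descent_lt (j u x : LaurentSeries k) {g : K[X]} {Q : K[X][X]} {n : ℕ}
    (hg : g ≠ 0) (hQ : ∀ i, n ≤ i → Q.coeff i = 0)
    (h : aeval (coeffMap (algebraMap k K) j) g * coeffMap (algebraMap k K) x =
      Q.eval₂ ((aeval (coeffMap (algebraMap k K) j) : K[X] →ₐ[K] LaurentSeries K) :
        K[X] →+* LaurentSeries K) (coeffMap (algebraMap k K) u)) :
    ∃ (g₀ : k[X]) (Q₀ : k[X][X]), g₀ ≠ 0 ∧ (∀ i, n ≤ i → Q₀.coeff i = 0) ∧
      aeval j g₀ * x =
        Q₀.eval₂ ((aeval j : k[X] →ₐ[k] LaurentSeries k) : k[X] →+* LaurentSeries k) u := by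
  obtain ⟨m, hm⟩ : ∃ m, g.coeff m ≠ 0 := by
    by_contra hall
    exact hg (Polynomial.ext fun n => by
      rw [coeff_zero]
      by_contra hn
      exact hall ⟨n, hn⟩)
  obtain ⟨π, hπ⟩ := exists_functional_ne_zero (k := k) (K := K) hm
  refine ⟨polyProj π g, biProj π Q, ?_, ?_, ?_⟩
  · intro h0
    have h1 : (polyProj π g).coeff m = 1 := by rw [polyProj_coeff, hπ]
    rw [h0, coeff_zero] at h1
    exact zero_ne_one h1
  · intro i hi
    rw [biProj_coeff, hQ i hi, map_zero]
  · have h1 := proj_aeval_mul j π g x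
    have h2 := proj_evalAt j u π Q
    rw [← h1, h]
    exact h2

end DescentCor

end Fermat.Agent.S28
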