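import Mathlib
import Fermat.Agent.S24.DegreeAlg

/-!
# S28, block (A): generation of the function field by `j` and the unit `U` (pure field theory)

Let `E` be a field over a field `k` of characteristic `0`, `j U : E` with `j` transcendental, and
`T : Set E`.  Assume

* every element `θ` of the `k`-algebra generated by `{j, U} ∪ T` has degree `≤ ψ` over `k(j)`
  (in the linear-dependence form of `S24.finrank_le_of_adjoin`, or as a monic relation of degree
  `ψ` over `k[j]`: the norm polynomial), and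
* every nonzero relation `Q(j, U) = 0`, `Q ∈ k[X][X]`, has degree `≥ ψ` in the outer variable
  (the Newton criterion).

Then every element `x` of the *field* `k(j, U, T)` lies in `k(j)[U]`: there are `g ∈ k[X]`,
`g ≠ 0`, and `Q ∈ k[X][X]` of outer degree `< ψ` with `g(j) x = Q(j, U)`.
-/

set_option autoImplicit false

namespace Fermat.Agent.S28.GenC

open Polynomial IntermediateField

variable {k : Type*} [Field k]

/-- Clearing denominators of a polynomial with coefficients in `k(j)`. -/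
theorem exists_clear {F : Type*} [Field F] [Algebra k F] (j : F) (f : (k⟮j⟯)[X]) :
    ∃ (g : k[X]) (Q : k[X][X]), aeval j g ≠ 0 ∧
      ∀ i, aeval j (Q.coeff i) = aeval j g * ((f.coeff i : k⟮j⟯) : F) := by
  induction f using Polynomial.induction_on' with
  | add f₁ f₂ h₁ h₂ =>
    obtain ⟨g₁, Q₁, hg₁, hQ₁⟩ := h₁
    obtain ⟨g₂, Q₂, hg₂, hQ₂⟩ := h₂
    refine ⟨g₁ * g₂, C g₂ * Q₁ + C g₁ * Q₂, ?_, fun i => ?_⟩
    · rw [map_mul]; exact mul_ne_zero hg₁ hg₂
    · rw [coeff_add, coeff_C_mul, coeff_C_mul, map_add, map_mul, map_mul, hQ₁, hQ₂, coeff_add,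
        map_mul]
      push_cast
      ring
  | monomial n c =>
    obtain ⟨r, s, hrs⟩ := (mem_adjoin_simple_iff k (c : F)).mp c.2
    by_cases hs : aeval j s = 0
    · have hc : (c : F) = 0 := by rw [hrs, hs, div_zero]
      refine ⟨1, 0, by simp, fun i => ?_⟩
      rw [coeff_monomial]
      split_ifs <;> simp [hc]
    · refine ⟨s, monomial n r, hs, fun i => ?_⟩
      rw [coeff_monomial, coeff_monomial]
      split_ifs
      · rw [hrs]; field_simp
      · simp

variable {E : Type*} [Field E] [Algebra k E]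

/-- The ring hom `k[X] → E`, `X ↦ j`. -/
noncomputable abbrev evj (j : E) : k[X] →+* E := ((aeval j : k[X] →ₐ[k] E) : k[X] →+* E)

/-- A monic relation of degree `ψ` over `k[j]` gives a linear dependence of the monomials
`j ^ i * θ ^ m`, `m ≤ ψ`. -/
theorem not_linearIndependent_of_monic (j θ : E) (ψ : ℕ) (p : k[X][X]) (hp : p.Monic)
    (hdeg : p.natDegree = ψ) (hroot : p.eval₂ (evj j) θ = 0) :
    ∃ D : ℕ, ¬ LinearIndependent k
      (fun ik : Fin (D + 1) × Fin (ψ + 1) => j ^ (ik.1 : ℕ) * θ ^ (ik.2 : ℕ)) := by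
  let D : ℕ := (Finset.range (ψ + 1)).sup fun m => (p.coeff m).natDegree
  have hD : ∀ m ∈ Finset.range (ψ + 1), (p.coeff m).natDegree < D + 1 := fun m hm =>
    Nat.lt_succ_of_le (Finset.le_sup (f := fun m => (p.coeff m).natDegree) hm)
  refine ⟨D, fun hli => ?_⟩
  let c : Fin (D + 1) × Fin (ψ + 1) → k := fun ik => (p.coeff ik.2).coeff ik.1
  have hsum : ∑ ik, c ik • (j ^ (ik.1 : ℕ) * θ ^ (ik.2 : ℕ)) = 0 := by
    refine Eq.trans ?_ hroot
    rw [eval₂_eq_sum_range, hdeg, Fintype.sum_prod_type, Finset.sum_comm, Finset.sum_range]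
    refine Finset.sum_congr rfl fun m _ => ?_
    have h5 : evj j (p.coeff m) = ∑ i : Fin (D + 1), (p.coeff m).coeff i • j ^ (i : ℕ) := by
      show aeval j (p.coeff m) = _
      rw [aeval_eq_sum_range' (hD m (Finset.mem_range.mpr m.2)), Finset.sum_range]
    rw [h5, Finset.sum_mul]
    refine Finset.sum_congr rfl fun i _ => ?_
    simp only [c]
    rw [smul_mul_assoc]
  rw [Fintype.linearIndependent_iff] at hli
  have h0 := hli c hsum (0, Fin.last ψ)
  have h4 : p.coeff ψ = 1 := by rw [← hdeg]; exact hp.coeff_natDegree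
  simp only [c, Fin.val_last, Fin.val_zero] at h0
  rw [h4, coeff_one_zero] at h0
  exact one_ne_zero h0

/-- **Generation**, linear-dependence form. -/
theorem exists_rep_of_dep [CharZero k] (j U : E) (T : Set E) (ψ : ℕ) (hj : Transcendental k j)
    (hdep : ∀ θ ∈ Algebra.adjoin k (insert j (insert U T)), ∃ D : ℕ, ¬ LinearIndependent k
      (fun ik : Fin (D + 1) × Fin (ψ + 1) => j ^ (ik.1 : ℕ) * θ ^ (ik.2 : ℕ)))
    (hmin : ∀ Q : k[X][X], Q ≠ 0 → Q.eval₂ (evj j) U = 0 → ψ ≤ Q.natDegree)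
    (x : E) (hx : x ∈ adjoin k (insert j (insert U T))) :
    ∃ (g : k[X]) (Q : k[X][X]), g ≠ 0 ∧ Q.natDegree < ψ ∧
      aeval j g * x = Q.eval₂ (evj j) U := by
  classical
  set S : Set E := insert j (insert U T) with hS
  set L : IntermediateField k E := adjoin k S with hL
  have hSL : ∀ y ∈ S, y ∈ L := fun y hy => subset_adjoin k S hy
  have hjL : j ∈ L := hSL j (Set.mem_insert _ _)
  have hUL : U ∈ L := hSL U (Set.mem_insert_of_mem _ (Set.mem_insert _ _))
  let j' : L := ⟨j, hjL⟩
  let U' : L := ⟨U, hUL⟩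
  let x' : L := ⟨x, hx⟩
  let S' : Set L := (L.val : L → E) ⁻¹' S
  have himg : (L.val : L → E) '' S' = S := by
    rw [Set.image_preimage_eq_iff]
    intro y hy
    exact ⟨⟨y, hSL y hy⟩, rfl⟩
  have htop : adjoin k S' = ⊤ := by
    apply IntermediateField.map_injective L.val
    rw [adjoin_map, himg, ← AlgHom.fieldRange_eq_map, fieldRange_val]
  have hinj : Function.Injective (L.val : L → E) := L.val.injective
  have hj' : Transcendental k j' := by
    intro halg
    exact hj (halg.algHom L.val)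
  have hj'S' : j' ∈ S' := show (j' : E) ∈ S from Set.mem_insert _ _
  have hdeg' : ∀ θ ∈ Algebra.adjoin k S', ∃ D : ℕ, ¬ LinearIndependent k
      (fun ik : Fin (D + 1) × Fin (ψ + 1) => j' ^ (ik.1 : ℕ) * θ ^ (ik.2 : ℕ)) := by
    intro θ hθ
    have h1 : (θ : E) ∈ Algebra.adjoin k S := by
      rw [← himg, Algebra.adjoin_image]
      exact ⟨θ, hθ, rfl⟩
    obtain ⟨D, hD⟩ := hdep (θ : E) h1
    refine ⟨D, fun hli => hD ?_⟩
    have h2 := hli.map' L.val.toLinearMap (LinearMap.ker_eq_bot.mpr hinj)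
    have e : (fun ik : Fin (D + 1) × Fin (ψ + 1) => j ^ (ik.1 : ℕ) * (θ : E) ^ (ik.2 : ℕ)) =
        L.val.toLinearMap ∘ fun ik : Fin (D + 1) × Fin (ψ + 1) =>
          j' ^ (ik.1 : ℕ) * θ ^ (ik.2 : ℕ) := by
      funext ik
      simp [j']
    rw [e]
    exact h2
  obtain ⟨hfin, hle⟩ := Fermat.Agent.S24.finrank_le_of_adjoin hj' S' hj'S' htop ψ hdeg'
  -- the minimal polynomial of `U'` over `k(j')`
  set K₁ : IntermediateField k L := k⟮j'⟯ with hK₁
  have hint : IsIntegral K₁ U' := IsIntegral.of_finite K₁ U'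
  set m : K₁[X] := minpoly K₁ U' with hm
  have hmle : m.natDegree ≤ ψ := (minpoly.natDegree_le U').trans hle
  have hmmonic : m.Monic := minpoly.monic hint
  have htr : ∀ q : k[X], aeval j' q = 0 → q = 0 := fun q hq => by
    by_contra hq0
    exact hj' ⟨q, hq0, hq⟩
  -- transfer of an identity from `L` to `E`
  have hval_aeval : ∀ q : k[X], ((aeval j' q : L) : E) = aeval j q := fun q => by
    have := aeval_algHom_apply L.val j' q
    exact this.symm
  -- clearing denominators: key properties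
  have hclear : ∀ f : K₁[X], ∃ (g : k[X]) (Q : k[X][X]), g ≠ 0 ∧ Q.natDegree ≤ f.natDegree ∧
      (f ≠ 0 → Q ≠ 0) ∧
      aeval j g * ((aeval U' f : L) : E) = Q.eval₂ (evj j) U := by
    intro f
    obtain ⟨g, Q, hg, hQ⟩ := exists_clear j' f
    have hg0 : g ≠ 0 := by
      rintro rfl
      exact hg (by simp)
    refine ⟨g, Q, hg0, ?_, ?_, ?_⟩
    · rw [natDegree_le_iff_coeff_eq_zero]
      intro i hi
      apply htr
      rw [hQ i, coeff_eq_zero_of_natDegree_lt hi]
      simp
    · intro hf hQ0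
      obtain ⟨i, hi⟩ : ∃ i, f.coeff i ≠ 0 := by
        by_contra hcon
        push Not at hcon
        exact hf (Polynomial.ext fun i => by rw [hcon i, coeff_zero])
      have h1 := hQ i
      rw [hQ0, coeff_zero, map_zero] at h1
      rcases mul_eq_zero.mp h1.symm with h2 | h2
      · exact hg h2
      · exact hi (Subtype.ext h2)
    · -- the identity in `L`
      have hL1 : aeval j' g * aeval U' f = Q.eval₂ ((aeval j' : k[X] →ₐ[k] L) : k[X] →+* L) U' := by
        have e0 : aeval U' f = ∑ i ∈ Finset.range (f.natDegree + 1), f.coeff i • U' ^ i :=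
          aeval_eq_sum_range U'
        rw [e0, eval₂_eq_sum_range' _ (n := f.natDegree + 1), Finset.mul_sum]
        · refine Finset.sum_congr rfl fun i _ => ?_
          show _ = aeval j' (Q.coeff i) * U' ^ i
          rw [hQ i, Algebra.smul_def, mul_assoc]
          rfl
        · refine lt_of_le_of_lt ?_ (Nat.lt_succ_self _)
          rw [natDegree_le_iff_coeff_eq_zero]
          intro i hi
          apply htr
          rw [hQ i, coeff_eq_zero_of_natDegree_lt hi]
          simp
      have hL2 := congrArg (L.val : L → E) hL1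
      rw [map_mul] at hL2
      have e1 : L.val (aeval j' g) = aeval j g := hval_aeval g
      have e2 : L.val (Q.eval₂ ((aeval j' : k[X] →ₐ[k] L) : k[X] →+* L) U') =
          Q.eval₂ (evj j) U := by
        have e3 := Polynomial.hom_eval₂ Q ((aeval j' : k[X] →ₐ[k] L) : k[X] →+* L)
          (L.val : L →+* E) U'
        have e4 : (L.val : L →+* E).comp ((aeval j' : k[X] →ₐ[k] L) : k[X] →+* L) = evj j := by
          ext q
          · simp
          · simp [j']
        rw [e4] at e3
        exact e3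
      rw [e1, e2] at hL2
      exact hL2
  -- the degree of `m` is exactly `ψ`
  have hmdeg : m.natDegree = ψ := by
    obtain ⟨g, Q, hg0, hQdeg, hQ0, hQ⟩ := hclear m
    have h1 : Q.eval₂ (evj j) U = 0 := by
      rw [← hQ, hm, minpoly.aeval]
      simp
    exact le_antisymm hmle ((hmin Q (hQ0 hmmonic.ne_zero) h1).trans hQdeg)
  have hprim : K₁⟮U'⟯ = ⊤ := by
    rw [Field.primitive_element_iff_minpoly_natDegree_eq]
    exact le_antisymm ((minpoly.natDegree_le U')) (by rw [← hm, hmdeg]; exact hle)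
  have hx' : x' ∈ K₁⟮U'⟯ := by rw [hprim]; exact IntermediateField.mem_top
  have hx'' : x' ∈ (K₁⟮U'⟯).toSubalgebra := hx'
  rw [adjoin_simple_toSubalgebra_of_isAlgebraic hint.isAlgebraic,
    Algebra.adjoin_singleton_eq_range_aeval] at hx''
  obtain ⟨f, hf⟩ := hx''
  have hf' : aeval U' (f %ₘ m) = x' := by
    rw [aeval_modByMonic_eq_self_of_root (minpoly.aeval K₁ U')]
    exact hf
  have hm1 : m ≠ 1 := minpoly.ne_one K₁ U'
  have hfdeg : (f %ₘ m).natDegree < ψ := by
    rw [← hmdeg]
    exact natDegree_modByMonic_lt f hmmonic hm1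
  obtain ⟨g, Q, hg0, hQdeg, -, hQ⟩ := hclear (f %ₘ m)
  refine ⟨g, Q, hg0, lt_of_le_of_lt hQdeg hfdeg, ?_⟩
  rw [← hQ, hf']

/-- **Generation**, norm-polynomial form. -/
theorem exists_rep_of_norm [CharZero k] (j U : E) (T : Set E) (ψ : ℕ) (hj : Transcendental k j)
    (hnorm : ∀ θ ∈ Algebra.adjoin k (insert j (insert U T)), ∃ p : k[X][X], p.Monic ∧
      p.natDegree = ψ ∧ p.eval₂ ((aeval j : k[X] →ₐ[k] E) : k[X] →+* E) θ = 0)
    (hmin : ∀ Q : k[X][X], Q ≠ 0 →
      Q.eval₂ ((aeval j : k[X] →ₐ[k] E) : k[X] →+* E) U = 0 → ψ ≤ Q.natDegree)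
    (x : E) (hx : x ∈ adjoin k (insert j (insert U T))) :
    ∃ (g : k[X]) (Q : k[X][X]), g ≠ 0 ∧ Q.natDegree < ψ ∧
      aeval j g * x = Q.eval₂ ((aeval j : k[X] →ₐ[k] E) : k[X] →+* E) U :=
  exists_rep_of_dep j U T ψ hj
    (fun θ hθ => by
      obtain ⟨p, hp, hdeg, hroot⟩ := hnorm θ hθ
      exact not_linearIndependent_of_monic j θ ψ p hp hdeg hroot)
    hmin x hx

end Fermat.Agent.S28.GenC
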