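import Mathlib
import Fermat.Agent.S28.NormGen
import Fermat.Agent.S28.GenC
import Fermat.Agent.S28.DescentCor
import Fermat.Agent.S28.Unit
import Fermat.Agent.S28.UnitGrowth
import Fermat.Agent.S28.FormalU

/-!
# S28, package GenQ: generation of the function field over `ℚ`

Every element `x` of the function field `ℚ(j(q^d) : d ∣ N) ⊆ ℚ((q))` satisfies
`g(j) x = Q(j, u)` with `0 ≠ g ∈ ℚ[T]`, `Q ∈ ℚ[T][X]`, where `u ∈ ℚ((q))` is the `q`-expansion
of the modular unit `Ufun N`.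

The theorems of this file are abstract in the expansion `u`: they take as hypotheses

* that `Ufun N` has a Laurent `q`-expansion at infinity, equal to the image of `u`;
* exponential growth of all `SL(2, ℤ)`-translates of `Ufun N`;
* the minimality statement `hmin` (no nonzero relation of `X`-degree `< ψ` between `j` and `u`
  over `ℂ`), which is supplied by the Newton criterion.

Chain: generic norm polynomial (`NormGen`) for the family `Ufun N`, `j(d z)` (`d ∣ N`), transfer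
to `q`-expansions, the field-degree argument (`GenC`), and descent from `ℂ` to `ℚ`
(`DescentCor`).
-/

set_option autoImplicit false

open UpperHalfPlane ModularForm EisensteinSeries ModularCurve Polynomial
open scoped MatrixGroups Real Manifold

namespace Fermat.Agent.S28.GenQ

open Fermat.Agent.S24 Fermat.Agent.S23

/-! ### Transfer of polynomial identities from functions to `q`-expansions -/

/-- A polynomial identity over `ℂ[j]` among functions with Laurent `q`-expansions at infinity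
passes to the expansions. -/
theorem transfer_family {ι : Type*} (F : ι → ℍ → ℂ) (hWH : ∀ i, IsWH 1 (F i))
    (P : MvPolynomial ι ℂ) (p : Polynomial (Polynomial ℂ))
    (h : Polynomial.eval₂ (Polynomial.aeval jFun : Polynomial ℂ →ₐ[ℂ] (ℍ → ℂ)).toRingHom
      (MvPolynomial.aeval F P) p = 0) :
    Polynomial.eval₂
      (Polynomial.aeval (Jser ℂ 1) : Polynomial ℂ →ₐ[ℂ] LaurentSeries ℂ).toRingHom
      (MvPolynomial.aeval (fun i => qLaurent 1 (F i)) P) p = 0 := by
  set A := WH 1 one_pos with hA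
  set jA : A := ⟨jFun, Bridge.isWH_jFun⟩ with hjA
  set genA : ι → A := fun i => ⟨F i, hWH i⟩ with hgenA
  set θA : A := MvPolynomial.aeval genA P with hθA
  -- the identity holds in `A`
  have h1 : Polynomial.eval₂ (Polynomial.aeval jA : Polynomial ℂ →ₐ[ℂ] A).toRingHom θA p = 0 := by
    apply Subtype.val_injective
    have e1 := Polynomial.hom_eval₂ p (Polynomial.aeval jA : Polynomial ℂ →ₐ[ℂ] A).toRingHom
      A.val.toRingHom θA
    have e2 : A.val.toRingHom.comp (Polynomial.aeval jA : Polynomial ℂ →ₐ[ℂ] A).toRingHom =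
        (Polynomial.aeval jFun : Polynomial ℂ →ₐ[ℂ] (ℍ → ℂ)).toRingHom := by
      have e3 : (Polynomial.aeval jFun : Polynomial ℂ →ₐ[ℂ] (ℍ → ℂ)) =
          A.val.comp (Polynomial.aeval jA) := by
        rw [← Polynomial.aeval_algHom]
        rfl
      rw [e3]
      rfl
    have e4 : A.val.toRingHom θA = MvPolynomial.aeval F P := by
      show A.val (MvPolynomial.aeval genA P) = _
      rw [MvPolynomial.comp_aeval_apply]
      rfl
    rw [e2, e4, h] at e1
    exact e1
  -- apply the `q`-expansion homomorphism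
  have e1 := Polynomial.hom_eval₂ p (Polynomial.aeval jA : Polynomial ℂ →ₐ[ℂ] A).toRingHom
    (qL 1 one_pos).toRingHom θA
  rw [h1, map_zero] at e1
  have e2 : (qL 1 one_pos).toRingHom.comp (Polynomial.aeval jA : Polynomial ℂ →ₐ[ℂ] A).toRingHom =
      (Polynomial.aeval (Jser ℂ 1) : Polynomial ℂ →ₐ[ℂ] LaurentSeries ℂ).toRingHom := by
    have e3 : (Polynomial.aeval (Jser ℂ 1) : Polynomial ℂ →ₐ[ℂ] LaurentSeries ℂ) =
        (qL 1 one_pos).comp (Polynomial.aeval jA) := by
      rw [← Polynomial.aeval_algHom]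
      congr 1
      rw [qL_apply]
      have h5 := qLaurent_jd one_pos
      rw [jd_one] at h5
      exact h5.symm
    rw [e3]
    rfl
  have e4 : (qL 1 one_pos).toRingHom θA =
      MvPolynomial.aeval (fun i => qLaurent 1 (F i)) P := by
    show (qL 1 one_pos) (MvPolynomial.aeval genA P) = _
    rw [MvPolynomial.comp_aeval_apply]
    rfl
  rw [e2, e4] at e1
  exact e1.symm

/-! ### The series `j` over `ℚ` and over `ℂ` -/

theorem order_jq : jq.order = -1 := by
  have h1 : jq.order ≤ -1 :=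
    HahnSeries.order_le_of_coeff_ne_zero (by rw [coeff_jq_neg_one]; exact one_ne_zero)
  refine le_antisymm h1 ?_
  by_contra hlt
  rw [not_le] at hlt
  exact jq_ne_zero (HahnSeries.coeff_order_eq_zero.mp (coeff_jq_of_lt hlt))

/-- The complex series `j(q)`. -/
theorem Jser_one_eq : Jser ℂ 1 = coeffMap (algebraMap ℚ ℂ) jq := by
  rw [Jser_eq, qExpand_one_apply]
  rfl

theorem Jser_one_ne_zero : Jser ℂ 1 ≠ 0 := by
  rw [Jser_one_eq]
  exact DescentCor.coeffMap_ne_zero jq_ne_zero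

theorem order_Jser_one : (Jser ℂ 1).order = -1 := by
  rw [Jser_one_eq, DescentCor.order_coeffMap, order_jq]

theorem transcendental_Jser_one : Transcendental ℂ (Jser ℂ 1) :=
  (transcendental_iff_injective).mpr
    (Newton.aeval_injective_of_order Jser_one_ne_zero order_Jser_one)

theorem coeffMap_algebraMap_rat (r : ℚ) :
    coeffMap (algebraMap ℚ ℂ) (algebraMap ℚ (LaurentSeries ℚ) r) =
      algebraMap ℂ (LaurentSeries ℂ) (algebraMap ℚ ℂ r) := by
  rw [algebraMap_laurentSeries_eq_single, algebraMap_laurentSeries_eq_single, coeffMap_single]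

/-! ### The family `Ufun N`, `j(d z)` -/

section Family

variable (N : ℕ) [NeZero N]

/-- The family of functions: the unit and the `j(d z)`, `d ∣ N`. -/
noncomputable def fam : Option {d : ℕ // d ∣ N} → ℍ → ℂ
  | none => Ufun N
  | some d => jd d.1

/-- The family of series: a given series `U` and the `j(q^d)`, `d ∣ N`. -/
noncomputable def ser (U : LaurentSeries ℂ) : Option {d : ℕ // d ∣ N} → LaurentSeries ℂ
  | none => U
  | some d => Jser ℂ d.1

variable {N}

omit [NeZero N] in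
theorem fam_mdiff (i : Option {d : ℕ // d ∣ N}) : MDiff (fam N i) := by
  cases i with
  | none => exact Ufun_mdiff N
  | some d => exact jd_mdifferentiable d.1

omit [NeZero N] in
theorem fam_inv (i : Option {d : ℕ // d ∣ N}) (δ : SL(2, ℤ))
    (hδ : δ ∈ CongruenceSubgroup.Gamma0 N) (z : ℍ) : fam N i (δ • z) = fam N i z := by
  cases i with
  | none => exact Ufun_Gamma0_smul N hδ z
  | some d => exact jd_Gamma0_smul d.2 hδ z

omit [NeZero N] in
theorem fam_grow
    (hgrow : ∀ g : SL(2, ℤ), ∃ (M : ℕ) (C : ℝ), ∀ z : ℍ, 1 ≤ z.im →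
      ‖Ufun N (g • z)‖ ≤ C * Real.exp (2 * π * M * z.im))
    (i : Option {d : ℕ // d ∣ N}) (g : SL(2, ℤ)) :
    ∃ (M : ℕ) (C : ℝ), ∀ z : ℍ, 1 ≤ z.im →
      ‖fam N i (g • z)‖ ≤ C * Real.exp (2 * π * M * z.im) := by
  cases i with
  | none => exact hgrow g
  | some d =>
    obtain ⟨C, -, hC⟩ := exists_norm_jT_le_one d.1 g
    exact ⟨d.1, C, fun z hz => hC z hz⟩

theorem fam_isWH (hWH : IsWH 1 (Ufun N)) (i : Option {d : ℕ // d ∣ N}) :
    IsWH 1 (fam N i) := by
  cases i with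
  | none => exact hWH
  | some d => exact isWH_jd (Nat.pos_of_dvd_of_pos d.2 (NeZero.pos N))

theorem qLaurent_fam {U : LaurentSeries ℂ} (hU : qLaurent 1 (Ufun N) = U)
    (i : Option {d : ℕ // d ∣ N}) : qLaurent 1 (fam N i) = ser N U i := by
  cases i with
  | none => exact hU
  | some d => exact qLaurent_jd (Nat.pos_of_dvd_of_pos d.2 (NeZero.pos N))

omit [NeZero N] in
theorem insert_eq_range_ser (U : LaurentSeries ℂ) :
    insert (Jser ℂ 1) (insert U (Set.range fun d : {d : ℕ // d ∣ N} => Jser ℂ d.1)) =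
      Set.range (ser N U) := by
  ext y
  constructor
  · rintro (rfl | rfl | ⟨d, rfl⟩)
    · exact ⟨some ⟨1, one_dvd N⟩, rfl⟩
    · exact ⟨none, rfl⟩
    · exact ⟨some d, rfl⟩
  · rintro ⟨i, rfl⟩
    cases i with
    | none => exact Or.inr (Or.inl rfl)
    | some d => exact Or.inr (Or.inr ⟨d, rfl⟩)

/-- The norm polynomial statement for the series family. -/
theorem exists_monic_poly_ser (hWH : IsWH 1 (Ufun N)) {U : LaurentSeries ℂ}
    (hU : qLaurent 1 (Ufun N) = U)
    (hgrow : ∀ g : SL(2, ℤ), ∃ (M : ℕ) (C : ℝ), ∀ z : ℍ, 1 ≤ z.im →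
      ‖Ufun N (g • z)‖ ≤ C * Real.exp (2 * π * M * z.im))
    (θ : LaurentSeries ℂ)
    (hθ : θ ∈ Algebra.adjoin ℂ
      (insert (Jser ℂ 1) (insert U (Set.range fun d : {d : ℕ // d ∣ N} => Jser ℂ d.1)))) :
    ∃ p : Polynomial (Polynomial ℂ), p.Monic ∧ p.natDegree = Nat.card (X0 N) ∧
      p.eval₂ ((Polynomial.aeval (Jser ℂ 1) : Polynomial ℂ →ₐ[ℂ] LaurentSeries ℂ) :
        Polynomial ℂ →+* LaurentSeries ℂ) θ = 0 := by
  rw [insert_eq_range_ser, Algebra.adjoin_range_eq_range_aeval] at hθ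
  obtain ⟨P, rfl⟩ := hθ
  obtain ⟨p, hp1, hp2, hp3⟩ := NormGen.exists_monic_poly_of_invariant N (fam N) fam_mdiff
    (fun i δ hδ z => fam_inv i δ hδ z) (fam_grow hgrow) P
  refine ⟨p, hp1, hp2, ?_⟩
  have h := transfer_family (fam N) (fam_isWH hWH) P p hp3
  have h2 : (fun i => qLaurent 1 (fam N i)) = ser N U := funext (qLaurent_fam hU)
  rw [h2] at h
  exact h

omit [NeZero N] in
/-- The image of the function field in `ℂ((q))` lies in the field generated by the family. -/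
theorem coeffMap_mem_adjoin (U : LaurentSeries ℂ) {x : LaurentSeries ℚ}
    (hx : x ∈ modularFunctionFieldFull N) :
    coeffMap (algebraMap ℚ ℂ) x ∈ IntermediateField.adjoin ℂ
      (insert (Jser ℂ 1) (insert U (Set.range fun d : {d : ℕ // d ∣ N} => Jser ℂ d.1))) := by
  rw [modularFunctionFieldFull] at hx
  induction hx using IntermediateField.adjoin_induction with
  | mem y hy =>
    obtain ⟨d, hd0, hdN, rfl⟩ := hy
    refine IntermediateField.subset_adjoin ℂ _ (Or.inr (Or.inr ⟨⟨d, hdN⟩, ?_⟩))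
    show Jser ℂ d = _
    rw [Jser_eq]
    rfl
  | algebraMap r =>
    rw [coeffMap_algebraMap_rat]
    exact IntermediateField.algebraMap_mem _ _
  | add y z _ _ hy hz =>
    rw [map_add]
    exact add_mem hy hz
  | inv y _ hy =>
    rw [map_inv₀]
    exact inv_mem hy
  | mul y z _ _ hy hz =>
    rw [map_mul]
    exact mul_mem hy hz

/-- **Generation over `ℚ`**, abstract form: given the expansion `u ∈ ℚ((q))` of the unit, growth
of its translates and the minimality of the degree `ψ = [SL(2, ℤ) : Γ₀(N)]`, every element of the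
function field is of the form `Q(j, u) / g(j)`. -/
theorem generation_of (u : LaurentSeries ℚ) (hWH : IsWH 1 (Ufun N))
    (hu : qLaurent 1 (Ufun N) = coeffMap (algebraMap ℚ ℂ) u)
    (hgrow : ∀ g : SL(2, ℤ), ∃ (M : ℕ) (C : ℝ), ∀ z : ℍ, 1 ≤ z.im →
      ‖Ufun N (g • z)‖ ≤ C * Real.exp (2 * π * M * z.im))
    (hmin : ∀ Q : Polynomial (Polynomial ℂ), Q ≠ 0 →
      Q.eval₂ ((Polynomial.aeval (coeffMap (algebraMap ℚ ℂ) jq) :
        Polynomial ℂ →ₐ[ℂ] LaurentSeries ℂ) : Polynomial ℂ →+* LaurentSeries ℂ)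
        (coeffMap (algebraMap ℚ ℂ) u) = 0 → Nat.card (X0 N) ≤ Q.natDegree)
    (x : LaurentSeries ℚ) (hx : x ∈ modularFunctionFieldFull N) :
    ∃ (g : Polynomial ℚ) (Q : Polynomial (Polynomial ℚ)), g ≠ 0 ∧
      Q.natDegree < Nat.card (X0 N) ∧
      Polynomial.aeval jq g * x =
        Q.eval₂ ((Polynomial.aeval jq : Polynomial ℚ →ₐ[ℚ] LaurentSeries ℚ) :
          Polynomial ℚ →+* LaurentSeries ℚ) u := by
  set U : LaurentSeries ℂ := coeffMap (algebraMap ℚ ℂ) u with hUdef
  have hmin' : ∀ Q : Polynomial (Polynomial ℂ), Q ≠ 0 →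
      Q.eval₂ ((Polynomial.aeval (Jser ℂ 1) : Polynomial ℂ →ₐ[ℂ] LaurentSeries ℂ) :
        Polynomial ℂ →+* LaurentSeries ℂ) U = 0 → Nat.card (X0 N) ≤ Q.natDegree := by
    rw [Jser_one_eq]
    exact hmin
  obtain ⟨g, Q, hg, hQdeg, hrep⟩ := GenC.exists_rep_of_norm (k := ℂ) (Jser ℂ 1) U
    (Set.range fun d : {d : ℕ // d ∣ N} => Jser ℂ d.1) (Nat.card (X0 N))
    transcendental_Jser_one
    (fun θ hθ => exists_monic_poly_ser hWH hu hgrow θ hθ) hmin'
    (coeffMap (algebraMap ℚ ℂ) x) (coeffMap_mem_adjoin U hx)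
  rw [Jser_one_eq] at hrep
  obtain ⟨g₀, Q₀, hg₀, hQ₀deg, h₀⟩ := DescentCor.exists_rep_descent jq u x hg hrep
  exact ⟨g₀, Q₀, hg₀, lt_of_le_of_lt hQ₀deg hQdeg, h₀⟩

/-- The minimality hypothesis of `generation_of` from the Newton criterion: growth `O(e^{2πay})`
of all translates of the unit, decay `O(e^{-2πby})` of the unit itself with `a (ψ - 1) ≤ b`, and
vanishing of the coefficients of `u` below `a (ψ - 1)`. -/
theorem hmin_of_bounds (u : LaurentSeries ℚ) (hWH : IsWH 1 (Ufun N))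
    (hu : qLaurent 1 (Ufun N) = coeffMap (algebraMap ℚ ℂ) u) {a b : ℕ} (ha : 0 < a)
    (hab : a * (Nat.card (X0 N) - 1) ≤ b)
    (hgrow : ∀ g : SL(2, ℤ), ∃ C : ℝ, ∀ z : ℍ, 1 ≤ z.im →
      ‖Ufun N (g • z)‖ ≤ C * Real.exp (2 * π * a * z.im))
    (hdecay : ∃ C : ℝ, ∀ z : ℍ, 1 ≤ z.im → ‖Ufun N z‖ ≤ C * Real.exp (-(2 * π * b * z.im)))
    (hord : ∀ n : ℤ, n < (a : ℤ) * ((Nat.card (X0 N) : ℤ) - 1) → u.coeff n = 0)
    (Q : Polynomial (Polynomial ℂ)) (hQ0 : Q ≠ 0)
    (hQ : Q.eval₂ ((Polynomial.aeval (coeffMap (algebraMap ℚ ℂ) jq) :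
        Polynomial ℂ →ₐ[ℂ] LaurentSeries ℂ) : Polynomial ℂ →+* LaurentSeries ℂ)
        (coeffMap (algebraMap ℚ ℂ) u) = 0) :
    Nat.card (X0 N) ≤ Q.natDegree := by
  obtain ⟨p, hp1, hp2, hp3, hp4, -, hp6⟩ := NormGen.exists_monic_poly_of_bounds N (Ufun N)
    (Ufun_mdiff N) (fun δ hδ z => Ufun_Gamma0_smul N hδ z) a b hab hgrow hdecay (Ufun_ne_zero N)
  -- transfer the relation to series
  have hp6' : Polynomial.eval₂ (Polynomial.aeval jFun : Polynomial ℂ →ₐ[ℂ] (ℍ → ℂ)).toRingHom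
      (MvPolynomial.aeval (fam N)
        (MvPolynomial.X none : MvPolynomial (Option {d : ℕ // d ∣ N}) ℂ)) p = 0 := by
    rw [MvPolynomial.aeval_X]
    exact hp6
  have h := transfer_family (fam N) (fam_isWH hWH)
    (MvPolynomial.X none : MvPolynomial (Option {d : ℕ // d ∣ N}) ℂ) p hp6'
  rw [MvPolynomial.aeval_X] at h
  have h2 : qLaurent 1 (fam N none) = coeffMap (algebraMap ℚ ℂ) u := hu
  rw [h2, Jser_one_eq] at h
  have hj0 : coeffMap (algebraMap ℚ ℂ) jq ≠ 0 := DescentCor.coeffMap_ne_zero jq_ne_zero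
  have hj : (coeffMap (algebraMap ℚ ℂ) jq).order = -1 := by
    rw [DescentCor.order_coeffMap, order_jq]
  have hordC : ∀ n : ℤ, n < (a : ℤ) * ((Nat.card (X0 N) : ℤ) - 1) →
      (coeffMap (algebraMap ℚ ℂ) u).coeff n = 0 := by
    intro n hn
    rw [coeffMap_coeff, hord n hn, map_zero]
  exact Newton.natDegree_le_of_order ha hp1 hp2 (fun i _ => hp3 i) hp4 hj0 hj hordC h hQ0 hQ

/-- **Generation over `ℚ`** from bounds on the unit and the order of its expansion. -/
theorem generation_of_bounds (u : LaurentSeries ℚ) (hWH : IsWH 1 (Ufun N))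
    (hu : qLaurent 1 (Ufun N) = coeffMap (algebraMap ℚ ℂ) u) {a b : ℕ} (ha : 0 < a)
    (hab : a * (Nat.card (X0 N) - 1) ≤ b)
    (hgrow : ∀ g : SL(2, ℤ), ∃ C : ℝ, ∀ z : ℍ, 1 ≤ z.im →
      ‖Ufun N (g • z)‖ ≤ C * Real.exp (2 * π * a * z.im))
    (hdecay : ∃ C : ℝ, ∀ z : ℍ, 1 ≤ z.im → ‖Ufun N z‖ ≤ C * Real.exp (-(2 * π * b * z.im)))
    (hord : ∀ n : ℤ, n < (a : ℤ) * ((Nat.card (X0 N) : ℤ) - 1) → u.coeff n = 0)
    (x : LaurentSeries ℚ) (hx : x ∈ modularFunctionFieldFull N) :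
    ∃ (g : Polynomial ℚ) (Q : Polynomial (Polynomial ℚ)), g ≠ 0 ∧
      Q.natDegree < Nat.card (X0 N) ∧
      Polynomial.aeval jq g * x =
        Q.eval₂ ((Polynomial.aeval jq : Polynomial ℚ →ₐ[ℚ] LaurentSeries ℚ) :
          Polynomial ℚ →+* LaurentSeries ℚ) u :=
  generation_of u hWH hu (fun g => by
      obtain ⟨C, hC⟩ := hgrow g
      exact ⟨a, C, hC⟩)
    (hmin_of_bounds u hWH hu ha hab hgrow hdecay hord) x hx

end Family

/-! ### The concrete statement for the integral expansion `uZ N` -/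

/-- **Generation over `ℚ`** (with the degree bound): every element `x` of the function field
`ℚ(j(q^d) : d ∣ N)` satisfies `g(j) x = Q(j, u)` with `0 ≠ g ∈ ℚ[T]`, `Q ∈ ℚ[T][X]` of
`X`-degree `< ψ(N)`, where `u` is the `q`-expansion of the modular unit. -/
theorem generation_lt (N : ℕ) [NeZero N] (x : LaurentSeries ℚ)
    (hx : x ∈ modularFunctionFieldFull N) :
    ∃ (g : Polynomial ℚ) (Q : Polynomial (Polynomial ℚ)), g ≠ 0 ∧
      Q.natDegree < dedekindPsi N ∧
      Polynomial.aeval jq g * x =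
        Q.eval₂ ((Polynomial.aeval jq : Polynomial ℚ →ₐ[ℚ] LaurentSeries ℚ) :
          Polynomial ℚ →+* LaurentSeries ℚ) (coeffMap (Int.castRingHom ℚ) (FormalU.uZ N)) := by
  have hcard : Nat.card (X0 N) = dedekindPsi N := card_X0 N
  have h := generation_of_bounds (N := N) (coeffMap (Int.castRingHom ℚ) (FormalU.uZ N))
    (FormalU.isWH_Ufun N) (FormalU.qLaurent_Ufun_rat N)
    (a := Nat.totient N) (b := Nat.totient N * (dedekindPsi N - 1))
    (Nat.totient_pos.mpr (NeZero.pos N)) (by rw [hcard])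
    (UnitGrowth.Ufun_hgrow N) (UnitGrowth.Ufun_hdecay N)
    (fun n hn => by
      rw [hcard] at hn
      rw [coeffMap_coeff, FormalU.uZ_coeff_of_lt N hn, map_zero]) x hx
  rw [hcard] at h
  exact h

/-- **Generation over `ℚ`**: every element `x` of the function field `ℚ(j(q^d) : d ∣ N)`
satisfies `g(j) x = Q(j, u)` with `0 ≠ g ∈ ℚ[T]`, `Q ∈ ℚ[T][X]`, where `u` is the `q`-expansion
of the modular unit. -/
theorem generation (N : ℕ) [NeZero N] :
    ∀ x ∈ modularFunctionFieldFull N, ∃ (g : Polynomial ℚ) (Q : Polynomial (Polynomial ℚ)),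
      g ≠ 0 ∧ Polynomial.aeval jq g * x =
        Q.eval₂ ((Polynomial.aeval jq : Polynomial ℚ →ₐ[ℚ] LaurentSeries ℚ) :
          Polynomial ℚ →+* LaurentSeries ℚ) (coeffMap (Int.castRingHom ℚ) (FormalU.uZ N)) := by
  intro x hx
  obtain ⟨g, Q, hg, -, h⟩ := generation_lt N x hx
  exact ⟨g, Q, hg, h⟩

end Fermat.Agent.S28.GenQ
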