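/-
S28, block (B2) CHART, sub-package (1): the ring `ℤ_(ℓ) = GaloisRep.ratLocalizedAt ℓ`.

* `isPrincipalIdealRing` : `ℤ_(ℓ)` is a principal ideal ring,
* `prime_ell` : `ℓ` is a prime element of `ℤ_(ℓ)`,
* `resZl` : the reduction map `ℤ_(ℓ) →+* ZMod ℓ`, with kernel `(ℓ)`,
* `exists_nat_mul_eq` : every rational number has a multiple by a nonzero natural number
  lying in `ℤ_(ℓ)` (clearing denominators).
Owner: helper12.
-/
import Mathlib
import Fermat.Prelude.Def_GaloisRep_Flat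

set_option autoImplicit false

namespace Fermat.Agent.S28

namespace Zl

section General

variable {ℓ : ℕ}

theorem mem_iff (q : ℚ) : q ∈ GaloisRep.ratLocalizedAt ℓ ↔ q.den.Coprime ℓ := Iff.rfl

theorem intCast_div_natCast_mem (k : ℤ) {d : ℕ} (hd : d.Coprime ℓ) :
    (k : ℚ) / (d : ℚ) ∈ GaloisRep.ratLocalizedAt ℓ := by
  rw [mem_iff]
  rcases Nat.eq_zero_or_pos d with h0 | hpos
  · subst h0
    simp
  · have hdvd : ((k : ℚ) / (d : ℚ)).den ∣ d := by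
      have h := Rat.den_dvd k (d : ℤ)
      rw [Rat.divInt_eq_div, Int.cast_natCast] at h
      exact Int.natCast_dvd_natCast.mp h
    exact Nat.Coprime.coprime_dvd_left hdvd hd

end General

variable (ℓ : ℕ) [Fact ℓ.Prime]

theorem natCast_den_ne_zero (x : ↥(GaloisRep.ratLocalizedAt ℓ)) :
    ((x : ℚ).den : ZMod ℓ) ≠ 0 := by
  intro h
  rw [ZMod.natCast_eq_zero_iff] at h
  have hx : (x : ℚ).den.Coprime ℓ := x.2
  have h1 : ℓ = 1 := Nat.Coprime.eq_one_of_dvd hx.symm h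
  exact (Fact.out : ℓ.Prime).one_lt.ne' h1

/-- Reduction modulo `ℓ` on `ℤ_(ℓ)`. -/
noncomputable def resZl : ↥(GaloisRep.ratLocalizedAt ℓ) →+* ZMod ℓ where
  toFun x := (((x : ℚ)) : ZMod ℓ)
  map_one' := by simp
  map_mul' x y := by
    show (((x * y : ↥(GaloisRep.ratLocalizedAt ℓ)) : ℚ) : ZMod ℓ) = _
    rw [Subring.coe_mul]
    exact Rat.cast_mul_of_ne_zero (natCast_den_ne_zero ℓ x) (natCast_den_ne_zero ℓ y)
  map_zero' := by simp
  map_add' x y := by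
    show (((x + y : ↥(GaloisRep.ratLocalizedAt ℓ)) : ℚ) : ZMod ℓ) = _
    rw [Subring.coe_add]
    exact Rat.cast_add_of_ne_zero (natCast_den_ne_zero ℓ x) (natCast_den_ne_zero ℓ y)

theorem resZl_apply (x : ↥(GaloisRep.ratLocalizedAt ℓ)) :
    resZl ℓ x = (((x : ℚ)) : ZMod ℓ) := rfl

theorem resZl_eq_zero_iff (a : ↥(GaloisRep.ratLocalizedAt ℓ)) :
    resZl ℓ a = 0 ↔ ((ℓ : ℕ) : ↥(GaloisRep.ratLocalizedAt ℓ)) ∣ a := by
  constructor
  · intro h
    rw [resZl_apply, Rat.cast_def, div_eq_zero_iff] at h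
    rcases h with h | h
    · rw [ZMod.intCast_zmod_eq_zero_iff_dvd] at h
      obtain ⟨k, hk⟩ := h
      have hmem : (k : ℚ) / ((a : ℚ).den : ℚ) ∈ GaloisRep.ratLocalizedAt ℓ :=
        intCast_div_natCast_mem k a.2
      refine ⟨⟨_, hmem⟩, ?_⟩
      apply Subtype.ext
      show (a : ℚ) = ((ℓ : ↥(GaloisRep.ratLocalizedAt ℓ)) : ℚ) * ((k : ℚ) / ((a : ℚ).den : ℚ))
      rw [show ((ℓ : ↥(GaloisRep.ratLocalizedAt ℓ)) : ℚ) = (ℓ : ℚ) from rfl]
      have hd : (((a : ℚ).den : ℚ)) ≠ 0 := Nat.cast_ne_zero.mpr (a : ℚ).den_nz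
      have hnum : ((a : ℚ).num : ℚ) = (ℓ : ℚ) * (k : ℚ) := by
        rw [hk]
        push_cast
        ring
      rw [← mul_div_assoc, ← hnum]
      exact (Rat.num_div_den (a : ℚ)).symm
    · exact absurd h (natCast_den_ne_zero ℓ a)
  · rintro ⟨c, rfl⟩
    rw [map_mul, map_natCast, ZMod.natCast_self, zero_mul]

theorem ker_resZl :
    RingHom.ker (resZl ℓ) = Ideal.span {((ℓ : ℕ) : ↥(GaloisRep.ratLocalizedAt ℓ))} := by
  ext a
  rw [RingHom.mem_ker, resZl_eq_zero_iff, Ideal.mem_span_singleton]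

theorem resZl_surjective : Function.Surjective (resZl ℓ) := by
  intro y
  obtain ⟨n, rfl⟩ := ZMod.natCast_zmod_surjective y
  exact ⟨(n : ↥(GaloisRep.ratLocalizedAt ℓ)), map_natCast _ n⟩

theorem ell_ne_zero : ((ℓ : ℕ) : ↥(GaloisRep.ratLocalizedAt ℓ)) ≠ 0 := by
  intro h
  have h' : (((ℓ : ℕ) : ↥(GaloisRep.ratLocalizedAt ℓ)) : ℚ) = 0 := by rw [h]; rfl
  rw [show (((ℓ : ℕ) : ↥(GaloisRep.ratLocalizedAt ℓ)) : ℚ) = (ℓ : ℚ) from rfl] at h'
  exact (Fact.out : ℓ.Prime).ne_zero (by exact_mod_cast h')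

/-- `ℓ` is a prime element of `ℤ_(ℓ)`. -/
theorem prime_ell : Prime ((ℓ : ℕ) : ↥(GaloisRep.ratLocalizedAt ℓ)) := by
  rw [← Ideal.span_singleton_prime (ell_ne_zero ℓ), ← ker_resZl]
  exact RingHom.ker_isPrime (resZl ℓ)

omit [Fact ℓ.Prime] in
/-- Clearing denominators: every rational has a nonzero natural multiple in `ℤ_(ℓ)`
(in fact in `ℤ`). -/
theorem exists_nat_mul_eq (x : ℚ) :
    ∃ (n : ℕ) (a : ↥(GaloisRep.ratLocalizedAt ℓ)), n ≠ 0 ∧ (n : ℚ) * x = (a : ℚ) := by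
  refine ⟨x.den, ((x.num : ℤ) : ↥(GaloisRep.ratLocalizedAt ℓ)), x.den_nz, ?_⟩
  rw [show (((x.num : ℤ) : ↥(GaloisRep.ratLocalizedAt ℓ)) : ℚ) = (x.num : ℚ) from rfl]
  exact Rat.den_mul_eq_num x

/-- `ℤ_(ℓ)` is a principal ideal ring: every ideal is generated by a generator of its
contraction to `ℤ`. -/
instance isPrincipalIdealRing : IsPrincipalIdealRing ↥(GaloisRep.ratLocalizedAt ℓ) := by
  refine ⟨fun I => ?_⟩
  obtain ⟨n, hn⟩ := (IsPrincipalIdealRing.principal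
    (I.comap (Int.castRingHom ↥(GaloisRep.ratLocalizedAt ℓ)))).principal
  refine ⟨⟨((n : ℤ) : ↥(GaloisRep.ratLocalizedAt ℓ)), ?_⟩⟩
  have hnI : ((n : ℤ) : ↥(GaloisRep.ratLocalizedAt ℓ)) ∈ I := by
    have : n ∈ I.comap (Int.castRingHom ↥(GaloisRep.ratLocalizedAt ℓ)) := by
      rw [hn]
      exact Submodule.mem_span_singleton_self n
    exact this
  apply le_antisymm
  · intro x hx
    -- `den • x = num ∈ I ∩ ℤ`
    have hnum : (((x : ℚ).num : ℤ) : ↥(GaloisRep.ratLocalizedAt ℓ)) ∈ I := by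
      have h1 : (((x : ℚ).num : ℤ) : ↥(GaloisRep.ratLocalizedAt ℓ)) =
          (((x : ℚ).den : ℕ) : ↥(GaloisRep.ratLocalizedAt ℓ)) * x := by
        apply Subtype.ext
        show (((x : ℚ).num : ℤ) : ℚ) = (((x : ℚ).den : ℕ) : ℚ) * (x : ℚ)
        exact (Rat.den_mul_eq_num (x : ℚ)).symm
      rw [h1]
      exact I.mul_mem_left _ hx
    have hnum' : (x : ℚ).num ∈ I.comap (Int.castRingHom ↥(GaloisRep.ratLocalizedAt ℓ)) := hnum
    rw [hn] at hnum'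
    obtain ⟨k, hk⟩ := Submodule.mem_span_singleton.mp hnum'
    have hk' : (x : ℚ).num = k * n := by simpa [smul_eq_mul] using hk.symm
    have hmem : (k : ℚ) / ((x : ℚ).den : ℚ) ∈ GaloisRep.ratLocalizedAt ℓ :=
      intCast_div_natCast_mem k x.2
    refine Submodule.mem_span_singleton.mpr ⟨⟨_, hmem⟩, ?_⟩
    apply Subtype.ext
    show ((k : ℚ) / ((x : ℚ).den : ℚ)) * ((n : ℤ) : ℚ) = (x : ℚ)
    have hd : (((x : ℚ).den : ℚ)) ≠ 0 := Nat.cast_ne_zero.mpr (x : ℚ).den_nz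
    have hnumQ : ((x : ℚ).num : ℚ) = (k : ℚ) * (n : ℚ) := by
      rw [hk']
      push_cast
      ring
    rw [div_mul_eq_mul_div, ← hnumQ]
    exact Rat.num_div_den (x : ℚ)
  · rw [Submodule.span_singleton_le_iff_mem]
    exact hnI

example : UniqueFactorizationMonoid ↥(GaloisRep.ratLocalizedAt ℓ) := inferInstance

end Zl

end Fermat.Agent.S28
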