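/-
S28 / LRed (helper7): a canonical reduction map inside `ℚ((q))`.

For a prime `ℓ` let `incl : ℤ((q)) → ℚ((q))` and `redZ : ℤ((q)) → 𝔽_ℓ((q))` be the coefficientwise
maps.  The subring

  `V ℓ = {x ∈ ℚ((q)) | ∃ t f ∈ ℤ((q)), redZ t ≠ 0 ∧ x * incl t = incl f}`

carries a canonical ring homomorphism `red ℓ : V ℓ →+* 𝔽_ℓ((q))` with `red x * redZ t = redZ f`
(independent of the choice of `(t, f)` because `𝔽_ℓ((q))` is a domain), whose kernel is `ℓ • V ℓ`.
`V ℓ` contains the series with integral coefficients and the `ℓ`-integral rational constants, and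
it is saturated: `x * incl t ∈ V ℓ`, `redZ t ≠ 0` imply `x ∈ V ℓ`.
-/
import Mathlib
import Fermat.Prelude.Def_ModularCurve_LaurentCoeff

set_option autoImplicit false

open ModularCurve

namespace Fermat.Agent.S28.LRed

/-- The inclusion `ℤ((q)) → ℚ((q))`. -/
noncomputable abbrev incl : LaurentSeries ℤ →+* LaurentSeries ℚ :=
  coeffMap (Int.castRingHom ℚ)

/-- The coefficientwise reduction `ℤ((q)) → 𝔽_ℓ((q))`. -/
noncomputable abbrev redZ (ℓ : ℕ) : LaurentSeries ℤ →+* LaurentSeries (ZMod ℓ) :=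
  coeffMap (Int.castRingHom (ZMod ℓ))

theorem incl_injective : Function.Injective incl := by
  intro f g h
  ext n
  have h1 := congrArg (fun x : LaurentSeries ℚ => x.coeff n) h
  simp only [coeffMap_coeff] at h1
  exact Int.cast_injective h1

theorem coeff_natCast_mul {R : Type*} [CommRing R] (m : ℕ) (x : LaurentSeries R) (n : ℤ) :
    ((m : LaurentSeries R) * x).coeff n = (m : R) * x.coeff n := by
  rw [← HahnSeries.single_zero_natCast, HahnSeries.coeff_single_zero_mul]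

theorem natCast_eq_zero (ℓ : ℕ) : ((ℓ : ℕ) : LaurentSeries (ZMod ℓ)) = 0 := by
  rw [← HahnSeries.single_zero_natCast, ZMod.natCast_self, HahnSeries.single_eq_zero]

/-- The kernel of the coefficientwise reduction is `ℓ • ℤ((q))`. -/
theorem redZ_eq_zero_iff (ℓ : ℕ) (f : LaurentSeries ℤ) :
    redZ ℓ f = 0 ↔ ∃ g : LaurentSeries ℤ, f = (ℓ : LaurentSeries ℤ) * g := by
  constructor
  · intro h
    have hdvd : ∀ n : ℤ, (ℓ : ℤ) ∣ f.coeff n := by
      intro n
      have h1 := congrArg (fun x : LaurentSeries (ZMod ℓ) => x.coeff n) h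
      simp only [coeffMap_coeff, HahnSeries.coeff_zero] at h1
      exact (ZMod.intCast_zmod_eq_zero_iff_dvd _ _).mp h1
    refine ⟨f.map (⟨fun n : ℤ => n / (ℓ : ℤ), Int.zero_ediv _⟩ : ZeroHom ℤ ℤ), ?_⟩
    ext n
    rw [coeff_natCast_mul, HahnSeries.map_coeff]
    exact (Int.mul_ediv_cancel' (hdvd n)).symm
  · rintro ⟨g, rfl⟩
    rw [map_mul, map_natCast, natCast_eq_zero, zero_mul]

variable (ℓ : ℕ) [Fact ℓ.Prime]

/-- The subring of `ℚ((q))` on which reduction modulo `ℓ` is defined. -/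
def V : Subring (LaurentSeries ℚ) where
  carrier := {x | ∃ t f : LaurentSeries ℤ, redZ ℓ t ≠ 0 ∧ x * incl t = incl f}
  mul_mem' := by
    rintro x y ⟨t, f, ht, hx⟩ ⟨s, g, hs, hy⟩
    refine ⟨t * s, f * g, ?_, ?_⟩
    · rw [map_mul]; exact mul_ne_zero ht hs
    · rw [map_mul, map_mul, ← hx, ← hy]; ring
  one_mem' := ⟨1, 1, by rw [map_one]; exact one_ne_zero, by rw [map_one, one_mul]⟩
  add_mem' := by
    rintro x y ⟨t, f, ht, hx⟩ ⟨s, g, hs, hy⟩
    refine ⟨t * s, f * s + g * t, ?_, ?_⟩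
    · rw [map_mul]; exact mul_ne_zero ht hs
    · rw [map_mul, map_add, map_mul, map_mul, ← hx, ← hy]; ring
  zero_mem' := ⟨1, 0, by rw [map_one]; exact one_ne_zero, by rw [map_zero, zero_mul]⟩
  neg_mem' := by
    rintro x ⟨t, f, ht, hx⟩
    exact ⟨t, -f, ht, by rw [map_neg, ← hx]; ring⟩

theorem mem_V_iff {x : LaurentSeries ℚ} :
    x ∈ V ℓ ↔ ∃ t f : LaurentSeries ℤ, redZ ℓ t ≠ 0 ∧ x * incl t = incl f := Iff.rfl

/-- A denominator of an element of `V ℓ`. -/
noncomputable def den (x : V ℓ) : LaurentSeries ℤ := x.2.choose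

/-- The numerator of an element of `V ℓ` belonging to `den`. -/
noncomputable def num (x : V ℓ) : LaurentSeries ℤ := x.2.choose_spec.choose

theorem redZ_den_ne_zero (x : V ℓ) : redZ ℓ (den ℓ x) ≠ 0 := x.2.choose_spec.choose_spec.1

theorem mul_incl_den (x : V ℓ) : (x : LaurentSeries ℚ) * incl (den ℓ x) = incl (num ℓ x) :=
  x.2.choose_spec.choose_spec.2

/-- Reduction modulo `ℓ`, as a function. -/
noncomputable def redFun (x : V ℓ) : LaurentSeries (ZMod ℓ) :=
  redZ ℓ (num ℓ x) / redZ ℓ (den ℓ x)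

/-- The defining property of the reduction, for ANY fraction representation. -/
theorem redFun_mul (x : V ℓ) {t f : LaurentSeries ℤ} (h : (x : LaurentSeries ℚ) * incl t = incl f) :
    redFun ℓ x * redZ ℓ t = redZ ℓ f := by
  have h0 := redZ_den_ne_zero ℓ x
  have h1 := mul_incl_den ℓ x
  have h2 : num ℓ x * t = f * den ℓ x := by
    apply incl_injective
    rw [map_mul, map_mul, ← h1, ← h]
    ring
  have h3 : redZ ℓ (num ℓ x) * redZ ℓ t = redZ ℓ f * redZ ℓ (den ℓ x) := by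
    rw [← map_mul, ← map_mul, h2]
  rw [redFun, div_mul_eq_mul_div, h3, mul_div_assoc, div_self h0, mul_one]

theorem redFun_eq_of (x : V ℓ) {t f : LaurentSeries ℤ} (ht : redZ ℓ t ≠ 0)
    (h : (x : LaurentSeries ℚ) * incl t = incl f) {r : LaurentSeries (ZMod ℓ)}
    (hr : r * redZ ℓ t = redZ ℓ f) : redFun ℓ x = r :=
  mul_right_cancel₀ ht ((redFun_mul ℓ x h).trans hr.symm)

/-- **Reduction modulo `ℓ`** on `V ℓ`. -/
noncomputable def red : V ℓ →+* LaurentSeries (ZMod ℓ) where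
  toFun := redFun ℓ
  map_one' := by
    refine redFun_eq_of ℓ 1 (t := 1) (f := 1) (by rw [map_one]; exact one_ne_zero) ?_ ?_
    · rw [map_one, mul_one]; rfl
    · rw [map_one, mul_one]
  map_mul' x y := by
    have hx := mul_incl_den ℓ x
    have hy := mul_incl_den ℓ y
    refine redFun_eq_of ℓ (x * y) (t := den ℓ x * den ℓ y) (f := num ℓ x * num ℓ y) ?_ ?_ ?_
    · rw [map_mul]; exact mul_ne_zero (redZ_den_ne_zero ℓ x) (redZ_den_ne_zero ℓ y)
    · rw [map_mul, map_mul, ← hx, ← hy, Subring.coe_mul]; ring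
    · rw [map_mul, map_mul, ← redFun_mul ℓ x hx, ← redFun_mul ℓ y hy]; ring
  map_zero' := by
    refine redFun_eq_of ℓ 0 (t := 1) (f := 0) (by rw [map_one]; exact one_ne_zero) ?_ ?_
    · rw [map_zero, Subring.coe_zero, zero_mul]
    · rw [map_zero, zero_mul]
  map_add' x y := by
    have hx := mul_incl_den ℓ x
    have hy := mul_incl_den ℓ y
    refine redFun_eq_of ℓ (x + y) (t := den ℓ x * den ℓ y)
      (f := num ℓ x * den ℓ y + num ℓ y * den ℓ x) ?_ ?_ ?_
    · rw [map_mul]; exact mul_ne_zero (redZ_den_ne_zero ℓ x) (redZ_den_ne_zero ℓ y)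
    · rw [map_mul, map_add, map_mul, map_mul, ← hx, ← hy, Subring.coe_add]; ring
    · rw [map_mul, map_add, map_mul, map_mul, ← redFun_mul ℓ x hx, ← redFun_mul ℓ y hy]; ring

/-- The defining property of `red`, for ANY fraction representation. -/
theorem red_mul (x : V ℓ) {t f : LaurentSeries ℤ} (h : (x : LaurentSeries ℚ) * incl t = incl f) :
    red ℓ x * redZ ℓ t = redZ ℓ f :=
  redFun_mul ℓ x h

theorem incl_mem (f : LaurentSeries ℤ) : incl f ∈ V ℓ :=
  ⟨1, f, by rw [map_one]; exact one_ne_zero, by rw [map_one, mul_one]⟩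

/-- On series with integral coefficients `red` is the coefficientwise reduction. -/
theorem red_incl (f : LaurentSeries ℤ) : red ℓ ⟨incl f, incl_mem ℓ f⟩ = redZ ℓ f := by
  have h := red_mul ℓ ⟨incl f, incl_mem ℓ f⟩ (t := 1) (f := f) (by rw [map_one, mul_one])
  rwa [map_one, mul_one] at h

/-- `V ℓ` is saturated with respect to the integral series that are nonzero modulo `ℓ`. -/
theorem mem_of_mul_incl_mem {x : LaurentSeries ℚ} {t : LaurentSeries ℤ} (ht : redZ ℓ t ≠ 0)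
    (h : x * incl t ∈ V ℓ) : x ∈ V ℓ := by
  obtain ⟨s, f, hs, hf⟩ := h
  refine ⟨t * s, f, ?_, ?_⟩
  · rw [map_mul]; exact mul_ne_zero ht hs
  · rw [map_mul, ← hf]; ring

theorem natCast_ne_zero : ((ℓ : ℕ) : LaurentSeries ℚ) ≠ 0 := by
  rw [← HahnSeries.single_zero_natCast]
  exact HahnSeries.single_ne_zero (Nat.cast_ne_zero.mpr (Fact.out : ℓ.Prime).ne_zero)

/-- **The kernel of `red` is `ℓ • V ℓ`.** -/
theorem red_eq_zero_iff (x : V ℓ) : red ℓ x = 0 ↔ ∃ y : V ℓ, x = (ℓ : V ℓ) * y := by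
  constructor
  · intro h
    have h1 := red_mul ℓ x (mul_incl_den ℓ x)
    rw [h, zero_mul] at h1
    obtain ⟨g, hg⟩ := (redZ_eq_zero_iff ℓ _).mp h1.symm
    have hℓ := natCast_ne_zero ℓ
    have hy : (x : LaurentSeries ℚ) / (ℓ : LaurentSeries ℚ) ∈ V ℓ := by
      refine ⟨den ℓ x, g, redZ_den_ne_zero ℓ x, ?_⟩
      have h2 := mul_incl_den ℓ x
      rw [hg, map_mul, map_natCast] at h2
      rw [div_mul_eq_mul_div, h2, mul_div_assoc, mul_comm, div_mul_cancel₀ _ hℓ]
    refine ⟨⟨_, hy⟩, Subtype.ext ?_⟩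
    rw [Subring.coe_mul, Subring.coe_natCast, mul_div_cancel₀ _ hℓ]
  · rintro ⟨y, rfl⟩
    rw [map_mul, map_natCast, natCast_eq_zero, zero_mul]

/-- Membership form of the kernel statement. -/
theorem div_mem_of_red_eq_zero (x : V ℓ) (h : red ℓ x = 0) :
    (x : LaurentSeries ℚ) / (ℓ : LaurentSeries ℚ) ∈ V ℓ := by
  obtain ⟨y, rfl⟩ := (red_eq_zero_iff ℓ x).mp h
  rw [Subring.coe_mul, Subring.coe_natCast, mul_div_assoc, mul_comm, div_mul_cancel₀ _
    (natCast_ne_zero ℓ)]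
  exact y.2

/-- `red` of a product with an integral series. -/
theorem red_mul_incl (x : V ℓ) (t : LaurentSeries ℤ) :
    red ℓ (x * ⟨incl t, incl_mem ℓ t⟩) = red ℓ x * redZ ℓ t := by
  rw [map_mul, red_incl]

end Fermat.Agent.S28.LRed
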