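/-
S28, block (B3) TENSOR.

Let `ℤℓ = GaloisRep.ratLocalizedAt ℓ`, `R` a commutative `ℤℓ`-algebra and
`ρ : R →+* LaurentSeries (ZMod ℓ)` a ring homomorphism whose kernel is contained in `ℓ R`.
Then for every field `K` of characteristic `ℓ` that is a `ℤℓ`-algebra, `K ⊗[ℤℓ] R` is a domain:
`k ⊗ r ↦ k • (ρ r with coefficients mapped to K)` is an injective ring homomorphism into
`LaurentSeries K`.
Owner: helper12.
-/
import Mathlib
import Fermat.Prelude.Def_GaloisRep_Flat

set_option autoImplicit false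

open scoped TensorProduct

namespace Fermat.Agent.S28

namespace Tensor

section MapRingHom

variable {R S : Type*} [Semiring R] [Semiring S]

/-- Coefficientwise map of Laurent series, as a ring homomorphism. -/
noncomputable def mapRingHom (f : R →+* S) : HahnSeries ℤ R →+* HahnSeries ℤ S where
  toFun x := x.map f
  map_one' := by
    ext n
    simp only [HahnSeries.map_coeff, HahnSeries.coeff_one]
    split_ifs <;> simp
  map_mul' x y := HahnSeries.map_mul f.toNonUnitalRingHom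
  map_zero' := by
    ext n
    simp
  map_add' x y := by
    ext n
    simp

@[simp]
theorem mapRingHom_coeff (f : R →+* S) (x : HahnSeries ℤ R) (n : ℤ) :
    (mapRingHom f x).coeff n = f (x.coeff n) := rfl

end MapRingHom

section Subsingleton

variable {ℓ : ℕ}

/-- Ring homomorphisms out of `ℤ_(ℓ)` are unique. -/
theorem ringHom_ext_ratLocalizedAt {S : Type*} [Ring S]
    (f g : ↥(GaloisRep.ratLocalizedAt ℓ) →+* S) : f = g := by
  ext x
  have hd0 : x.1.den ≠ 0 := x.1.den_nz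
  let D : ↥(GaloisRep.ratLocalizedAt ℓ) := (x.1.den : ↥(GaloisRep.ratLocalizedAt ℓ))
  have hDinv_mem : ((x.1.den : ℚ)⁻¹) ∈ GaloisRep.ratLocalizedAt ℓ := by
    show ((x.1.den : ℚ)⁻¹).den.Coprime ℓ
    rw [Rat.inv_natCast_den, if_neg hd0]
    exact x.2
  let Dinv : ↥(GaloisRep.ratLocalizedAt ℓ) := ⟨(x.1.den : ℚ)⁻¹, hDinv_mem⟩
  have hDD : D * Dinv = 1 := by
    apply Subtype.ext
    show ((x.1.den : ↥(GaloisRep.ratLocalizedAt ℓ)) : ℚ) * (x.1.den : ℚ)⁻¹ = 1
    rw [show ((x.1.den : ↥(GaloisRep.ratLocalizedAt ℓ)) : ℚ) = (x.1.den : ℚ) from rfl]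
    exact mul_inv_cancel₀ (Nat.cast_ne_zero.mpr hd0)
  have hDD' : Dinv * D = 1 := by rw [mul_comm, hDD]
  have hxD : x * D = (x.1.num : ↥(GaloisRep.ratLocalizedAt ℓ)) := by
    apply Subtype.ext
    show x.1 * ((x.1.den : ↥(GaloisRep.ratLocalizedAt ℓ)) : ℚ) =
      ((x.1.num : ↥(GaloisRep.ratLocalizedAt ℓ)) : ℚ)
    rw [show ((x.1.den : ↥(GaloisRep.ratLocalizedAt ℓ)) : ℚ) = (x.1.den : ℚ) from rfl,
      show ((x.1.num : ↥(GaloisRep.ratLocalizedAt ℓ)) : ℚ) = (x.1.num : ℚ) from rfl]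
    exact Rat.mul_den_eq_num x.1
  have hfD : f D = g D := by
    show f (x.1.den : ↥(GaloisRep.ratLocalizedAt ℓ)) = g (x.1.den : ↥(GaloisRep.ratLocalizedAt ℓ))
    rw [map_natCast, map_natCast]
  have hinv : f Dinv = g Dinv := by
    calc f Dinv = f Dinv * (g D * g Dinv) := by rw [← map_mul, hDD, map_one, mul_one]
      _ = (f Dinv * f D) * g Dinv := by rw [hfD, mul_assoc]
      _ = g Dinv := by rw [← map_mul, hDD', map_one, one_mul]
  calc f x = f x * (f D * f Dinv) := by rw [← map_mul, hDD, map_one, mul_one]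
    _ = f (x * D) * f Dinv := by rw [map_mul, mul_assoc]
    _ = g (x * D) * g Dinv := by rw [hxD, map_intCast, map_intCast, hinv]
    _ = g x * (g D * g Dinv) := by rw [map_mul, mul_assoc]
    _ = g x := by rw [← map_mul, hDD, map_one, mul_one]

end Subsingleton

section Main

variable {ℓ : ℕ} [Fact ℓ.Prime]
variable {R : Type*} [CommRing R] [Algebra ↥(GaloisRep.ratLocalizedAt ℓ) R]
variable (K : Type*) [Field K] [CharP K ℓ] [Algebra ↥(GaloisRep.ratLocalizedAt ℓ) K]

/-- The canonical map `ZMod ℓ → K` for a field `K` of characteristic `ℓ`. -/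
noncomputable def castK : ZMod ℓ →+* K := ZMod.castHom (dvd_refl ℓ) K

/-- `r ↦ ρ r` with coefficients mapped to `K`, as a `ℤ_(ℓ)`-algebra homomorphism. -/
noncomputable def coeffHom (ρ : R →+* HahnSeries ℤ (ZMod ℓ)) :
    R →ₐ[↥(GaloisRep.ratLocalizedAt ℓ)] HahnSeries ℤ K :=
  { (mapRingHom (castK (ℓ := ℓ) K)).comp ρ with
    commutes' := fun a =>
      RingHom.congr_fun (ringHom_ext_ratLocalizedAt
        (((mapRingHom (castK (ℓ := ℓ) K)).comp ρ).comp
          (algebraMap ↥(GaloisRep.ratLocalizedAt ℓ) R))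
        (algebraMap ↥(GaloisRep.ratLocalizedAt ℓ) (HahnSeries ℤ K))) a }

/-- Constants, as a `ℤ_(ℓ)`-algebra homomorphism. -/
noncomputable def constHom : K →ₐ[↥(GaloisRep.ratLocalizedAt ℓ)] HahnSeries ℤ K :=
  { (HahnSeries.C : K →+* HahnSeries ℤ K) with
    commutes' := fun a =>
      RingHom.congr_fun (ringHom_ext_ratLocalizedAt
        ((HahnSeries.C : K →+* HahnSeries ℤ K).comp (algebraMap ↥(GaloisRep.ratLocalizedAt ℓ) K))
        (algebraMap ↥(GaloisRep.ratLocalizedAt ℓ) (HahnSeries ℤ K))) a }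

/-- `k ⊗ r ↦ k • (ρ r with coefficients in K)`. -/
noncomputable def toLaurent (ρ : R →+* HahnSeries ℤ (ZMod ℓ)) :
    K ⊗[↥(GaloisRep.ratLocalizedAt ℓ)] R →ₐ[↥(GaloisRep.ratLocalizedAt ℓ)] HahnSeries ℤ K :=
  Algebra.TensorProduct.productMap (constHom K) (coeffHom K ρ)

theorem toLaurent_tmul_coeff (ρ : R →+* HahnSeries ℤ (ZMod ℓ)) (k : K) (r : R) (n : ℤ) :
    (toLaurent K ρ (k ⊗ₜ r)).coeff n = k * castK (ℓ := ℓ) K ((ρ r).coeff n) := by
  have h : toLaurent K ρ (k ⊗ₜ r) = HahnSeries.C k * mapRingHom (castK (ℓ := ℓ) K) (ρ r) := by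
    simp [toLaurent, constHom, coeffHom]
  rw [h, HahnSeries.C_mul_eq_smul, HahnSeries.coeff_smul, mapRingHom_coeff, smul_eq_mul]

/-- Every element of `K ⊗[ℤ_(ℓ)] R` is of the form `∑ b i ⊗ f i` for a `ZMod ℓ`-basis `b`
of `K`. -/
theorem exists_finsupp_repr {ι : Type*} (b : letI := ZMod.algebra K ℓ; Module.Basis ι (ZMod ℓ) K)
    (z : K ⊗[↥(GaloisRep.ratLocalizedAt ℓ)] R) :
    ∃ f : ι →₀ R, z = f.sum (fun i r => (b i) ⊗ₜ[↥(GaloisRep.ratLocalizedAt ℓ)] r) := by
  let _ := ZMod.algebra K ℓ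
  have : NeZero ℓ := ⟨(Fact.out : ℓ.Prime).ne_zero⟩
  induction z using TensorProduct.induction_on with
  | zero => exact ⟨0, by simp⟩
  | tmul k r =>
    refine ⟨Finsupp.mapRange (fun c : ZMod ℓ => (c.val : R) * r) (by simp) (b.repr k), ?_⟩
    rw [Finsupp.sum_mapRange_index (by intro i; exact TensorProduct.tmul_zero _ _)]
    have h1 : ∀ (i : ι) (c : ZMod ℓ),
        (b i) ⊗ₜ[↥(GaloisRep.ratLocalizedAt ℓ)] ((c.val : R) * r) =
          (c • b i) ⊗ₜ[↥(GaloisRep.ratLocalizedAt ℓ)] r := by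
      intro i c
      have h2 : c • b i = (c.val : ℕ) • b i := by
        rw [nsmul_eq_mul, ZMod.natCast_val]
        rfl
      rw [h2, TensorProduct.smul_tmul, nsmul_eq_mul]
    have h3 : k = (b.repr k).sum (fun i c => c • b i) := by
      conv_lhs => rw [← b.linearCombination_repr k]
      rfl
    conv_lhs => rw [h3]
    simp only [Finsupp.sum, TensorProduct.sum_tmul, h1]
  | add x y hx hy =>
    obtain ⟨f, rfl⟩ := hx
    obtain ⟨g, rfl⟩ := hy
    refine ⟨f + g, ?_⟩
    rw [Finsupp.sum_add_index']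
    · intro i
      exact TensorProduct.tmul_zero _ _
    · intro i r₁ r₂
      exact TensorProduct.tmul_add _ _ _

theorem toLaurent_injective (ρ : R →+* HahnSeries ℤ (ZMod ℓ))
    (hρ : ∀ x : R, ρ x = 0 → ∃ y : R, x = (ℓ : R) * y) :
    Function.Injective (toLaurent K ρ) := by
  classical
  let _ := ZMod.algebra K ℓ
  let b := Module.Basis.ofVectorSpace (ZMod ℓ) K
  rw [injective_iff_map_eq_zero]
  intro z hz
  obtain ⟨f, rfl⟩ := exists_finsupp_repr K b z
  -- every coefficient `f i` is killed by `ρ`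
  have hcoef : ∀ i ∈ f.support, ρ (f i) = 0 := by
    intro i hi
    ext n
    have h1 := congrArg (fun x : HahnSeries ℤ K => x.coeff n) hz
    simp only [Finsupp.sum, map_sum, HahnSeries.coeff_zero] at h1
    have h2 : ∑ j ∈ f.support, ((ρ (f j)).coeff n) • (b j : K) = 0 := by
      rw [← h1]
      have h3 : ∀ s : Finset _, (∑ j ∈ s, toLaurent K ρ ((b j : K) ⊗ₜ f j)).coeff n =
          ∑ j ∈ s, (toLaurent K ρ ((b j : K) ⊗ₜ f j)).coeff n := by
        intro s
        induction s using Finset.induction_on with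
        | empty => simp
        | insert a s ha ih => rw [Finset.sum_insert ha, Finset.sum_insert ha,
            HahnSeries.coeff_add, ih]
      rw [h3]
      refine Finset.sum_congr rfl fun j _ => ?_
      rw [toLaurent_tmul_coeff, mul_comm]
      rfl
    have h4 := linearIndependent_iff'.mp b.linearIndependent f.support
      (fun j => (ρ (f j)).coeff n) h2 i hi
    simpa using h4
  rw [Finsupp.sum]
  refine Finset.sum_eq_zero fun i hi => ?_
  obtain ⟨y, hy⟩ := hρ (f i) (hcoef i hi)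
  rw [hy, ← nsmul_eq_mul, ← TensorProduct.smul_tmul, nsmul_eq_mul, CharP.cast_eq_zero K ℓ,
    zero_mul, TensorProduct.zero_tmul]

/-- **Block (B3).**  If `ρ : R →+* (ZMod ℓ)⸨q⸩` has kernel contained in `ℓ R`, then `K ⊗[ℤ_(ℓ)] R`
is a domain for every field `K` of characteristic `ℓ`. -/
theorem isDomain_tensor_of_ker_le (ρ : R →+* HahnSeries ℤ (ZMod ℓ))
    (hρ : ∀ x : R, ρ x = 0 → ∃ y : R, x = (ℓ : R) * y) :
    IsDomain (K ⊗[↥(GaloisRep.ratLocalizedAt ℓ)] R) :=
  (toLaurent_injective K ρ hρ).isDomain (toLaurent K ρ)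

theorem nontrivial_tensor_of_ker_le (ρ : R →+* HahnSeries ℤ (ZMod ℓ))
    (hρ : ∀ x : R, ρ x = 0 → ∃ y : R, x = (ℓ : R) * y) :
    Nontrivial (K ⊗[↥(GaloisRep.ratLocalizedAt ℓ)] R) :=
  haveI := isDomain_tensor_of_ker_le K ρ hρ
  inferInstance

end Main

end Tensor

end Fermat.Agent.S28
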