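import Mathlib
import Fermat.Prelude.Def_ModularCurve_IgusaScheme
import Fermat.Prelude.Def_ModularCurve_JqCoeff
import Fermat.Prelude.Thm_ModularCurve_coeff_jqModC_neg_one
import Fermat.Prelude.Thm_ModularCurve_coeff_jqModC_pow_of_lt
import Fermat.Agent.S28.ChartDefs
import Fermat.Agent.S28.Newton
import Fermat.Agent.S28.LRed
import Fermat.Agent.S28.Tensor
import Fermat.Agent.S28.Zl

/-!
# S28: from the norm relation over `ℚ` to the chart hypotheses at `ℓ`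

Input (the export of the analytic part): `u ∈ ℤ((q))` of order `≥ φ (ψ - 1)` and a monic
`P ∈ ℚ[T][X]` of degree `ψ` with `P(jq, u) = 0`, `deg (coeff P i) ≤ (ψ - i) φ`, constant term a
nonzero constant, all coefficients `ℓ`-integral and the constant term an `ℓ`-unit.

Output: `Pℓ ∈ ℤ_(ℓ)[T][X]` and `Chart.ChartHyp ℓ res ιA ιk jq u j̄ ū Pℓ` for ARBITRARY ring
homomorphisms `res : ℤ_(ℓ) → 𝔽_ℓ`, `ιA : ℤ_(ℓ) → ℚ((q))`, `ιk : 𝔽_ℓ → 𝔽_ℓ((q))` (they are unique).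
-/

set_option autoImplicit false

open Polynomial ModularCurve

namespace Fermat.Agent.S28

namespace Adapter

open Fermat.Agent.S28.Chart Fermat.Agent.S28.LRed

/-- `jq` is the image of the integral series `jqModC ℤ`. -/
theorem incl_jqModC : incl (jqModC ℤ) = jq := by
  show (jqModC ℤ).map (Int.castRingHom ℚ) = jq
  rw [map_jqModC]
  rfl

theorem redZ_jqModC (ℓ : ℕ) : redZ ℓ (jqModC ℤ) = jqModC (ZMod ℓ) := by
  show (jqModC ℤ).map (Int.castRingHom (ZMod ℓ)) = jqModC (ZMod ℓ)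
  rw [map_jqModC]

theorem order_eq_neg_one {R : Type*} [CommRing R] {x : LaurentSeries R} (h1 : x.coeff (-1) = 1)
    (h0 : ∀ n : ℤ, n < -1 → x.coeff n = 0) [Nontrivial R] : x ≠ 0 ∧ x.order = -1 := by
  have hx : x ≠ 0 := by
    rintro rfl
    simp at h1
  refine ⟨hx, le_antisymm (HahnSeries.order_le_of_coeff_ne_zero (by rw [h1]; exact one_ne_zero)) ?_⟩
  by_contra hlt
  exact hx (HahnSeries.coeff_order_eq_zero.mp (h0 _ (not_le.mp hlt)))

theorem jqModC_order (K : Type*) [CommRing K] [Nontrivial K] :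
    jqModC K ≠ 0 ∧ (jqModC K).order = -1 := by
  refine order_eq_neg_one (coeff_jqModC_neg_one K) fun n hn => ?_
  have h := coeff_jqModC_pow_of_lt K (b := 1) (m := n) (by simpa using hn)
  simpa using h

theorem jq_order : jq ≠ 0 ∧ jq.order = -1 := jqModC_order ℚ

variable (ℓ : ℕ) [Fact ℓ.Prime]

set_option quotPrecheck false in
local notation "Zl" => ↥(GaloisRep.ratLocalizedAt ℓ)

/-- `ℓ`-integral rational constants lie in `V ℓ`. -/
theorem const_mem_V (a : Zl) : (algebraMap ℚ (LaurentSeries ℚ) (a : ℚ)) ∈ V ℓ := by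
  rw [algebraMap_laurentSeries_eq_single]
  refine ⟨HahnSeries.single 0 ((a : ℚ).den : ℤ), HahnSeries.single 0 (a : ℚ).num, ?_, ?_⟩
  · rw [coeffMap_single]
    intro h
    have h1 := HahnSeries.single_eq_zero_iff.mp h
    have h2 : ((a : ℚ).den : ZMod ℓ) = 0 := by simpa using h1
    rw [ZMod.natCast_eq_zero_iff] at h2
    have hx : (a : ℚ).den.Coprime ℓ := a.2
    have h3 : ℓ ∣ Nat.gcd (a : ℚ).den ℓ := Nat.dvd_gcd h2 dvd_rfl
    rw [hx] at h3
    exact (Fact.out : ℓ.Prime).one_lt.ne' (Nat.dvd_one.mp h3)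
  · rw [coeffMap_single, coeffMap_single, HahnSeries.single_mul_single, add_zero]
    congr 1
    have h := Rat.mul_den_eq_num (a : ℚ)
    simp

/-- The constants `ℤ_(ℓ) → V ℓ`. -/
noncomputable def constV : Zl →+* V ℓ :=
  ((algebraMap ℚ (LaurentSeries ℚ)).comp (GaloisRep.ratLocalizedAt ℓ).subtype).codRestrict (V ℓ)
    (fun a => const_mem_V ℓ a)

theorem jq_mem_V : jq ∈ V ℓ := by
  rw [← incl_jqModC]
  exact incl_mem ℓ _

/-- Evaluation of two-variable polynomials at `(jq, incl u)`, landing in `V ℓ`. -/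
noncomputable def evV (u : LaurentSeries ℤ) : Zl[X][X] →+* V ℓ :=
  ev2 (constV ℓ) ⟨jq, jq_mem_V ℓ⟩ ⟨incl u, incl_mem ℓ u⟩

theorem subtype_comp_evV (u : LaurentSeries ℤ) (ιA : Zl →+* LaurentSeries ℚ) :
    (V ℓ).subtype.comp (evV ℓ u) = ev2 ιA jq (incl u) := by
  refine Polynomial.ringHom_ext (fun g => ?_) ?_
  · have h : ((V ℓ).subtype.comp (evV ℓ u)).comp Polynomial.C = (ev2 ιA jq (incl u)).comp Polynomial.C := by
      refine Polynomial.ringHom_ext (fun a => ?_) ?_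
      · have h1 : (((V ℓ).subtype.comp (evV ℓ u)).comp Polynomial.C).comp Polynomial.C =
            ((ev2 ιA jq (incl u)).comp Polynomial.C).comp Polynomial.C :=
          Tensor.ringHom_ext_ratLocalizedAt _ _
        exact congrArg (fun f : Zl →+* LaurentSeries ℚ => f a) h1
      · simp [evV]
    exact congrArg (fun f : Zl[X] →+* LaurentSeries ℚ => f g) h
  · simp [evV]

theorem red_comp_evV (u : LaurentSeries ℤ) (res : Zl →+* ZMod ℓ)
    (ιk : ZMod ℓ →+* LaurentSeries (ZMod ℓ)) :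
    (red ℓ).comp (evV ℓ u) =
      (ev2 ιk (jqModC (ZMod ℓ)) (redZ ℓ u)).comp
        (Polynomial.mapRingHom (Polynomial.mapRingHom res)) := by
  refine Polynomial.ringHom_ext (fun g => ?_) ?_
  · have h : ((red ℓ).comp (evV ℓ u)).comp Polynomial.C =
        ((ev2 ιk (jqModC (ZMod ℓ)) (redZ ℓ u)).comp
          (Polynomial.mapRingHom (Polynomial.mapRingHom res))).comp Polynomial.C := by
      refine Polynomial.ringHom_ext (fun a => ?_) ?_
      · have h1 : (((red ℓ).comp (evV ℓ u)).comp Polynomial.C).comp Polynomial.C =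
            (((ev2 ιk (jqModC (ZMod ℓ)) (redZ ℓ u)).comp
              (Polynomial.mapRingHom (Polynomial.mapRingHom res))).comp Polynomial.C).comp
                Polynomial.C :=
          Tensor.ringHom_ext_ratLocalizedAt _ _
        exact congrArg (fun f : Zl →+* LaurentSeries (ZMod ℓ) => f a) h1
      · simp only [RingHom.comp_apply, evV, ev2_C, ev1_X, Polynomial.coe_mapRingHom,
          Polynomial.map_C, Polynomial.map_X]
        rw [← redZ_jqModC]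
        have h2 : (⟨jq, jq_mem_V ℓ⟩ : V ℓ) = ⟨incl (jqModC ℤ), incl_mem ℓ _⟩ :=
          Subtype.ext incl_jqModC.symm
        rw [h2, red_incl]
    exact congrArg (fun f : Zl[X] →+* LaurentSeries (ZMod ℓ) => f g) h
  · simp only [RingHom.comp_apply, evV, ev2_X, Polynomial.coe_mapRingHom, Polynomial.map_X]
    exact red_incl ℓ u

/-- **(N1)** Integral relations between `jq` and `incl u` reduce modulo `ℓ`. -/
theorem hred (u : LaurentSeries ℤ) (res : Zl →+* ZMod ℓ) (ιA : Zl →+* LaurentSeries ℚ)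
    (ιk : ZMod ℓ →+* LaurentSeries (ZMod ℓ)) (G : Zl[X][X])
    (hG : ev2 ιA jq (incl u) G = 0) :
    ev2 ιk (jqModC (ZMod ℓ)) (redZ ℓ u) (G.map (Polynomial.mapRingHom res)) = 0 := by
  have h1 : ((V ℓ).subtype.comp (evV ℓ u)) G = 0 := by
    rw [subtype_comp_evV ℓ u ιA]; exact hG
  have h2 : evV ℓ u G = 0 := Subtype.ext h1
  have h3 := congrArg (fun f : Zl[X][X] →+* LaurentSeries (ZMod ℓ) => f G) (red_comp_evV ℓ u res ιk)
  simp only [RingHom.comp_apply, h2, map_zero] at h3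
  exact h3.symm

omit [Fact ℓ.Prime] in
/-- All ring homomorphisms `ℤ_(ℓ) → ℚ((q))` are the constants. -/
theorem ιA_eq (ιA : Zl →+* LaurentSeries ℚ) :
    ιA = (algebraMap ℚ (LaurentSeries ℚ)).comp (GaloisRep.ratLocalizedAt ℓ).subtype :=
  Tensor.ringHom_ext_ratLocalizedAt _ _

omit [Fact ℓ.Prime] in
theorem ev1_ιA (ιA : Zl →+* LaurentSeries ℚ) (x : LaurentSeries ℚ) (g : Zl[X]) :
    ev1 ιA x g = Polynomial.aeval x (g.map (GaloisRep.ratLocalizedAt ℓ).subtype) := by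
  rw [ev1_apply, Polynomial.aeval_def, Polynomial.eval₂_map, ιA_eq ℓ ιA]

theorem ev1_ιk (ιk : ZMod ℓ →+* LaurentSeries (ZMod ℓ)) (x : LaurentSeries (ZMod ℓ))
    (g : (ZMod ℓ)[X]) : ev1 ιk x g = Polynomial.aeval x g := by
  rw [ev1_apply, Polynomial.aeval_def,
    RingHom.ext_zmod ιk (algebraMap (ZMod ℓ) (LaurentSeries (ZMod ℓ)))]

theorem ev2_ιk (ιk : ZMod ℓ →+* LaurentSeries (ZMod ℓ)) (x y : LaurentSeries (ZMod ℓ))
    (G : (ZMod ℓ)[X][X]) :
    ev2 ιk x y G = G.eval₂ ((Polynomial.aeval x : (ZMod ℓ)[X] →ₐ[ZMod ℓ] LaurentSeries (ZMod ℓ)) :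
      (ZMod ℓ)[X] →+* LaurentSeries (ZMod ℓ)) y := by
  rw [ev2_apply]
  congr 1
  exact RingHom.ext fun g => ev1_ιk ℓ ιk x g

omit [Fact ℓ.Prime] in
theorem ev2_ιA (ιA : Zl →+* LaurentSeries ℚ) (x y : LaurentSeries ℚ) (G : Zl[X][X]) :
    ev2 ιA x y G = (G.map (Polynomial.mapRingHom (GaloisRep.ratLocalizedAt ℓ).subtype)).eval₂
      ((Polynomial.aeval x : ℚ[X] →ₐ[ℚ] LaurentSeries ℚ) : ℚ[X] →+* LaurentSeries ℚ) y := by
  rw [ev2_apply, Polynomial.eval₂_map]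
  congr 1
  exact RingHom.ext fun g => ev1_ιA ℓ ιA x g

omit [Fact ℓ.Prime] in
/-- `jq` is transcendental over `ℤ_(ℓ)`. -/
theorem transc (ιA : Zl →+* LaurentSeries ℚ) (g : Zl[X]) (hg : ev1 ιA jq g = 0) : g = 0 := by
  rw [ev1_ιA] at hg
  have h1 := Newton.aeval_injective_of_order jq_order.1 jq_order.2
  have h2 : g.map (GaloisRep.ratLocalizedAt ℓ).subtype = 0 := h1 (by rw [hg, map_zero])
  exact (Polynomial.map_eq_zero_iff (Subring.subtype_injective _)).mp h2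

/-- `j̄` is transcendental over `𝔽_ℓ`. -/
theorem transcb (ιk : ZMod ℓ →+* LaurentSeries (ZMod ℓ)) (g : (ZMod ℓ)[X])
    (hg : ev1 ιk (jqModC (ZMod ℓ)) g = 0) : g = 0 := by
  rw [ev1_ιk] at hg
  have h1 := Newton.aeval_injective_of_order (jqModC_order (ZMod ℓ)).1 (jqModC_order (ZMod ℓ)).2
  exact h1 (by rw [hg, map_zero])

omit [Fact ℓ.Prime] in
/-- A polynomial over `ℚ[T]` with `ℓ`-integral coefficients comes from `ℤ_(ℓ)[T][X]`. -/
theorem exists_lift (P : ℚ[X][X]) (hP : P.Monic)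
    (hint : ∀ i k : ℕ, (P.coeff i).coeff k ∈ GaloisRep.ratLocalizedAt ℓ) :
    ∃ Pℓ : Zl[X][X], Pℓ.map (Polynomial.mapRingHom (GaloisRep.ratLocalizedAt ℓ).subtype) = P ∧
      Pℓ.natDegree = P.natDegree ∧ Pℓ.Monic := by
  have hlifts : P ∈ Polynomial.lifts (Polynomial.mapRingHom (GaloisRep.ratLocalizedAt ℓ).subtype) := by
    rw [Polynomial.lifts_iff_coeff_lifts]
    intro i
    have h1 : P.coeff i ∈ Polynomial.lifts (GaloisRep.ratLocalizedAt ℓ).subtype := by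
      rw [Polynomial.lifts_iff_coeff_lifts]
      intro k
      exact ⟨⟨_, hint i k⟩, rfl⟩
    obtain ⟨q, hq⟩ := (Polynomial.mem_lifts _).mp h1
    exact ⟨q, hq⟩
  exact Polynomial.lifts_and_natDegree_eq_and_monic hlifts hP

/-- **The chart hypotheses at `ℓ`** from the norm relation over `ℚ`.  The ring homomorphisms
`res`, `ιA`, `ιk` are arbitrary (they are unique); `hprime`, `hres` are the two facts about
`ℤ_(ℓ)` (package `Zl`). -/
theorem exists_chartHyp {φ ψ : ℕ} (hφ : 0 < φ) (u : LaurentSeries ℤ)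
    (hu : ∀ n : ℤ, n < (φ : ℤ) * ((ψ : ℤ) - 1) → u.coeff n = 0)
    (P : ℚ[X][X]) (hP : P.Monic) (hdeg : P.natDegree = ψ)
    (hbound : ∀ i ≤ ψ, (P.coeff i).natDegree ≤ (ψ - i) * φ)
    (c : ℚ) (hc : P.coeff 0 = Polynomial.C c) (hcinv : c⁻¹ ∈ GaloisRep.ratLocalizedAt ℓ)
    (hc0 : c ≠ 0)
    (hint : ∀ i k : ℕ, (P.coeff i).coeff k ∈ GaloisRep.ratLocalizedAt ℓ)
    (hroot : P.eval₂ ((Polynomial.aeval jq : ℚ[X] →ₐ[ℚ] LaurentSeries ℚ) : ℚ[X] →+* LaurentSeries ℚ)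
      (incl u) = 0)
    (res : Zl →+* ZMod ℓ) (ιA : Zl →+* LaurentSeries ℚ) (ιk : ZMod ℓ →+* LaurentSeries (ZMod ℓ))
    (hprime : Prime ((ℓ : ℕ) : Zl)) (hres : ∀ a : Zl, res a = 0 ↔ ((ℓ : ℕ) : Zl) ∣ a) :
    ∃ Pℓ : Zl[X][X], Pℓ.map (Polynomial.mapRingHom (GaloisRep.ratLocalizedAt ℓ).subtype) = P ∧
      Pℓ.natDegree = ψ ∧
      ChartHyp ((ℓ : ℕ) : Zl) res ιA ιk jq (incl u) (jqModC (ZMod ℓ)) (redZ ℓ u) Pℓ := by
  obtain ⟨Pℓ, hmap, hPℓdeg, hPℓmonic⟩ := exists_lift ℓ P hP hint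
  have hroot' : ev2 ιA jq (incl u) Pℓ = 0 := by
    rw [ev2_ιA, hmap]; exact hroot
  have hredP := hred ℓ u res ιA ιk Pℓ hroot'
  refine ⟨Pℓ, hmap, hPℓdeg.trans hdeg, ⟨hprime, hres, transc ℓ ιA, transcb ℓ ιk, hPℓmonic, hroot',
    hred ℓ u res ιA ιk, ?_⟩⟩
  intro G hGdeg hG0
  by_contra hGne
  set Pbar : (ZMod ℓ)[X][X] := Pℓ.map (Polynomial.mapRingHom res) with hPbar
  have hsub : Function.Injective (GaloisRep.ratLocalizedAt ℓ).subtype := Subring.subtype_injective _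
  have hcoeff : ∀ i, (Pℓ.coeff i).map (GaloisRep.ratLocalizedAt ℓ).subtype = P.coeff i := by
    intro i
    rw [← hmap, Polynomial.coeff_map, Polynomial.coe_mapRingHom]
  have hbar_monic : Pbar.Monic := hPℓmonic.map _
  have hbar_deg : Pbar.natDegree = ψ := by
    rw [hPbar, hPℓmonic.natDegree_map, hPℓdeg, hdeg]
  have hbar_bound : ∀ i ≤ ψ, (Pbar.coeff i).natDegree ≤ (ψ - i) * φ := by
    intro i hi
    rw [hPbar, Polynomial.coeff_map, Polynomial.coe_mapRingHom]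
    refine (Polynomial.natDegree_map_le).trans ?_
    rw [← Polynomial.natDegree_map_eq_of_injective hsub (Pℓ.coeff i), hcoeff i]
    exact hbound i hi
  have hcmem : c ∈ GaloisRep.ratLocalizedAt ℓ := by
    have h := hint 0 0
    rwa [hc, Polynomial.coeff_C_zero] at h
  have hP0 : Pℓ.coeff 0 = Polynomial.C (⟨c, hcmem⟩ : Zl) := by
    apply Polynomial.map_injective _ hsub
    rw [hcoeff 0, hc, Polynomial.map_C]
    rfl
  have hbar_c : ∃ cb : ZMod ℓ, cb ≠ 0 ∧ Pbar.coeff 0 = Polynomial.C cb := by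
    refine ⟨res ⟨c, hcmem⟩, ?_, ?_⟩
    · intro h0
      have h1 : (⟨c, hcmem⟩ : Zl) * ⟨c⁻¹, hcinv⟩ = 1 :=
        Subtype.ext (by simp [mul_inv_cancel₀ hc0])
      have h2 := congrArg res h1
      rw [map_mul, h0, zero_mul, map_one] at h2
      exact zero_ne_one h2
    · rw [hPbar, Polynomial.coeff_map, Polynomial.coe_mapRingHom, hP0, Polynomial.map_C]
  have hbar_u : ∀ n : ℤ, n < (φ : ℤ) * ((ψ : ℤ) - 1) → (redZ ℓ u).coeff n = 0 := by
    intro n hn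
    rw [coeffMap_coeff, hu n hn, map_zero]
  have hbar_root : Pbar.eval₂ ((Polynomial.aeval (jqModC (ZMod ℓ)) :
      (ZMod ℓ)[X] →ₐ[ZMod ℓ] LaurentSeries (ZMod ℓ)) : (ZMod ℓ)[X] →+* LaurentSeries (ZMod ℓ))
      (redZ ℓ u) = 0 := by
    rw [← ev2_ιk ℓ ιk]; exact hredP
  have hG' : G.eval₂ ((Polynomial.aeval (jqModC (ZMod ℓ)) :
      (ZMod ℓ)[X] →ₐ[ZMod ℓ] LaurentSeries (ZMod ℓ)) : (ZMod ℓ)[X] →+* LaurentSeries (ZMod ℓ))
      (redZ ℓ u) = 0 := by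
    rw [← ev2_ιk ℓ ιk]; exact hG0
  have hle := Newton.natDegree_le_of_order hφ hbar_monic hbar_deg hbar_bound hbar_c
    (jqModC_order (ZMod ℓ)).1 (jqModC_order (ZMod ℓ)).2 hbar_u hbar_root hGne hG'
  rw [hPℓdeg, hdeg] at hGdeg
  omega

/-- `exists_chartHyp` with the two facts about `ℤ_(ℓ)` discharged by the package `Zl`:
`res := Zl.resZl ℓ`; `ιA`, `ιk` are still arbitrary. -/
theorem exists_chartHyp_resZl {φ ψ : ℕ} (hφ : 0 < φ) (u : LaurentSeries ℤ)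
    (hu : ∀ n : ℤ, n < (φ : ℤ) * ((ψ : ℤ) - 1) → u.coeff n = 0)
    (P : ℚ[X][X]) (hP : P.Monic) (hdeg : P.natDegree = ψ)
    (hbound : ∀ i ≤ ψ, (P.coeff i).natDegree ≤ (ψ - i) * φ)
    (c : ℚ) (hc : P.coeff 0 = Polynomial.C c) (hcinv : c⁻¹ ∈ GaloisRep.ratLocalizedAt ℓ)
    (hc0 : c ≠ 0)
    (hint : ∀ i k : ℕ, (P.coeff i).coeff k ∈ GaloisRep.ratLocalizedAt ℓ)
    (hroot : P.eval₂ ((Polynomial.aeval jq : ℚ[X] →ₐ[ℚ] LaurentSeries ℚ) : ℚ[X] →+* LaurentSeries ℚ)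
      (incl u) = 0)
    (ιA : Zl →+* LaurentSeries ℚ) (ιk : ZMod ℓ →+* LaurentSeries (ZMod ℓ)) :
    ∃ Pℓ : Zl[X][X], Pℓ.map (Polynomial.mapRingHom (GaloisRep.ratLocalizedAt ℓ).subtype) = P ∧
      Pℓ.natDegree = ψ ∧
      ChartHyp ((ℓ : ℕ) : Zl) (Fermat.Agent.S28.Zl.resZl ℓ) ιA ιk jq (incl u) (jqModC (ZMod ℓ))
        (redZ ℓ u) Pℓ :=
  exists_chartHyp ℓ hφ u hu P hP hdeg hbound c hc hcinv hc0 hint hroot
    (Fermat.Agent.S28.Zl.resZl ℓ) ιA ιk (Fermat.Agent.S28.Zl.prime_ell ℓ)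
    (Fermat.Agent.S28.Zl.resZl_eq_zero_iff ℓ)

end Adapter

end Fermat.Agent.S28
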