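import Mathlib

/-!
# S28 / Chart (F4a): integrality from two coprime multiples

Let `R` be a UFD, `φ : R →+* F` an injective ring homomorphism into a field, `p` a prime element
of `R` and `s ∈ R` not divisible by `p`.  If `φ p * y` and `φ s * y` are integral over `R`, then
so is `y`.

Proof: with `K = Frac R` and `g` the minimal polynomial of `y` over `K`, the minimal polynomial of
`c y` (`c ∈ R`, `c ≠ 0`) is `g.scaleRoots c`, which has coefficients in `R` when `c y` is
integral; so `g_i p^(n-i) = a_i` and `g_i s^(n-i) = b_i` lie in `R`, `a_i s^(n-i) = b_i p^(n-i)`,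
hence `p^(n-i) ∣ a_i` and `g_i ∈ R`.
-/

set_option autoImplicit false

open Polynomial

namespace Fermat.Agent.S28

namespace Chart

/-- The minimal polynomial of `c • y` over the fraction field is the `scaleRoots` of the minimal
polynomial of `y`; if `c • y` is integral over the integrally closed `R` its coefficients lie in
`R`. -/
theorem f4a_exists_coeff_scale {R F : Type*} [CommRing R] [IsDomain R] [IsIntegrallyClosed R]
    [Field F] [Algebra R F] [FaithfulSMul R F]
    [Algebra (FractionRing R) F] [IsScalarTower R (FractionRing R) F]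
    (c : R) (hc : c ≠ 0) (y : F) (h : IsIntegral R (algebraMap R F c * y)) (i : ℕ) :
    ∃ a : R, algebraMap R (FractionRing R) a =
      (minpoly (FractionRing R) y).coeff i *
        (algebraMap R (FractionRing R) c) ^ ((minpoly (FractionRing R) y).natDegree - i) := by
  set K := FractionRing R with hK
  set cK : K := algebraMap R K c with hcK
  have hcK0 : cK ≠ 0 := by
    rw [hcK]
    exact (map_ne_zero_iff _ (IsFractionRing.injective R K)).mpr hc
  have hcF : algebraMap K F cK = algebraMap R F c := by
    rw [hcK, ← IsScalarTower.algebraMap_apply]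
  have hcyK : IsIntegral K (algebraMap R F c * y) := h.tower_top
  have hyK : IsIntegral K y := by
    have h1 : IsIntegral K (algebraMap K F cK⁻¹ * (algebraMap R F c * y)) :=
      isIntegral_algebraMap.mul hcyK
    have h2 : algebraMap K F cK⁻¹ * (algebraMap R F c * y) = y := by
      rw [← hcF, ← mul_assoc, ← map_mul, inv_mul_cancel₀ hcK0, map_one, one_mul]
    rwa [h2] at h1
  set g := minpoly K y with hg
  have hgmon : g.Monic := minpoly.monic hyK
  -- the minimal polynomial of `c y`
  have hm : minpoly K (algebraMap R F c * y) =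
      (minpoly R (algebraMap R F c * y)).map (algebraMap R K) :=
    minpoly.isIntegrallyClosed_eq_field_fractions' K h
  have hmmon : (minpoly K (algebraMap R F c * y)).Monic := minpoly.monic hcyK
  have hdvd1 : minpoly K (algebraMap R F c * y) ∣ g.scaleRoots cK := by
    apply minpoly.dvd
    rw [← hcF]
    exact scaleRoots_aeval_eq_zero (minpoly.aeval K y)
  have hdvd2 : g ∣ (minpoly K (algebraMap R F c * y)).scaleRoots cK⁻¹ := by
    apply minpoly.dvd
    have h1 := scaleRoots_aeval_eq_zero (r := cK⁻¹) (minpoly.aeval K (algebraMap R F c * y))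
    have h2 : algebraMap K F cK⁻¹ * (algebraMap R F c * y) = y := by
      rw [← hcF, ← mul_assoc, ← map_mul, inv_mul_cancel₀ hcK0, map_one, one_mul]
    rwa [h2] at h1
  have hdeg : g.natDegree ≤ (minpoly K (algebraMap R F c * y)).natDegree := by
    have := natDegree_le_of_dvd hdvd2
      (scaleRoots_ne_zero hmmon.ne_zero _)
    rwa [natDegree_scaleRoots] at this
  have heq : g.scaleRoots cK = minpoly K (algebraMap R F c * y) :=
    eq_of_monic_of_dvd_of_natDegree_le hmmon ((monic_scaleRoots_iff _).mpr hgmon) hdvd1
      (by rw [natDegree_scaleRoots]; exact hdeg)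
  refine ⟨(minpoly R (algebraMap R F c * y)).coeff i, ?_⟩
  rw [← coeff_map, ← hm, ← heq, coeff_scaleRoots]

/-- **(F4a)** If `φ p * y` and `φ s * y` are integral over the UFD `R` (`p` prime, `p ∤ s`), then
`y` is integral over `R`. -/
theorem isIntegralElem_of_mul {R F : Type*} [CommRing R] [IsDomain R]
    [UniqueFactorizationMonoid R] [Field F] (φ : R →+* F) (hφ : Function.Injective φ) (p s : R)
    (hp : Prime p) (hs : ¬ p ∣ s) (y : F) (h1 : φ.IsIntegralElem (φ p * y))
    (h2 : φ.IsIntegralElem (φ s * y)) : φ.IsIntegralElem y := by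
  classical
  let alg : Algebra R F := φ.toAlgebra
  have halg : ∀ r : R, algebraMap R F r = φ r := fun _ => rfl
  have : FaithfulSMul R F := (faithfulSMul_iff_algebraMap_injective R F).mpr hφ
  let algK : Algebra (FractionRing R) F := FractionRing.liftAlgebra R F
  have : IsScalarTower R (FractionRing R) F := FractionRing.isScalarTower_liftAlgebra R F
  set K := FractionRing R with hK
  have hs0 : s ≠ 0 := fun h => hs (h ▸ dvd_zero p)
  have hp0 : p ≠ 0 := hp.ne_zero
  have h1' : IsIntegral R (algebraMap R F p * y) := h1
  have h2' : IsIntegral R (algebraMap R F s * y) := h2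
  set g := minpoly K y with hg
  -- `y` is integral over `K`
  have hpK0 : algebraMap R K p ≠ 0 := (map_ne_zero_iff _ (IsFractionRing.injective R K)).mpr hp0
  have hyK : IsIntegral K y := by
    have h3 : IsIntegral K (algebraMap R F p * y) := h1'.tower_top
    have h4 : IsIntegral K (algebraMap K F (algebraMap R K p)⁻¹ * (algebraMap R F p * y)) :=
      isIntegral_algebraMap.mul h3
    have h5 : algebraMap K F (algebraMap R K p)⁻¹ * (algebraMap R F p * y) = y := by
      rw [IsScalarTower.algebraMap_apply R K F, ← mul_assoc, ← map_mul, inv_mul_cancel₀ hpK0,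
        map_one, one_mul]
    rwa [h5] at h4
  have hgmon : g.Monic := minpoly.monic hyK
  -- every coefficient of `g` lies in `R`
  have hcoeff : ∀ i, ∃ c : R, algebraMap R K c = g.coeff i := by
    intro i
    obtain ⟨a, ha⟩ := f4a_exists_coeff_scale p hp0 y h1' i
    obtain ⟨b, hb⟩ := f4a_exists_coeff_scale s hs0 y h2' i
    set e := g.natDegree - i with he
    have hab : a * s ^ e = b * p ^ e := by
      apply IsFractionRing.injective R K
      rw [map_mul, map_mul, map_pow, map_pow, ha, hb]
      ring
    have hdvd : p ^ e ∣ a := by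
      have hse : ¬ p ∣ s ^ e := fun h => hs (hp.dvd_of_dvd_pow h)
      refine hp.pow_dvd_of_dvd_mul_right e hse ?_
      rw [hab]
      exact dvd_mul_left _ _
    obtain ⟨c, rfl⟩ := hdvd
    refine ⟨c, ?_⟩
    rw [map_mul, map_pow] at ha
    have hpe : (algebraMap R K p) ^ e ≠ 0 := pow_ne_zero _ hpK0
    have : algebraMap R K c * algebraMap R K p ^ e = g.coeff i * algebraMap R K p ^ e := by
      rw [← ha]
      ring
    exact mul_right_cancel₀ hpe this
  have hlifts : g ∈ Polynomial.lifts (algebraMap R K) :=
    (lifts_iff_coeff_lifts g).mpr fun i => by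
      obtain ⟨c, hc⟩ := hcoeff i
      exact ⟨c, hc⟩
  obtain ⟨g', hg', -, hg'mon⟩ := lifts_and_natDegree_eq_and_monic hlifts hgmon
  refine ⟨g', hg'mon, ?_⟩
  have h6 : eval₂ (algebraMap K F) y (g'.map (algebraMap R K)) = 0 := by
    rw [hg']
    exact minpoly.aeval K y
  rw [eval₂_map, ← IsScalarTower.algebraMap_eq] at h6
  exact h6

end Chart

end Fermat.Agent.S28
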