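import Fermat.Agent.S28.ChartDefs

/-!
# S28, block (B2) CHART, sub-package F4b

For `y` in the local ring `B = A[j,U]_(π)` of a chart reduction datum, some multiple `s(j) * y`
with `s ∉ (π)` is integral over `A[j]`, and some multiple `s(j⁻¹) * y` with `s ∉ (π)` is integral
over `A[j⁻¹]`.
-/

namespace Fermat.Agent.S28.Chart

open Polynomial

namespace F4b

section Generic

variable {R S : Type*} [CommRing R] [CommRing S]

/-- Polynomial expressions (with coefficients in the image of `f`) in an element integral over `f`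
are integral over `f`. -/
theorem isIntegralElem_eval₂ (f : R →+* S) {u : S} (hu : f.IsIntegralElem u) (r : R[X]) :
    f.IsIntegralElem (eval₂ f u r) := by
  induction r using Polynomial.induction_on with
  | C a => rw [eval₂_C]; exact f.isIntegralElem_map
  | add p q hp hq => rw [eval₂_add]; exact RingHom.IsIntegralElem.add f hp hq
  | monomial n a h =>
    rw [pow_succ, ← mul_assoc, eval₂_mul, eval₂_X]
    exact RingHom.IsIntegralElem.mul f h hu

end Generic

section Aux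

variable {A E : Type*} [CommRing A] [Field E]

/-- `j⁻¹ ^ N * g(j) = (reflect N g)(j⁻¹)` for `N ≥ deg g`. -/
theorem inv_pow_mul_ev1 (ιA : A →+* E) {j : E} (hj : j ≠ 0) (g : A[X]) {N : ℕ}
    (hN : g.natDegree ≤ N) : j⁻¹ ^ N * ev1 ιA j g = ev1 ιA j⁻¹ (reflect N g) := by
  let _ : Invertible j := invertibleOfNonzero hj
  have h := eval₂_reflect_mul_pow ιA j N g hN
  rw [invOf_eq_inv] at h
  rw [ev1_apply, ev1_apply, ← h, mul_comm, mul_assoc, ← mul_pow, mul_inv_cancel₀ hj, one_pow,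
    mul_one]

/-- `j⁻¹` is integral over `A[j⁻¹]`. -/
theorem isIntegralElem_inv_pow (ιA : A →+* E) (j : E) (n : ℕ) :
    (ev1 ιA j⁻¹).IsIntegralElem (j⁻¹ ^ n) := by
  have : j⁻¹ ^ n = ev1 ιA j⁻¹ (X ^ n) := by rw [map_pow, ev1_X]
  rw [this]
  exact (ev1 ιA j⁻¹).isIntegralElem_map

theorem isIntegralElem_inv_pow_mul_of_le (ιA : A →+* E) (j : E) {z : E} {M M' : ℕ} (hMM' : M ≤ M')
    (hz : (ev1 ιA j⁻¹).IsIntegralElem (j⁻¹ ^ M * z)) :
    (ev1 ιA j⁻¹).IsIntegralElem (j⁻¹ ^ M' * z) := by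
  obtain ⟨d, rfl⟩ := Nat.exists_eq_add_of_le hMM'
  rw [pow_add, mul_comm (j⁻¹ ^ M), mul_assoc]
  exact RingHom.IsIntegralElem.mul _ (isIntegralElem_inv_pow ιA j d) hz

theorem not_C_dvd_X_pow_mul_reverse [IsDomain A] {π : A} (hπ : Prime π) {g : A[X]}
    (hg : ¬ C π ∣ g) (M : ℕ) : ¬ C π ∣ X ^ M * reverse g := by
  intro hdvd
  have hCπ : Prime (C π : A[X]) := Polynomial.prime_C_iff.mpr hπ
  rcases hCπ.dvd_or_dvd hdvd with h1 | h2
  · have h3 : C π ∣ (X : A[X]) := hCπ.dvd_of_dvd_pow h1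
    have h4 := (Polynomial.C_dvd_iff_dvd_coeff π X).mp h3 1
    rw [coeff_X_one] at h4
    exact hπ.not_isUnit (isUnit_of_dvd_one h4)
  · apply hg
    rw [Polynomial.C_dvd_iff_dvd_coeff] at h2 ⊢
    intro i
    by_cases hi : i ≤ g.natDegree
    · have := h2 (revAt g.natDegree i)
      rwa [coeff_reverse, revAt_invol] at this
    · rw [coeff_eq_zero_of_natDegree_lt (not_le.mp hi)]
      exact dvd_zero _

end Aux

section F4b

variable {A k E Ω : Type*} [CommRing A] [IsDomain A] [UniqueFactorizationMonoid A]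
  [Field k] [Field E] [Field Ω]
  {π : A} {res : A →+* k} {ιA : A →+* E} {ιk : k →+* Ω} {j U : E} {jb ub : Ω}
  {P : A[X][X]} {B : Subring E} {red : B →+* Ω}

omit [UniqueFactorizationMonoid A] in
theorem j_ne_zero (h : ChartHyp π res ιA ιk j U jb ub P) : j ≠ 0 := by
  intro hj
  have := h.transc X (by rw [ev1_X, hj])
  exact X_ne_zero this

omit [UniqueFactorizationMonoid A] in
/-- `j⁻¹ ^ m * U` is integral over `A[j⁻¹]` for `m` large. -/
theorem exists_inv_pow_mul_isIntegralElem (h : ChartHyp π res ιA ιk j U jb ub P) :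
    ∃ m : ℕ, (ev1 ιA j⁻¹).IsIntegralElem (j⁻¹ ^ m * U) := by
  classical
  have hj := j_ne_zero h
  set ψ : ℕ := P.natDegree with hψ
  set m : ℕ := ∑ i ∈ Finset.range (ψ + 1), (P.coeff i).natDegree with hm
  have hle : ∀ i ≤ ψ, (P.coeff i).natDegree ≤ m := fun i hi =>
    Finset.single_le_sum (f := fun i => (P.coeff i).natDegree) (fun _ _ => Nat.zero_le _)
      (Finset.mem_range.mpr (Nat.lt_succ_of_le hi))
  set q : E[X] := (P.map (ev1 ιA j)).scaleRoots (j⁻¹ ^ m) with hq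
  have hqmonic : q.Monic := (Polynomial.monic_scaleRoots_iff _).mpr (h.monic.map _)
  have hroot : (P.map (ev1 ιA j)).eval U = 0 := by
    rw [eval_map]; exact h.root
  have hqroot : q.eval (j⁻¹ ^ m * U) = 0 := by
    rw [hq, Polynomial.scaleRoots_eval_mul, hroot, mul_zero]
  have hqcoeff : ∀ i, q.coeff i ∈ Set.range (ev1 ιA j⁻¹) := by
    intro i
    rw [hq, Polynomial.coeff_scaleRoots, Polynomial.coeff_map, h.monic.natDegree_map]
    by_cases hi : i < ψ
    · have hle' : (P.coeff i).natDegree ≤ m * (ψ - i) := by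
        calc (P.coeff i).natDegree ≤ m := hle i hi.le
          _ = m * 1 := (mul_one m).symm
          _ ≤ m * (ψ - i) := Nat.mul_le_mul_left m (Nat.one_le_iff_ne_zero.mpr (by omega))
      refine ⟨reflect (m * (ψ - i)) (P.coeff i), ?_⟩
      rw [← inv_pow_mul_ev1 ιA hj _ hle', ← pow_mul, mul_comm]
    · rcases (not_lt.mp hi).lt_or_eq with hlt | heq
      · refine ⟨0, ?_⟩
        rw [Polynomial.coeff_eq_zero_of_natDegree_lt hlt, map_zero, map_zero, zero_mul]
      · refine ⟨1, ?_⟩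
        rw [← heq, hψ, h.monic.coeff_natDegree, map_one, map_one, one_mul, Nat.sub_self, pow_zero]
  have hlifts : q ∈ Polynomial.lifts (ev1 ιA j⁻¹) :=
    (Polynomial.lifts_iff_coeff_lifts q).mpr hqcoeff
  obtain ⟨q', hq'q, -, hq'monic⟩ := Polynomial.lifts_and_natDegree_eq_and_monic hlifts hqmonic
  exact ⟨m, q', hq'monic, by rw [Polynomial.eval₂_eq_eval_map, hq'q, hqroot]⟩

omit [UniqueFactorizationMonoid A] in
/-- `j⁻¹ ^ M * r(j, U)` is integral over `A[j⁻¹]` for `M` large. -/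
theorem exists_inv_pow_mul_isIntegralElem_ev2 (h : ChartHyp π res ιA ιk j U jb ub P)
    (r : A[X][X]) : ∃ M : ℕ, (ev1 ιA j⁻¹).IsIntegralElem (j⁻¹ ^ M * ev2 ιA j U r) := by
  have hj := j_ne_zero h
  obtain ⟨m, hm⟩ := exists_inv_pow_mul_isIntegralElem h
  induction r using Polynomial.induction_on with
  | C g =>
    refine ⟨g.natDegree, ?_⟩
    rw [ev2_C, inv_pow_mul_ev1 ιA hj g le_rfl]
    exact (ev1 ιA j⁻¹).isIntegralElem_map
  | add p q hp hq =>
    obtain ⟨M₁, h₁⟩ := hp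
    obtain ⟨M₂, h₂⟩ := hq
    refine ⟨M₁ + M₂, ?_⟩
    rw [map_add, mul_add]
    exact RingHom.IsIntegralElem.add _
      (isIntegralElem_inv_pow_mul_of_le ιA j (Nat.le_add_right _ _) h₁)
      (isIntegralElem_inv_pow_mul_of_le ιA j (Nat.le_add_left _ _) h₂)
  | monomial n g hn =>
    obtain ⟨M, hM⟩ := hn
    refine ⟨M + m, ?_⟩
    have : j⁻¹ ^ (M + m) * ev2 ιA j U (C g * X ^ (n + 1)) =
        (j⁻¹ ^ M * ev2 ιA j U (C g * X ^ n)) * (j⁻¹ ^ m * U) := by
      rw [pow_succ, ← mul_assoc, map_mul (ev2 ιA j U) _ X, ev2_X, pow_add]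
      ring
    rw [this]
    exact RingHom.IsIntegralElem.mul _ hM hm

end F4b

end F4b

section Main

variable {A k E Ω : Type*} [CommRing A] [IsDomain A] [UniqueFactorizationMonoid A]
  [Field k] [Field E] [Field Ω]
  {π : A} {res : A →+* k} {ιA : A →+* E} {ιk : k →+* Ω} {j U : E} {jb ub : Ω}
  {P : A[X][X]} {B : Subring E} {red : B →+* Ω}

set_option linter.unusedSectionVars false in
/-- **Sub-package F4b.** For `y ∈ B`: some `s(j) * y`, `s ∉ (π)`, is integral over `A[j]`, and some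
`s(j⁻¹) * y`, `s ∉ (π)`, is integral over `A[j⁻¹]`. -/
theorem IsChartRed.exists_mul_isIntegralElem (h : ChartHyp π res ιA ιk j U jb ub P)
    (hB : IsChartRed π res ιA ιk j U jb ub B red) (y : E) (hy : y ∈ B) :
    (∃ s : A[X], ¬ C π ∣ s ∧ (ev1 ιA j).IsIntegralElem (ev1 ιA j s * y)) ∧
    (∃ s : A[X], ¬ C π ∣ s ∧ (ev1 ιA j⁻¹).IsIntegralElem (ev1 ιA j⁻¹ s * y)) := by
  obtain ⟨g, r, hg, hgr⟩ := hB.exists_rep y hy
  have hj := F4b.j_ne_zero h
  refine ⟨⟨g, hg, ?_⟩, ?_⟩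
  · rw [hgr, ev2_apply]
    exact F4b.isIntegralElem_eval₂ (ev1 ιA j) ⟨P, h.monic, h.root⟩ r
  · obtain ⟨M, hM⟩ := F4b.exists_inv_pow_mul_isIntegralElem_ev2 h r
    refine ⟨X ^ M * reverse g, F4b.not_C_dvd_X_pow_mul_reverse h.prime hg M, ?_⟩
    have hrev : ev1 ιA j⁻¹ (reverse g) = j⁻¹ ^ g.natDegree * ev1 ιA j g := by
      rw [F4b.inv_pow_mul_ev1 ιA hj g le_rfl]; rfl
    have : ev1 ιA j⁻¹ (X ^ M * reverse g) * y =
        j⁻¹ ^ g.natDegree * (j⁻¹ ^ M * ev2 ιA j U r) := by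
      rw [map_mul, map_pow, ev1_X, hrev, ← hgr]
      ring
    rw [this]
    exact RingHom.IsIntegralElem.mul _ (F4b.isIntegralElem_inv_pow ιA j _) hM

end Main

end Fermat.Agent.S28.Chart
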