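import Fermat.Agent.S28.ChartCore
import Fermat.Agent.S28.ChartF4a
import Fermat.Agent.S28.ChartF4b
import Fermat.Prelude.Def_ModularCurve_IgusaScheme

/-!
# S28, block (B2) CHART: bridge to the chart algebras `chartAlg N ℓ S`
-/

set_option linter.unusedSectionVars false

namespace Fermat.Agent.S28.Chart

open Polynomial

/-! ### Clearing denominators -/

section clear

variable {A K : Type*} [CommRing A] [Field K] (ι : A →+* K)

theorem exists_mul_eq_map (hden : ∀ x : K, ∃ a b : A, ι b ≠ 0 ∧ ι b * x = ι a) (g : K[X]) :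
    ∃ (b : A) (g' : A[X]), ι b ≠ 0 ∧ C (ι b) * g = g'.map ι := by
  induction g using Polynomial.induction_on' with
  | add p q hp hq =>
    obtain ⟨b₁, p', hb₁, hp'⟩ := hp
    obtain ⟨b₂, q', hb₂, hq'⟩ := hq
    refine ⟨b₁ * b₂, C b₂ * p' + C b₁ * q', by rw [map_mul]; exact mul_ne_zero hb₁ hb₂, ?_⟩
    rw [Polynomial.map_add, Polynomial.map_mul, Polynomial.map_mul, map_C, map_C, ← hp', ← hq',
      map_mul, C_mul]
    ring
  | monomial n x =>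
    obtain ⟨a, b, hb, hab⟩ := hden x
    refine ⟨b, monomial n a, hb, ?_⟩
    rw [map_monomial, C_mul_monomial, hab]

theorem exists_mul_eq_map₂ (hden : ∀ x : K, ∃ a b : A, ι b ≠ 0 ∧ ι b * x = ι a) (Q : K[X][X]) :
    ∃ (b : A) (Q' : A[X][X]), ι b ≠ 0 ∧ C (C (ι b)) * Q = Q'.map (mapRingHom ι) := by
  induction Q using Polynomial.induction_on' with
  | add p q hp hq =>
    obtain ⟨b₁, p', hb₁, hp'⟩ := hp
    obtain ⟨b₂, q', hb₂, hq'⟩ := hq
    refine ⟨b₁ * b₂, C (C b₂) * p' + C (C b₁) * q', by rw [map_mul]; exact mul_ne_zero hb₁ hb₂, ?_⟩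
    rw [Polynomial.map_add, Polynomial.map_mul, Polynomial.map_mul, map_C, map_C, ← hp', ← hq',
      map_mul, C_mul, C_mul, coe_mapRingHom, map_C, map_C]
    ring
  | monomial n x =>
    obtain ⟨b, x', hb, hx'⟩ := exists_mul_eq_map ι hden x
    refine ⟨b, monomial n x', hb, ?_⟩
    rw [map_monomial, C_mul_monomial, hx', coe_mapRingHom]

end clear

/-! ### Integrality over `R[t]`, two formulations -/

section integral

variable {R F E : Type*} [CommRing R] [CommRing F] [Algebra R F] [CommRing E]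
  (v : F →+* E) (ι : R →+* E)

/-- the surjection `R[X] → R[t]`. -/
noncomputable def toAdjoin (t : F) : R[X] →+* Algebra.adjoin R {t} :=
  ((aeval t : R[X] →ₐ[R] F).codRestrict (Algebra.adjoin R {t})
    (fun _ => aeval_mem_adjoin_singleton R t)).toRingHom

theorem toAdjoin_surjective (t : F) : Function.Surjective (toAdjoin (R := R) t) := by
  rintro ⟨c, hc⟩
  rw [Algebra.adjoin_singleton_eq_range_aeval] at hc
  obtain ⟨g, hg⟩ := hc
  exact ⟨g, Subtype.ext hg⟩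

theorem comp_toAdjoin (hv : v.comp (algebraMap R F) = ι) (t : F) :
    (v.comp (algebraMap (Algebra.adjoin R {t}) F)).comp (toAdjoin t) = ev1 ι (v t) := by
  apply Polynomial.ringHom_ext
  · intro a
    have : (toAdjoin (R := R) t (C a) : F) = algebraMap R F a := by
      simp [toAdjoin]
    simp only [RingHom.comp_apply, ev1_C]
    rw [← hv]
    exact congrArg v this
  · have : (toAdjoin (R := R) t X : F) = t := by
      simp [toAdjoin]
    simp only [RingHom.comp_apply, ev1_X]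
    exact congrArg v this

theorem isIntegralElem_of_isIntegral_adjoin (hv : v.comp (algebraMap R F) = ι) (t x : F)
    (hx : IsIntegral (Algebra.adjoin R {t}) x) : (ev1 ι (v t)).IsIntegralElem (v x) := by
  obtain ⟨p, hp, hpx⟩ := hx
  obtain ⟨q, hq, -, hqm⟩ := lifts_and_natDegree_eq_and_monic
    ((mem_lifts p).mpr (map_surjective _ (toAdjoin_surjective (R := R) t) p)) hp
  refine ⟨q, hqm, ?_⟩
  rw [← comp_toAdjoin v ι hv t, ← eval₂_map, hq, ← hom_eval₂, hpx, map_zero]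

theorem isIntegral_adjoin_of_isIntegralElem (hvi : Function.Injective v)
    (hv : v.comp (algebraMap R F) = ι) (t x : F)
    (hx : (ev1 ι (v t)).IsIntegralElem (v x)) : IsIntegral (Algebra.adjoin R {t}) x := by
  obtain ⟨q, hq, hqx⟩ := hx
  refine ⟨q.map (toAdjoin t), hq.map _, hvi ?_⟩
  rw [map_zero, hom_eval₂, eval₂_map, comp_toAdjoin v ι hv t, hqx]

end integral

/-! ### The concrete situation -/

section concrete

open ModularCurve ModularCurve.IgusaScheme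

variable (N : ℕ) [NeZero N] (ℓ : ℕ) [Fact ℓ.Prime]

/-- the structure map `ℤ_(ℓ) → ℚ((q))`. -/
noncomputable def ιZl : ↥(GaloisRep.ratLocalizedAt ℓ) →+* LaurentSeries ℚ :=
  (algebraMap ℚ (LaurentSeries ℚ)).comp (algebraMap ↥(GaloisRep.ratLocalizedAt ℓ) ℚ)

/-- the inclusion `F → ℚ((q))`. -/
noncomputable def valE : ↥(modularFunctionFieldFull N) →+* LaurentSeries ℚ where
  toFun x := (x : LaurentSeries ℚ)
  map_one' := rfl
  map_mul' _ _ := rfl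
  map_zero' := rfl
  map_add' _ _ := rfl

theorem valE_apply (x : ↥(modularFunctionFieldFull N)) : valE N x = (x : LaurentSeries ℚ) := rfl

theorem valE_injective : Function.Injective (valE N) := Subtype.val_injective

theorem valE_comp_algebraMap :
    (valE N).comp (algebraMap ↥(GaloisRep.ratLocalizedAt ℓ) ↥(modularFunctionFieldFull N)) =
      ιZl ℓ := by
  have h : (valE N).comp (algebraMap ℚ ↥(modularFunctionFieldFull N)) =
      algebraMap ℚ (LaurentSeries ℚ) := Subsingleton.elim _ _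
  rw [ιZl, ← h]
  rfl

theorem valE_jFull : valE N (jFull N) = jq := rfl

theorem valE_jFull_inv : valE N (jFull N)⁻¹ = jq⁻¹ := by
  rw [map_inv₀, valE_jFull]

theorem hden_Zl (x : ℚ) : ∃ a b : ↥(GaloisRep.ratLocalizedAt ℓ),
    algebraMap ↥(GaloisRep.ratLocalizedAt ℓ) ℚ b ≠ 0 ∧
      algebraMap ↥(GaloisRep.ratLocalizedAt ℓ) ℚ b * x =
        algebraMap ↥(GaloisRep.ratLocalizedAt ℓ) ℚ a := by
  refine ⟨(x.num : ↥(GaloisRep.ratLocalizedAt ℓ)), (x.den : ↥(GaloisRep.ratLocalizedAt ℓ)), ?_, ?_⟩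
  · rw [map_natCast]; exact_mod_cast x.den_ne_zero
  · rw [map_natCast, map_intCast, mul_comm]; exact Rat.mul_den_eq_num x

variable {N ℓ}

/-- generation with `ℤ_(ℓ)`-coefficients from generation with `ℚ`-coefficients. -/
theorem hgen_Zl {U : LaurentSeries ℚ} {x : LaurentSeries ℚ}
    (hx : ∃ (g : ℚ[X]) (Q : ℚ[X][X]), g ≠ 0 ∧
      aeval jq g * x = Q.eval₂
        ((aeval jq : ℚ[X] →ₐ[ℚ] LaurentSeries ℚ) : ℚ[X] →+* LaurentSeries ℚ) U) :
    ∃ (g : (↥(GaloisRep.ratLocalizedAt ℓ))[X]) (Q : (↥(GaloisRep.ratLocalizedAt ℓ))[X][X]),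
      g ≠ 0 ∧ ev1 (ιZl ℓ) jq g * x = ev2 (ιZl ℓ) jq U Q := by
  obtain ⟨g, Q, hg0, hgQ⟩ := hx
  obtain ⟨b₁, g', hb₁, hg'⟩ := exists_mul_eq_map _ (hden_Zl ℓ) g
  obtain ⟨b₂, Q', hb₂, hQ'⟩ := exists_mul_eq_map₂ _ (hden_Zl ℓ) Q
  have e1 : ∀ p : (↥(GaloisRep.ratLocalizedAt ℓ))[X],
      ev1 (ιZl ℓ) jq p = aeval jq (p.map (algebraMap ↥(GaloisRep.ratLocalizedAt ℓ) ℚ)) := by
    intro p
    rw [ev1_apply, aeval_def, eval₂_map]; rfl
  have e2 : ∀ p : (↥(GaloisRep.ratLocalizedAt ℓ))[X][X],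
      ev2 (ιZl ℓ) jq U p = (p.map (mapRingHom (algebraMap ↥(GaloisRep.ratLocalizedAt ℓ) ℚ))).eval₂
        ((aeval jq : ℚ[X] →ₐ[ℚ] LaurentSeries ℚ) : ℚ[X] →+* LaurentSeries ℚ) U := by
    intro p
    rw [ev2_apply, eval₂_map]
    congr 1
    apply RingHom.ext
    intro c
    exact e1 c
  have hg'0 : g' ≠ 0 := by
    rintro rfl
    rw [Polynomial.map_zero] at hg'
    exact (mul_ne_zero (C_ne_zero.mpr hb₁) hg0) hg'
  have hb₂' : b₂ ≠ 0 := fun h0 => hb₂ (by rw [h0, map_zero])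
  refine ⟨C b₂ * g', C (C b₁) * Q', mul_ne_zero (C_ne_zero.mpr hb₂') hg'0, ?_⟩
  rw [map_mul, map_mul, e1 g', e2 Q', ← hg', ← hQ', ev1_C, ev2_C, ev1_C, map_mul, eval₂_mul,
    eval₂_C, aeval_C]
  simp only [AlgHom.coe_toRingHom, aeval_C, ιZl, RingHom.comp_apply]
  linear_combination (algebraMap ℚ (LaurentSeries ℚ) (algebraMap _ ℚ b₂) *
    algebraMap ℚ (LaurentSeries ℚ) (algebraMap _ ℚ b₁)) * hgQ

end concrete

/-! ### `j⁻¹` is transcendental -/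

section transc

variable {A k E Ω : Type*} [CommRing A] [IsDomain A] [Field k] [Field E] [Field Ω]
  {π : A} {res : A →+* k} {ιA : A →+* E} {ιk : k →+* Ω} {j U : E} {jb ub : Ω} {P : A[X][X]}

theorem ChartHyp.transc_inv (h : ChartHyp π res ιA ιk j U jb ub P) (g : A[X])
    (hg : ev1 ιA j⁻¹ g = 0) : g = 0 := by
  have hj0 : j⁻¹ ≠ 0 := inv_ne_zero h.j_ne_zero
  let _ : Invertible j⁻¹ := invertibleOfNonzero hj0
  have h1 := (eval₂_reverse_eq_zero_iff ιA j⁻¹ g).mpr hg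
  rw [invOf_eq_inv, inv_inv] at h1
  have h2 := h.transc _ h1
  exact reverse_eq_zero.mp h2

theorem ChartHyp.injective_ev1 (h : ChartHyp π res ιA ιk j U jb ub P) :
    Function.Injective (ev1 ιA j) :=
  (injective_iff_map_eq_zero _).mpr h.transc

theorem ChartHyp.injective_ev1_inv (h : ChartHyp π res ιA ιk j U jb ub P) :
    Function.Injective (ev1 ιA j⁻¹) :=
  (injective_iff_map_eq_zero _).mpr h.transc_inv

end transc

/-! ### The reduction maps of the chart algebras -/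

section main

open ModularCurve ModularCurve.IgusaScheme

variable {N : ℕ} [NeZero N] {ℓ : ℕ} [Fact ℓ.Prime]
  [UniqueFactorizationMonoid ↥(GaloisRep.ratLocalizedAt ℓ)]
  {res : ↥(GaloisRep.ratLocalizedAt ℓ) →+* ZMod ℓ} {U : LaurentSeries ℚ}
  {jb ub : HahnSeries ℤ (ZMod ℓ)} {P : (↥(GaloisRep.ratLocalizedAt ℓ))[X][X]}
  {B : Subring (LaurentSeries ℚ)} {red : B →+* HahnSeries ℤ (ZMod ℓ)}

theorem adjoin_coe_mem
    (h : ChartHyp ((ℓ : ℕ) : ↥(GaloisRep.ratLocalizedAt ℓ)) res (ιZl ℓ)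
      (algebraMap (ZMod ℓ) (HahnSeries ℤ (ZMod ℓ))) jq U jb ub P)
    (hB : IsChartRed ((ℓ : ℕ) : ↥(GaloisRep.ratLocalizedAt ℓ)) res (ιZl ℓ)
      (algebraMap (ZMod ℓ) (HahnSeries ℤ (ZMod ℓ))) jq U jb ub B red)
    {S : Set ↥(modularFunctionFieldFull N)} (hS : S ⊆ {jFull N, (jFull N)⁻¹})
    {c : ↥(modularFunctionFieldFull N)}
    (hc : c ∈ Algebra.adjoin ↥(GaloisRep.ratLocalizedAt ℓ) S) : valE N c ∈ B := by
  induction hc using Algebra.adjoin_induction with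
  | mem y hy =>
    rcases hS hy with rfl | rfl
    · exact (hB.j_mem h).1
    · rw [valE_jFull_inv]; exact hB.inv_j_mem h
  | algebraMap a =>
    have h1 := (hB.ι_mem h a).1
    rwa [← valE_comp_algebraMap N ℓ] at h1
  | add y z _ _ hy hz => rw [map_add]; exact B.add_mem hy hz
  | mul y z _ _ hy hz => rw [map_mul]; exact B.mul_mem hy hz

theorem chart_coe_mem
    (h : ChartHyp ((ℓ : ℕ) : ↥(GaloisRep.ratLocalizedAt ℓ)) res (ιZl ℓ)
      (algebraMap (ZMod ℓ) (HahnSeries ℤ (ZMod ℓ))) jq U jb ub P)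
    (hB : IsChartRed ((ℓ : ℕ) : ↥(GaloisRep.ratLocalizedAt ℓ)) res (ιZl ℓ)
      (algebraMap (ZMod ℓ) (HahnSeries ℤ (ZMod ℓ))) jq U jb ub B red)
    (hgen : ∀ x ∈ modularFunctionFieldFull N, ∃ (g : ℚ[X]) (Q : ℚ[X][X]), g ≠ 0 ∧
      aeval jq g * x = Q.eval₂
        ((aeval jq : ℚ[X] →ₐ[ℚ] LaurentSeries ℚ) : ℚ[X] →+* LaurentSeries ℚ) U)
    {S : Set ↥(modularFunctionFieldFull N)} (hS : S ⊆ {jFull N, (jFull N)⁻¹})
    {x : ↥(modularFunctionFieldFull N)} (hx : x ∈ chartAlg N ℓ S) : valE N x ∈ B := by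
  refine hB.mem_of_isIntegralElem h _ (hgen_Zl (hgen x x.2)) ?_
  obtain ⟨p, hp, hpx⟩ := (mem_chartAlg_iff N ℓ).mp hx
  let φ : Algebra.adjoin ↥(GaloisRep.ratLocalizedAt ℓ) S →+* B :=
    RingHom.codRestrict ((valE N).comp
      (algebraMap (Algebra.adjoin ↥(GaloisRep.ratLocalizedAt ℓ) S) ↥(modularFunctionFieldFull N)))
      B (fun c => adjoin_coe_mem h hB hS c.2)
  refine ⟨p.map φ, hp.map _, ?_⟩
  rw [eval₂_map]
  have h1 : B.subtype.comp φ = (valE N).comp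
      (algebraMap (Algebra.adjoin ↥(GaloisRep.ratLocalizedAt ℓ) S)
        ↥(modularFunctionFieldFull N)) := rfl
  rw [h1, ← hom_eval₂, hpx, map_zero]

/-- the map `chartAlg N ℓ S → B`. -/
noncomputable def chartToB
    (h : ChartHyp ((ℓ : ℕ) : ↥(GaloisRep.ratLocalizedAt ℓ)) res (ιZl ℓ)
      (algebraMap (ZMod ℓ) (HahnSeries ℤ (ZMod ℓ))) jq U jb ub P)
    (hB : IsChartRed ((ℓ : ℕ) : ↥(GaloisRep.ratLocalizedAt ℓ)) res (ιZl ℓ)
      (algebraMap (ZMod ℓ) (HahnSeries ℤ (ZMod ℓ))) jq U jb ub B red)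
    (hgen : ∀ x ∈ modularFunctionFieldFull N, ∃ (g : ℚ[X]) (Q : ℚ[X][X]), g ≠ 0 ∧
      aeval jq g * x = Q.eval₂
        ((aeval jq : ℚ[X] →ₐ[ℚ] LaurentSeries ℚ) : ℚ[X] →+* LaurentSeries ℚ) U)
    {S : Set ↥(modularFunctionFieldFull N)} (hS : S ⊆ {jFull N, (jFull N)⁻¹}) :
    ↥(chartAlg N ℓ S) →+* B :=
  RingHom.codRestrict ((valE N).comp (chartAlg N ℓ S).val.toRingHom) B
    (fun x => chart_coe_mem h hB hgen hS x.2)

theorem coe_chartToB
    (h : ChartHyp ((ℓ : ℕ) : ↥(GaloisRep.ratLocalizedAt ℓ)) res (ιZl ℓ)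
      (algebraMap (ZMod ℓ) (HahnSeries ℤ (ZMod ℓ))) jq U jb ub P)
    (hB : IsChartRed ((ℓ : ℕ) : ↥(GaloisRep.ratLocalizedAt ℓ)) res (ιZl ℓ)
      (algebraMap (ZMod ℓ) (HahnSeries ℤ (ZMod ℓ))) jq U jb ub B red)
    (hgen : ∀ x ∈ modularFunctionFieldFull N, ∃ (g : ℚ[X]) (Q : ℚ[X][X]), g ≠ 0 ∧
      aeval jq g * x = Q.eval₂
        ((aeval jq : ℚ[X] →ₐ[ℚ] LaurentSeries ℚ) : ℚ[X] →+* LaurentSeries ℚ) U)
    {S : Set ↥(modularFunctionFieldFull N)} (hS : S ⊆ {jFull N, (jFull N)⁻¹})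
    (x : ↥(chartAlg N ℓ S)) :
    ((chartToB h hB hgen hS x : B) : LaurentSeries ℚ) =
      valE N (x : ↥(modularFunctionFieldFull N)) := rfl

theorem ker_singleton
    (h : ChartHyp ((ℓ : ℕ) : ↥(GaloisRep.ratLocalizedAt ℓ)) res (ιZl ℓ)
      (algebraMap (ZMod ℓ) (HahnSeries ℤ (ZMod ℓ))) jq U jb ub P)
    (hB : IsChartRed ((ℓ : ℕ) : ↥(GaloisRep.ratLocalizedAt ℓ)) res (ιZl ℓ)
      (algebraMap (ZMod ℓ) (HahnSeries ℤ (ZMod ℓ))) jq U jb ub B red)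
    (hgen : ∀ x ∈ modularFunctionFieldFull N, ∃ (g : ℚ[X]) (Q : ℚ[X][X]), g ≠ 0 ∧
      aeval jq g * x = Q.eval₂
        ((aeval jq : ℚ[X] →ₐ[ℚ] LaurentSeries ℚ) : ℚ[X] →+* LaurentSeries ℚ) U)
    (t : ↥(modularFunctionFieldFull N))
    (htS : ({t} : Set ↥(modularFunctionFieldFull N)) ⊆ {jFull N, (jFull N)⁻¹})
    (τ : LaurentSeries ℚ) (hτ : valE N t = τ)
    (htinj : Function.Injective (ev1 (ιZl ℓ) τ))
    (hF4 : ∀ y ∈ B, ∃ s : (↥(GaloisRep.ratLocalizedAt ℓ))[X],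
      ¬ C ((ℓ : ℕ) : ↥(GaloisRep.ratLocalizedAt ℓ)) ∣ s ∧
        (ev1 (ιZl ℓ) τ).IsIntegralElem (ev1 (ιZl ℓ) τ s * y))
    (x : ↥(chartAlg N ℓ {t})) (hx : red (chartToB h hB hgen htS x) = 0) :
    ∃ y : ↥(chartAlg N ℓ {t}), x = (ℓ : ↥(chartAlg N ℓ {t})) * y := by
  subst hτ
  obtain ⟨y, hy⟩ := hB.exists_eq_mul_of_red_eq_zero h _ hx
  rw [coe_chartToB] at hy
  have hxint : (ev1 (ιZl ℓ) (valE N t)).IsIntegralElem
      (valE N (x : ↥(modularFunctionFieldFull N))) :=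
    isIntegralElem_of_isIntegral_adjoin (valE N) (ιZl ℓ) (valE_comp_algebraMap N ℓ) t x x.2
  obtain ⟨s, hs, hsint⟩ := hF4 y y.2
  have hyint : (ev1 (ιZl ℓ) (valE N t)).IsIntegralElem (y : LaurentSeries ℚ) := by
    refine isIntegralElem_of_mul _ htinj (C ((ℓ : ℕ) : ↥(GaloisRep.ratLocalizedAt ℓ))) s
      (prime_C_iff.mpr h.prime) hs y ?_ hsint
    rw [ev1_C, ← hy]; exact hxint
  have hℓE : ιZl ℓ ((ℓ : ℕ) : ↥(GaloisRep.ratLocalizedAt ℓ)) = ((ℓ : ℕ) : LaurentSeries ℚ) :=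
    map_natCast _ _
  have hℓF : ((ℓ : ℕ) : ↥(modularFunctionFieldFull N)) ≠ 0 :=
    Nat.cast_ne_zero.mpr (Fact.out : ℓ.Prime).ne_zero
  have hℓE0 : ((ℓ : ℕ) : LaurentSeries ℚ) ≠ 0 := by
    have := (map_ne_zero (valE N)).mpr hℓF
    rwa [map_natCast] at this
  have hyF : valE N (((ℓ : ℕ) : ↥(modularFunctionFieldFull N))⁻¹ *
      (x : ↥(modularFunctionFieldFull N))) = y := by
    rw [map_mul, map_inv₀, map_natCast, hy, hℓE, ← mul_assoc, inv_mul_cancel₀ hℓE0, one_mul]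
  have hyFint : IsIntegral (Algebra.adjoin ↥(GaloisRep.ratLocalizedAt ℓ) {t})
      (((ℓ : ℕ) : ↥(modularFunctionFieldFull N))⁻¹ * (x : ↥(modularFunctionFieldFull N))) :=
    isIntegral_adjoin_of_isIntegralElem (valE N) (ιZl ℓ) (valE_injective N)
      (valE_comp_algebraMap N ℓ) t _ (by rw [hyF]; exact hyint)
  refine ⟨⟨_, hyFint⟩, Subtype.ext ?_⟩
  have hcast : (((ℓ : ℕ) : ↥(chartAlg N ℓ {t})) : ↥(modularFunctionFieldFull N)) =
      ((ℓ : ℕ) : ↥(modularFunctionFieldFull N)) := map_natCast (chartAlg N ℓ {t}).val ℓ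
  rw [Subalgebra.coe_mul, hcast, ← mul_assoc, mul_inv_cancel₀ hℓF, one_mul]

theorem ker_mid
    (h : ChartHyp ((ℓ : ℕ) : ↥(GaloisRep.ratLocalizedAt ℓ)) res (ιZl ℓ)
      (algebraMap (ZMod ℓ) (HahnSeries ℤ (ZMod ℓ))) jq U jb ub P)
    (hB : IsChartRed ((ℓ : ℕ) : ↥(GaloisRep.ratLocalizedAt ℓ)) res (ιZl ℓ)
      (algebraMap (ZMod ℓ) (HahnSeries ℤ (ZMod ℓ))) jq U jb ub B red)
    (hgen : ∀ x ∈ modularFunctionFieldFull N, ∃ (g : ℚ[X]) (Q : ℚ[X][X]), g ≠ 0 ∧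
      aeval jq g * x = Q.eval₂
        ((aeval jq : ℚ[X] →ₐ[ℚ] LaurentSeries ℚ) : ℚ[X] →+* LaurentSeries ℚ) U)
    (hFin : ∀ x : ↥(chartAlg N ℓ {jFull N}),
      red (chartToB h hB hgen (sFin_subset N) x) = 0 →
        ∃ y : ↥(chartAlg N ℓ {jFull N}), x = (ℓ : ↥(chartAlg N ℓ {jFull N})) * y)
    (x : ↥(chartAlg N ℓ {jFull N, (jFull N)⁻¹}))
    (hx : red (chartToB h hB hgen subset_rfl x) = 0) :
    ∃ y : ↥(chartAlg N ℓ {jFull N, (jFull N)⁻¹}),
      x = (ℓ : ↥(chartAlg N ℓ {jFull N, (jFull N)⁻¹})) * y := by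
  have hx' : (x : ↥(modularFunctionFieldFull N)) ∈
      chartAlg N ℓ (insert (jFull N)⁻¹ {jFull N}) :=
    chartAlg_mono N ℓ (Set.pair_comm (jFull N) (jFull N)⁻¹).subset x.2
  obtain ⟨n, hn⟩ := exists_pow_mul_mem_chartAlg (Set.mem_singleton _) (jFull_ne_zero N) hx'
  have hz : red (chartToB h hB hgen (sFin_subset N)
      ⟨jFull N ^ n * (x : ↥(modularFunctionFieldFull N)), hn⟩) = 0 := by
    have e : chartToB h hB hgen (sFin_subset N)
        ⟨jFull N ^ n * (x : ↥(modularFunctionFieldFull N)), hn⟩ =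
        (⟨jq, (hB.j_mem h).1⟩ : B) ^ n * chartToB h hB hgen subset_rfl x := by
      apply Subtype.ext
      rw [coe_chartToB, Subring.coe_mul, Subring.coe_pow, coe_chartToB, map_mul, map_pow,
        valE_jFull]
    rw [e, map_mul, hx, mul_zero]
  obtain ⟨w, hw⟩ := hFin _ hz
  have hcast : (((ℓ : ℕ) : ↥(chartAlg N ℓ {jFull N})) : ↥(modularFunctionFieldFull N)) =
      ((ℓ : ℕ) : ↥(modularFunctionFieldFull N)) := map_natCast (chartAlg N ℓ {jFull N}).val ℓ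
  have hcast' : (((ℓ : ℕ) : ↥(chartAlg N ℓ {jFull N, (jFull N)⁻¹})) :
      ↥(modularFunctionFieldFull N)) = ((ℓ : ℕ) : ↥(modularFunctionFieldFull N)) :=
    map_natCast (chartAlg N ℓ {jFull N, (jFull N)⁻¹}).val ℓ
  have hw' : jFull N ^ n * (x : ↥(modularFunctionFieldFull N)) =
      ((ℓ : ℕ) : ↥(modularFunctionFieldFull N)) * (w : ↥(modularFunctionFieldFull N)) := by
    have h1 := congrArg Subtype.val hw
    rwa [Subalgebra.coe_mul, hcast] at h1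
  have hmem : (jFull N)⁻¹ ^ n * (w : ↥(modularFunctionFieldFull N)) ∈
      chartAlg N ℓ {jFull N, (jFull N)⁻¹} :=
    mul_mem (pow_mem (subset_chartAlg N ℓ _ (by simp)) n) (chartAlg_mono N ℓ (sFin_subset N) w.2)
  refine ⟨⟨_, hmem⟩, Subtype.ext ?_⟩
  rw [Subalgebra.coe_mul, hcast']
  have hj0 := jFull_ne_zero N
  calc (x : ↥(modularFunctionFieldFull N))
      = (jFull N)⁻¹ ^ n * (jFull N ^ n * (x : ↥(modularFunctionFieldFull N))) := by
        rw [← mul_assoc, ← mul_pow, inv_mul_cancel₀ hj0, one_pow, one_mul]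
    _ = ((ℓ : ℕ) : ↥(modularFunctionFieldFull N)) *
        ((jFull N)⁻¹ ^ n * (w : ↥(modularFunctionFieldFull N))) := by rw [hw']; ring

/-- **(B2) CHART, final export.**  For each of the three charts, a ring hom
`chartAlg N ℓ S → (ZMod ℓ)((q))` whose kernel is contained in `ℓ · chartAlg N ℓ S`. -/
theorem exists_chart_reduction (N : ℕ) [NeZero N] (ℓ : ℕ) [Fact ℓ.Prime]
    [UniqueFactorizationMonoid ↥(GaloisRep.ratLocalizedAt ℓ)]
    (res : ↥(GaloisRep.ratLocalizedAt ℓ) →+* ZMod ℓ) (U : LaurentSeries ℚ)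
    (jb ub : HahnSeries ℤ (ZMod ℓ)) (P : (↥(GaloisRep.ratLocalizedAt ℓ))[X][X])
    (h : ChartHyp ((ℓ : ℕ) : ↥(GaloisRep.ratLocalizedAt ℓ)) res (ιZl ℓ)
      (algebraMap (ZMod ℓ) (HahnSeries ℤ (ZMod ℓ))) jq U jb ub P)
    (hgen : ∀ x ∈ modularFunctionFieldFull N, ∃ (g : ℚ[X]) (Q : ℚ[X][X]), g ≠ 0 ∧
      aeval jq g * x = Q.eval₂
        ((aeval jq : ℚ[X] →ₐ[ℚ] LaurentSeries ℚ) : ℚ[X] →+* LaurentSeries ℚ) U)
    (S : Set ↥(modularFunctionFieldFull N))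
    (hS : S = {jFull N} ∨ S = {(jFull N)⁻¹} ∨ S = {jFull N, (jFull N)⁻¹}) :
    ∃ ρ : ↥(chartAlg N ℓ S) →+* HahnSeries ℤ (ZMod ℓ),
      ∀ x, ρ x = 0 → ∃ y, x = (ℓ : ↥(chartAlg N ℓ S)) * y := by
  obtain ⟨B, red, hB⟩ := exists_isChartRed h
  have hFin : ∀ x : ↥(chartAlg N ℓ {jFull N}),
      red (chartToB h hB hgen (sFin_subset N) x) = 0 →
        ∃ y : ↥(chartAlg N ℓ {jFull N}), x = (ℓ : ↥(chartAlg N ℓ {jFull N})) * y :=
    fun x hx => ker_singleton h hB hgen (jFull N) (sFin_subset N) jq (valE_jFull N)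
      h.injective_ev1 (fun y hy => (hB.exists_mul_isIntegralElem h y hy).1) x hx
  rcases hS with rfl | rfl | rfl
  · exact ⟨red.comp (chartToB h hB hgen (sFin_subset N)), hFin⟩
  · exact ⟨red.comp (chartToB h hB hgen (sInf_subset N)), fun x hx =>
      ker_singleton h hB hgen (jFull N)⁻¹ (sInf_subset N) jq⁻¹ (valE_jFull_inv N)
        h.injective_ev1_inv (fun y hy => (hB.exists_mul_isIntegralElem h y hy).2) x hx⟩
  · exact ⟨red.comp (chartToB h hB hgen subset_rfl), fun x hx =>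
      ker_mid h hB hgen hFin x hx⟩

end main

end Fermat.Agent.S28.Chart
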