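import Fermat.Agent.S28.GlueK
import Fermat.Agent.S28.Adapter
import Fermat.Agent.S28.ChartBridge

/-!
# S28: assembly of the algebraic blocks

From the two exports of the analytic part, stated over `ℚ((q))`:

* the norm relation `P(jq, incl u) = 0` (`P ∈ ℚ[T][X]` monic of degree `ψ`, degree bounds,
  `ℓ`-integral coefficients, constant term an `ℓ`-unit), `u ∈ ℤ((q))` vanishing below `φ (ψ - 1)`;
* generation: every element of the function field is `Q(jq, incl u) / g(jq)`;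

the base change of the Igusa scheme to a field of characteristic `ℓ` is integral
(`Adapter` → `ChartBridge` → `Glue`).
-/

set_option autoImplicit false

open CategoryTheory CategoryTheory.Limits AlgebraicGeometry
open ModularCurve ModularCurve.IgusaScheme Polynomial

noncomputable section

namespace Fermat.Agent.S28

namespace Assembly

theorem isIntegral_of_relation (N : ℕ) [NeZero N] (ℓ : ℕ) [Fact ℓ.Prime]
    (K : Type) [Field K] [CharP K ℓ] [Algebra ↥(GaloisRep.ratLocalizedAt ℓ) K]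
    {φ ψ : ℕ} (hφ : 0 < φ) (u : LaurentSeries ℤ)
    (hu : ∀ n : ℤ, n < (φ : ℤ) * ((ψ : ℤ) - 1) → u.coeff n = 0)
    (P : ℚ[X][X]) (hP : P.Monic) (hdeg : P.natDegree = ψ)
    (hbound : ∀ i ≤ ψ, (P.coeff i).natDegree ≤ (ψ - i) * φ)
    (c : ℚ) (hc0 : c ≠ 0) (hc : P.coeff 0 = Polynomial.C c)
    (hcinv : c⁻¹ ∈ GaloisRep.ratLocalizedAt ℓ)
    (hint : ∀ i k : ℕ, (P.coeff i).coeff k ∈ GaloisRep.ratLocalizedAt ℓ)
    (hroot : P.eval₂ ((Polynomial.aeval jq : ℚ[X] →ₐ[ℚ] LaurentSeries ℚ) : ℚ[X] →+* LaurentSeries ℚ)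
      (coeffMap (Int.castRingHom ℚ) u) = 0)
    (hgen : ∀ x ∈ modularFunctionFieldFull N, ∃ (g : ℚ[X]) (Q : ℚ[X][X]), g ≠ 0 ∧
      Polynomial.aeval jq g * x = Q.eval₂
        ((Polynomial.aeval jq : ℚ[X] →ₐ[ℚ] LaurentSeries ℚ) : ℚ[X] →+* LaurentSeries ℚ)
        (coeffMap (Int.castRingHom ℚ) u)) :
    IsIntegral (pullback (igusaTo N ℓ)
      (Spec.map (CommRingCat.ofHom (algebraMap ↥(GaloisRep.ratLocalizedAt ℓ) K)))) := by
  have : IsPrincipalIdealRing ↥(GaloisRep.ratLocalizedAt ℓ) := Zl.isPrincipalIdealRing ℓ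
  have : UniqueFactorizationMonoid ↥(GaloisRep.ratLocalizedAt ℓ) := inferInstance
  obtain ⟨Pℓ, -, -, hCH⟩ := Adapter.exists_chartHyp_resZl ℓ hφ u hu P hP hdeg hbound c hc hcinv hc0
    hint hroot (Chart.ιZl ℓ) (algebraMap (ZMod ℓ) (HahnSeries ℤ (ZMod ℓ)))
  obtain ⟨ρFin, hFin⟩ := Chart.exists_chart_reduction N ℓ (Zl.resZl ℓ) _ _ _ Pℓ hCH hgen
    {jFull N} (Or.inl rfl)
  obtain ⟨ρInf, hInf⟩ := Chart.exists_chart_reduction N ℓ (Zl.resZl ℓ) _ _ _ Pℓ hCH hgen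
    {(jFull N)⁻¹} (Or.inr (Or.inl rfl))
  obtain ⟨ρMid, hMid⟩ := Chart.exists_chart_reduction N ℓ (Zl.resZl ℓ) _ _ _ Pℓ hCH hgen
    {jFull N, (jFull N)⁻¹} (Or.inr (Or.inr rfl))
  exact Glue.isIntegral_of_reductions N ℓ K ρFin hFin ρInf hInf ρMid hMid

end Assembly

end Fermat.Agent.S28
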