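import Fermat.Agent.S28.ChartDefs

/-!
# S28, block (B2) CHART: the ring `B = 𝒪_v[U]` and its reduction map (Mathlib only)
-/

set_option linter.unusedSectionVars false

namespace Fermat.Agent.S28.Chart

open Polynomial

variable {A k E Ω : Type*} [CommRing A] [IsDomain A]
  [Field k] [Field E] [Field Ω]
  {π : A} {res : A →+* k} {ιA : A →+* E} {ιk : k →+* Ω} {j U : E} {jb ub : Ω} {P : A[X][X]}

/-- `C π ∣ g` iff `g` reduces to zero. -/
theorem C_dvd_iff_map_eq_zero (hres : ∀ a : A, res a = 0 ↔ π ∣ a) (g : A[X]) :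
    C π ∣ g ↔ g.map res = 0 := by
  rw [C_dvd_iff_dvd_coeff]
  constructor
  · intro h
    ext i
    simp [(hres _).mpr (h i)]
  · intro h i
    rw [← hres, ← coeff_map, h, coeff_zero]

/-- `C (C π) ∣ r` iff `r` reduces to zero. -/
theorem CC_dvd_iff_map_eq_zero (hres : ∀ a : A, res a = 0 ↔ π ∣ a) (r : A[X][X]) :
    C (C π) ∣ r ↔ r.map (mapRingHom res) = 0 := by
  rw [C_dvd_iff_dvd_coeff]
  constructor
  · intro h
    ext1 i
    rw [coeff_map, coeff_zero, coe_mapRingHom, ← C_dvd_iff_map_eq_zero hres]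
    exact h i
  · intro h i
    rw [C_dvd_iff_map_eq_zero hres, ← coe_mapRingHom, ← coeff_map, h, coeff_zero]

theorem ev1_map (g : A[X]) : ev1 ιk jb (g.map res) = eval₂ (ιk.comp res) jb g := by
  rw [ev1_apply, eval₂_map]

/-- reduction followed by evaluation, as a ring hom on `A[X]`. -/
noncomputable def evb1 (res : A →+* k) (ιk : k →+* Ω) (jb : Ω) : A[X] →+* Ω :=
  (ev1 ιk jb).comp (mapRingHom res)

/-- reduction followed by evaluation, as a ring hom on `A[X][X]`. -/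
noncomputable def evb2 (res : A →+* k) (ιk : k →+* Ω) (jb ub : Ω) : A[X][X] →+* Ω :=
  (ev2 ιk jb ub).comp (mapRingHom (mapRingHom res))

theorem evb1_apply (g : A[X]) : evb1 res ιk jb g = ev1 ιk jb (g.map res) := rfl

theorem evb2_apply (r : A[X][X]) :
    evb2 res ιk jb ub r = ev2 ιk jb ub (r.map (mapRingHom res)) := rfl

@[simp] theorem evb2_C (g : A[X]) : evb2 res ιk jb ub (C g) = evb1 res ιk jb g := by
  simp [evb2, evb1]

theorem ev1_ne_zero (h : ChartHyp π res ιA ιk j U jb ub P) {g : A[X]} (hg : ¬ C π ∣ g) :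
    ev1 ιA j g ≠ 0 := fun h0 => hg (by rw [h.transc g h0]; exact dvd_zero _)

theorem evb1_ne_zero (h : ChartHyp π res ιA ιk j U jb ub P) {g : A[X]} (hg : ¬ C π ∣ g) :
    evb1 res ιk jb g ≠ 0 := fun h0 =>
  hg ((C_dvd_iff_map_eq_zero h.res_zero g).mpr (h.transcb _ h0))

/-- the multiplicative set `{C g : g ∉ (π)}` of `A[X][X]`. -/
noncomputable def chartSubmonoid (π : A) (hπ : Prime π) : Submonoid A[X][X] :=
  (Ideal.primeCompl (Ideal.span {(C π : A[X])})
    (hp := (Ideal.span_singleton_prime (by simpa using hπ.ne_zero)).mpr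
      ((prime_C_iff).mpr hπ))).map (C : A[X] →+* A[X][X])

theorem mem_chartSubmonoid (hπ : Prime π) (m : A[X][X]) :
    m ∈ chartSubmonoid π hπ ↔ ∃ g : A[X], ¬ C π ∣ g ∧ C g = m := by
  unfold chartSubmonoid
  rw [Submonoid.mem_map]
  constructor
  · rintro ⟨g, hg, rfl⟩
    refine ⟨g, fun hd => hg ?_, rfl⟩
    exact Ideal.mem_span_singleton.mpr hd
  · rintro ⟨g, hg, rfl⟩
    exact ⟨g, fun hd => hg (Ideal.mem_span_singleton.mp hd), rfl⟩

/-- General form: two ring homs out of `R` inverting `M`, the first with smaller kernel, give a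
subring `B` of the first target (the image of the localisation) with a ring hom to the second. -/
theorem exists_subring_lift {R L E Ω : Type*} [CommRing R] [CommRing L] [Algebra R L]
    (M : Submonoid R) [IsLocalization M L] [Field E] [Field Ω] (f : R →+* E) (g : R →+* Ω)
    (hf : ∀ m : M, IsUnit (f m)) (hg : ∀ m : M, IsUnit (g m))
    (hker : ∀ r : R, f r = 0 → g r = 0) :
    ∃ (B : Subring E) (red : B →+* Ω),
      (∀ (x : E) (r : R) (m : M), f m * x = f r → ∃ hx : x ∈ B, g m * red ⟨x, hx⟩ = g r) ∧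
      (∀ x ∈ B, ∃ (r : R) (m : M), f m * x = f r) := by
  classical
  let fL : L →+* E := IsLocalization.lift (M := M) (S := L) hf
  let gL : L →+* Ω := IsLocalization.lift (M := M) (S := L) hg
  have hfL : ∀ (r : R) (m : M), f m * fL (IsLocalization.mk' L r m) = f r := fun r m =>
    ((IsLocalization.lift_mk'_spec (M := M) (S := L) (g := f) hf r
      (fL (IsLocalization.mk' L r m)) m).mp rfl).symm
  have hgL : ∀ (r : R) (m : M), g m * gL (IsLocalization.mk' L r m) = g r := fun r m =>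
    ((IsLocalization.lift_mk'_spec (M := M) (S := L) (g := g) hg r
      (gL (IsLocalization.mk' L r m)) m).mp rfl).symm
  have hkerL : RingHom.ker fL.rangeRestrict ≤ RingHom.ker gL := by
    intro z hz
    obtain ⟨r, m, rfl⟩ := IsLocalization.exists_mk'_eq M z
    rw [RingHom.mem_ker] at hz ⊢
    have hz' : fL (IsLocalization.mk' L r m) = 0 := congrArg Subtype.val hz
    have h1 : f r = 0 := by rw [← hfL r m, hz', mul_zero]
    have h3 := hgL r m
    rw [hker r h1] at h3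
    exact (mul_eq_zero.mp h3).resolve_left (hg m).ne_zero
  refine ⟨fL.range, RingHom.liftOfSurjective fL.rangeRestrict fL.rangeRestrict_surjective
    ⟨gL, hkerL⟩, ?_, ?_⟩
  · intro x r m hx
    have hxz : fL (IsLocalization.mk' L r m) = x :=
      mul_left_cancel₀ (hf m).ne_zero ((hfL r m).trans hx.symm)
    have hxB : x ∈ fL.range := ⟨_, hxz⟩
    refine ⟨hxB, ?_⟩
    have h3 : (⟨x, hxB⟩ : fL.range) = fL.rangeRestrict (IsLocalization.mk' L r m) :=
      Subtype.ext hxz.symm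
    rw [h3, RingHom.liftOfSurjective_comp_apply]
    exact hgL r m
  · rintro x ⟨z, rfl⟩
    obtain ⟨r, m, rfl⟩ := IsLocalization.exists_mk'_eq M z
    exact ⟨r, m, hfL r m⟩

/-- (Chart/Core) existence of `B = 𝒪_v[U] ⊆ E` with its reduction map to `Ω`. -/
theorem exists_isChartRed (h : ChartHyp π res ιA ιk j U jb ub P) :
    ∃ (B : Subring E) (red : B →+* Ω), IsChartRed π res ιA ιk j U jb ub B red := by
  classical
  have hu1 : ∀ m : chartSubmonoid π h.prime, IsUnit (ev2 ιA j U (m : A[X][X])) := by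
    rintro ⟨m, hm⟩
    obtain ⟨g, hg, rfl⟩ := (mem_chartSubmonoid h.prime m).mp hm
    simpa using (ev1_ne_zero h hg)
  have hu2 : ∀ m : chartSubmonoid π h.prime, IsUnit (evb2 res ιk jb ub (m : A[X][X])) := by
    rintro ⟨m, hm⟩
    obtain ⟨g, hg, rfl⟩ := (mem_chartSubmonoid h.prime m).mp hm
    simpa using (evb1_ne_zero h hg)
  obtain ⟨B, red, h1, h2⟩ := exists_subring_lift (L := Localization (chartSubmonoid π h.prime))
    (chartSubmonoid π h.prime) (ev2 ιA j U) (evb2 res ιk jb ub) hu1 hu2 h.hred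
  refine ⟨B, red, ?_, ?_⟩
  · intro x g r hg hx
    have hm : C g ∈ chartSubmonoid π h.prime := (mem_chartSubmonoid h.prime _).mpr ⟨g, hg, rfl⟩
    obtain ⟨hxB, hr⟩ := h1 x r ⟨C g, hm⟩ (by simpa using hx)
    exact ⟨hxB, by simpa [evb2_apply, evb1_apply] using hr⟩
  · intro x hx
    obtain ⟨r, ⟨m, hm⟩, hr⟩ := h2 x hx
    obtain ⟨g, hg, rfl⟩ := (mem_chartSubmonoid h.prime m).mp hm
    exact ⟨g, r, hg, by simpa using hr⟩

/-! ### Consequences of `IsChartRed` -/

section consequences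

variable {B : Subring E} {red : B →+* Ω}

theorem not_C_dvd_one (h : ChartHyp π res ιA ιk j U jb ub P) : ¬ C π ∣ (1 : A[X]) := fun hd =>
  h.prime.not_isUnit (isUnit_C.mp (isUnit_of_dvd_one hd))

theorem not_C_dvd_X (h : ChartHyp π res ιA ιk j U jb ub P) : ¬ C π ∣ (X : A[X]) := fun hd => by
  have h1 := (C_dvd_iff_dvd_coeff _ _).mp hd 1
  rw [coeff_X_one] at h1
  exact h.prime.not_isUnit (isUnit_of_dvd_one h1)

theorem ChartHyp.j_ne_zero (h : ChartHyp π res ιA ιk j U jb ub P) : j ≠ 0 := fun h0 =>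
  X_ne_zero (h.transc X (by simpa using h0))

theorem ChartHyp.ιπ_ne_zero (h : ChartHyp π res ιA ιk j U jb ub P) : ιA π ≠ 0 := fun h0 =>
  h.prime.ne_zero (C_eq_zero.mp (h.transc (C π) (by simpa using h0)))

theorem ChartHyp.P_ne_one (h : ChartHyp π res ιA ιk j U jb ub P) : P ≠ 1 := fun h1 => by
  have := h.root
  rw [h1, map_one] at this
  exact one_ne_zero this

theorem ChartHyp.ev2_modByMonic (h : ChartHyp π res ιA ιk j U jb ub P) (Q : A[X][X]) :
    ev2 ιA j U (Q %ₘ P) = ev2 ιA j U Q := by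
  conv_rhs => rw [← modByMonic_add_div Q P]
  rw [map_add, map_mul, h.root, zero_mul, add_zero]

/-- every `r(j,U)` lies in `B`, and `red` is the obvious thing there. -/
theorem IsChartRed.ev2_mem (h : ChartHyp π res ιA ιk j U jb ub P)
    (hB : IsChartRed π res ιA ιk j U jb ub B red) (r : A[X][X]) :
    ∃ hx : ev2 ιA j U r ∈ B, red ⟨_, hx⟩ = evb2 res ιk jb ub r := by
  obtain ⟨hx, hr⟩ := hB.mem_red (ev2 ιA j U r) 1 r (not_C_dvd_one h) (by simp)
  exact ⟨hx, by simpa [evb2_apply] using hr⟩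

theorem IsChartRed.ι_mem (h : ChartHyp π res ιA ιk j U jb ub P)
    (hB : IsChartRed π res ιA ιk j U jb ub B red) (a : A) :
    ∃ hx : ιA a ∈ B, red ⟨_, hx⟩ = ιk (res a) := by
  obtain ⟨hx, hr⟩ := hB.ev2_mem h (C (C a))
  have h1 : ev2 ιA j U (C (C a)) = ιA a := by simp
  have h2 : evb2 res ιk jb ub (C (C a)) = ιk (res a) := by simp [evb1_apply]
  rw [h2] at hr
  exact ⟨h1 ▸ hx, by rw [← hr]; congr 1; exact Subtype.ext h1.symm⟩

theorem IsChartRed.j_mem (h : ChartHyp π res ιA ιk j U jb ub P)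
    (hB : IsChartRed π res ιA ιk j U jb ub B red) :
    ∃ hx : j ∈ B, red ⟨_, hx⟩ = jb := by
  obtain ⟨hx, hr⟩ := hB.ev2_mem h (C X)
  have h1 : ev2 ιA j U (C X) = j := by simp
  have h2 : evb2 res ιk jb ub (C X) = jb := by simp [evb1_apply]
  rw [h2] at hr
  exact ⟨h1 ▸ hx, by rw [← hr]; congr 1; exact Subtype.ext h1.symm⟩

theorem IsChartRed.inv_j_mem (h : ChartHyp π res ιA ιk j U jb ub P)
    (hB : IsChartRed π res ιA ιk j U jb ub B red) : j⁻¹ ∈ B := by
  obtain ⟨hx, -⟩ := hB.mem_red j⁻¹ X 1 (not_C_dvd_X h) (by simp [h.j_ne_zero])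
  exact hx

theorem IsChartRed.red_π (h : ChartHyp π res ιA ιk j U jb ub P)
    (hB : IsChartRed π res ιA ιk j U jb ub B red) (hx : ιA π ∈ B) : red ⟨ιA π, hx⟩ = 0 := by
  obtain ⟨hx', hr⟩ := hB.ι_mem h π
  rw [show (⟨ιA π, hx⟩ : B) = ⟨ιA π, hx'⟩ from rfl, hr, (h.res_zero π).mpr dvd_rfl, map_zero]

/-- (Chart/F1): the kernel of `red` is `π B`. -/
theorem IsChartRed.exists_eq_mul_of_red_eq_zero (h : ChartHyp π res ιA ιk j U jb ub P)
    (hB : IsChartRed π res ιA ιk j U jb ub B red) (x : B) (hx : red x = 0) :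
    ∃ y : B, (x : E) = ιA π * (y : E) := by
  obtain ⟨g, r, hg, hgr⟩ := hB.exists_rep x x.2
  have hdeg : (r %ₘ P).natDegree < P.natDegree := natDegree_modByMonic_lt r h.monic h.P_ne_one
  obtain ⟨hxB, hred1⟩ := hB.mem_red x g (r %ₘ P) hg (by rw [hgr, h.ev2_modByMonic])
  have h0 : ev2 ιk jb ub ((r %ₘ P).map (mapRingHom res)) = 0 := by
    rw [← hred1, show (⟨(x : E), hxB⟩ : B) = x from rfl, hx, mul_zero]
  have hz : (r %ₘ P).map (mapRingHom res) = 0 :=
    h.hmin _ (lt_of_le_of_lt natDegree_map_le hdeg) h0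
  obtain ⟨r₂, hr₂⟩ := (CC_dvd_iff_map_eq_zero h.res_zero _).mpr hz
  have hgj : ev1 ιA j g ≠ 0 := ev1_ne_zero h hg
  obtain ⟨hyB, -⟩ := hB.mem_red (ev2 ιA j U r₂ / ev1 ιA j g) g r₂ hg (by field_simp)
  refine ⟨⟨_, hyB⟩, ?_⟩
  have h1 : ev1 ιA j g * (x : E) = ιA π * ev2 ιA j U r₂ := by
    rw [hgr, ← h.ev2_modByMonic, hr₂, map_mul]; simp
  show (x : E) = ιA π * (ev2 ιA j U r₂ / ev1 ιA j g)
  field_simp
  linear_combination h1

end consequences

section closed

variable [UniqueFactorizationMonoid A] {B : Subring E} {red : B →+* Ω}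

/-- (Chart/F3): `B` is integrally closed in `Frac(A)(j)[U]`. -/
theorem IsChartRed.mem_of_isIntegralElem (h : ChartHyp π res ιA ιk j U jb ub P)
    (hB : IsChartRed π res ιA ιk j U jb ub B red) (x : E)
    (hgen : ∃ (g : A[X]) (Q : A[X][X]), g ≠ 0 ∧ ev1 ιA j g * x = ev2 ιA j U Q)
    (hint : B.subtype.IsIntegralElem x) : x ∈ B := by
  obtain ⟨g, Q, hg0, hgQ⟩ := hgen
  have hdeg : (Q %ₘ P).natDegree < P.natDegree := natDegree_modByMonic_lt Q h.monic h.P_ne_one
  by_cases hr0 : Q %ₘ P = 0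
  · have h1 : ev1 ιA j g * x = 0 := by rw [hgQ, ← h.ev2_modByMonic, hr0, map_zero]
    have hx0 : x = 0 := (mul_eq_zero.mp h1).resolve_left (fun h0 => hg0 (h.transc g h0))
    rw [hx0]; exact B.zero_mem
  have hCπ : Prime (C π : A[X]) := prime_C_iff.mpr h.prime
  have hCCπ : Prime (C (C π) : A[X][X]) := prime_C_iff.mpr hCπ
  obtain ⟨a, g₀, hg₀, hga⟩ := WfDvdMonoid.max_power_factor hg0 hCπ.irreducible
  obtain ⟨b, r₀, hr₀, hrb⟩ := WfDvdMonoid.max_power_factor hr0 hCCπ.irreducible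
  have hg₀j : ev1 ιA j g₀ ≠ 0 := ev1_ne_zero h hg₀
  obtain ⟨hyB, hyred⟩ := hB.mem_red (ev2 ιA j U r₀ / ev1 ιA j g₀) g₀ r₀ hg₀ (by field_simp)
  set y := ev2 ιA j U r₀ / ev1 ιA j g₀ with hy
  have hr₀deg : r₀.natDegree < P.natDegree := by
    have h1 : (Q %ₘ P).natDegree = r₀.natDegree := by
      rw [hrb, ← C_pow, natDegree_C_mul (pow_ne_zero _ hCπ.ne_zero)]
    omega
  have hredy : red ⟨y, hyB⟩ ≠ 0 := by
    intro h0
    rw [h0, mul_zero] at hyred
    exact hr₀ ((CC_dvd_iff_map_eq_zero h.res_zero r₀).mpr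
      (h.hmin _ (lt_of_le_of_lt natDegree_map_le hr₀deg) hyred.symm))
  have hπ0 : ιA π ≠ 0 := h.ιπ_ne_zero
  obtain ⟨hπB, hredπ⟩ := hB.ι_mem h π
  have hrel : ιA π ^ a * x = ιA π ^ b * y := by
    have h1 : ev1 ιA j g = ιA π ^ a * ev1 ιA j g₀ := by rw [hga]; simp
    have h2 : ev2 ιA j U (Q %ₘ P) = ιA π ^ b * ev2 ιA j U r₀ := by rw [hrb]; simp
    have h3 : ev1 ιA j g₀ * (ιA π ^ a * x) = ev1 ιA j g₀ * (ιA π ^ b * y) := by
      have h4 : ev1 ιA j g₀ * y = ev2 ιA j U r₀ := by rw [hy]; field_simp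
      calc ev1 ιA j g₀ * (ιA π ^ a * x) = ev1 ιA j g * x := by rw [h1]; ring
        _ = ιA π ^ b * ev2 ιA j U r₀ := by rw [hgQ, ← h.ev2_modByMonic, h2]
        _ = ev1 ιA j g₀ * (ιA π ^ b * y) := by rw [← h4]; ring
    exact mul_left_cancel₀ hg₀j h3
  rcases le_or_gt a b with hab | hab
  · have hx : x = ιA π ^ (b - a) * y := by
      have h1 : ιA π ^ a * x = ιA π ^ a * (ιA π ^ (b - a) * y) := by
        rw [← mul_assoc, ← pow_add, Nat.add_sub_cancel' hab]; exact hrel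
      exact mul_left_cancel₀ (pow_ne_zero _ hπ0) h1
    rw [hx]; exact B.mul_mem (B.pow_mem hπB _) hyB
  · exfalso
    have hc : 0 < a - b := by omega
    have hyx : y = ιA π ^ (a - b) * x := by
      have h1 : ιA π ^ b * y = ιA π ^ b * (ιA π ^ (a - b) * x) := by
        rw [← mul_assoc, ← pow_add, Nat.add_sub_cancel' hab.le]; exact hrel.symm
      exact mul_left_cancel₀ (pow_ne_zero _ hπ0) h1
    obtain ⟨p, hpm, hpx⟩ := hint
    set s : B := ⟨ιA π, hπB⟩ ^ (a - b) with hs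
    have hsv : B.subtype s = ιA π ^ (a - b) := by simp [hs]
    have h1 : eval₂ B.subtype (B.subtype s * x) (scaleRoots p s) = 0 := by
      rw [scaleRoots_eval₂_mul, hpx, mul_zero]
    rw [hsv, ← hyx] at h1
    have h3 : eval (⟨y, hyB⟩ : B) (scaleRoots p s) = 0 := by
      apply Subtype.ext
      have h2 := eval₂_at_apply (p := scaleRoots p s) B.subtype (⟨y, hyB⟩ : B)
      exact h2.symm.trans h1
    have hreds : red s = 0 := by rw [hs, map_pow, hB.red_π h hπB, zero_pow hc.ne']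
    have h4 : eval (red ⟨y, hyB⟩) ((scaleRoots p s).map red) = 0 := by
      rw [eval_map, eval₂_at_apply, h3, map_zero]
    rw [map_scaleRoots _ _ _ (by rw [hpm.leadingCoeff, map_one]; exact one_ne_zero), hreds,
      scaleRoots_zero, (hpm.map red).leadingCoeff, one_smul, eval_pow, eval_X] at h4
    exact hredy (eq_zero_of_pow_eq_zero h4)

end closed

end Fermat.Agent.S28.Chart
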