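/-
S28, block (C): scheme-theoretic gluing.

The Igusa scheme is glued from the two charts `Spec (chartAlgFin)`, `Spec (chartAlgInf)` along
`Spec (chartAlgMid)`.  Its base change to a field `K` is therefore covered by the spectra of the
three tensor products `chartAlg_? ⊗ K`; if these are domains, the base change is integral.
-/
import Mathlib
import Fermat.Prelude.Def_ModularCurve_IgusaScheme

set_option autoImplicit false

open CategoryTheory CategoryTheory.Limits AlgebraicGeometry TensorProduct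
open ModularCurve ModularCurve.IgusaScheme

noncomputable section

namespace Fermat.Agent.S28

namespace Glue

/-- A space covered by two irreducible sets which both contain a common irreducible open set
is irreducible. -/
theorem isIrreducible_univ_of_cover {X : Type*} [TopologicalSpace X] {U V W : Set X}
    (hU : IsIrreducible U) (hV : IsIrreducible V) (hW : IsIrreducible W)
    (hWo : IsOpen W) (hWU : W ⊆ U) (hWV : W ⊆ V) (hcov : U ∪ V = Set.univ) :
    IsIrreducible (Set.univ : Set X) := by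
  obtain ⟨x, hx⟩ := hW.nonempty
  have h1 : U ⊆ closure W :=
    (subset_closure_inter_of_isPreirreducible_of_isOpen hU.isPreirreducible hWo
      ⟨x, hWU hx, hx⟩).trans (closure_mono Set.inter_subset_right)
  have h2 : V ⊆ closure W :=
    (subset_closure_inter_of_isPreirreducible_of_isOpen hV.isPreirreducible hWo
      ⟨x, hWV hx, hx⟩).trans (closure_mono Set.inter_subset_right)
  have h3 : closure W = Set.univ :=
    Set.eq_univ_of_univ_subset (hcov ▸ Set.union_subset h1 h2)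
  exact h3 ▸ hW.closure

/-- The range of a morphism from an integral scheme is an irreducible set. -/
theorem isIrreducible_range {X Y : Scheme} (f : X ⟶ Y) [IsIntegral X] :
    IsIrreducible (Set.range f.base) := by
  rw [← Set.image_univ]
  exact (IrreducibleSpace.isIrreducible_univ X).image _ f.continuous.continuousOn

/-- A scheme with an open cover by integral schemes, in which one member maps into two others
which together cover everything, is integral. -/
theorem isIntegral_of_openCover {P : Scheme} (𝒱 : P.OpenCover) [∀ i, IsIntegral (𝒱.X i)]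
    (i₀ i₁ i₂ : 𝒱.I₀)
    (h₁ : Set.range (𝒱.f i₀).base ⊆ Set.range (𝒱.f i₁).base)
    (h₂ : Set.range (𝒱.f i₀).base ⊆ Set.range (𝒱.f i₂).base)
    (hcov : Set.range (𝒱.f i₁).base ∪ Set.range (𝒱.f i₂).base = Set.univ) :
    IsIntegral P := by
  have : IsReduced P := IsReduced.of_openCover P 𝒱
  have : IrreducibleSpace P :=
    (irreducibleSpace_def P).mpr
      (isIrreducible_univ_of_cover (isIrreducible_range (𝒱.f i₁)) (isIrreducible_range (𝒱.f i₂))
        (isIrreducible_range (𝒱.f i₀)) (𝒱.f i₀).isOpenEmbedding.isOpen_range h₁ h₂ hcov)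
  exact isIntegral_of_irreducibleSpace_of_isReduced P

/-- If a member of an open cover factors through another member, the same holds for the induced
cover of a fibre product. -/
theorem range_openCoverOfLeft_subset {X Y Z : Scheme.{0}} (𝒰 : X.OpenCover) (f : X ⟶ Z)
    (g : Y ⟶ Z) (i j : 𝒰.I₀) (t : 𝒰.X i ⟶ 𝒰.X j) (ht : t ≫ 𝒰.f j = 𝒰.f i) :
    Set.range ((Scheme.Pullback.openCoverOfLeft 𝒰 f g).f i).base ⊆
      Set.range ((Scheme.Pullback.openCoverOfLeft 𝒰 f g).f j).base := by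
  have hfac : pullback.map (𝒰.f i ≫ f) g f g (𝒰.f i) (𝟙 Y) (𝟙 Z) (by simp) (by simp) =
      pullback.map (𝒰.f i ≫ f) g (𝒰.f j ≫ f) g t (𝟙 _) (𝟙 _)
        (by rw [Category.comp_id, ← ht, Category.assoc]) (by simp) ≫
        pullback.map (𝒰.f j ≫ f) g f g (𝒰.f j) (𝟙 Y) (𝟙 Z) (by simp) (by simp) := by
    apply pullback.hom_ext
    · simp only [pullback.map, Category.assoc, pullback.lift_fst, pullback.lift_fst_assoc, ht]
    · simp only [pullback.map, Category.assoc, pullback.lift_snd, Category.comp_id]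
  show Set.range (pullback.map (𝒰.f i ≫ f) g f g (𝒰.f i) (𝟙 Y) (𝟙 Z) (by simp) (by simp)).base ⊆
    Set.range (pullback.map (𝒰.f j ≫ f) g f g (𝒰.f j) (𝟙 Y) (𝟙 Z) (by simp) (by simp)).base
  rw [hfac]
  rintro _ ⟨y, rfl⟩
  exact ⟨_, rfl⟩

section Igusa

variable (N : ℕ) [NeZero N] (ℓ : ℕ) [Fact ℓ.Prime]

/-- The three-member open cover of the Igusa scheme by its charts. -/
def cov : (ModularCurve.IgusaScheme N ℓ).OpenCover :=
  Scheme.IsLocallyDirected.openCover (span (fFin N ℓ) (fInf N ℓ))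

theorem cov_f_left : (cov N ℓ).f WalkingSpan.left = ιFin N ℓ := rfl

theorem cov_f_right : (cov N ℓ).f WalkingSpan.right = ιInf N ℓ := rfl

theorem cov_f_zero : (cov N ℓ).f WalkingSpan.zero = fFin N ℓ ≫ ιFin N ℓ :=
  (colimit.w (span (fFin N ℓ) (fInf N ℓ)) WalkingSpan.Hom.fst).symm

set_option quotPrecheck false in
local notation "ℤℓ" => ↥(GaloisRep.ratLocalizedAt ℓ)

theorem cov_left_igusaTo : (cov N ℓ).f WalkingSpan.left ≫ igusaTo N ℓ =
    Spec.map (CommRingCat.ofHom (algebraMap ℤℓ (chartAlgFin N ℓ))) :=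
  ιFin_igusaTo N ℓ

theorem cov_right_igusaTo : (cov N ℓ).f WalkingSpan.right ≫ igusaTo N ℓ =
    Spec.map (CommRingCat.ofHom (algebraMap ℤℓ (chartAlgInf N ℓ))) :=
  ιInf_igusaTo N ℓ

theorem cov_zero_igusaTo : (cov N ℓ).f WalkingSpan.zero ≫ igusaTo N ℓ =
    Spec.map (CommRingCat.ofHom (algebraMap ℤℓ (chartAlgMid N ℓ))) := by
  have h1 : (cov N ℓ).f WalkingSpan.zero ≫ igusaTo N ℓ = (fFin N ℓ ≫ ιFin N ℓ) ≫ igusaTo N ℓ :=
    congrArg (fun t => t ≫ igusaTo N ℓ) (cov_f_zero N ℓ)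
  have h2 : (fFin N ℓ ≫ ιFin N ℓ) ≫ igusaTo N ℓ =
      fFin N ℓ ≫ Spec.map (CommRingCat.ofHom (algebraMap ℤℓ (chartAlgFin N ℓ))) := by
    rw [Category.assoc, ιFin_igusaTo]
  have h3 : fFin N ℓ ≫ Spec.map (CommRingCat.ofHom (algebraMap ℤℓ (chartAlgFin N ℓ))) =
      Spec.map (CommRingCat.ofHom (algebraMap ℤℓ (chartAlgMid N ℓ))) := by
    rw [← Spec.map_comp, ← CommRingCat.ofHom_comp]
    rfl
  exact h1.trans (h2.trans h3)

variable (K : Type) [Field K] [Algebra ↥(GaloisRep.ratLocalizedAt ℓ) K]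

/-- A chart of the base change is the spectrum of a tensor product. -/
def chartIso (R : Type) [CommRing R] [Algebra ℤℓ R]
    (c : Spec (CommRingCat.of R) ⟶ ModularCurve.IgusaScheme N ℓ)
    (h : c ≫ igusaTo N ℓ = Spec.map (CommRingCat.ofHom (algebraMap ℤℓ R))) :
    pullback (c ≫ igusaTo N ℓ) (Spec.map (CommRingCat.ofHom (algebraMap ℤℓ K))) ≅
      Spec (CommRingCat.of (R ⊗[ℤℓ] K)) :=
  pullback.congrHom h rfl ≪≫ pullbackSpecIso ℤℓ R K

theorem isIntegral_chart (R : Type) [CommRing R] [Algebra ℤℓ R]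
    (c : Spec (CommRingCat.of R) ⟶ ModularCurve.IgusaScheme N ℓ)
    (h : c ≫ igusaTo N ℓ = Spec.map (CommRingCat.ofHom (algebraMap ℤℓ R)))
    [IsDomain (R ⊗[ℤℓ] K)] :
    IsIntegral (pullback (c ≫ igusaTo N ℓ) (Spec.map (CommRingCat.ofHom (algebraMap ℤℓ K)))) :=
  IsIntegral.of_isIso (chartIso N ℓ K R c h).inv

theorem isIntegral_pullback_igusaTo
    [IsDomain (chartAlgFin N ℓ ⊗[ℤℓ] K)] [IsDomain (chartAlgInf N ℓ ⊗[ℤℓ] K)]
    [IsDomain (chartAlgMid N ℓ ⊗[ℤℓ] K)] :
    IsIntegral (pullback (igusaTo N ℓ) (Spec.map (CommRingCat.ofHom (algebraMap ℤℓ K)))) := by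
  have hint : ∀ i, IsIntegral ((Scheme.Pullback.openCoverOfLeft (cov N ℓ) (igusaTo N ℓ)
      (Spec.map (CommRingCat.ofHom (algebraMap ℤℓ K)))).X i) := by
    intro i
    rcases i with (_ | _ | _)
    · exact isIntegral_chart N ℓ K (chartAlgMid N ℓ) ((cov N ℓ).f WalkingSpan.zero)
        (cov_zero_igusaTo N ℓ)
    · exact isIntegral_chart N ℓ K (chartAlgFin N ℓ) ((cov N ℓ).f WalkingSpan.left)
        (cov_left_igusaTo N ℓ)
    · exact isIntegral_chart N ℓ K (chartAlgInf N ℓ) ((cov N ℓ).f WalkingSpan.right)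
        (cov_right_igusaTo N ℓ)
  have h₁ := range_openCoverOfLeft_subset (cov N ℓ) (igusaTo N ℓ)
    (Spec.map (CommRingCat.ofHom (algebraMap ℤℓ K))) WalkingSpan.zero WalkingSpan.left
    (fFin N ℓ) (cov_f_zero N ℓ).symm
  have h₂ := range_openCoverOfLeft_subset (cov N ℓ) (igusaTo N ℓ)
    (Spec.map (CommRingCat.ofHom (algebraMap ℤℓ K))) WalkingSpan.zero WalkingSpan.right
    (fInf N ℓ) ((cov_f_zero N ℓ).trans (glue_condition N ℓ)).symm
  refine isIntegral_of_openCover (Scheme.Pullback.openCoverOfLeft (cov N ℓ) (igusaTo N ℓ)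
      (Spec.map (CommRingCat.ofHom (algebraMap ℤℓ K)))) WalkingSpan.zero WalkingSpan.left
      WalkingSpan.right h₁ h₂ ?_
  refine Set.eq_univ_of_forall fun x => ?_
  obtain ⟨i, y, hy⟩ := (Scheme.Pullback.openCoverOfLeft (cov N ℓ) (igusaTo N ℓ)
      (Spec.map (CommRingCat.ofHom (algebraMap ℤℓ K)))).exists_eq x
  rcases i with (_ | _ | _)
  · exact Or.inl (h₁ ⟨y, hy⟩)
  · exact Or.inl ⟨y, hy⟩
  · exact Or.inr ⟨y, hy⟩

end Igusa

end Glue

end Fermat.Agent.S28
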