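/-
S28: adapters between block (C) `Glue.lean` (tensor order `R ⊗ K`, as produced by
`pullbackSpecIso`) and block (B3) `Tensor.lean` (tensor order `K ⊗ R`).

Final statement `isIntegral_of_reductions`: the base change of the Igusa scheme to a field `K`
of characteristic `ℓ` is integral as soon as each of the three chart rings has a ring
homomorphism to `𝔽_ℓ((q))` whose kernel is contained in `ℓ ·` (the chart ring).
-/
import Fermat.Agent.S28.Glue
import Fermat.Agent.S28.Tensor

set_option autoImplicit false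

open CategoryTheory CategoryTheory.Limits AlgebraicGeometry TensorProduct
open ModularCurve ModularCurve.IgusaScheme

noncomputable section

namespace Fermat.Agent.S28

namespace Glue

variable (N : ℕ) [NeZero N] (ℓ : ℕ) [Fact ℓ.Prime]

set_option quotPrecheck false in
local notation "ℤℓ" => ↥(GaloisRep.ratLocalizedAt ℓ)

variable (K : Type) [Field K] [Algebra ↥(GaloisRep.ratLocalizedAt ℓ) K]

omit [Fact ℓ.Prime] in
/-- Swapping the tensor factors preserves being a domain. -/
theorem isDomain_tensor_comm (R : Type) [CommRing R] [Algebra ℤℓ R] [IsDomain (K ⊗[ℤℓ] R)] :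
    IsDomain (R ⊗[ℤℓ] K) :=
  (Algebra.TensorProduct.comm ℤℓ R K).toMulEquiv.isDomain (K ⊗[ℤℓ] R)

/-- `Glue.isIntegral_pullback_igusaTo` with the field on the left of the tensor products. -/
theorem isIntegral_pullback_igusaTo'
    [IsDomain (K ⊗[ℤℓ] chartAlgFin N ℓ)] [IsDomain (K ⊗[ℤℓ] chartAlgInf N ℓ)]
    [IsDomain (K ⊗[ℤℓ] chartAlgMid N ℓ)] :
    IsIntegral (pullback (igusaTo N ℓ) (Spec.map (CommRingCat.ofHom (algebraMap ℤℓ K)))) := by
  have := isDomain_tensor_comm ℓ K (chartAlgFin N ℓ)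
  have := isDomain_tensor_comm ℓ K (chartAlgInf N ℓ)
  have := isDomain_tensor_comm ℓ K (chartAlgMid N ℓ)
  exact isIntegral_pullback_igusaTo N ℓ K

/-- The base change of the Igusa scheme to a field of characteristic `ℓ` is integral as soon as
each chart ring has a ring homomorphism to `𝔽_ℓ((q))` with kernel inside `ℓ ·` (chart ring). -/
theorem isIntegral_of_reductions [CharP K ℓ]
    (ρFin : ↥(chartAlgFin N ℓ) →+* HahnSeries ℤ (ZMod ℓ))
    (hFin : ∀ x, ρFin x = 0 → ∃ y, x = (ℓ : ↥(chartAlgFin N ℓ)) * y)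
    (ρInf : ↥(chartAlgInf N ℓ) →+* HahnSeries ℤ (ZMod ℓ))
    (hInf : ∀ x, ρInf x = 0 → ∃ y, x = (ℓ : ↥(chartAlgInf N ℓ)) * y)
    (ρMid : ↥(chartAlgMid N ℓ) →+* HahnSeries ℤ (ZMod ℓ))
    (hMid : ∀ x, ρMid x = 0 → ∃ y, x = (ℓ : ↥(chartAlgMid N ℓ)) * y) :
    IsIntegral (pullback (igusaTo N ℓ) (Spec.map (CommRingCat.ofHom (algebraMap ℤℓ K)))) := by
  have := Tensor.isDomain_tensor_of_ker_le K ρFin hFin
  have := Tensor.isDomain_tensor_of_ker_le K ρInf hInf
  have := Tensor.isDomain_tensor_of_ker_le K ρMid hMid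
  exact isIntegral_pullback_igusaTo' N ℓ K

end Glue

end Fermat.Agent.S28
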