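import Fermat.Agent.S28.ChartBridge
import Fermat.Agent.S28.GlueK
import Fermat.Agent.S28.RedHyp
import Fermat.Agent.S28.Zl

/-!
# S28: from the norm relation over `ℚ` + generation to the integrality of the fibre

Assembly of Chart (B2) + Tensor (B3) + Glue (C) + the `ChartHyp` adapter `RedHyp`:
the only remaining inputs are the analytic statements of block (A), in the shapes of
`AFinal.exists_relation` (norm relation of the unit with `ℓ`-integral coefficients) and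
`GenQ.generation` (the function field is generated by `j` and the unit over `ℚ(j)`).
-/

set_option autoImplicit false

open AlgebraicGeometry CategoryTheory CategoryTheory.Limits ModularCurve ModularCurve.IgusaScheme
open Polynomial

namespace Fermat.Agent.S28.Chart

theorem ιZl_apply (ℓ : ℕ) (a : ↥(GaloisRep.ratLocalizedAt ℓ)) :
    ιZl ℓ a = HahnSeries.C (a : ℚ) := by
  show algebraMap ℚ (LaurentSeries ℚ) (a : ℚ) = _
  rw [RedHyp.algebraMap_eq_C]

/-- **S28 from block (A).**  Given a formal unit `u ∈ ℤ((q))` vanishing to order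
`≥ φ (ψ - 1)`, a monic relation `P(jq, u) = 0` over `ℚ` of degree `ψ` with the Newton degree
bounds, `ℓ`-integral coefficients and `ℓ`-unit constant term, and generation of the function
field of `X₀(N)` by `jq` and `u`, the fibre of the Igusa scheme over any field of
characteristic `ℓ` is integral. -/
theorem isIntegral_of_relation (N : ℕ) [NeZero N] (ℓ : ℕ) [Fact ℓ.Prime]
    (K : Type) [Field K] [CharP K ℓ] [Algebra ↥(GaloisRep.ratLocalizedAt ℓ) K]
    {φ ψ : ℕ} (hφ : 0 < φ) (u : LaurentSeries ℤ)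
    (hu : ∀ n : ℤ, n < (φ : ℤ) * ((ψ : ℤ) - 1) → u.coeff n = 0)
    (P : ℚ[X][X]) (hP : P.Monic) (hdeg : P.natDegree = ψ)
    (hbound : ∀ i ≤ ψ, (P.coeff i).natDegree ≤ (ψ - i) * φ)
    (hc : ∃ c : ℚ, c ≠ 0 ∧ P.coeff 0 = C c ∧ c⁻¹ ∈ GaloisRep.ratLocalizedAt ℓ)
    (hcoef : ∀ i m : ℕ, (P.coeff i).coeff m ∈ GaloisRep.ratLocalizedAt ℓ)
    (hroot : P.eval₂ ((aeval jq : ℚ[X] →ₐ[ℚ] LaurentSeries ℚ) : ℚ[X] →+* LaurentSeries ℚ)
      (coeffMap (Int.castRingHom ℚ) u) = 0)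
    (hgen : ∀ x ∈ modularFunctionFieldFull N, ∃ (g : ℚ[X]) (Q : ℚ[X][X]), g ≠ 0 ∧
      aeval jq g * x = Q.eval₂
        ((aeval jq : ℚ[X] →ₐ[ℚ] LaurentSeries ℚ) : ℚ[X] →+* LaurentSeries ℚ)
        (coeffMap (Int.castRingHom ℚ) u)) :
    IsIntegral ↑(pullback (igusaTo N ℓ)
      (Spec.map (CommRingCat.ofHom (algebraMap ↥(GaloisRep.ratLocalizedAt ℓ) K)))) := by
  obtain ⟨Pℓ, -, -, h⟩ := RedHyp.exists_chartHyp ℓ ((ℓ : ℕ) : ↥(GaloisRep.ratLocalizedAt ℓ))
    (Zl.resZl ℓ) (Zl.prime_ell ℓ) (Zl.resZl_eq_zero_iff ℓ) (ιZl ℓ) (ιZl_apply ℓ)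
    (algebraMap (ZMod ℓ) (LaurentSeries (ZMod ℓ)))
    (fun c => by rw [RedHyp.algebraMap_eq_C]) hφ u hu P hP hdeg hbound hc hcoef hroot
  obtain ⟨ρFin, hFin⟩ := exists_chart_reduction N ℓ _ _ _ _ Pℓ h hgen {jFull N} (Or.inl rfl)
  obtain ⟨ρInf, hInf⟩ := exists_chart_reduction N ℓ _ _ _ _ Pℓ h hgen {(jFull N)⁻¹}
    (Or.inr (Or.inl rfl))
  obtain ⟨ρMid, hMid⟩ := exists_chart_reduction N ℓ _ _ _ _ Pℓ h hgen
    {jFull N, (jFull N)⁻¹} (Or.inr (Or.inr rfl))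
  exact Glue.isIntegral_of_reductions N ℓ K ρFin hFin ρInf hInf ρMid hMid

end Fermat.Agent.S28.Chart
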