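import Mathlib
import Fermat.Agent.S24.NormPoly

/-!
# S28, package Transfer: from relations among functions to relations among `q`-expansions

A polynomial relation over `ℂ[j]` among weakly holomorphic `1`-periodic functions on the upper
half plane passes to the Laurent `q`-expansions, where `j` becomes the formal series `Jser ℂ 1`.
-/

set_option autoImplicit false

open UpperHalfPlane ModularForm EisensteinSeries ModularCurve
open scoped MatrixGroups Real Manifold

namespace Fermat.Agent.S28.Transfer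

open Fermat.Agent.S23 Fermat.Agent.S24

theorem isWH_one_jFun : IsWH 1 jFun := by
  have h := isWH_jd (d := 1) one_pos
  rwa [jd_one] at h

theorem qLaurent_one_jFun : qLaurent 1 jFun = Jser ℂ 1 := by
  have h := qLaurent_jd (d := 1) one_pos
  rwa [jd_one] at h

/-- The `q`-expansion homomorphism turns evaluation at `jFun` into evaluation at `Jser ℂ 1`. -/
theorem qL_comp_aeval_jFun :
    (qL 1 one_pos).toRingHom.comp
        (Polynomial.aeval (⟨jFun, isWH_one_jFun⟩ : WH 1 one_pos) :
          Polynomial ℂ →ₐ[ℂ] WH 1 one_pos).toRingHom =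
      (Polynomial.aeval (Jser ℂ 1) : Polynomial ℂ →ₐ[ℂ] LaurentSeries ℂ).toRingHom := by
  have e3 : (Polynomial.aeval (Jser ℂ 1) : Polynomial ℂ →ₐ[ℂ] LaurentSeries ℂ) =
      (qL 1 one_pos).comp (Polynomial.aeval (⟨jFun, isWH_one_jFun⟩ : WH 1 one_pos)) := by
    rw [← Polynomial.aeval_algHom]
    congr 1
    rw [qL_apply]
    exact qLaurent_one_jFun.symm
  rw [e3]
  rfl

theorem val_comp_aeval_jFun :
    (WH 1 one_pos).val.toRingHom.comp
        (Polynomial.aeval (⟨jFun, isWH_one_jFun⟩ : WH 1 one_pos) :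
          Polynomial ℂ →ₐ[ℂ] WH 1 one_pos).toRingHom =
      (Polynomial.aeval jFun : Polynomial ℂ →ₐ[ℂ] (ℍ → ℂ)).toRingHom := by
  have e3 : (Polynomial.aeval jFun : Polynomial ℂ →ₐ[ℂ] (ℍ → ℂ)) =
      (WH 1 one_pos).val.comp (Polynomial.aeval (⟨jFun, isWH_one_jFun⟩ : WH 1 one_pos)) := by
    rw [← Polynomial.aeval_algHom]
    rfl
  rw [e3]
  rfl

/-- **Transfer, single function.** A relation `p(j, F) = 0` over `ℂ[j]` for a weakly holomorphic
`1`-periodic function `F` gives the same relation for its `q`-expansion. -/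
theorem transfer_single (F : ℍ → ℂ) (hWH : IsWH 1 F) (p : Polynomial (Polynomial ℂ))
    (h : Polynomial.eval₂ (Polynomial.aeval jFun : Polynomial ℂ →ₐ[ℂ] (ℍ → ℂ)).toRingHom F p
      = 0) :
    Polynomial.eval₂ (Polynomial.aeval (Jser ℂ 1) : Polynomial ℂ →ₐ[ℂ] LaurentSeries ℂ).toRingHom
      (qLaurent 1 F) p = 0 := by
  set A := WH 1 one_pos with hA
  set jA : A := ⟨jFun, isWH_one_jFun⟩ with hjA
  set FA : A := ⟨F, hWH⟩ with hFA
  have h1 : Polynomial.eval₂ (Polynomial.aeval jA : Polynomial ℂ →ₐ[ℂ] A).toRingHom FA p = 0 := by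
    apply Subtype.val_injective
    have e1 := Polynomial.hom_eval₂ p (Polynomial.aeval jA : Polynomial ℂ →ₐ[ℂ] A).toRingHom
      A.val.toRingHom FA
    rw [val_comp_aeval_jFun] at e1
    have e4 : A.val.toRingHom FA = F := rfl
    rw [e4, h] at e1
    exact e1
  have e1 := Polynomial.hom_eval₂ p (Polynomial.aeval jA : Polynomial ℂ →ₐ[ℂ] A).toRingHom
    (qL 1 one_pos).toRingHom FA
  rw [h1, map_zero, qL_comp_aeval_jFun] at e1
  have e4 : (qL 1 one_pos).toRingHom FA = qLaurent 1 F := rfl
  rw [e4] at e1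
  exact e1.symm

/-- **Transfer, families.** A relation `p(j, P(F)) = 0` over `ℂ[j]` for a polynomial expression
`P(F)` in weakly holomorphic `1`-periodic functions `F i` gives the same relation for the same
polynomial expression in their `q`-expansions. -/
theorem transfer_family {ι : Type*} (F : ι → ℍ → ℂ) (S : ι → LaurentSeries ℂ)
    (hWH : ∀ i, IsWH 1 (F i)) (hq : ∀ i, qLaurent 1 (F i) = S i)
    (P : MvPolynomial ι ℂ) (p : Polynomial (Polynomial ℂ))
    (h : Polynomial.eval₂ (Polynomial.aeval jFun : Polynomial ℂ →ₐ[ℂ] (ℍ → ℂ)).toRingHom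
      (MvPolynomial.aeval F P) p = 0) :
    Polynomial.eval₂ (Polynomial.aeval (Jser ℂ 1) : Polynomial ℂ →ₐ[ℂ] LaurentSeries ℂ).toRingHom
      (MvPolynomial.aeval S P) p = 0 := by
  set A := WH 1 one_pos with hA
  set genA : ι → A := fun i => ⟨F i, hWH i⟩ with hgenA
  set θA : A := MvPolynomial.aeval genA P with hθA
  have hθ : IsWH 1 (MvPolynomial.aeval F P : ℍ → ℂ) := by
    have e4 : A.val θA = MvPolynomial.aeval F P := by
      rw [hθA, MvPolynomial.comp_aeval_apply]
      rfl
    rw [← e4]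
    exact θA.2
  have h2 := transfer_single (MvPolynomial.aeval F P) hθ p h
  have e5 : qLaurent 1 (MvPolynomial.aeval F P : ℍ → ℂ) = MvPolynomial.aeval S P := by
    have e4 : A.val θA = MvPolynomial.aeval F P := by
      rw [hθA, MvPolynomial.comp_aeval_apply]
      rfl
    have e6 : (qL 1 one_pos) θA = MvPolynomial.aeval S P := by
      rw [hθA, MvPolynomial.comp_aeval_apply]
      have e7 : (fun i => (qL 1 one_pos) (genA i)) = S :=
        funext fun i => by
          rw [qL_apply]
          exact hq i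
      rw [e7]
    rw [← e4, ← e6]
    rfl
  rwa [e5] at h2

/-- `transfer_single` with the ring homomorphisms written as coercions (the shape used by
`Fermat.Agent.S28.Newton`). -/
theorem transfer_single' (F : ℍ → ℂ) (hWH : IsWH 1 F) (p : Polynomial (Polynomial ℂ))
    (h : Polynomial.eval₂ ((Polynomial.aeval jFun : Polynomial ℂ →ₐ[ℂ] (ℍ → ℂ)) :
      Polynomial ℂ →+* (ℍ → ℂ)) F p = 0) :
    Polynomial.eval₂ ((Polynomial.aeval (Jser ℂ 1) : Polynomial ℂ →ₐ[ℂ] LaurentSeries ℂ) :
      Polynomial ℂ →+* LaurentSeries ℂ) (qLaurent 1 F) p = 0 :=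
  transfer_single F hWH p h

end Fermat.Agent.S28.Transfer
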