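/-
S28 / block (A): the norm polynomial of the eta-quotient unit `Ufun N` over `ℂ[j]`.

`exists_unit_poly N`: there is a monic `p ∈ ℂ[j][X]` of degree `ψ(N)` with
`deg_j (coeff_i p) ≤ (ψ(N) - i) φ(N)`, nonzero constant constant term, mapping to the norm
polynomial `NormGen.normPolyOf N (Ufun N)` and vanishing at `Ufun N`.
(`NormGen.exists_monic_poly_of_bounds` at `F = Ufun N`, with the bounds of `UnitGrowth`.)
-/
import Mathlib
import Fermat.Agent.S28.Unit
import Fermat.Agent.S28.UnitGrowth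
import Fermat.Agent.S28.NormGen
import Fermat.Agent.S24.CardX0

open UpperHalfPlane ModularForm ModularCurve
open scoped MatrixGroups Real Manifold

namespace Fermat.Agent.S28.UnitPoly

open Fermat.Agent.S24 Fermat.Agent.S28.NormGen

/-- The norm polynomial of the unit `Ufun N` over `ℂ[j]`, with its Newton-type degree bounds. -/
theorem exists_unit_poly (N : ℕ) [NeZero N] :
    ∃ p : Polynomial (Polynomial ℂ), p.Monic ∧ p.natDegree = dedekindPsi N ∧
      (∀ i, (p.coeff i).natDegree ≤ (dedekindPsi N - i) * N.totient) ∧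
      (∃ c : ℂ, c ≠ 0 ∧ p.coeff 0 = Polynomial.C c) ∧
      p.map (Polynomial.aeval jFun : Polynomial ℂ →ₐ[ℂ] (ℍ → ℂ)).toRingHom
        = normPolyOf N (Ufun N) ∧
      Polynomial.eval₂ (Polynomial.aeval jFun : Polynomial ℂ →ₐ[ℂ] (ℍ → ℂ)).toRingHom
        (Ufun N) p = 0 := by
  have hcard : Nat.card (X0 N) = dedekindPsi N := Fermat.Agent.S24.card_X0 N
  have h := exists_monic_poly_of_bounds N (Ufun N) (Ufun_mdiff N)
    (fun δ hδ z => Ufun_Gamma0_smul N hδ z) N.totient (N.totient * (dedekindPsi N - 1))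
    (by rw [hcard]) (UnitGrowth.Ufun_hgrow N) (UnitGrowth.Ufun_hdecay N) (Ufun_ne_zero N)
  rw [hcard] at h
  exact h

end Fermat.Agent.S28.UnitPoly
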